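import Fermat.Agent.JAC.PicMaps

/-!
# Homomorphisms out of a field generated by two copies of a field

For a square `α₂ β₁ = β₂ α₁` in which the top field is generated by the two images, of degree one
less over the side than the side over the bottom, every hom of the side but one extends.
-/

set_option autoImplicit false

noncomputable section

open AlgebraicCurve

namespace Fermat.CAR

section Amalgam

variable {K : Type*} [Field K] [CharZero K] [IsAlgClosed K]
variable {F0 F1 F2 : Type*} [Field F0] [Field F1] [Field F2]
  [Algebra K F0] [Algebra K F1] [Algebra K F2]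
  [FF.IsFunctionField K F0] [FF.IsFunctionField K F1] [FF.IsFunctionField K F2]

/-- **Extension of homs to an amalgam.** Every hom of the side over the bottom but one extends to
the field generated by the two copies, with the prescribed values on both. -/
theorem exists_hom_amalgam (α1 β1 : F0 →ₐ[K] F1) (α2 β2 : F1 →ₐ[K] F2)
    (hcomm : ∀ x, α2 (β1 x) = β2 (α1 x))
    (hgen : Subfield.closure (Set.range α2 ∪ Set.range β2) = ⊤)
    (W : F1 →+* F1) (hne : ∃ g, β2 g ≠ α2 (W g))
    {C : Type*} [Field C] (φ : F1 →+* C) {I : Type*} [Fintype I] (σ : I → (F1 →+* C))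
    (hσ : ∀ i x, σ i (α1 x) = φ (β1 x)) (hinj : Function.Injective σ)
    (hcard : Fintype.card I = finrankAlong K α1)
    (hdeg : finrankAlong K α2 + 1 = finrankAlong K α1)
    {i0 : I} (hi0 : σ i0 = φ.comp W) {i : I} (hi : i ≠ i0) :
    ∃ e : F2 →+* C, (∀ g, e (α2 g) = φ g) ∧ ∀ g, e (β2 g) = σ i g := by
  classical
  let Ω := AlgebraicClosure C
  let j : C →+* Ω := algebraMap C Ω
  -- all homs of the side over the bottom
  have hside : ∀ ψ : F1 →+* Ω, (∀ x, ψ (α1 x) = j (φ (β1 x))) → ∃ k, ψ = j.comp (σ k) := by
    intro ψ hψ
    let := algebraAlong α1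
    have := isScalarTower_along α1
    have : Module.Finite F0 F1 := FF.finiteAlong α1
    let : Algebra F0 Ω := ((j.comp φ).comp β1.toRingHom).toAlgebra
    have : CharZero F0 := charZero_of_injective_algebraMap (algebraMap K F0).injective
    let em : I → (F1 →ₐ[F0] Ω) := fun k =>
      { j.comp (σ k) with commutes' := fun c => congrArg j (hσ k c) }
    have hem : Function.Injective em := fun k l h => hinj <| RingHom.ext fun x =>
      j.injective (DFunLike.congr_fun h x)
    have hbij : Function.Bijective em := by
      rw [Fintype.bijective_iff_injective_and_card]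
      refine ⟨hem, ?_⟩
      rw [AlgHom.card F0 F1 Ω, hcard]
      rfl
    obtain ⟨k, hk⟩ := hbij.2 { ψ with commutes' := hψ }
    exact ⟨k, RingHom.ext fun x => (DFunLike.congr_fun hk x).symm⟩
  -- the homs of the top over the side, counted
  let := algebraAlong α2
  have := isScalarTower_along α2
  have : Module.Finite F1 F2 := FF.finiteAlong α2
  let : Algebra F1 Ω := (j.comp φ).toAlgebra
  have : CharZero F1 := charZero_of_injective_algebraMap (algebraMap K F1).injective
  have hres : ∀ e : F2 →ₐ[F1] Ω, ∃ k : {k : I // k ≠ i0},
      e.toRingHom.comp β2.toRingHom = j.comp (σ k) := by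
    intro e
    obtain ⟨k, hk⟩ := hside (e.toRingHom.comp β2.toRingHom) fun x => by
      change e (β2 (α1 x)) = _
      rw [← hcomm]
      exact e.commutes (β1 x)
    refine ⟨⟨k, fun he => ?_⟩, hk⟩
    obtain ⟨g, hg⟩ := hne
    refine hg (e.toRingHom.injective ?_)
    have h1 : e (β2 g) = j (φ (W g)) := by
      have := DFunLike.congr_fun hk g
      rw [he, hi0] at this
      exact this
    exact h1.trans (e.commutes (W g)).symm
  choose r hr using hres
  have hr_inj : Function.Injective r := fun e e' h => by
    have h1 : e.toRingHom = e'.toRingHom :=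
        RingHom.eq_of_eqOn_of_field_closure_eq_top hgen fun x hx => by
      rcases hx with ⟨g, rfl⟩ | ⟨g, rfl⟩
      · exact (e.commutes g).trans (e'.commutes g).symm
      · exact (DFunLike.congr_fun (hr e) g).trans (h ▸ (DFunLike.congr_fun (hr e') g).symm)
    exact AlgHom.ext fun x => DFunLike.congr_fun h1 x
  have hr_bij : Function.Bijective r := by
    rw [Fintype.bijective_iff_injective_and_card]
    refine ⟨hr_inj, ?_⟩
    rw [AlgHom.card F1 F2 Ω, Fintype.card_subtype_compl, Fintype.card_subtype_eq, hcard, ← hdeg,
      Nat.add_sub_cancel]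
    rfl
  obtain ⟨e, he⟩ := hr_bij.2 ⟨i, hi⟩
  have heβ : ∀ g, e (β2 g) = j (σ i g) := fun g => by
    have := DFunLike.congr_fun (hr e) g
    rw [he] at this
    exact this
  -- the values lie in `C`
  have hval : ∀ x, e x ∈ j.fieldRange := by
    intro x
    have hle : Subfield.closure (Set.range α2 ∪ Set.range β2) ≤
        j.fieldRange.comap e.toRingHom := Subfield.closure_le.mpr (by
      rintro z (⟨g, rfl⟩ | ⟨g, rfl⟩)
      · exact ⟨φ g, (e.commutes g).symm⟩
      · exact ⟨σ i g, (heβ g).symm⟩)
    rw [hgen] at hle
    exact hle (Subfield.mem_top x)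
  choose v hv using hval
  refine ⟨{ toFun := v
            map_one' := j.injective (by rw [hv, _root_.map_one, _root_.map_one])
            map_mul' := fun x y => j.injective (by rw [hv, _root_.map_mul, _root_.map_mul, hv, hv])
            map_zero' := j.injective (by rw [hv, _root_.map_zero, _root_.map_zero])
            map_add' := fun x y =>
              j.injective (by rw [hv, _root_.map_add, _root_.map_add, hv, hv]) },
    fun g => j.injective ((hv _).trans (e.commutes g)), fun g => j.injective ((hv _).trans (heβ g))⟩

end Amalgam

end Fermat.CAR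

end
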