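import Fermat.Agent.CAR.PtFinite

/-!
# The ordinary finite points of the middle branches

`(q - 1) * gv` is an integer on the middle branches.  At a finite ordinary point `phiMid` is an
indicator and `t = g (third) - g (first)` generates the branch, `g` lifting a uniformiser, as
`t ^ (q - 1) / q` reduces to a multiple of `(θ z) ^ (q - 1)`, a unit there.
-/

set_option autoImplicit false
set_option linter.unusedSectionVars false

noncomputable section

open ModularCurve AlgebraicCurve

namespace Fermat.CAR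

attribute [local instance 10000] algFN smulFN algFX smulFX

open Fermat.FF Fermat.MC Fermat.RED Fermat.RED.Model Fermat.BAD.X0 Fermat.EC.Val

local notation "Qb" => AlgebraicClosure ℚ

variable {M q : ℕ} [NeZero M] [NeZero q] {A : ValuationSubring (AlgebraicClosure ℚ)}

variable (M q) in
/-- The pullback of a function of level `M` at the third curve. -/
def bM : FN M Qb →ₐ[Qb] FN (M * q * q) Qb :=
  (heckeBetaBar Qb (M * q) q).comp (heckeBetaBar Qb M q)

/-- `bM` raises the variable to the power `q²`. -/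
theorem coe_bM (g : FN M Qb) :
    ((bM M q g : FN (M * q * q) Qb) : LaurentSeries Qb) =
      qExpand Qb q (qExpand Qb q (g : LaurentSeries Qb)) :=
  Eq.trans (b := qExpand Qb q ((heckeBetaBar Qb M q g : FN (M * q) Qb) : LaurentSeries Qb))
    (coe_heckeBetaBar (M * q) q (heckeBetaBar Qb M q g))
    (congrArg (qExpand Qb q) (coe_heckeBetaBar M q g))

/-- `bM` of an invariant function is invariant. -/
theorem bM_mem_ratFld {g : FN M Qb} (hg : InertiaFixed A (g : LaurentSeries Qb)) :
    bM M q g ∈ ratFld M q A := fun σ hσ => by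
  rw [coe_bM, ModularCurve.coeffMap_qExpand, ModularCurve.coeffMap_qExpand, hg σ hσ]

variable (hq : q.Prime) (hqM : ¬ q ∣ M)
variable [Fact q.Prime] [IsAlgClosed (IsLocalRing.ResidueField A)]
variable [CharP (IsLocalRing.ResidueField A) q]
variable [FF.IsFunctionField Qb (FN M Qb)] [FF.IsFunctionField Qb (FN (M * q) Qb)]
  [FF.IsFunctionField Qb (FN (M * q * q) Qb)]

local notation "kA" => IsLocalRing.ResidueField A

/-- On the middle branch `bM` gives a twisted expansion. -/
theorem brC_mid_bM (g : FN M Qb) :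
    brC M q hq hqM .mid (bM M q g) =
      twist (zpw q (zetaQ q) (1 : Fin q)) (g : LaurentSeries Qb) := by
  rw [brC_mid]
  refine Eq.trans (br11_beta M q hq hqM (one_ne_zero_fin q hq) (heckeBetaBar Qb M q g)) ?_
  rw [emb_false_beta]

include hq hqM in
/-- `bM` preserves integrality over `j`. -/
theorem bM_mem_intClosure {g : FN M Qb} (hg : g ∈ intClosure Qb (jL M Qb)) :
    bM M q g ∈ intClosure Qb (aM M q (xch M true)) :=
  beta_mem_intClosure_qq hq hqM (mem_intClosure_trans (bj_mem_intClosure M q hq hqM)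
    (map_mem_intClosure (heckeBetaBar Qb M q) hg))

variable (h : IsPlace A q)
variable [FF.IsFunctionField (IsLocalRing.ResidueField A) (FX (IsLocalRing.ResidueField A) M)]

include hq hqM h

/-- `(q - 1)` times the order on the middle branches is an integer. -/
theorem exists_int_gv_mid {f : FN (M * q * q) Qb} (hf : f ≠ 0) (hr : f ∈ ratFld M q A) :
    ∃ k : ℤ, ((q - 1 : ℕ) : ℚ) * gv M q hq hqM A .mid f = k := by
  classical
  obtain ⟨P, Q, hPr, hQr, hP, hQ, hQ0, e⟩ := exists_poly_fixed M q hr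
  have hP0 : P ≠ 0 := e ▸ mul_ne_zero hf hQ0
  -- for a polynomial: the leading coefficients on the middle branches are conjugate
  have hint : ∀ {R : FN (M * q * q) Qb}, R ≠ 0 → R ∈ ratFld M q A → R ∈ polyAlg (M * q) q →
      ∃ k : ℤ, ((q - 1 : ℕ) : ℚ) * gv M q hq hqM A .mid R = k := fun {R} hR0 hRr hR => by
    obtain ⟨n, hn, hG⟩ := (tame_brC_poly M q hq hqM .mid hR).exists_coeff h
      ((map_ne_zero _).mpr hR0)
    have hgv := gv_eq M q hq hqM h hG
    have h10 := one_ne_zero_fin q hq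
    set c : {i : Fin q // i ≠ 0} → Qb := fun i => (br11 M q hq hqM i.2 R).coeff n
    have hconj : ∀ i, ∃ σ ∈ A.inertiaSubgroupIn ℚ, σ (c ⟨1, h10⟩) = c i := fun i => by
      obtain ⟨σ, hσ, he⟩ := exists_inertia_zpw q h.2 h10 i.2
      refine ⟨σ, hσ, ?_⟩
      have h1 := coeffMap_br11 M q hq hqM h10 i.2 he R
      rw [mem_ratFld_iff.mp hRr σ hσ] at h1
      change (σ : Qb →+* Qb) _ = _
      rw [← coeffMap_coeff, h1]
    have hord : ∀ i, c i ≠ 0 ∧ ord A q (c i) = gv M q hq hqM A .mid R := fun i => by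
      obtain ⟨σ, hσ, he⟩ := hconj i
      have h1 : c ⟨1, h10⟩ ≠ 0 := hn
      refine ⟨he ▸ (map_ne_zero σ).mpr h1, ?_⟩
      rw [← he, (isInert_of_mem_inertia hσ).ord_apply h, hgv]
      rfl
    -- their product is fixed, so its order is an integer
    have hfix : ∏ i, c i ∈ fixK A := mem_fixK.mpr fun τ hτ => by
      rw [map_prod]
      have hperm : ∀ i : {i : Fin q // i ≠ 0}, ∃ k : {i : Fin q // i ≠ 0},
          τ ((zpw q (zetaQ q) i.1 : Qbˣ) : Qb) = ((zpw q (zetaQ q) k.1 : Qbˣ) : Qb) := fun i => by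
        obtain ⟨m, hm, hm'⟩ := (zetaQ_spec q).eq_pow_of_pow_eq_one
          (ξ := τ ((zpw q (zetaQ q) i.1 : Qbˣ) : Qb)) (by
            rw [← map_pow, ← Units.val_pow_eq_pow_val, zpw_pow, Units.val_one, map_one])
        refine ⟨⟨⟨m, hm⟩, fun h0 => ?_⟩, by rw [← hm', zpw, Units.val_pow_eq_pow_val]⟩
        have hm0 : m = 0 := by simpa using congrArg Fin.val h0
        rw [hm0, pow_zero] at hm'
        have h1 : ((zpw q (zetaQ q) i.1 : Qbˣ) : Qb) = 1 := τ.injective (by rw [← hm', map_one])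
        rw [zpw, Units.val_pow_eq_pow_val, (zetaQ_spec q).pow_eq_one_iff_dvd] at h1
        exact i.2 (Fin.ext (by rw [Fin.val_zero]; exact Nat.eq_zero_of_dvd_of_lt h1 i.1.2))
      choose k hk using hperm
      have hc : ∀ i, τ (c i) = c (k i) := fun i => by
        have h1 := coeffMap_br11 M q hq hqM i.2 (k i).2 (hk i) R
        rw [mem_ratFld_iff.mp hRr τ hτ] at h1
        change (τ : Qb →+* Qb) _ = _
        rw [← coeffMap_coeff, h1]
      have hinj : Function.Injective k := fun i i' e' => by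
        have h1 := hk i
        rw [e', ← hk i'] at h1
        have h2 := τ.injective h1
        rw [zpw, zpw, Units.val_pow_eq_pow_val, Units.val_pow_eq_pow_val] at h2
        exact Subtype.ext (Fin.ext ((zetaQ_spec q).pow_inj i.1.2 i'.1.2 h2))
      exact Fintype.prod_bijective k (Finite.injective_iff_bijective.mp hinj) _ _ hc
    obtain ⟨K, hK⟩ := exists_int_ord_fixK h (Finset.prod_ne_zero_iff.mpr fun i _ => (hord i).1) hfix
    refine ⟨K, ?_⟩
    rw [← hK]
    have hsum : ∀ s : Finset {i : Fin q // i ≠ 0},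
        ord A q (∏ i ∈ s, c i) = (s.card : ℚ) * gv M q hq hqM A .mid R := fun s => by
      induction s using Finset.induction_on with
      | empty => simp [h]
      | insert a s ha ih =>
        rw [Finset.prod_insert ha, Finset.card_insert_of_notMem ha,
          ord_mul h (hord a).1 (Finset.prod_ne_zero_iff.mpr fun i _ => (hord i).1), ih, (hord a).2]
        push_cast
        ring
    rw [hsum, Finset.card_univ, Fintype.card_subtype_compl, Fintype.card_subtype_eq,
      Fintype.card_fin]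
  -- then for a quotient of two polynomials
  obtain ⟨a, ha⟩ := hint hP0 hPr hP
  obtain ⟨c, hc⟩ := hint hQ0 hQr hQ
  refine ⟨a - c, ?_⟩
  rw [← e, gv_mul M q hq hqM h .mid hf hQ0, mul_add, hc] at ha
  push_cast
  linarith

/-- `phiMid` reduces to the square of `hbar` on the middle branches. -/
theorem resC_phiMid (hm : phiMid M q hq hqM ∈ OC M q hq hqM A .mid) :
    resC M q hq hqM A .mid ⟨phiMid M q hq hqM, hm⟩ =
      ((hbar M q hq hqM h.2 * hbar M q hq hqM h.2 : FX kA M) : LaurentSeries kA) := by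
  rw [resC_apply, MulMemClass.coe_mul, coe_hbar]
  have hg : coeffMap A.subtype (hSer A q) ∈ gS A := coeffMap_mem_gS _
  have hc := redCompat_twist (A := A) (q := q) (zpw_pow q (1 : Fin q))
  have e : brC M q hq hqM .mid (phiMid M q hq hqM) =
      coeffMap A.subtype (hSer A q) *
        twist (zpw q (zetaQ q) (1 : Fin q)) (coeffMap A.subtype (hSer A q)) := by
    rw [brC_mid, phiMid, map_mul, br11_alpha, br11_beta, ← emb_true M q hq hqM, emb_wn,
      Bool.not_true, emb_false_un, ← coeffMap_subtype_hSer (A := A) q]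
  refine (congrArg (sR A) (Subtype.ext (a2 := ⟨_, hg⟩ * ⟨_, hc.map_mem hg⟩) e)).trans ?_
  rw [map_mul, hc.sR_map hg, sR_coeffMap, coeffMap_residue_hSer, RingHom.id_apply]

/-- A character at an ordinary finite point of the middle branches. -/
private theorem exists_char_mid {s : Place kA (FX kA M)} (hs' : OrdGE s (xbar M kA true) 0)
    (hss : s ∉ SS M q hq hqM h.2) :
    ∃ χ : BChar M q A true, χ.IsPoint hq hqM {Br.mid} s ∧
      ∀ f, χ.res f = evalAt s (redB hq hqM h .mid f) := by
  obtain ⟨χ, hres⟩ : ∃ χ : BChar M q A true, ∀ f, χ.res f = evalAt s (redB hq hqM h .mid f) :=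
    ⟨ptChar true hq hqM h .mid s hs', fun f => ptChar_res hq hqM h .mid s hs' f⟩
  obtain ⟨g0, g1, g2⟩ := gv_phiMid M q hq hqM h
  have hne' := phiMid_ne_zero M q hq hqM h
  have hOC : phiMid M q hq hqM ∈ OC M q hq hqM A .mid :=
    (brC_mem_iff M q hq hqM h .mid hne').mpr g1.ge
  obtain ⟨hh, hh0⟩ := evalAt_hbar_ne_zero hq hqM h (show OrdGE s (jX kA M) 0 from hs') hss
  have hpt : χ.IsPoint hq hqM {Br.mid} s := isPoint_of_indicator hq hqM h χ .mid s hs' hres
    (phiMid_mem_ratFld M q hq hqM)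
    (fun P hP => χ.ordGE_of_intClosure (mul_mem
      (alpha_mem_intClosure_qq (wn_mem_intClosure M q hq hqM))
      (beta_mem_intClosure_qq hq hqM (un_mem_intClosure M q hq hqM))) hP)
    (fun D => by cases D <;> simp [g0, g1, g2])
    (fun D hD => by cases D <;> simp_all)
    hOC (resC_phiMid hq hqM h hOC).symm ((hh.mul hh).mono (add_zero (0 : ℤ)).ge)
    (by rw [evalAt_mul hh hh]; exact mul_ne_zero hh0 hh0)
  exact ⟨χ, hpt, hres⟩

/-- The difference of the two pullbacks of a lift of `z` on the middle branches. -/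
private theorem exists_lift_diff {z : FX kA M} (hz : z ∈ intClosure kA (xbar M kA true)) :
    ∃ t ∈ ratFld M q A, t ∈ intClosure Qb (aM M q (xch M true)) ∧ ∃ y : LaurentSeries A,
      brC M q hq hqM .mid t =
        algebraMap Qb (LaurentSeries Qb) ((zetaQ q : Qb) - 1) * coeffMap A.subtype y ∧
      coeffMap (IsLocalRing.residue A) y = thetaS (z : LaurentSeries kA) := by
  obtain ⟨g, hg, y, hy, hzy⟩ := exists_rat_lift hq hqM h true z hz
  have hgI : g ∈ intClosure Qb (jL M Qb) := by
    refine mem_intClosure_iff_elem.mpr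
      ((RingHom.IsIntegralElem.map_iff (aM M q).toRingHom.injective).mp ?_)
    have h1 := mem_intClosure_iff_elem.mp (mem_intClosure_of_chart hg.2)
    rwa [show (aM M q).toRingHom.comp
        (Polynomial.aeval (jL M Qb) : Polynomial Qb →ₐ[Qb] FN M Qb).toRingHom =
      (Polynomial.aeval (aM M q (xch M true)) : Polynomial Qb →ₐ[Qb] FN
        (M * q * q) Qb).toRingHom from
      RingHom.ext fun p => (Polynomial.aeval_algHom_apply (aM M q) (jL M Qb) p).symm]
  have hgfix : InertiaFixed A (g : LaurentSeries Qb) := fun σ hσ => by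
    have := hg.1 σ hσ
    rwa [coe_aM] at this
  obtain ⟨y', hy', hy'r⟩ := exists_twist_sub (A := A) (zetaQ_spec q) y ((1 : Fin q) : ℕ)
  refine ⟨bM M q g - aM M q g, sub_mem (bM_mem_ratFld hgfix) hg.1,
    sub_mem (bM_mem_intClosure hq hqM hgI) (mem_intClosure_of_chart hg.2), y', ?_, ?_⟩
  · rw [map_sub, brC_mid_bM, brC_mid_aM, hy, ← hy']
  · rw [hy'r, hzy, show ((((1 : Fin q) : ℕ)) : kA) = 1 by
      rw [show ((1 : Fin q) : ℕ) = 1 from Nat.one_mod_eq_one.mpr hq.ne_one, Nat.cast_one],
      one_smul]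

omit hqM in
/-- `(ζ - 1) ^ (q - 1) / q` is a unit. -/
private theorem is_zeta_pow_div :
    Is A q (((zetaQ q : Qb) - 1) ^ (q - 1) / (q : Qb)) 0 := by
  have hzeta : Is A q ((zetaQ q : Qb) - 1) (1 / ((q : ℚ) - 1)) :=
    Fermat.EC.Cyclo.is_zeta_sub_one h (zetaQ_spec q)
  have hm : ((q - 1 : ℕ) : ℚ) = (q : ℚ) - 1 := by rw [Nat.cast_sub hq.one_le, Nat.cast_one]
  have hmpos : (0 : ℚ) < (q : ℚ) - 1 := by rw [sub_pos]; exact_mod_cast hq.one_lt
  have hq0' : (q : Qb) ≠ 0 := Nat.cast_ne_zero.mpr hq.ne_zero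
  refine ⟨div_ne_zero (pow_ne_zero _ hzeta.1) hq0', ?_⟩
  rw [div_eq_mul_inv, ord_mul h (pow_ne_zero _ hzeta.1) (inv_ne_zero hq0'), ord_pow h, ord_inv h,
    ord_q h, hzeta.2, hm]
  field_simp
  ring

/-- The unit `t ^ (q - 1) / q` and its nonzero value at the point. -/
private theorem lres_tpow_ne_zero (hne : NoElliptic M) {s : Place kA (FX kA M)}
    (hs : OrdGE s (jX kA M) 0) (hss : s ∉ SS M q hq hqM h.2) {χ : BChar M q A true}
    (hpt : χ.IsPoint hq hqM {Br.mid} s) {z : FX kA M} (hzo : s.ord z = 1)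
    {t : FN (M * q * q) Qb} (htr : t ∈ ratFld M q A)
    (htI : t ∈ intClosure Qb (aM M q (xch M true))) {y : LaurentSeries A}
    (hbt : brC M q hq hqM .mid t =
      algebraMap Qb (LaurentSeries Qb) ((zetaQ q : Qb) - 1) * coeffMap A.subtype y)
    (hy : coeffMap (IsLocalRing.residue A) y = thetaS (z : LaurentSeries kA)) :
    ∃ hul : t ^ (q - 1) / (q : FN (M * q * q) Qb) ∈ χ.loc, χ.lres ⟨_, hul⟩ ≠ 0 ∧
      gv M q hq hqM A .mid (t ^ (q - 1) / (q : FN (M * q * q) Qb)) = 0 := by
  set m := q - 1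
  -- `u = t ^ (q - 1) / q` reduces to a unit times a power of `θ z`
  have hc := is_zeta_pow_div hq h
  set c : Qb := ((zetaQ q : Qb) - 1) ^ m / (q : Qb)
  have hcA : c ∈ A := (mem_iff_ge h c).mpr hc.ge
  set u : FN (M * q * q) Qb := t ^ m / (q : FN (M * q * q) Qb)
  have hu : brC M q hq hqM .mid u =
      coeffMap A.subtype (HahnSeries.C (⟨c, hcA⟩ : A) * y ^ m) := by
    rw [map_div₀, map_pow, hbt, map_natCast, map_mul, map_pow, HahnSeries.C_apply, coeffMap_single,
      ← algebraMap_laurentSeries_eq_single, show A.subtype (⟨c, hcA⟩ : A) = c from rfl,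
      show c = ((zetaQ q : Qb) - 1) ^ m / (q : Qb) from rfl, map_div₀, map_pow,
      map_natCast, mul_pow,
      mul_div_right_comm]
  have huOC : u ∈ OC M q hq hqM A .mid := by
    rw [mem_OC, hu]; exact coeffMap_mem_gS _
  have hqnat : (q : FN (M * q * q) Qb) ∈ ratFld M q A := natCast_mem _ q
  have hur : u ∈ ratFld M q A := div_mem (pow_mem htr m) hqnat
  have huT : ∀ P ∈ χ.tube, OrdGE P u 0 := fun P hP => by
    change OrdGE P (t ^ m / (q : FN (M * q * q) Qb)) 0
    rw [div_eq_mul_inv, ← map_natCast (algebraMap Qb (FN (M * q * q) Qb)), ← map_inv₀]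
    exact (χ.ordGE_of_intClosure (pow_mem htI m) hP |>.mul (FF.ordGE_algebraMap P _)).mono
      (add_zero (0 : ℤ)).ge
  have hul : u ∈ χ.loc := BChar.mem_loc_of hq hqM h hpt hur huT fun C hC => by
    obtain rfl := Finset.mem_singleton.mp hC; exact huOC
  obtain ⟨zu, hzu, hzus, hzuv⟩ := BChar.exists_red hq hqM h hpt (Finset.mem_singleton_self Br.mid)
    ⟨u, hul⟩
  set cb := IsLocalRing.residue A ⟨c, hcA⟩
  have hcb : cb ≠ 0 := fun h0 => hc.not_gt ((nonunit_iff_gt h c).mp
    ((ValuationSubring.coe_mem_nonunits_iff (a := (⟨c, hcA⟩ : A))).mpr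
      ((IsLocalRing.residue_eq_zero_iff _).mp h0)))
  have hzu' : (zu : LaurentSeries kA) =
      algebraMap kA (LaurentSeries kA) cb * thetaS (z : LaurentSeries kA) ^ m := by
    rw [hzu, resC_apply]
    refine (congrArg (sR A) (Subtype.ext (a2 := ⟨_, coeffMap_mem_gS _⟩) hu)).trans ?_
    rw [sR_coeffMap, map_mul, map_pow, hy, HahnSeries.C_apply, coeffMap_single,
      ← algebraMap_laurentSeries_eq_single]
  -- which has order zero at an ordinary point
  obtain ⟨hw0, hword⟩ := ord_theta_of_ordGE M q hq hqM h.2 hne hs hss (x := z) (a := 0)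
    (w := algebraMap kA (FX kA M) cb⁻¹ * zu) (by rwa [map_zero, sub_zero]) (by
      rw [MulMemClass.coe_mul, hzu',
        show ((algebraMap kA (FX kA M) cb⁻¹ : FX kA M) : LaurentSeries kA) =
        algebraMap kA (LaurentSeries kA) cb⁻¹ from rfl, ← mul_assoc, ← map_mul, inv_mul_cancel₀ hcb,
        map_one, one_mul])
    (((FF.ordGE_algebraMap s _).mul hzus).mono (add_zero (0 : ℤ)).ge)
  have hzune : zu ≠ 0 := right_ne_zero_of_mul hw0
  have hures : χ.lres ⟨u, hul⟩ ≠ 0 := fun h0 => by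
    rw [← hzuv] at h0
    have h1 := ((evalAt_eq_zero_iff hzus).mp h0).le_ord hzune
    rw [s.ord_mul ((_root_.map_ne_zero _).mpr (inv_ne_zero hcb)) hzune, ord_algebraMap, zero_add]
      at hword
    omega
  have hune : u ≠ 0 := fun h0 => hures (by
    rw [show (⟨u, hul⟩ : χ.loc) = 0 from Subtype.ext h0, map_zero])
  exact ⟨hul, hures, (prim_iff M q hq hqM h .mid hune).mp ⟨huOC, fun h0 =>
    hzune (Subtype.ext (hzu.trans h0))⟩⟩

/-- Functions vanishing on the middle branch are divisible by the generator. -/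
theorem div_generator_mem_loc {b : Bool} {s : Place kA (FX kA M)} {χ : BChar M q A b}
    (hpt : χ.IsPoint hq hqM {Br.mid} s) {t : FN (M * q * q) Qb} (htr : t ∈ ratFld M q A)
    (htne : t ≠ 0) (hgt : ((q - 1 : ℕ) : ℚ) * gv M q hq hqM A .mid t = 1)
    (hul : t ^ (q - 1) / (q : FN (M * q * q) Qb) ∈ χ.loc) (hures : χ.lres ⟨_, hul⟩ ≠ 0)
    {f : χ.loc} (hf : (f : FN (M * q * q) Qb) ≠ 0)
    (hpos : 0 < gv M q hq hqM A .mid (f : FN (M * q * q) Qb)) :
    (f : FN (M * q * q) Qb) / t ∈ χ.loc := by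
  set m := q - 1
  set u : FN (M * q * q) Qb := t ^ m / (q : FN (M * q * q) Qb)
  have hm0 : m ≠ 0 := fun h0 => by
    rw [h0, Nat.cast_zero, zero_mul] at hgt; exact one_ne_zero hgt.symm
  have hmpos : (0 : ℚ) < m := by exact_mod_cast Nat.pos_of_ne_zero hm0
  have hq0 : (q : FN (M * q * q) Qb) ≠ 0 := by
    rw [← map_natCast (algebraMap Qb (FN (M * q * q) Qb)), _root_.map_ne_zero]
    exact Nat.cast_ne_zero.mpr hq.ne_zero
  have hune : u ≠ 0 := div_ne_zero (pow_ne_zero m htne) hq0
  refine BChar.mem_loc_of hq hqM h hpt (div_mem (χ.loc_le_ratFld f.2) htr) (fun P hP => ?_)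
    fun C hC => ?_
  -- at the places of the point `t` has order zero
  · obtain ⟨hur', hum, hue⟩ := χ.regular_of_mem_loc (f := ⟨u, hul⟩) hP
    have hev : evalAt P u ≠ 0 := fun h0 => hures (by
      rw [← hue, show (⟨_, hum⟩ : A) = 0 from Subtype.ext h0, map_zero])
    have hordu : P.ord u = 0 := le_antisymm
      (not_lt.mp fun hlt => hev ((evalAt_eq_zero_iff hur').mpr (ordGE_iff.mpr (.inr hlt))))
      (hur'.le_ord hune)
    have hordt : P.ord t = 0 := by
      have h1 := P.ord_mul (div_ne_zero (pow_ne_zero m htne) hq0) hq0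
      rw [div_mul_cancel₀ _ hq0, FF.ord_pow,
        show t ^ m / (q : FN (M * q * q) Qb) = u from rfl, hordu,
        ← map_natCast (algebraMap Qb (FN (M * q * q) Qb)), ord_algebraMap, add_zero, mul_eq_zero,
        Nat.cast_eq_zero] at h1
      exact h1.resolve_left hm0
    refine ordGE_iff.mpr (.inr ?_)
    have h1 := P.ord_mul (div_ne_zero hf htne) htne
    rw [div_mul_cancel₀ _ htne, hordt, add_zero] at h1
    rw [← h1]
    exact ((χ.regular_of_mem_loc (f := f) hP).1).le_ord hf
  -- on the branch the valuation of `f` is at least that of `t`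
  · obtain rfl := Finset.mem_singleton.mp hC
    rw [mem_OC, brC_mem_iff M q hq hqM h .mid (div_ne_zero hf htne), div_eq_mul_inv,
      gv_mul M q hq hqM h .mid hf (inv_ne_zero htne), gv_inv M q hq hqM h .mid htne]
    obtain ⟨k, hk⟩ := exists_int_gv_mid hq hqM h hf (χ.loc_le_ratFld f.2)
    have h1 : (1 : ℤ) ≤ k := by
      have h0 : (0 : ℚ) < (k : ℚ) := hk ▸ mul_pos hmpos hpos
      exact_mod_cast h0
    have h2 : (1 : ℚ) ≤ (k : ℚ) := by exact_mod_cast h1
    nlinarith

/-- **Finite ordinary points of the middle branches.** -/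
theorem exists_point_mid (hne : NoElliptic M) {s : Place kA (FX kA M)}
    (hs : OrdGE s (jX kA M) 0) (hss : s ∉ SS M q hq hqM h.2) :
    ∃ χ : BChar M q A true, χ.IsPoint hq hqM {Br.mid} s ∧ χ.HasParam hq hqM {Br.mid} := by
  have hs' : OrdGE s (xbar M kA true) 0 := hs
  obtain ⟨χ, hpt, hres⟩ := exists_char_mid hq hqM h hs' hss
  -- the function `t`
  obtain ⟨z, hz0, hz, hzo⟩ := exists_intClosure_ord_one (transcendental_xbar (M := M) true) hs'
  obtain ⟨t, htr, htI, y, hbt, hy⟩ := exists_lift_diff hq hqM h hz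
  obtain ⟨hul, hures, hgu⟩ := lres_tpow_ne_zero hq hqM h hne hs hss hpt hzo htr htI hbt hy
  set m := q - 1
  have hmpos : (0 : ℚ) < m := by exact_mod_cast Nat.sub_pos_of_lt hq.one_lt
  have hm0 : m ≠ 0 := fun h0 => by rw [h0, Nat.cast_zero] at hmpos; exact lt_irrefl _ hmpos
  have hq0 : (q : FN (M * q * q) Qb) ≠ 0 := by
    rw [← map_natCast (algebraMap Qb (FN (M * q * q) Qb)), _root_.map_ne_zero]
    exact Nat.cast_ne_zero.mpr hq.ne_zero
  have htne : t ≠ 0 := fun h0 => hures (by
    rw [show (⟨_, hul⟩ : χ.loc) = 0 from Subtype.ext (by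
      change t ^ m / (q : FN (M * q * q) Qb) = 0
      rw [h0, zero_pow hm0, zero_div]), map_zero])
  have hgt : (m : ℚ) * gv M q hq hqM A .mid t = 1 := by
    rw [div_eq_mul_inv, gv_mul M q hq hqM h .mid (pow_ne_zero m htne) (inv_ne_zero hq0),
      gv_pow M q hq hqM h .mid htne, gv_inv M q hq hqM h .mid hq0,
      gv_natCast_q M q hq hqM h .mid] at hgu
    linarith
  have htpos : 0 < gv M q hq hqM A .mid t :=
    (mul_pos_iff_of_pos_left hmpos).mp (hgt.symm ▸ one_pos)
  have htl : t ∈ χ.loc := BChar.mem_loc_of hq hqM h hpt htr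
    (fun P hP => χ.ordGE_of_intClosure htI hP) fun C hC => by
      obtain rfl := Finset.mem_singleton.mp hC
      exact (brC_mem_iff M q hq hqM h .mid htne).mpr htpos.le
  exact ⟨χ, hpt, hasParam_of_generator hq hqM h χ .mid (by simp) hs' hres hpt ⟨t, htl⟩ htne htpos
    fun f hf hpos => div_generator_mem_loc hq hqM h hpt htr htne hgt hul hures hf hpos⟩

end Fermat.CAR

end
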