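import Fermat.Agent.BAD.X0.TorsionAux

/-!
# Classes at level `q² M` fixed by inertia at `q` and killed by both pushforwards

`CoreStatement M q` is the geometric input for the local behaviour at `q` of the representations
attached to newforms whose level is divisible by `q` exactly twice: a divisor class of
`X₀(M q q)` with a multiple cut out by a function rational over the inertia field at `q`, whose two
norms to level `M q` are powers, is killed by a fixed integer.
-/

set_option autoImplicit false

noncomputable section

open ModularCurve AlgebraicCurve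

namespace Fermat.CAR

open Fermat.MC Fermat.FF Fermat.JAC

local notation "Qb" => AlgebraicClosure ℚ

/-- The series has all its coefficients fixed by the inertia group of `A`. -/
def InertiaFixed (A : ValuationSubring (AlgebraicClosure ℚ))
    (z : LaurentSeries (AlgebraicClosure ℚ)) :
    Prop :=
  ∀ σ ∈ A.inertiaSubgroupIn ℚ, coeffMap (σ : Qb →+* Qb) z = z

/-- A fixed integer kills every class of level `M q²` of which some multiple `n`, a prime power
prime to `q`, is cut out by a function fixed by inertia at `q` whose two norms to level `M q` are
`n`-th powers up to constants. -/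
def CoreStatement (M q : ℕ) [NeZero M] [NeZero q] : Prop :=
  ∃ d : ℕ, d ≠ 0 ∧
    ∀ A : ValuationSubring Qb, A.LiesOverPrime q →
    ∀ n : ℕ, IsPrimePow n → n.Coprime q →
    ∀ (D : Divisor Qb (FN (M * q * q) Qb)) (y : FN (M * q * q) Qb), y ≠ 0 →
      InertiaFixed A (y : LaurentSeries Qb) →
      divOf Qb y = n • D →
      (∃ (c : Qb) (g : FN (M * q) Qb), c ≠ 0 ∧ g ≠ 0 ∧
        normAlong (heckeAlphaBar Qb (M * q) q) y = algebraMap Qb _ c * g ^ n) →
      (∃ (c : Qb) (g : FN (M * q) Qb), c ≠ 0 ∧ g ≠ 0 ∧
        normAlong (heckeBetaBar Qb (M * q) q) y = algebraMap Qb _ c * g ^ n) →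
      ∀ x : JZero (M * q * q), Fermat.BAD.IsCls D x → d • x = 0

/-- The form in which the geometric input is used: `CoreStatement` for primes `q` not dividing `M`
when `4` or `9` divides `M`, so that there are no elliptic points at level `M`. -/
def CoreHyp : Prop :=
  ∀ (M q : ℕ) [NeZero M] [NeZero q], q.Prime → ¬ q ∣ M → (4 ∣ M ∨ 9 ∣ M) → CoreStatement M q

end Fermat.CAR

end
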