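import Fermat.Agent.CAR.Induct
import Fermat.Agent.CAR.PtMid
import Fermat.Agent.CAR.Statement

/-!
# Assembly of the geometric input from its pieces

The core statement follows from: points with parameters at the supersingular and at the ordinary
points of the outer and middle branches, consistent roots after multiplication by a constant, and
roots of prime degree for functions with consistent roots.

`smul_eq_zero_of_rooted` and `hasOrdPoints`; `Core` supplies the pieces.
-/

set_option autoImplicit false

noncomputable section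

open ModularCurve AlgebraicCurve

namespace Fermat.CAR

attribute [local instance 10000] algFN smulFN algFX smulFX

open Fermat.FF Fermat.MC Fermat.JAC.X0 Fermat.RED Fermat.RED.Model Fermat.BAD.X0 Fermat.EC.Val

local notation "Qb" => AlgebraicClosure ℚ

variable {M q : ℕ} [NeZero M] [NeZero q] {A : ValuationSubring (AlgebraicClosure ℚ)}
variable (hq : q.Prime) (hqM : ¬ q ∣ M)
variable [Fact q.Prime] [IsAlgClosed (IsLocalRing.ResidueField A)]
variable [CharP (IsLocalRing.ResidueField A) q] (h : IsPlace A q)
variable [FF.IsFunctionField Qb (FN M Qb)] [FF.IsFunctionField Qb (FN (M * q) Qb)]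
  [FF.IsFunctionField Qb (FN (M * q * q) Qb)]
variable [FF.IsFunctionField (IsLocalRing.ResidueField A) (FX (IsLocalRing.ResidueField A) M)]

local notation "kA" => IsLocalRing.ResidueField A

/-- Ordinary points of the branch at `∞` and of the middle branch exist. -/
def HasOrdPoints : Prop :=
  ∀ C : Br, C ≠ .top → ∀ s : Place kA (FX kA M), s ∉ SS M q hq hqM h.2 →
    ∃ (b : Bool) (χ : BChar M q A b), χ.IsPoint hq hqM {C} s ∧ χ.HasParam hq hqM {C}

include h in
/-- Ordinary points, given the cuspidal ones. -/
theorem hasOrdPoints (hne : NoElliptic M)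
    (hcusp : ∀ C : Br, C ≠ .top → ∀ s : Place kA (FX kA M), s.ord (jX kA M) < 0 →
      ∃ χ : BChar M q A false, χ.IsPoint hq hqM {C} s ∧ χ.HasParam hq hqM {C}) :
    HasOrdPoints (M := M) hq hqM h := by
  intro C hC s hs
  rcases lt_or_ge (s.ord (jX kA M)) 0 with hj | hj
  · exact ⟨false, hcusp C hC s hj⟩
  have hfin : OrdGE s (jX kA M) 0 := ordGE_iff.mpr (.inr hj)
  cases C
  · exact ⟨true, exists_point_low hq hqM h hfin hs⟩
  · exact ⟨true, exists_point_mid hq hqM h hne hfin hs⟩
  · exact absurd rfl hC

include h in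
/-- The core statement at one place from the roots. -/
theorem smul_eq_zero_of_rooted (hSS : HasSSPoints (M := M) hq hqM h) (d : ℕ) {n : ℕ}
    (hn : IsPrimePow n) (hnq : n.Coprime q)
    (hroot : ∀ l : ℕ, l.Prime → l ≠ q →
      ∀ (D : Divisor Qb (FN (M * q * q) Qb)) (y : FN (M * q * q) Qb) (H : Br → FX kA M),
        IsRooted hq hqM h y l H → divOf Qb y = l • D → ∃ Y, Y ^ l = y)
    {D : Divisor Qb (FN (M * q * q) Qb)}
    (hex : ∃ (D' : Divisor Qb (FN (M * q * q) Qb)) (y' : FN (M * q * q) Qb) (H : Br → FX kA M),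
      IsRooted hq hqM h y' n H ∧ divOf Qb y' = n • D' ∧
        ∀ x : JZero (M * q * q), Fermat.BAD.IsCls D x → Fermat.BAD.IsCls D' (d • x))
    {x : JZero (M * q * q)} (hx : Fermat.BAD.IsCls D x) : d • x = 0 := by
  obtain ⟨D', y', H, hy', hD', hcls⟩ := hex
  obtain ⟨l, k, hl, hk, rfl⟩ := (isPrimePow_nat_iff n).mp hn
  have hlq : l ≠ q := by
    rintro rfl
    rw [Nat.coprime_pow_left_iff hk, Nat.coprime_self] at hnq
    exact hl.ne_one hnq
  exact isCls_eq_zero (hcls x hx)
    (exists_divOf_eq hq hqM h hSS hl hlq (hroot l hl hlq) k D' y' H hy' hD')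

omit h in
/-- The residue field and the function fields satisfy the standing hypotheses. -/
theorem standing_instances (M : ℕ) [NeZero M] {q : ℕ} [NeZero q] (hq : q.Prime) (hqM : ¬ q ∣ M)
    {A : ValuationSubring (AlgebraicClosure ℚ)} (hA : A.LiesOverPrime q) :
    CharP (IsLocalRing.ResidueField A) q ∧ FF.IsFunctionField Qb (FN M Qb) ∧
      FF.IsFunctionField Qb (FN (M * q) Qb) ∧ FF.IsFunctionField Qb (FN (M * q * q) Qb) ∧
      ∀ _ : IsAlgClosed (IsLocalRing.ResidueField A),
        FF.IsFunctionField (IsLocalRing.ResidueField A) (FX (IsLocalRing.ResidueField A) M) :=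
  ⟨Fermat.RED.charP_residue hq hA, MC.isFunctionField_FN M embC,
    MC.isFunctionField_FN (M * q) embC, MC.isFunctionField_FN (M * q * q) embC,
    fun _ => Cusps.isFunctionField (natCast_ne_zero_residue A hq hA hqM)⟩

end Fermat.CAR

end
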