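import Fermat.Agent.BAD.X0.Poles
import Fermat.Agent.RED.Model.Chart
import Mathlib.LinearAlgebra.Charpoly.Basic

/-!
# Characteristic polynomials along an embedding of function fields

An identity for norms along `φ` gives the factorisation of the characteristic polynomial of every
element, and so the integrality of its coefficients from that of the branches.
-/

set_option autoImplicit false

noncomputable section

open Polynomial AlgebraicCurve

namespace Fermat.CAR

open Fermat.FF Fermat.JAC Fermat.RED.Model

section IntOver

variable {R S : Type*} [CommRing R] [CommRing S]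

/-- The elements integral over a homomorphism. -/
def intOver (ρ : R →+* S) : Subring S :=
  letI := ρ.toAlgebra
  (integralClosure R S).toSubring

/-- Membership in `intOver`. -/
theorem mem_intOver {ρ : R →+* S} {z : S} : z ∈ intOver ρ ↔ ρ.IsIntegralElem z := Iff.rfl

end IntOver

variable {L F F' : Type*} [Field L] [Field F] [Field F'] [Algebra L F] [Algebra L F']
variable [IsAlgClosed L] [FF.IsFunctionField L F] [FF.IsFunctionField L F']

omit [IsAlgClosed L] [IsFunctionField L F] in
/-- `z` is in the integral closure of `L[x]` iff it is integral along evaluation at `x`. -/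
theorem mem_intClosure_iff_elem {x z : F} :
    z ∈ intClosure L x ↔ ((aeval x : L[X] →ₐ[L] F).toRingHom).IsIntegralElem z := by
  constructor
  · intro hz
    obtain ⟨P, hP, hPz⟩ := mem_intClosure.mp hz
    have hlift : P.map (algebraMap (Algebra.adjoin L {x}) F) ∈
        Polynomial.lifts (aeval x : L[X] →ₐ[L] F).toRingHom := by
      refine (lifts_iff_coeff_lifts _).mpr fun n => ?_
      rw [coeff_map]
      obtain ⟨p, hp⟩ := (AlgHom.mem_range _).mp
        ((Algebra.adjoin_singleton_eq_range_aeval L x).le (P.coeff n).2)
      exact ⟨p, hp⟩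
    obtain ⟨Q, hQ, -, hQm⟩ := lifts_and_natDegree_eq_and_monic hlift (hP.map _)
    refine ⟨Q, hQm, ?_⟩
    rw [← eval_map, hQ, eval_map]
    exact hPz
  · rintro ⟨Q, hQ, hQz⟩
    let ρ : L[X] →+* Algebra.adjoin L ({x} : Set F) :=
      (aeval (⟨x, Algebra.self_mem_adjoin_singleton L x⟩ : Algebra.adjoin L
        ({x} : Set F))).toRingHom
    refine mem_intClosure.mpr ⟨Q.map ρ, hQ.map _, ?_⟩
    rw [eval₂_map]
    rw [show (algebraMap (Algebra.adjoin L ({x} : Set F)) F).comp ρ =
        (aeval x : L[X] →ₐ[L] F).toRingHom from RingHom.ext fun p => by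
      simp [ρ]]
    exact hQz

/-- The characteristic polynomial of multiplication by `f` along `φ`. -/
def charA (φ : F →ₐ[L] F') (f : F') : F[X] :=
  letI := algebraAlong φ
  haveI := isScalarTower_along φ
  haveI : Module.Finite F F' := FF.finiteAlong φ
  (Algebra.lmul F F' f).charpoly

variable (φ : F →ₐ[L] F')

/-- `charA` is monic. -/
theorem charA_monic (f : F') : (charA φ f).Monic := by
  let := algebraAlong φ
  have := isScalarTower_along φ
  have : Module.Finite F F' := FF.finiteAlong φ
  exact LinearMap.charpoly_monic _

/-- `f` is a root of its characteristic polynomial. -/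
theorem eval₂_charA (f : F') : (charA φ f).eval₂ φ.toRingHom f = 0 := by
  let := algebraAlong φ
  have := isScalarTower_along φ
  have : Module.Finite F F' := FF.finiteAlong φ
  have h := LinearMap.aeval_self_charpoly (Algebra.lmul F F' f)
  rw [Polynomial.aeval_algHom_apply] at h
  have h1 := LinearMap.congr_fun h 1
  simp only [Algebra.coe_lmul_eq_mul, LinearMap.mul_apply', mul_one, LinearMap.zero_apply] at h1
  exact h1

/-- The values of the characteristic polynomial are norms. -/
theorem eval_charA (f : F') (c : F) : (charA φ f).eval c = normAlong φ (φ c - f) := by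
  let := algebraAlong φ
  have := isScalarTower_along φ
  have : Module.Finite F F' := FF.finiteAlong φ
  change (Algebra.lmul F F' f).charpoly.eval c = Algebra.norm F (φ c - f)
  rw [LinearMap.eval_charpoly, Algebra.norm_apply, ← AlgHom.commutes
    (Algebra.lmul F F') c, ← map_sub]
  rfl

variable {C : Type*} [Field C] [Infinite L]

/-- An identity of norms factorises the characteristic polynomial. -/
theorem map_charA (b : F →+* C) {I : Type*} [Fintype I] (τ : I → (F' →+* C))
    (hN : ∀ g, b (normAlong φ g) = ∏ i, τ i g)
    (hτ : ∀ i (c : L), τ i (algebraMap L F' c) = b (algebraMap L F c)) (f : F') :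
    (charA φ f).map b = ∏ i, (X - Polynomial.C (τ i f)) := by
  refine Polynomial.eq_of_infinite_eval_eq _ _
    ((Set.infinite_range_of_injective (b.comp (algebraMap L F)).injective).mono ?_)
  rintro _ ⟨c, rfl⟩
  change ((charA φ f).map b).eval (b (algebraMap L F c)) = _
  rw [eval_map_apply, eval_charA, hN, eval_prod]
  refine Finset.prod_congr rfl fun i _ => ?_
  rw [eval_sub, eval_X, eval_C, map_sub, AlgHom.commutes, hτ]
  rfl

/-- The coefficients lie in any subring containing all branches. -/
theorem coeff_charA_mem (b : F →+* C) {I : Type*} [Fintype I] (τ : I → (F' →+* C))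
    (hN : ∀ g, b (normAlong φ g) = ∏ i, τ i g)
    (hτ : ∀ i (c : L), τ i (algebraMap L F' c) = b (algebraMap L F c)) (f : F') (S : Subring C)
    (hS : ∀ i, τ i f ∈ S) (n : ℕ) : b ((charA φ f).coeff n) ∈ S := by
  have h : ∏ i, (X - Polynomial.C (τ i f)) ∈ (lifts S.subtype) :=
    prod_mem fun i _ => ⟨X - Polynomial.C ⟨_, hS i⟩, by simp⟩
  rw [← map_charA φ b τ hN hτ, lifts_iff_coeff_lifts] at h
  obtain ⟨s, hs⟩ := h n
  rw [coeff_map] at hs
  rw [← hs]
  exact s.2

omit [FF.IsFunctionField L F] [FF.IsFunctionField L F'] [IsAlgClosed L] in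
omit [Infinite L] in
/-- Embeddings map charts into charts. -/
theorem map_mem_chart {A : ValuationSubring L} {x g : F} (hg : g ∈ chart A x) :
    φ g ∈ chart A (φ x) := by
  obtain ⟨P, hP, hPg⟩ := hg
  refine ⟨P, hP, ?_⟩
  have e : ax A (φ x) = φ.toRingHom.comp (ax A x) := by
    refine Polynomial.ringHom_ext (fun a => ?_) ?_
    · simp [ax]
    · simp [ax]
  have h := congrArg φ.toRingHom hPg
  rw [Polynomial.hom_eval₂, map_zero] at h
  rw [e]
  exact h

end Fermat.CAR

end
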