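import Fermat.Agent.CAR.Residual
import Fermat.Agent.CAR.Charpoly
import Fermat.Agent.BAD.X0.Model

/-!
# Integral functions at level `M q²`

A function regular where the coordinate `x ∈ {j, j⁻¹}` of level `M` is, and integral on every
branch, is integral over the integers with `x` adjoined; its reductions are regular where the
reduced coordinate is.
-/

set_option autoImplicit false
set_option linter.unusedSectionVars false

attribute [local instance 10000] SubalgebraClass.toAlgebra HahnSeries.powerSeriesAlgebra

noncomputable section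

open ModularCurve Polynomial

namespace Fermat.CAR

open Fermat.FF Fermat.MC Fermat.JAC Fermat.RED Fermat.RED.Model Fermat.BAD.X0 Fermat.EC.Val

local notation "Qb" => AlgebraicClosure ℚ

variable (M q : ℕ) [NeZero M] [NeZero q]

/-- The first map from level `M` to level `M q²`. -/
def aM : FN M Qb →ₐ[Qb] FN (M * q * q) Qb :=
  (heckeAlphaBar Qb (M * q) q).comp (heckeAlphaBar Qb M q)

/-- The first map from level `M` does not change the expansion. -/
theorem coe_aM (g : FN M Qb) :
    ((aM M q g : FN (M * q * q) Qb) : LaurentSeries Qb) = (g : LaurentSeries Qb) :=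
  Eq.trans (b := ((heckeAlphaBar Qb M q g : FN (M * q) Qb) : LaurentSeries Qb))
    (coe_heckeAlphaBar (M * q) q (heckeAlphaBar Qb M q g)) (coe_heckeAlphaBar M q g)

/-- The coordinates `j` and `j⁻¹` of level `M`. -/
def xch (b : Bool) : FN M Qb := cond b (jL M Qb) (jL M Qb)⁻¹

/-- The two coordinates on the reduced curve. -/
def xbar (k : Type*) [Field k] (b : Bool) : FX k M := cond b (jX k M) (jX k M)⁻¹

variable (hq : q.Prime) (hqM : ¬ q ∣ M)

/-- On the low branch functions of level `M` keep their expansion. -/
theorem brC_low_aM (g : FN M Qb) :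
    brC M q hq hqM .low (aM M q g) = (g : LaurentSeries Qb) := coe_aM M q g

/-- On the middle branch functions of level `M` keep their expansion. -/
theorem brC_mid_aM (g : FN M Qb) :
    brC M q hq hqM .mid (aM M q g) = (g : LaurentSeries Qb) :=
  Eq.trans (b := ((heckeAlphaBar Qb M q g : FN (M * q) Qb) : LaurentSeries Qb))
    (br11_alpha M q hq hqM (one_ne_zero_fin q hq) (heckeAlphaBar Qb M q g))
    (coe_heckeAlphaBar M q g)

/-- On the top branch the variable of functions of level `M` is raised to the power `q²`. -/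
theorem brC_top_aM (g : FN M Qb) :
    brC M q hq hqM .top (aM M q g) = qExpand Qb q (qExpand Qb q (g : LaurentSeries Qb)) := by
  change br02 M q hq hqM (heckeAlphaBar Qb (M * q) q (heckeAlphaBar Qb M q g)) = _
  rw [br02_alpha, emb_false_alpha]

/-- Charts transported along an equality of fields of series. -/
theorem chart_congr {K : Type*} [Field K] {A : ValuationSubring K}
    {S T : IntermediateField K (LaurentSeries K)} (h : S = T) {z x : S} {z' x' : T}
    (hz : (z : LaurentSeries K) = z') (hx : (x : LaurentSeries K) = x')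
    (hm : z ∈ chart A x) : z' ∈ chart A x' := by
  subst h
  rwa [← Subtype.ext hz, ← Subtype.ext hx]

/-- The expansion of `1 / j`. -/
theorem coe_inv_jL : (((jL M Qb)⁻¹ : FN M Qb) : LaurentSeries Qb) = (jqModC Qb)⁻¹ := by
  rw [show (((jL M Qb)⁻¹ : FN M Qb) : LaurentSeries Qb) = (jL M Qb : LaurentSeries Qb)⁻¹ from
    IntermediateField.coe_inv _ _, coe_jL]

variable [Fact q.Prime] {A : ValuationSubring (AlgebraicClosure ℚ)}
variable [IsAlgClosed (IsLocalRing.ResidueField A)]
variable [CharP (IsLocalRing.ResidueField A) q] (h : IsPlace A q)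

local notation "kA" => IsLocalRing.ResidueField A

include hq hqM h

omit hq hqM h in
/-- The two coordinates have integral expansions. -/
theorem int_xch (b : Bool) : ((xch M b : FN M Qb) : LaurentSeries Qb) ∈ intSeries A := by
  cases b
  · change (((jL M Qb)⁻¹ : FN M Qb) : LaurentSeries Qb) ∈ intSeries A
    rw [coe_inv_jL]
    exact inv_jqModC_mem_intSeries (π := IsLocalRing.residue A) IsLocalRing.residue_surjective
  · change ((jL M Qb : FN M Qb) : LaurentSeries Qb) ∈ intSeries A
    rw [coe_jL]
    exact jqModC_mem_intSeries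

/-- **Level `M`**: regular and integral at `∞` gives integral over the chart. -/
theorem mem_chart_level (b : Bool) (H : FN M Qb) (hr : H ∈ intClosure Qb (xch M b))
    (hg : (H : LaurentSeries Qb) ∈ gS A) : H ∈ chart A (xch M b) := by
  -- the good model at level `M` on this chart
  have hgm : GoodModel (IsLocalRing.residue A) (expX Qb M) (xbar M Qb b) (dedekindPsi M) := by
    cases b
    · exact (goodModel_level (M := M) hq hqM h.2).inv
    · exact goodModel_level (M := M) hq hqM h.2
  set H' : FX Qb M := ⟨H, by rw [← fullC_eq_baseChange]; exact H.2⟩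
  have hx : ((xch M b : FN M Qb) : LaurentSeries Qb) = (xbar M Qb b : FX Qb M) := by
    cases b
    · exact (coe_inv_jL M).trans (IntermediateField.coe_inv _ (jX Qb M)).symm
    · exact coe_jL M
  refine chart_congr (z := H') (x := xbar M Qb b) (fullC_eq_baseChange Qb M).symm rfl hx.symm ?_
  have hr' : H' ∈ intClosure Qb (xbar M Qb b) :=
    intClosure_congr (fullC_eq_baseChange Qb M) rfl hx hr
  rcases eq_or_ne H' 0 with h0 | h0
  · rw [h0]; exact zero_mem _
  -- scale to a primitive integral element
  obtain ⟨c, hc, -, hcg⟩ := exists_scale_of_mem_intClosure hr'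
  obtain ⟨c', -, hc', g', hg', hne, e⟩ := hgm.exists_eq_smul_primitive hcg
    (mul_ne_zero ((_root_.map_ne_zero _).mpr hc) h0)
  have hge : H' = algebraMap Qb (FX Qb M) (c' / c) * g' := by
    rw [map_div₀, div_mul_eq_mul_div, ← e,
      mul_div_cancel_left₀ _ ((_root_.map_ne_zero _).mpr hc)]
  have hi := hgm.int_chart g' hg'
  have hP : Prim A (expX Qb M g') := ⟨int_mem_gS hi, fun h1 => hne (by
    obtain ⟨y, hy⟩ := id hi
    rw [redF_of_mem hi]
    refine Eq.trans ?_ h1
    refine Eq.trans ?_ ((congrArg (sR A) (Subtype.ext hy.symm)).trans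
      (sR_coeffMap y (coeffMap_mem_gS y))).symm
    rw [← redHom_coeffMap (IsLocalRing.residue A) y ⟨y, rfl⟩]
    exact congrArg _ (Subtype.ext hy.symm))⟩
  -- the scalar is integral, as the order at `∞` is that of the scalar
  have hG : GIs A q (H : LaurentSeries Qb) (ord A q (c' / c)) :=
    ⟨_, _, div_ne_zero hc' hc, rfl, hP, by
      rw [← hgm.ι_algebraMap, ← map_mul, ← hge]; rfl⟩
  rw [hge]
  exact mul_mem (algebraMap_mem_chart _
    ((mem_iff_ord h (div_ne_zero hc' hc)).mpr ((hG.mem_gS_iff h).mp hg))) hg'

/-- A nonzero function of level `M q` has an order at `∞`. -/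
theorem exists_gIs_coe (G : FN (M * q) Qb) (hG : G ≠ 0) :
    ∃ r, GIs A q (G : LaurentSeries Qb) r := by
  obtain ⟨r, hr⟩ := exists_gIs M q hq hqM h .low (f := heckeAlphaBar Qb (M * q) q G)
    ((_root_.map_ne_zero _).mpr hG)
  rw [brC_low, coe_heckeAlphaBar] at hr
  exact ⟨r, hr⟩

/-- A series defined at the generic point after substituting `q`-th powers already was. -/
theorem mem_gS_of_qExpand (G : FN (M * q) Qb)
    (hG : qExpand Qb q (G : LaurentSeries Qb) ∈ gS A) : (G : LaurentSeries Qb) ∈ gS A := by
  rcases eq_or_ne G 0 with rfl | h0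
  · exact zero_mem _
  obtain ⟨r, hr⟩ := exists_gIs_coe M q hq hqM h G h0
  exact (hr.mem_gS_iff h).mpr (((gIs_qExpand q hr).mem_gS_iff h).mp hG)

variable [FF.IsFunctionField Qb (FN M Qb)] [FF.IsFunctionField Qb (FN (M * q) Qb)]
  [FF.IsFunctionField Qb (FN (M * q * q) Qb)]

omit hq hqM h in
/-- A function integral over the polynomials in `x` maps, on a branch, to a series integral over
the image of those polynomials. -/
theorem isIntegralElem_branch {F : Type*} [Field F] [Algebra Qb F] [FF.IsFunctionField Qb F]
    {x f : F} (hf : f ∈ intClosure Qb x) (τ : F →+* LaurentSeries Qb)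
    (ρ : Polynomial Qb →+* LaurentSeries Qb) (hc : ∀ c, τ (algebraMap Qb F c) = ρ (C c))
    (hX : τ x = ρ X) : ρ.IsIntegralElem (τ f) := by
  have := RingHom.IsIntegralElem.map ((mem_intClosure_iff_elem (L := Qb)).mp hf) τ
  have e : ρ = τ.comp (aeval x : Polynomial Qb →ₐ[Qb] F).toRingHom := by
    refine Polynomial.ringHom_ext (fun c => ?_) ?_
    · rw [← hc]
      change τ _ = τ (aeval x (Polynomial.C c : Polynomial Qb))
      rw [aeval_C]
    · rw [← hX]
      change τ x = τ (aeval x (Polynomial.X : Polynomial Qb))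
      rw [aeval_X]
  rw [e]
  exact this

/-- **Level `M q`.** A function of level `M q` regular where the coordinate is and integral on both
branches is integral over the coordinate. -/
theorem mem_chart_q (b : Bool) (G : FN (M * q) Qb)
    (hr : G ∈ intClosure Qb (heckeAlphaBar Qb M q (xch M b)))
    (hg : ∀ c, emb M q hq hqM c G ∈ gS A) :
    G ∈ chart A (heckeAlphaBar Qb M q (xch M b)) := by
  -- the branches of `alpha` at the cusps, over the expansion at level `M`
  set φ := heckeAlphaBar Qb M q
  let bb : FN M Qb →+* LaurentSeries Qb := (qExpand Qb q).comp (FN M Qb).val.toRingHom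
  let τ := branch M q hq hqM (zetaQ q)
  have hN : ∀ g, bb (normAlong φ g) = ∏ i, τ i g := fun g => by
    rw [Fintype.prod_option]
    exact qExpand_norm M q hq hqM (zetaQ_spec q) g
  have hτ : ∀ i (c : Qb), τ i (algebraMap Qb _ c) = bb (algebraMap Qb (FN M Qb) c) := fun i c => by
    rw [← φ.commutes c]
    exact branch_alpha M q hq hqM (zetaQ_spec q) i _
  have hbb : Function.Injective bb := RingHom.injective _
  let ρ : Polynomial Qb →+* LaurentSeries Qb := bb.comp (aeval (xch M b)).toRingHom
  have hρ : ∀ i, τ i G ∈ intOver ρ := fun i =>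
    mem_intOver.mpr (isIntegralElem_branch hr (τ i) ρ (fun c => by
      rw [hτ]
      change _ = bb (aeval _ (C c))
      rw [aeval_C]) (by
      change τ i (φ (xch M b)) = bb (aeval (xch M b) X)
      rw [aeval_X]
      exact branch_alpha M q hq hqM (zetaQ_spec q) i _))
  have hS : ∀ i, τ i G ∈ gS A := fun i => by
    cases i with
    | none => exact (redCompat_qExpand q).map_mem (hg true)
    | some i =>
      exact (redCompat_twist (A := A) (q := q) (zpw_pow q i)).map_mem (hg false)
  -- so the coefficients of the characteristic polynomial lie in the chart of level `M`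
  have hco : ∀ n, (charA φ G).coeff n ∈ chart A (xch M b) := fun n => by
    refine mem_chart_level M q hq hqM h b _ (mem_intClosure_iff_elem.mpr
      ((RingHom.IsIntegralElem.map_iff (g := bb) hbb).mp (mem_intOver.mp
        (coeff_charA_mem φ bb τ hN hτ G (intOver ρ) hρ n)))) ?_
    have h1 := coeff_charA_mem φ bb τ hN hτ G (gS A) hS n
    refine (fun H : FN M Qb => ?_ : ∀ H : FN M Qb, qExpand Qb q (H : LaurentSeries Qb) ∈ gS A →
      (H : LaurentSeries Qb) ∈ gS A) _ h1
    intro hH
    have := mem_gS_of_qExpand M q hq hqM h (φ H) (by rw [coe_heckeAlphaBar]; exact hH)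
    rwa [coe_heckeAlphaBar] at this
  -- and `G` is a root of it
  let ψ : FN M Qb →+* FN (M * q) Qb := φ.toRingHom
  have hmem : (charA φ G).map ψ ∈ Polynomial.lifts (chart A (φ (xch M b))).subtype :=
    (lifts_iff_coeff_lifts _).mpr fun n => by
      rw [coeff_map]
      exact ⟨⟨_, map_mem_chart φ (hco n)⟩, rfl⟩
  obtain ⟨Q, hQ, -, hQm⟩ := lifts_and_natDegree_eq_and_monic hmem ((charA_monic φ G).map _)
  refine mem_chart_of_root hQm ?_
  rw [← eval_map, hQ, eval_map]
  exact eval₂_charA φ G

/-- **Level `M q²`.** A function of level `M q²` regular where the coordinate is and integral on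
every branch is integral over the coordinate. -/
theorem mem_chart_qq (b : Bool) (f : FN (M * q * q) Qb)
    (hr : f ∈ intClosure Qb (aM M q (xch M b)))
    (hα : ∀ i, brAlpha M q hq hqM i f ∈ gS A) (htop : br02 M q hq hqM f ∈ gS A) :
    f ∈ chart A (aM M q (xch M b)) := by
  set φ := heckeAlphaBar Qb (M * q) q
  set x₁ := heckeAlphaBar Qb M q (xch M b)
  let bb : FN (M * q) Qb →+* LaurentSeries Qb := (FN (M * q) Qb).val.toRingHom
  -- the conjugates of `f` over level `M q` at the two cusps
  have hN : ∀ g, bb (normAlong φ g) = ∏ i, brAlpha M q hq hqM i g := coe_normAlpha M q hq hqM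
  have hτ : ∀ i (c : Qb), brAlpha M q hq hqM i (algebraMap Qb _ c) =
      bb (algebraMap Qb (FN (M * q) Qb) c) := fun i c => by
    rw [← φ.commutes c]
    exact brAlpha_alpha M q hq hqM i _
  let bf : FN (M * q) Qb →+* LaurentSeries Qb := (qExpand Qb q).comp (emb M q hq hqM false)
  let τ' : Fin q → FN (M * q * q) Qb →+* LaurentSeries Qb := fun i =>
    (twist (zpw q (zetaQ q) i)).comp (br02 M q hq hqM)
  have hN' : ∀ g, bf (normAlong φ g) = ∏ i, τ' i g := qExpand_emb_false_normAlpha M q hq hqM
  have hτ' : ∀ i (c : Qb), τ' i (algebraMap Qb _ c) =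
      bf (algebraMap Qb (FN (M * q) Qb) c) := fun i c => by
    rw [← φ.commutes c]
    exact twist_br02_alpha M q hq hqM i _
  let ρ : Polynomial Qb →+* LaurentSeries Qb := bb.comp (aeval x₁).toRingHom
  -- the conjugates are integral over the polynomial ring
  have hρ : ∀ i, brAlpha M q hq hqM i f ∈ intOver ρ := fun i =>
    mem_intOver.mpr (isIntegralElem_branch hr _ ρ (fun c => by
      rw [hτ]
      change _ = bb (aeval x₁ (C c))
      rw [aeval_C]) (by
      change brAlpha M q hq hqM i (φ x₁) = bb (aeval x₁ X)
      rw [aeval_X]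
      exact brAlpha_alpha M q hq hqM i _))
  -- so the coefficients of the characteristic polynomial lie in the chart of level `M q`
  have hco : ∀ n, (charA φ f).coeff n ∈ chart A x₁ := fun n => by
    refine mem_chart_q M q hq hqM h b _ (mem_intClosure_iff_elem.mpr
      ((RingHom.IsIntegralElem.map_iff (g := bb) (RingHom.injective _)).mp (mem_intOver.mp
        (coeff_charA_mem φ bb _ hN hτ f (intOver ρ) hρ n)))) fun c => ?_
    cases c
    · have h1 := coeff_charA_mem φ bf τ' hN' hτ' f (gS A)
        (fun i => (redCompat_twist (A := A) (zpw_pow q i)).map_mem htop) n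
      exact mem_gS_of_qExpand M q hq hqM h (alW M q hq hqM _) h1
    · exact coeff_charA_mem φ bb _ hN hτ f (gS A) hα n
  let ψ : FN (M * q) Qb →+* FN (M * q * q) Qb := φ.toRingHom
  -- hence `f` is a root of a monic polynomial over the chart
  have hmem : (charA φ f).map ψ ∈ Polynomial.lifts (chart A (φ x₁)).subtype :=
    (lifts_iff_coeff_lifts _).mpr fun n => by
      rw [coeff_map]
      exact ⟨⟨_, map_mem_chart φ (hco n)⟩, rfl⟩
  obtain ⟨Q, hQ, -, hQm⟩ := lifts_and_natDegree_eq_and_monic hmem ((charA_monic φ f).map _)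
  refine mem_chart_of_root hQm ?_
  refine (eval_map (chart A (φ x₁)).subtype f).symm.trans ?_
  rw [hQ, eval_map]
  exact eval₂_charA φ f

/-- The criterion for rational functions. -/
theorem mem_chart_of_rat (b : Bool) {f : FN (M * q * q) Qb} (hrat : f ∈ ratFld M q A)
    (hr : f ∈ intClosure Qb (aM M q (xch M b))) (hC : ∀ C, f ∈ OC M q hq hqM A C) :
    f ∈ chart A (aM M q (xch M b)) := by
  refine mem_chart_qq M q hq hqM h b f hr (fun i => ?_) (hC .top)
  rcases eq_or_ne i 0 with rfl | hi
  · rw [brAlpha_zero]; exact hC .low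
  · rw [brAlpha_of_ne M q hq hqM hi]
    exact (sR_br11 M q hq hqM h hi hrat (hC .mid)).choose

/-- Integral elements are integral on every branch. -/
theorem chart_le_OC (b : Bool) {f : FN (M * q * q) Qb} (hf : f ∈ chart A (aM M q (xch M b)))
    (C : Br) : f ∈ OC M q hq hqM A C := by
  have hx : aM M q (xch M b) ∈ OC M q hq hqM A C := by
    rw [mem_OC]
    have hi := int_mem_gS (int_xch (A := A) M b)
    cases C
    · rw [brC_low_aM]; exact hi
    · rw [brC_mid_aM]; exact hi
    · rw [brC_top_aM]; exact (redCompat_qExpand q).map_mem ((redCompat_qExpand q).map_mem hi)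
  rcases eq_or_ne f 0 with rfl | hf0
  · exact zero_mem _
  obtain ⟨P, hP, hPf⟩ := hf
  have hmem : ∀ D, brC M q hq hqM C (ax A (aM M q (xch M b)) D) ∈ gS A := fun D => by
    change ax A (aM M q (xch M b)) D ∈ OC M q hq hqM A C
    induction D using Polynomial.induction_on' with
    | add p p' hp hp' => rw [map_add]; exact add_mem hp hp'
    | monomial n a =>
      rw [← C_mul_X_pow_eq_monomial, map_mul, map_pow, ax_C, ax_X]
      refine mul_mem ?_ (pow_mem hx n)
      change brC M q hq hqM C _ ∈ gS A
      rw [brC_algebraMap]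
      exact algebraMap_mem_gS a.2
  refine (gIs_gv M q hq hqM h C hf0).mem_gS_of_root h
    (P := P.map (((brC M q hq hqM C).comp (ax A _)).codRestrict (gS A) hmem)) (hP.map _) ?_
  rw [eval₂_map]
  change eval₂ ((brC M q hq hqM C).comp (ax A _)) _ P = 0
  rw [← hom_eval₂, show eval₂ (ax A _) f P = 0 from hPf, map_zero]

/-- The exponent of the coordinate on a branch. -/
def eBr : Br → ℕ
  | .low => 1
  | .mid => 1
  | .top => q ^ 2

/-- The reduction of the coordinate on a branch. -/
theorem resC_xch (b : Bool) (C : Br) (hm : aM M q (xch M b) ∈ OC M q hq hqM A C) :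
    resC M q hq hqM A C ⟨_, hm⟩ =
      ((xbar M kA b : FX kA M) : LaurentSeries kA) ^ (eBr q C) := by
  -- the series of `j` reduces to that of `j`
  have hj : ∀ (hj : jqModC Qb ∈ gS A), sR A ⟨jqModC Qb, hj⟩ = jqModC kA := fun hj => by
    refine ((congrArg (sR A) (Subtype.ext (coeffMap_subtype_jqModC (A := A)).symm)).trans
      (sR_coeffMap (jqModC A) (coeffMap_mem_gS _))).trans ?_
    exact coeffMap_jqModC _
  -- on the branches `low`, `mid` the exponent is one, on `top` it is `q ^ 2`
  have htrue : ∀ hm' : aM M q (xch M true) ∈ OC M q hq hqM A C,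
      resC M q hq hqM A C ⟨_, hm'⟩ = jqModC kA ^ eBr q C := fun hm' => by
    have hjm : jqModC Qb ∈ gS A := int_mem_gS jqModC_mem_intSeries
    rw [resC_apply]
    cases C with
    | low =>
      rw [show eBr q .low = 1 from rfl, pow_one, ← hj hjm]
      refine congrArg (sR A) (Subtype.ext ?_)
      exact (brC_low_aM M q hq hqM _).trans (coe_jL M)
    | mid =>
      rw [show eBr q .mid = 1 from rfl, pow_one, ← hj hjm]
      refine congrArg (sR A) (Subtype.ext ?_)
      exact (brC_mid_aM M q hq hqM _).trans (coe_jL M)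
    | top =>
      have h1 := (redCompat_qExpand (A := A) q).sR_map hjm
      have h2 := (redCompat_qExpand (A := A) q).sR_map
        ((redCompat_qExpand (A := A) q).map_mem hjm)
      refine Eq.trans (congrArg (sR A) (Subtype.ext (a2 := ⟨_, (redCompat_qExpand q).map_mem
        ((redCompat_qExpand q).map_mem hjm)⟩) ((brC_top_aM M q hq hqM (jL M Qb)).trans
        (congrArg (fun z => qExpand Qb q (qExpand Qb q z)) (coe_jL M))))) ?_
      rw [h2, h1, hj, show eBr q .top = q ^ 2 from rfl, pow_two, pow_mul,
        laurent_pow_char q (jqModC kA), coeffMap_jqModC, ← map_pow,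
        laurent_pow_char q (jqModC kA), coeffMap_jqModC]
  cases b
  · have hmt : aM M q (xch M true) ∈ OC M q hq hqM A C :=
      chart_le_OC M q hq hqM h true (self_mem_chart _) C
    -- the other chart by inversion
    have hone : resC M q hq hqM A C ⟨_, hm⟩ * resC M q hq hqM A C ⟨_, hmt⟩ = 1 := by
      rw [← map_mul, ← map_one (resC M q hq hqM A C)]
      refine congrArg _ (Subtype.ext ?_)
      change aM M q (jL M Qb)⁻¹ * aM M q (jL M Qb) = 1
      rw [← map_mul, inv_mul_cancel₀ (fun h0 => transcendental_jL M (h0 ▸ isAlgebraic_zero)),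
        map_one]
    rw [htrue hmt] at hone
    change _ = ((((jX kA M)⁻¹ : FX kA M)) : LaurentSeries kA) ^ _
    rw [eq_inv_of_mul_eq_one_left hone, ← inv_pow]
    rfl
  · exact htrue hm

/-- **Reductions of integral functions are regular.** -/
theorem resC_mem_intClosure [FF.IsFunctionField kA (FX kA M)] (b : Bool) (C : Br)
    {f : FN (M * q * q) Qb} (hf : f ∈ chart A (aM M q (xch M b))) (z : FX kA M)
    (hz : (z : LaurentSeries kA) =
      resC M q hq hqM A C ⟨f, chart_le_OC M q hq hqM h b hf C⟩) :
    z ∈ intClosure kA (xbar M kA b) := by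
  refine mem_intClosure_iff_elem.mpr ?_
  have hall : ∀ {g : FN (M * q * q) Qb}, g ∈ chart A (aM M q (xch M b)) →
      g ∈ OC M q hq hqM A C := fun hg => chart_le_OC M q hq hqM h b hg C
  obtain ⟨P, hP, hPf⟩ := id hf
  let axC : A[X] →+* OC M q hq hqM A C :=
    (ax A (aM M q (xch M b))).codRestrict _ fun D => hall (ax_mem_chart _ D)
  let e := eBr q C
  -- reduce an integral equation of `f`, expanding by the exponent of the branch
  let ρ : A[X] →+* Polynomial kA :=
    ((Polynomial.expand kA e).toRingHom).comp (mapRingHom (IsLocalRing.residue A))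
  refine ⟨P.map ρ, hP.map _, (modularFunctionFieldFullC kA M).val.injective ?_⟩
  rw [map_zero]
  have hres : resC M q hq hqM A C (eval₂ axC ⟨f, hall hf⟩ P) = 0 := by
    rw [show eval₂ axC ⟨f, hall hf⟩ P = 0 from Subtype.ext ?_, map_zero]
    change (OC M q hq hqM A C).subtype _ = 0
    rw [hom_eval₂]
    exact hPf
  rw [hom_eval₂] at hres
  rw [eval₂_map]
  change (modularFunctionFieldFullC kA M).val.toRingHom (eval₂ _ z P) = 0
  rw [hom_eval₂]
  refine Eq.trans ?_ hres
  change eval₂ _ (z : LaurentSeries kA) P = _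
  rw [hz]
  congr 1
  -- on constants and on the coordinate the two maps agree (`resC_xch`)
  refine Polynomial.ringHom_ext (fun a => ?_) ?_
  · change ((aeval (xbar M kA b) (expand kA e
        ((Polynomial.C a : A[X]).map (IsLocalRing.residue A))) :
      FX kA M) : LaurentSeries kA) = resC M q hq hqM A C (axC (Polynomial.C a))
    rw [Polynomial.map_C, expand_C, aeval_C, resC_apply]
    refine Eq.trans ?_ (Eq.trans (sR_algebraMap a.2).symm (congrArg (sR A) (Subtype.ext ?_)))
    · rfl
    · change algebraMap Qb (LaurentSeries Qb) a = brC M q hq hqM C (ax A _ (Polynomial.C a))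
      rw [ax_C, brC_algebraMap]
  · change ((aeval (xbar M kA b) (expand kA e ((X : A[X]).map (IsLocalRing.residue A))) : FX kA M) :
      LaurentSeries kA) = resC M q hq hqM A C (axC Polynomial.X)
    rw [Polynomial.map_X, expand_X, map_pow, aeval_X, SubmonoidClass.coe_pow,
      ← resC_xch M q hq hqM h b C (hall (self_mem_chart _))]
    refine congrArg _ (Subtype.ext ?_)
    exact (ax_X A _).symm

end Fermat.CAR

end
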