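import Fermat.Agent.CAR.Orbit
import Fermat.Agent.CAR.Chart
import Mathlib.RingTheory.DedekindDomain.IntegralClosure
import Mathlib.RingTheory.Polynomial.UniqueFactorization

/-!
# The rings of rational integral functions on the charts

`Bx M q A b` is the ring of inertia invariant functions integral over `A` with the coordinate
`x = aM (xch b)` adjoined.  Its elements are the invariant functions regular over the chart and
integral on the three branches; it is noetherian.
-/

set_option autoImplicit false
set_option linter.unusedSectionVars false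

attribute [local instance 10000] SubalgebraClass.toAlgebra HahnSeries.powerSeriesAlgebra

noncomputable section

open ModularCurve Polynomial

namespace Fermat.CAR

open Fermat.FF Fermat.MC Fermat.RED.Model Fermat.BAD.X0 Fermat.EC.Val

local notation "Qb" => AlgebraicClosure ℚ

section General

variable {A : ValuationSubring (AlgebraicClosure ℚ)}
variable {F : Type*} [Field F] [Algebra (AlgebraicClosure ℚ) F]
  [FF.IsFunctionField (AlgebraicClosure ℚ) F]

/-- Elements of a chart are integral over the coordinate. -/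
theorem mem_intClosure_of_chart {x f : F} (hf : f ∈ chart A x) : f ∈ intClosure Qb x := by
  obtain ⟨P, hP, hPf⟩ := hf
  refine mem_intClosure_iff_elem.mpr ⟨P.map (mapRingHom A.subtype), hP.map _, ?_⟩
  rw [eval₂_map]
  refine Eq.trans ?_ hPf
  congr 1
  refine RingHom.ext fun D => ?_
  exact (ax_eq A x D).symm

end General

variable (M q : ℕ) [NeZero M] [NeZero q]

/-- Invariant functions integral over the chart. -/
def Bx (A : ValuationSubring (AlgebraicClosure ℚ)) (b : Bool) : Subring (FN (M * q * q) Qb) :=
  (ratFld M q A).toSubring ⊓ chart A (aM M q (xch M b))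

variable {M q} {A : ValuationSubring (AlgebraicClosure ℚ)} {b : Bool}

/-- The coordinate at level `M q²` is fixed by inertia. -/
theorem aM_xch_mem_ratFld : aM M q (xch M b) ∈ ratFld M q A := by
  intro σ _
  rw [coe_aM]
  cases b
  · change coeffMap _ (((jL M Qb)⁻¹ : FN M Qb) : LaurentSeries Qb) = _
    rw [show ((xch M false : FN M Qb) : LaurentSeries Qb) = (jqModC Qb)⁻¹ from coe_inv_jL M,
      coe_inv_jL, map_inv₀, coeffMap_jqModC]
  · change coeffMap _ ((jL M Qb : FN M Qb) : LaurentSeries Qb) = _
    rw [show ((xch M true : FN M Qb) : LaurentSeries Qb) = jqModC Qb from coe_jL M, coe_jL,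
      coeffMap_jqModC]

/-- The coordinate lies in `Bx`. -/
theorem self_mem_Bx : aM M q (xch M b) ∈ Bx M q A b := ⟨aM_xch_mem_ratFld, self_mem_chart _⟩

/-- The constants of `O0` lie in `Bx`. -/
theorem algebraMap_mem_Bx {c : Qb} (hc : c ∈ O0 A) :
    algebraMap Qb (FN (M * q * q) Qb) c ∈ Bx M q A b :=
  ⟨algebraMap_mem_ratFld hc.1, algebraMap_mem_chart _ hc.2⟩

variable (M q A b) in
/-- Polynomials with coefficients in `O0` evaluated at the coordinate. -/
def bPoly : (O0 A)[X] →+* FN (M * q * q) Qb :=
  eval₂RingHom ((algebraMap Qb _).comp (O0 A).subtype) (aM M q (xch M b))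

/-- `bPoly` evaluates at the coordinate. -/
theorem bPoly_eq (P : (O0 A)[X]) :
    bPoly M q A b P = aeval (aM M q (xch M b)) (P.map (O0 A).subtype) := by
  rw [aeval_def, eval₂_map]
  rfl

/-- The values of `bPoly` lie in `Bx`. -/
theorem bPoly_mem (P : (O0 A)[X]) : bPoly M q A b P ∈ Bx M q A b := by
  induction P using Polynomial.induction_on' with
  | add f g hf hg => rw [map_add]; exact add_mem hf hg
  | monomial n c =>
    rw [← C_mul_X_pow_eq_monomial, map_mul, map_pow]
    refine mul_mem ?_ (pow_mem ?_ n)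
    · change eval₂ _ _ (C c) ∈ _
      rw [eval₂_C]
      exact algebraMap_mem_Bx c.2
    · change eval₂ _ _ X ∈ _
      rw [eval₂_X]
      exact self_mem_Bx

/-- A polynomial over `O0` evaluated at a member is a member. -/
theorem eval₂_mem_Bx {f : FN (M * q * q) Qb} (hf : f ∈ Bx M q A b) (P : (O0 A)[X]) :
    eval₂ ((algebraMap Qb (FN (M * q * q) Qb)).comp (O0 A).subtype) f P ∈ Bx M q A b := by
  rw [eval₂_eq_sum_range]
  exact sum_mem fun i _ => mul_mem (algebraMap_mem_Bx (P.coeff i).2) (pow_mem hf i)

/-- The coordinate is transcendental over the constants. -/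
theorem transcendental_aM_xch : Transcendental Qb (aM M q (xch M b)) := by
  refine transcendental_map (aM M q) ?_
  cases b
  · exact fun h => transcendental_jL M (by simpa [xch] using h.inv)
  · exact transcendental_jL M

/-- Different polynomials over `O0` give different functions. -/
theorem bPoly_injective : Function.Injective (bPoly M q A b) := fun P P' e => by
  rw [bPoly_eq, bPoly_eq] at e
  exact Polynomial.map_injective _ Subtype.val_injective
    (transcendental_iff_injective.mp transcendental_aM_xch e)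

/-- Members are integral over `O0[x]`. -/
theorem isIntegralElem_bPoly {f : FN (M * q * q) Qb} (hf : f ∈ chart A (aM M q (xch M b))) :
    (bPoly M q A b).IsIntegralElem f := by
  let := (bPoly M q A b).toAlgebra
  set S := integralClosure (O0 A)[X] (FN (M * q * q) Qb)
  have hax : ∀ D : A[X], ax A (aM M q (xch M b)) D ∈ S.toSubring := fun D => by
    induction D using Polynomial.induction_on' with
    | add f g hf hg => rw [map_add]; exact add_mem hf hg
    | monomial n a =>
      rw [← C_mul_X_pow_eq_monomial, map_mul, map_pow, ax_C, ax_X]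
      refine mul_mem ?_ (pow_mem ?_ n)
      · obtain ⟨P, hP, hPa⟩ := isIntegralElem_O0 a.2
        refine ⟨P.map Polynomial.C, hP.map _, ?_⟩
        rw [eval₂_map, show (algebraMap (O0 A)[X] (FN (M * q * q) Qb)).comp Polynomial.C =
          (algebraMap Qb (FN (M * q * q) Qb)).comp (O0 A).subtype from
            RingHom.ext fun c => eval₂_C _ _, ← hom_eval₂, hPa, map_zero]
      · have := isIntegral_algebraMap (R := (O0 A)[X]) (A := FN (M * q * q) Qb)
          (x := (Polynomial.X : (O0 A)[X]))
        rwa [show algebraMap (O0 A)[X] (FN (M * q * q) Qb) X = aM M q (xch M b) from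
          eval₂_X _ _] at this
  obtain ⟨P, hP, hPf⟩ := hf
  refine isIntegral_trans (R := (O0 A)[X]) (A := S) f
    ⟨P.map ((ax A (aM M q (xch M b))).codRestrict S.toSubring hax), hP.map _, ?_⟩
  rw [eval₂_map]
  exact hPf

variable (hq : q.Prime) (hqM : ¬ q ∣ M)
variable [Fact q.Prime] [IsAlgClosed (IsLocalRing.ResidueField A)]
variable [CharP (IsLocalRing.ResidueField A) q] (h : IsPlace A q)
variable [FF.IsFunctionField Qb (FN M Qb)] [FF.IsFunctionField Qb (FN (M * q) Qb)]
  [FF.IsFunctionField Qb (FN (M * q * q) Qb)]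

include hq hqM h

/-- `Bx` consists of the invariant functions integral over the coordinate and regular on every
branch. -/
theorem mem_Bx_iff {f : FN (M * q * q) Qb} : f ∈ Bx M q A b ↔ f ∈ ratFld M q A ∧
    f ∈ intClosure Qb (aM M q (xch M b)) ∧ ∀ C, f ∈ OC M q hq hqM A C :=
  ⟨fun hf => ⟨hf.1, mem_intClosure_of_chart hf.2, chart_le_OC M q hq hqM h b hf.2⟩,
    fun hf => ⟨hf.1, mem_chart_of_rat M q hq hqM h b hf.1 hf.2.1 hf.2.2⟩⟩

omit hqM in
/-- Independence over the fixed field persists over all constants. -/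
theorem exists_bPoly_relation {ι : Type*} [Fintype ι] {f : ι → FN (M * q * q) Qb}
    (hf : ∀ i, f i ∈ ratFld M q A) {P : ι → Qb[X]} (hP : ∃ i, P i ≠ 0)
    (hrel : ∑ i, aeval (aM M q (xch M b)) (P i) * f i = 0) :
    ∃ Q : ι → (O0 A)[X], (∃ i, Q i ≠ 0) ∧ ∑ i, bPoly M q A b (Q i) * f i = 0 := by
  classical
  obtain ⟨i₀, hi₀⟩ := hP
  obtain ⟨k₀, hk₀⟩ : ∃ k, (P i₀).coeff k ≠ 0 := by
    by_contra! h0
    exact hi₀ (Polynomial.ext fun k => by simpa using h0 k)
  -- a linear functional to the fixed field, not zero on the chosen coefficient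
  obtain ⟨lam, hlam⟩ := Module.Projective.exists_dual_ne_zero (fixK A) hk₀
  set d := ∑ i, ((P i).natDegree + 1)
  have hd : ∀ i, (P i).natDegree < d := fun i =>
    Nat.lt_of_lt_of_le (Nat.lt_succ_self _)
      (Finset.single_le_sum (fun j _ => Nat.zero_le ((P j).natDegree + 1)) (Finset.mem_univ i))
  set c : ι → ℕ → fixK A := fun i k => lam ((P i).coeff k)
  -- one power of `q` makes all the new coefficients integral
  obtain ⟨N, hN⟩ : ∃ N : ℕ, ∀ i, ∀ k < d, (q : Qb) ^ N * (c i k : Qb) ∈ A := by
    obtain ⟨N, hN⟩ := exists_nat_gt (∑ i, ∑ k ∈ Finset.range d, |ord A q (c i k : Qb)|)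
    refine ⟨N, fun i k hk => ?_⟩
    rcases eq_or_ne (c i k : Qb) 0 with h0 | h0
    · rw [h0, mul_zero]; exact zero_mem _
    refine (mem_iff_ord h (mul_ne_zero (pow_ne_zero _ (Nat.cast_ne_zero.mpr hq.ne_zero)) h0)).mpr ?_
    rw [ord_mul h (pow_ne_zero _ (Nat.cast_ne_zero.mpr hq.ne_zero)) h0, ord_pow h, ord_q h, mul_one]
    have h1 := Finset.single_le_sum (f := fun j => ∑ k ∈ Finset.range d, |ord A q (c j k : Qb)|)
      (fun j _ => Finset.sum_nonneg fun _ _ => abs_nonneg _) (Finset.mem_univ i)
    have h2 := Finset.single_le_sum (f := fun k => |ord A q (c i k : Qb)|)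
      (fun _ _ => abs_nonneg _) (Finset.mem_range.mpr hk)
    have h3 := neg_abs_le (ord A q (c i k : Qb))
    linarith
  let e : ι → ℕ → O0 A := fun i k => if hk : k < d then
    ⟨(q : Qb) ^ N * (c i k : Qb), (fixK A).mul_mem (pow_mem (natCast_mem_fixK q) N) (c i k).2,
      hN i k hk⟩ else 0
  refine ⟨fun i => ∑ k ∈ Finset.range d, C (e i k) * X ^ k, ⟨i₀, fun h0 => ?_⟩, ?_⟩
  · have hk : k₀ < d := lt_of_le_of_lt (le_natDegree_of_ne_zero hk₀) (hd i₀)
    have h1 := congrArg (fun Q : (O0 A)[X] => ((Q.coeff k₀ : O0 A) : Qb)) h0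
    simp only [finsetSum_coeff, coeff_C_mul_X_pow, Finset.sum_ite_eq, Finset.mem_range, hk, if_true,
      coeff_zero, e, dif_pos, ZeroMemClass.coe_zero] at h1
    rw [mul_eq_zero] at h1
    rcases h1 with h1 | h1
    · exact pow_ne_zero N (Nat.cast_ne_zero.mpr hq.ne_zero : (q : Qb) ≠ 0) h1
    · exact hlam (Subtype.ext h1)
  -- the new relation holds coefficientwise
  · set x := aM M q (xch M b)
    have hQ : ∀ i, bPoly M q A b (∑ k ∈ Finset.range d, C (e i k) * X ^ k) =
        algebraMap Qb _ ((q : Qb) ^ N) *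
          ∑ k ∈ Finset.range d, algebraMap Qb _ (c i k : Qb) * x ^ k := fun i => by
      rw [map_sum, Finset.mul_sum]
      refine Finset.sum_congr rfl fun k hk => ?_
      rw [map_mul, map_pow, show bPoly M q A b (C (e i k)) = algebraMap Qb _ (e i k : Qb) from
        eval₂_C _ _, show bPoly M q A b X = x from eval₂_X _ _, ← mul_assoc, ← map_mul]
      simp only [e, dif_pos (Finset.mem_range.mp hk)]
    simp only [hQ, mul_assoc, ← Finset.mul_sum]
    refine mul_eq_zero_of_right _ (Subtype.ext (HahnSeries.ext (funext fun n => ?_)))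
    -- the coefficients of the monomials are fixed
    have hcoe : ∀ (i : ι) (k : ℕ), ((x ^ k * f i : FN (M * q * q) Qb) : LaurentSeries Qb).coeff n
        ∈ fixK A := fun i k =>
      inertiaFixed_iff.mp (mul_mem (pow_mem aM_xch_mem_ratFld k) (hf i)) n
    let φ : FN (M * q * q) Qb →ₗ[Qb] Qb :=
      { toFun := fun g => (g : LaurentSeries Qb).coeff n
        map_add' := fun g g' => by
          change ((g : LaurentSeries Qb) + (g' : LaurentSeries Qb)).coeff n = _
          rw [HahnSeries.coeff_add]
        map_smul' := fun a g => by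
          change ((a • g : FN (M * q * q) Qb) : LaurentSeries Qb).coeff n = a • _
          rw [Algebra.smul_def,
            show ((algebraMap Qb (FN (M * q * q) Qb) a * g : FN (M * q * q) Qb) :
            LaurentSeries Qb) = algebraMap Qb (LaurentSeries Qb) a *
              (g : LaurentSeries Qb) from rfl,
            ← Fermat.RED.laurent_smul_def, HahnSeries.coeff_smul] }
    have hsum : ∀ g : ι → ℕ → Qb, φ (∑ i, (∑ k ∈ Finset.range d,
        algebraMap Qb _ (g i k) * x ^ k) * f i) =
        ∑ i, ∑ k ∈ Finset.range d, g i k *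
          ((x ^ k * f i : FN (M * q * q) Qb) : LaurentSeries Qb).coeff n := fun g => by
      rw [map_sum]
      refine Finset.sum_congr rfl fun i _ => ?_
      rw [Finset.sum_mul, map_sum]
      refine Finset.sum_congr rfl fun k _ => ?_
      rw [mul_assoc (algebraMap Qb (FN (M * q * q) Qb) (g i k)), ← Algebra.smul_def, map_smul,
        smul_eq_mul]
      rfl
    change φ (∑ i, (∑ k ∈ Finset.range d, algebraMap Qb _ (c i k : Qb) * x ^ k) * f i) = 0
    rw [hsum]
    have h0 : φ (∑ i, (∑ k ∈ Finset.range d, algebraMap Qb _ ((P i).coeff k) * x ^ k) *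
        f i) = 0 := by
      refine Eq.trans (congrArg φ ?_) (map_zero φ)
      rw [← hrel]
      refine Finset.sum_congr rfl fun i _ => ?_
      rw [aeval_eq_sum_range' (hd i)]
      simp only [Algebra.smul_def]
    rw [hsum] at h0
    have h1 := congrArg (fun z : Qb => (lam z : Qb)) h0
    simp only [map_sum, map_zero, ZeroMemClass.coe_zero] at h1
    refine Eq.trans ?_ h1
    rw [AddSubmonoidClass.coe_finsetSum]
    refine Finset.sum_congr rfl fun i _ => ?_
    rw [AddSubmonoidClass.coe_finsetSum]
    refine Finset.sum_congr rfl fun k _ => ?_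
    have hs : (P i).coeff k * ((x ^ k * f i : FN (M * q * q) Qb) : LaurentSeries Qb).coeff n =
        (⟨_, hcoe i k⟩ : fixK A) • (P i).coeff k := mul_comm _ _
    rw [hs, map_smul]
    exact mul_comm _ _

end Fermat.CAR

end
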