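import Fermat.Agent.CAR.Base
import Mathlib.LinearAlgebra.Dimension.Finite

/-!
# The rings of rational integral functions are noetherian

The invariant functions form a finite extension of the fractions of `O0[x]`, as independence over
the fixed field persists over all constants; so the integral closure is finite over `O0[x]`.
-/

set_option autoImplicit false

attribute [local instance 10000] SubalgebraClass.toAlgebra HahnSeries.powerSeriesAlgebra

noncomputable section

open Polynomial IntermediateField

namespace Fermat.CAR

open Fermat.MC Fermat.RED.Model Fermat.EC.Val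

local notation "Qb" => AlgebraicClosure ℚ

variable (M q : ℕ) [NeZero M] [NeZero q] (A : ValuationSubring (AlgebraicClosure ℚ)) (b : Bool)
variable (hq : q.Prime) (hqM : ¬ q ∣ M)
variable [Fact q.Prime] [IsAlgClosed (IsLocalRing.ResidueField A)]
variable [CharP (IsLocalRing.ResidueField A) q] (h : IsPlace A q)
variable [FF.IsFunctionField Qb (FN M Qb)] [FF.IsFunctionField Qb (FN (M * q) Qb)]
  [FF.IsFunctionField Qb (FN (M * q * q) Qb)]

/-- Polynomials over `O0` as invariant functions. -/
def ratPoly : (O0 A)[X] →+* ratFld M q A :=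
  (bPoly M q A b).codRestrict (ratFld M q A) fun P => (bPoly_mem P).1

include hq hqM h

omit hqM in
/-- Boundedly many invariant functions are independent over the polynomials in the base function. -/
theorem exists_finrank_bound : ∃ d : ℕ, ∀ s : Finset (ratFld M q A),
    (∀ Q : ↥s → (O0 A)[X],
      ∑ i, bPoly M q A b (Q i) * ((i : ratFld M q A) : FN (M * q * q) Qb) = 0 → Q = 0) →
    s.card ≤ d := by
  classical
  set x := aM M q (xch M b)
  have hx : Transcendental Qb x := transcendental_aM_xch
  have := FF.finiteDimensional_adjoin (K := Qb) hx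
  refine ⟨Module.finrank Qb⟮x⟯ (FN (M * q * q) Qb), fun s hs => ?_⟩
  -- such functions are independent over `Qb⟮x⟯`
  have hli : LinearIndependent Qb⟮x⟯
      (fun i : ↥s => ((i : ratFld M q A) : FN (M * q * q) Qb)) := by
    rw [Fintype.linearIndependent_iff]
    intro g hg
    have hPR : ∀ i, ∃ P R : Qb[X], (g i : FN (M * q * q) Qb) = aeval x P / aeval x R ∧
        aeval x R ≠ 0 := fun i => by
      obtain ⟨P, R, e⟩ := (mem_adjoin_simple_iff Qb (g i : FN (M * q * q) Qb)).mp (g i).2
      rcases eq_or_ne (aeval x R) 0 with h0 | h0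
      · refine ⟨0, 1, ?_, by simp⟩
        rw [e, h0, div_zero]; simp
      · exact ⟨P, R, e, h0⟩
    choose P R hg' hR using hPR
    -- clear the denominators
    set S : ↥s → Qb[X] := fun i => P i * ∏ j ∈ Finset.univ.erase i, R j
    have hS : ∀ i, aeval x (S i) = (g i : FN (M * q * q) Qb) * ∏ j, aeval x (R j) := fun i => by
      rw [← Finset.mul_prod_erase _ _ (Finset.mem_univ i), hg', map_mul, map_prod, ← mul_assoc,
        div_mul_cancel₀ _ (hR i)]
    have hrel : ∑ i, aeval x (S i) * ((i : ratFld M q A) : FN (M * q * q) Qb) = 0 := by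
      have h1 : ∑ i, (g i : FN (M * q * q) Qb) * ((i : ratFld M q A) : FN (M * q * q) Qb) = 0 := hg
      refine Eq.trans (Finset.sum_congr rfl fun i _ => ?_)
        ((Finset.sum_mul _ _ _).symm.trans (mul_eq_zero_of_left h1 (∏ j, aeval x (R j))))
      rw [hS i]
      ring
    intro i
    by_contra hi
    -- a relation over `Qb[X]` gives one with integral coefficients
    obtain ⟨Q, ⟨j, hj⟩, hQ⟩ := exists_bPoly_relation hq h
      (f := fun i : ↥s => ((i : ratFld M q A) : FN (M * q * q) Qb)) (fun i => (i : ratFld M q A).2)
      (P := S) ⟨i, fun h0 => hi (Subtype.ext (by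
        have := hS i
        rw [h0, map_zero, eq_comm, mul_eq_zero] at this
        exact this.resolve_right (Finset.prod_ne_zero_iff.mpr fun j _ => hR j)))⟩ hrel
    exact hj (congrFun (hs Q hQ) j)
  simpa using hli.fintype_card_le_finrank

omit hqM in
/-- The ring of invariant functions integral over `O0[x]` is noetherian. -/
theorem isNoetherianRing_Bx : IsNoetherianRing (Bx M q A b) := by
  classical
  have := isPrincipalIdealRing_O0 h
  let := (ratPoly M q A b).toAlgebra
  have hinj : Function.Injective (algebraMap (O0 A)[X] (ratFld M q A)) := fun P P' e =>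
    bPoly_injective (congrArg Subtype.val e)
  let : Algebra (FractionRing (O0 A)[X]) (ratFld M q A) :=
    (IsFractionRing.lift (K := FractionRing (O0 A)[X]) hinj).toAlgebra
  have : IsScalarTower (O0 A)[X] (FractionRing (O0 A)[X]) (ratFld M q A) :=
    IsScalarTower.of_algebraMap_eq fun P => (IsFractionRing.lift_algebraMap hinj P).symm
  -- the rational field is finite over the fraction field of the polynomial ring
  obtain ⟨d, hd⟩ := exists_finrank_bound M q A b hq h
  have : FiniteDimensional (FractionRing (O0 A)[X]) (ratFld M q A) := by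
    refine Module.rank_lt_aleph0_iff.mp (lt_of_le_of_lt (rank_le (n := d) fun s hs =>
      hd s fun Q hQ => funext fun i => ?_) Cardinal.natCast_lt_aleph0)
    have h0 : ∑ i, algebraMap (O0 A)[X] (FractionRing (O0 A)[X]) (Q i) •
        (i : ratFld M q A) = 0 := by
      refine Subtype.ext ?_
      rw [AddSubmonoidClass.coe_finsetSum]
      refine Eq.trans (Finset.sum_congr rfl fun j _ => ?_) hQ
      rw [Algebra.smul_def, ← IsScalarTower.algebraMap_apply]
      rfl
    exact IsFractionRing.injective (O0 A)[X] (FractionRing (O0 A)[X])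
      ((Fintype.linearIndependent_iff.mp hs _ h0 i).trans (map_zero _).symm)
  have : CharZero (ratFld M q A) := (ratFld M q A).subtype.charZero
  have : CharZero (FractionRing (O0 A)[X]) :=
    (IsFractionRing.lift (K := FractionRing (O0 A)[X]) hinj).charZero
  -- so the integral closure of the polynomial ring in it is Noetherian
  have : IsNoetherianRing (integralClosure (O0 A)[X] (ratFld M q A)) :=
    IsIntegralClosure.isNoetherianRing (O0 A)[X] (FractionRing (O0 A)[X]) (ratFld M q A)
      (integralClosure (O0 A)[X] (ratFld M q A))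
  have hhom : (ratFld M q A).subtype.comp (algebraMap (O0 A)[X] (ratFld M q A)) =
      bPoly M q A b := RingHom.ext fun _ => rfl
  -- the integral closure lies in the chart
  have hmem : ∀ z : integralClosure (O0 A)[X] (ratFld M q A),
      ((z : ratFld M q A) : FN (M * q * q) Qb) ∈ Bx M q A b := fun z => by
    refine ⟨(z : ratFld M q A).2, ?_⟩
    obtain ⟨P, hP, hPz⟩ := z.2
    refine mem_chart_of_root (P := P.map ((bPoly M q A b).codRestrict _ fun D => (bPoly_mem D).2))
      (hP.map _) ?_
    rw [eval₂_map]
    refine Eq.trans ?_ ((congrArg (ratFld M q A).subtype hPz).trans (map_zero _))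
    rw [hom_eval₂, hhom]
    rfl
  refine isNoetherianRing_of_surjective _ _
    (((ratFld M q A).subtype.comp
      (integralClosure (O0 A)[X] (ratFld M q A)).val.toRingHom).codRestrict (Bx M q A b) hmem) ?_
  -- and every element of the chart is integral
  rintro ⟨f, hf⟩
  obtain ⟨P, hP, hPf⟩ := isIntegralElem_bPoly hf.2
  have hint : IsIntegral (O0 A)[X] (⟨f, hf.1⟩ : ratFld M q A) := by
    refine ⟨P, hP, (ratFld M q A).subtype.injective ?_⟩
    rw [hom_eval₂, hhom, map_zero]
    exact hPf
  exact ⟨⟨⟨f, hf.1⟩, hint⟩, rfl⟩

end Fermat.CAR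

end
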