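import Fermat.Agent.CAR.Field
import Fermat.Agent.BAD.X0.TorsionAux

/-!
# Norms from level `M q²` to level `M q`

The two norms through the expansions, and their compatibility with a change of the level away
from `q`.
-/

set_option autoImplicit false

attribute [local instance 10000] SubalgebraClass.toAlgebra HahnSeries.powerSeriesAlgebra

noncomputable section

open ModularCurve AlgebraicCurve

namespace Fermat.CAR

open Fermat.FF Fermat.MC Fermat.JAC Fermat.JAC.X0 Fermat.RED Fermat.BAD.X0

local notation "Qb" => AlgebraicClosure ℚ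

variable (M q : ℕ) [NeZero M] [NeZero q] (hq : q.Prime) (hqM : ¬ q ∣ M)

/-- The first map has degree `q`. -/
theorem finrankAlong_alpha2 (hq : q.Prime) :
    finrankAlong Qb (heckeAlphaBar Qb (M * q) q) = q :=
  finrankAlong_alpha_mul_dvd (M * q) q hq (dvd_mul_left q M)

include hq hqM in
/-- The second map has degree `q`. -/
theorem finrankAlong_beta2 : finrankAlong Qb (heckeBetaBar Qb (M * q) q) = q := by
  refine Eq.trans ?_ (finrankAlong_alpha2 M q hq)
  exact @Algebra.finrank_eq_of_equiv_equiv _ _ _ _ (algebraAlong (heckeBetaBar Qb (M * q) q))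
    _ _ _ _ (algebraAlong (heckeAlphaBar Qb (M * q) q)) (alW M q hq hqM).toRingEquiv
    (alW2 M q hq hqM).toRingEquiv (RingHom.ext fun g => (alW2_beta M q hq hqM g).symm)

/-- The expansions over the expansion at `∞` of level `M q`, along the first map. -/
def brAlpha (i : Fin q) : FN (M * q * q) Qb →+* LaurentSeries Qb :=
  if hi : i = 0 then (FN (M * q * q) Qb).val.toRingHom else br11 M q hq hqM hi

/-- The expansion of index `0` along the first map is that at `∞`. -/
theorem brAlpha_zero : brAlpha M q hq hqM 0 = (FN (M * q * q) Qb).val.toRingHom := dif_pos rfl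

/-- The other expansions along the first map are intermediate. -/
theorem brAlpha_of_ne {i : Fin q} (hi : i ≠ 0) : brAlpha M q hq hqM i = br11 M q hq hqM hi :=
  dif_neg hi

/-- All these expansions agree on the first copy. -/
theorem brAlpha_alpha (i : Fin q) (g : FN (M * q) Qb) :
    brAlpha M q hq hqM i (heckeAlphaBar Qb (M * q) q g) = (g : LaurentSeries Qb) := by
  rcases eq_or_ne i 0 with rfl | hi
  · rw [brAlpha_zero]; exact coe_heckeAlphaBar (M * q) q g
  · rw [brAlpha_of_ne M q hq hqM hi, br11_alpha]

/-- The branches over `α` are distinct. -/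
theorem brAlpha_injective : Function.Injective (brAlpha M q hq hqM) := fun i k h => by
  have hv : ∀ i : Fin q, (brAlpha M q hq hqM i
      (heckeBetaBar Qb (M * q) q (heckeBetaBar Qb M q (jL M Qb)))).coeff (-1) =
      if i = 0 then 0 else ((zetaQ q : Qb) ^ (i : ℕ))⁻¹ := by
    intro i
    rcases eq_or_ne i 0 with rfl | hi
    · rw [brAlpha_zero, if_pos rfl]
      change (((heckeBetaBar Qb (M * q) q _ : FN (M * q * q) Qb)) : LaurentSeries Qb).coeff (-1) = 0
      rw [coe_heckeBetaBar]
      refine qExpand_coeff_of_not_dvd q _ fun h' => ?_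
      have h2 := Int.le_of_dvd one_pos (Int.dvd_neg.mp h')
      have := hq.one_lt
      omega
    · rw [brAlpha_of_ne M q hq hqM hi, if_neg hi, br11_beta, emb_false_beta, coe_jL, twist_coeff,
        coeff_jqModC_neg_one, mul_one, zpow_neg, zpow_one, Units.val_inv_eq_inv_val,
        Units.val_pow_eq_pow_val]
  have h1 := congrArg (fun e : FN (M * q * q) Qb →+* LaurentSeries Qb =>
    (e (heckeBetaBar Qb (M * q) q (heckeBetaBar Qb M q (jL M Qb)))).coeff (-1)) h
  simp only [hv] at h1
  by_cases hi : i = 0 <;> by_cases hk : k = 0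
  · rw [hi, hk]
  · rw [if_pos hi, if_neg hk] at h1
    exact absurd h1.symm (inv_ne_zero (pow_ne_zero _ (zetaQ q).ne_zero))
  · rw [if_neg hi, if_pos hk] at h1
    exact absurd h1 (inv_ne_zero (pow_ne_zero _ (zetaQ q).ne_zero))
  · rw [if_neg hi, if_neg hk] at h1
    exact Fin.ext ((zetaQ_spec q).pow_inj i.2 k.2 (inv_injective h1))

/-- The norm along the first map at `∞`. -/
theorem coe_normAlpha (f : FN (M * q * q) Qb) :
    ((normAlong (heckeAlphaBar Qb (M * q) q) f : FN (M * q) Qb) : LaurentSeries Qb) =
      ∏ i, brAlpha M q hq hqM i f := by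
  have : IsFunctionField Qb (FN (M * q) Qb) := MC.isFunctionField_FN (M * q) embC
  have : IsFunctionField Qb (FN (M * q * q) Qb) := MC.isFunctionField_FN (M * q * q) embC
  exact normAlong_eq_prod (heckeAlphaBar Qb (M * q) q) (FN (M * q) Qb).val.toRingHom
    (brAlpha M q hq hqM) (brAlpha_alpha M q hq hqM) (brAlpha_injective M q hq hqM)
    (by rw [Fintype.card_fin, finrankAlong_alpha2 M q hq]) f

/-- The twisted opposite expansions of a pull-back along the first map agree. -/
theorem twist_br02_alpha (i : Fin q) (g : FN (M * q) Qb) :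
    twist (zpw q (zetaQ q) i) (br02 M q hq hqM (heckeAlphaBar Qb (M * q) q g)) =
      qExpand Qb q (emb M q hq hqM false g) := by
  rw [br02_alpha, twist_qExpand, zpw_pow, twist_one_apply]

/-- The norm along the first map at the opposite cusp of level `M q`. -/
theorem qExpand_emb_false_normAlpha (f : FN (M * q * q) Qb) :
    qExpand Qb q (emb M q hq hqM false (normAlong (heckeAlphaBar Qb (M * q) q) f)) =
      ∏ i, twist (zpw q (zetaQ q) i) (br02 M q hq hqM f) := by
  have : IsFunctionField Qb (FN (M * q) Qb) := MC.isFunctionField_FN (M * q) embC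
  have : IsFunctionField Qb (FN (M * q * q) Qb) := MC.isFunctionField_FN (M * q * q) embC
  refine normAlong_eq_prod (heckeAlphaBar Qb (M * q) q)
    ((qExpand Qb q).comp (emb M q hq hqM false))
    (fun i => (twist (zpw q (zetaQ q) i)).comp (br02 M q hq hqM)) (fun i g => ?_) (fun i k h => ?_)
    (by rw [Fintype.card_fin, finrankAlong_alpha2 M q hq]) f
  · exact twist_br02_alpha M q hq hqM i g
  · have h1 := congrArg (fun e : FN (M * q * q) Qb →+* LaurentSeries Qb =>
      (e (heckeBetaBar Qb (M * q) q (heckeBetaBar Qb M q (jL M Qb)))).coeff (-1)) h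
    simp only [RingHom.comp_apply, br02_beta, emb_false_beta, coe_jL, twist_coeff,
      coeff_jqModC_neg_one, mul_one, zpow_neg, zpow_one, Units.val_inv_eq_inv_val,
      Units.val_pow_eq_pow_val] at h1
    exact Fin.ext ((zetaQ_spec q).pow_inj i.2 k.2 (inv_injective h1))

include hq hqM in
/-- The norm along the second map at `∞`. -/
theorem qExpand_normBeta (f : FN (M * q * q) Qb) :
    qExpand Qb q ((normAlong (heckeBetaBar Qb (M * q) q) f : FN (M * q) Qb) : LaurentSeries Qb) =
      ∏ i, twist (zpw q (zetaQ q) i) (f : LaurentSeries Qb) := by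
  have : IsFunctionField Qb (FN (M * q) Qb) := MC.isFunctionField_FN (M * q) embC
  have : IsFunctionField Qb (FN (M * q * q) Qb) := MC.isFunctionField_FN (M * q * q) embC
  refine normAlong_eq_prod (heckeBetaBar Qb (M * q) q)
    ((qExpand Qb q).comp (FN (M * q) Qb).val.toRingHom)
    (fun i => (twist (zpw q (zetaQ q) i)).comp (FN (M * q * q) Qb).val.toRingHom)
    (fun i g => ?_) (fun i k h => ?_)
    (by rw [Fintype.card_fin, finrankAlong_beta2 M q hq hqM]) f
  · change twist _ (((heckeBetaBar Qb (M * q) q g : FN (M * q * q) Qb)) : LaurentSeries Qb) = _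
    rw [coe_heckeBetaBar, twist_qExpand, zpw_pow, twist_one_apply]
    rfl
  · have h1 := congrArg (fun e : FN (M * q * q) Qb →+* LaurentSeries Qb =>
      (e (heckeAlphaBar Qb (M * q) q (heckeAlphaBar Qb M q (jL M Qb)))).coeff (-1)) h
    simp only [RingHom.comp_apply, AlgHom.toRingHom_eq_coe, RingHom.coe_coe,
      IntermediateField.coe_val, coe_heckeAlphaBar, coe_jL, twist_coeff, coeff_jqModC_neg_one,
      mul_one, zpow_neg, zpow_one, Units.val_inv_eq_inv_val, Units.val_pow_eq_pow_val] at h1
    exact Fin.ext ((zetaQ_spec q).pow_inj i.2 k.2 (inv_injective h1))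

/-- The expansions over the opposite cusp of level `M q`, along the second map. -/
def brBeta (i : Fin q) : FN (M * q * q) Qb →+* LaurentSeries Qb :=
  if hi : i = 0 then br02 M q hq hqM
  else (twist (zpw q (zetaQ q) (-i))).comp (br11 M q hq hqM hi)

/-- The expansion of index `0` along the second map is the opposite one. -/
theorem brBeta_zero : brBeta M q hq hqM 0 = br02 M q hq hqM := dif_pos rfl

/-- The other expansions along the second map are twisted intermediate ones. -/
theorem brBeta_of_ne {i : Fin q} (hi : i ≠ 0) :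
    brBeta M q hq hqM i = (twist (zpw q (zetaQ q) (-i))).comp (br11 M q hq hqM hi) :=
  dif_neg hi

/-- The norm along the second map at the opposite cusp of level `M q`. -/
theorem emb_false_normBeta (f : FN (M * q * q) Qb) :
    emb M q hq hqM false (normAlong (heckeBetaBar Qb (M * q) q) f) = ∏ i,
    brBeta M q hq hqM i f := by
  have : IsFunctionField Qb (FN (M * q) Qb) := MC.isFunctionField_FN (M * q) embC
  have : IsFunctionField Qb (FN (M * q * q) Qb) := MC.isFunctionField_FN (M * q * q) embC
  refine normAlong_eq_prod (heckeBetaBar Qb (M * q) q) (emb M q hq hqM false)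
    (brBeta M q hq hqM) (fun i g => ?_) (fun i k h => ?_)
    (by rw [Fintype.card_fin, finrankAlong_beta2 M q hq hqM]) f
  · rcases eq_or_ne i 0 with rfl | hi
    · rw [brBeta_zero, br02_beta]
    · rw [brBeta_of_ne M q hq hqM hi, RingHom.comp_apply, br11_beta, twist_twist, mul_comm,
        zpw_mul_neg, twist_one_apply]
  · have hv : ∀ i : Fin q, (brBeta M q hq hqM i
        (heckeAlphaBar Qb (M * q) q (heckeAlphaBar Qb M q (jL M Qb)))).coeff (-1) =
        if i = 0 then 0 else ((zetaQ q : Qb) ^ ((-i : Fin q) : ℕ))⁻¹ := by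
      intro i
      rcases eq_or_ne i 0 with rfl | hi
      · rw [brBeta_zero, if_pos rfl, br02_alpha]
        refine qExpand_coeff_of_not_dvd q _ fun h' => ?_
        have h2 := Int.le_of_dvd one_pos (Int.dvd_neg.mp h')
        have := hq.one_lt
        omega
      · rw [brBeta_of_ne M q hq hqM hi, RingHom.comp_apply, if_neg hi, br11_alpha,
          coe_heckeAlphaBar, coe_jL, twist_coeff, coeff_jqModC_neg_one, mul_one, zpow_neg, zpow_one,
          Units.val_inv_eq_inv_val, Units.val_pow_eq_pow_val]
    have h1 := congrArg (fun e : FN (M * q * q) Qb →+* LaurentSeries Qb =>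
      (e (heckeAlphaBar Qb (M * q) q (heckeAlphaBar Qb M q (jL M Qb)))).coeff (-1)) h
    simp only [hv] at h1
    by_cases hi : i = 0 <;> by_cases hk : k = 0
    · rw [hi, hk]
    · rw [if_pos hi, if_neg hk] at h1
      exact absurd h1.symm (inv_ne_zero (pow_ne_zero _ (zetaQ q).ne_zero))
    · rw [if_neg hi, if_pos hk] at h1
      exact absurd h1 (inv_ne_zero (pow_ne_zero _ (zetaQ q).ne_zero))
    · rw [if_neg hi, if_neg hk] at h1
      exact neg_injective
        (Fin.ext ((zetaQ_spec q).pow_inj (-i).2 (-k).2 (inv_injective h1)))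

section LevelChange

variable {M} {M' : ℕ} [NeZero M'] (hqM' : ¬ q ∣ M') (h : M * q ∣ M' * q)
  (h2 : M * q * q ∣ M' * q * q)

include hq hqM hqM' h in
/-- The branches over `α` commute with a change of level away from `q`. -/
theorem brAlpha_inclN (i : Fin q) (f : FN (M * q * q) Qb) :
    brAlpha M' q hq hqM' i (inclN h2 f) = brAlpha M q hq hqM i f := by
  refine DFunLike.congr_fun (hom_ext M q hq
    (φ := (brAlpha M' q hq hqM' i).comp (inclN h2).toRingHom)
    (ψ := brAlpha M q hq hqM i) (fun g => ?_) fun g => ?_) f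
  · change brAlpha M' q hq hqM' i (inclN h2 (heckeAlphaBar Qb (M * q) q g)) = _
    rw [show inclN h2 (heckeAlphaBar Qb (M * q) q g) =
      heckeAlphaBar Qb (M' * q) q (inclN h g) from Subtype.ext (by
        rw [coe_inclN, coe_heckeAlphaBar, coe_heckeAlphaBar, coe_inclN]),
      brAlpha_alpha, brAlpha_alpha, coe_inclN]
  · change brAlpha M' q hq hqM' i (inclN h2 (heckeBetaBar Qb (M * q) q g)) = _
    have hg : inclN h2 (heckeBetaBar Qb (M * q) q g) =
        heckeBetaBar Qb (M' * q) q (inclN h g) := Subtype.ext (by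
      rw [coe_inclN, coe_heckeBetaBar, coe_heckeBetaBar, coe_inclN])
    rcases eq_or_ne i 0 with rfl | hi
    · rw [brAlpha_zero, brAlpha_zero]
      exact coe_inclN h2 _
    · rw [hg, brAlpha_of_ne M' q hq hqM' hi, brAlpha_of_ne M q hq hqM hi, br11_beta, br11_beta,
        emb_inclN hq hqM hqM' h]

include hq hqM hqM' in
/-- The first norm commutes with a change of the level away from `q`. -/
theorem normAlpha_inclN (f : FN (M * q * q) Qb) :
    normAlong (heckeAlphaBar Qb (M' * q) q) (inclN h2 f) =
      inclN h (normAlong (heckeAlphaBar Qb (M * q) q) f) := by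
  refine Subtype.ext ?_
  rw [coe_inclN, coe_normAlpha M' q hq hqM', coe_normAlpha M q hq hqM]
  exact Finset.prod_congr rfl fun i _ => brAlpha_inclN q hq hqM hqM' h h2 i f

include hq hqM hqM' in
/-- The second norm commutes with a change of the level away from `q`. -/
theorem normBeta_inclN (f : FN (M * q * q) Qb) :
    normAlong (heckeBetaBar Qb (M' * q) q) (inclN h2 f) =
      inclN h (normAlong (heckeBetaBar Qb (M * q) q) f) := by
  refine Subtype.ext ((qExpand Qb q).injective ?_)
  rw [qExpand_normBeta M' q hq hqM', coe_inclN, coe_inclN, qExpand_normBeta M q hq hqM]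

end LevelChange

end Fermat.CAR

end
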