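import Fermat.Agent.CAR.Series
import Fermat.Agent.CAR.Norm
import Fermat.Agent.BAD.Inst.Galois

/-!
# The three Gauss valuations of level `M q²`

Every function has an order on each of the three kinds of branches; on functions with coefficients
fixed by inertia the orders on the two outer branches are integers and the order on the middle one
does not depend on the branch chosen.
-/

set_option autoImplicit false
set_option linter.unusedSectionVars false

attribute [local instance 10000] SubalgebraClass.toAlgebra HahnSeries.powerSeriesAlgebra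

noncomputable section

open ModularCurve AlgebraicCurve

namespace Fermat.CAR

open Fermat.MC Fermat.JAC.X0 Fermat.RED Fermat.RED.Model Fermat.BAD.X0 Fermat.EC.Val

local notation "Qb" => AlgebraicClosure ℚ
local notation "Γℚ" => (AlgebraicClosure ℚ ≃ₐ[ℚ] AlgebraicClosure ℚ)

/-- The three kinds of branches. -/
inductive Br : Type
  /-- The branch of the expansion at `∞`. -/
  | low
  /-- The branch of an intermediate expansion. -/
  | mid
  /-- The branch of the expansion at `∞` after the involution. -/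
  | top
  deriving DecidableEq

/-- There are three kinds of branches. -/
instance : Fintype Br := ⟨{.low, .mid, .top}, fun C => by cases C <;> simp⟩

section SeriesExtra

variable {A : ValuationSubring (AlgebraicClosure ℚ)}

/-- Twisting by a `q`-th root of unity preserves tameness. -/
theorem tame_twist {q : ℕ} [Fact q.Prime]
    [CharP (IsLocalRing.ResidueField A) q] {ζ : Qbˣ} (hζ : ζ ^ q = 1) {z : LaurentSeries Qb}
    (hz : Tame A z) : Tame A (twist ζ z) := by
  obtain ⟨⟨L₁, hfin, hL⟩, a, ha, y, hy⟩ := hz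
  have := hfin
  have : FiniteDimensional ℚ (IntermediateField.adjoin ℚ ({(ζ : Qb)} : Set Qb)) :=
    IntermediateField.adjoin.finiteDimensional (Algebra.IsIntegral.isIntegral _)
  refine ⟨⟨L₁ ⊔ IntermediateField.adjoin ℚ {(ζ : Qb)}, inferInstance, fun n => ?_⟩, a, ha, ?_⟩
  · rw [twist_coeff]
    refine mul_mem ?_ (SetLike.le_def.mp le_sup_left (hL n))
    rw [Units.val_zpow_eq_zpow_val]
    exact zpow_mem (SetLike.le_def.mp le_sup_right (IntermediateField.mem_adjoin_simple_self ℚ _)) n
  · obtain ⟨y', hy', -⟩ := (redCompat_twist (A := A) hζ).lift y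
    refine ⟨y', ?_⟩
    rw [← hy', hy, map_mul]
    congr 1
    rw [algebraMap_laurentSeries_eq_single]
    ext n
    rw [twist_coeff]
    rcases eq_or_ne n 0 with rfl | hn
    · simp
    · rw [HahnSeries.coeff_single_of_ne hn, mul_zero]

/-- Twisting the variable by a `q`-th root of unity does not change the reduction. -/
theorem sR_twist {q : ℕ} [Fact q.Prime] [CharP (IsLocalRing.ResidueField A) q] {ζ : Qbˣ}
    (hζ : ζ ^ q = 1) {z : LaurentSeries Qb} (hz : z ∈ gS A) :
    sR A ⟨twist ζ z, (redCompat_twist hζ).map_mem hz⟩ = sR A ⟨z, hz⟩ :=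
  (redCompat_twist hζ).sR_map hz

/-- Inertia preserves the Gauss valuation of a series. -/
theorem gIs_inertia {q : ℕ} (h : IsPlace A q) {σ : Γℚ} (hσ : σ ∈ A.inertiaSubgroupIn ℚ)
    {z : LaurentSeries Qb} {r : ℚ} (hz : GIs A q z r) :
    GIs A q (coeffMap (σ : Qb →+* Qb) z) r := by
  obtain ⟨c, p, hc, hr, hp, rfl⟩ := hz
  refine ⟨σ c, coeffMap (σ : Qb →+* Qb) p, (map_ne_zero σ).mpr hc, ?_,
    (redCompat_inertia hσ).prim hp, ?_⟩
  · rw [(isInert_of_mem_inertia hσ).ord_apply h, hr]
  · rw [map_mul, coeffMap_algebraMap]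
    rfl

/-- Twisting by a `q`-th root of unity preserves the Gauss valuation. -/
theorem gIs_twist {q : ℕ} [Fact q.Prime]
    [CharP (IsLocalRing.ResidueField A) q] {ζ : Qbˣ} (hζ : ζ ^ q = 1) {z : LaurentSeries Qb}
    {r : ℚ} (hz : GIs A q z r) : GIs A q (twist ζ z) r := by
  obtain ⟨c, p, hc, hr, hp, rfl⟩ := hz
  refine ⟨c, twist ζ p, hc, hr, (redCompat_twist hζ).prim hp, ?_⟩
  rw [map_mul]
  congr 1
  rw [algebraMap_laurentSeries_eq_single]
  ext n
  rw [twist_coeff]
  rcases eq_or_ne n 0 with rfl | hn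
  · simp
  · rw [HahnSeries.coeff_single_of_ne hn, mul_zero]

end SeriesExtra

variable (M q : ℕ) [NeZero M] [NeZero q] (hq : q.Prime) (hqM : ¬ q ∣ M)

include hq in
/-- `1` is not zero in `Fin q`. -/
theorem one_ne_zero_fin : (1 : Fin q) ≠ 0 := fun h => by
  have := congrArg Fin.val h
  rw [Fin.val_one', Fin.val_zero, Nat.mod_eq_of_lt hq.one_lt] at this
  exact one_ne_zero this

/-- The expansion on a branch of each kind. -/
def brC : Br → FN (M * q * q) Qb →+* LaurentSeries Qb
  | .low => (FN (M * q * q) Qb).val.toRingHom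
  | .mid => br11 M q hq hqM (one_ne_zero_fin q hq)
  | .top => br02 M q hq hqM

/-- The low branch is the expansion at `∞`. -/
theorem brC_low (f : FN (M * q * q) Qb) : brC M q hq hqM .low f = (f : LaurentSeries Qb) := rfl

/-- The middle branch is an intermediate expansion. -/
theorem brC_mid (f : FN (M * q * q) Qb) :
    brC M q hq hqM .mid f = br11 M q hq hqM (one_ne_zero_fin q hq) f := rfl

/-- The top branch is the expansion at `∞` of the image under the involution. -/
theorem brC_top (f : FN (M * q * q) Qb) :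
    brC M q hq hqM .top f = (alW2 M q hq hqM f : LaurentSeries Qb) := rfl

/-- The involution turns the top branch into the low one. -/
theorem brC_top_alW2 (f : FN (M * q * q) Qb) :
    brC M q hq hqM .top (alW2 M q hq hqM f) = brC M q hq hqM .low f :=
  br02_alW2 M q hq hqM f

/-- Every branch fixes the constants. -/
theorem brC_algebraMap (C : Br) (c : Qb) :
    brC M q hq hqM C (algebraMap Qb (FN (M * q * q) Qb) c) =
      algebraMap Qb (LaurentSeries Qb) c := by
  cases C
  · rfl
  · exact br11_algebraMap M q hq hqM (one_ne_zero_fin q hq) c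
  · exact br02_algebraMap M q hq hqM c

/-- The Galois action on coefficients at level `M q²`. -/
def gal2 (σ : Γℚ) : SemilinearAut Qb (FN (M * q * q) Qb) := galAut (M * q) q σ

/-- `gal2` acts on the coefficients of the expansion. -/
theorem coe_gal2 (σ : Γℚ) (f : FN (M * q * q) Qb) :
    ((gal2 M q σ • f : FN (M * q * q) Qb) : LaurentSeries Qb) =
      coeffMap (σ : Qb →+* Qb) (f : LaurentSeries Qb) :=
  coe_arithmeticGalois_smul _ σ f

/-- `gal2` acts on the constants by `σ`. -/
theorem gal2_algebraMap (σ : Γℚ) (c : Qb) :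
    gal2 M q σ • algebraMap Qb (FN (M * q * q) Qb) c = algebraMap Qb _ (σ c) :=
  galAut_algebraMap (M * q) q σ c

/-- The first map from level `M q` commutes with the Galois action. -/
theorem gal2_alpha (σ : Γℚ) (g : FN (M * q) Qb) :
    gal2 M q σ • heckeAlphaBar Qb (M * q) q g =
      heckeAlphaBar Qb (M * q) q (galAut M q σ • g) :=
  alpha_smul (M * q) q σ g

/-- The second map from level `M q` commutes with the Galois action. -/
theorem gal2_beta (σ : Γℚ) (g : FN (M * q) Qb) :
    gal2 M q σ • heckeBetaBar Qb (M * q) q g =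
      heckeBetaBar Qb (M * q) q (galAut M q σ • g) :=
  beta_smul (M * q) q σ g

/-- The inertia invariant functions of level `M q²`. -/
def ratFld (A : ValuationSubring (AlgebraicClosure ℚ)) : Subfield (FN (M * q * q) Qb) where
  carrier := {f | InertiaFixed A (f : LaurentSeries Qb)}
  one_mem' σ _ := map_one _
  mul_mem' {a b} ha hb σ hσ := by
    change coeffMap _ ((a : LaurentSeries Qb) * (b : LaurentSeries Qb)) = _
    rw [map_mul, ha σ hσ, hb σ hσ]
    rfl
  zero_mem' σ _ := map_zero _
  add_mem' {a b} ha hb σ hσ := by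
    change coeffMap _ ((a : LaurentSeries Qb) + (b : LaurentSeries Qb)) = _
    rw [map_add, ha σ hσ, hb σ hσ]
    rfl
  neg_mem' {a} ha σ hσ := by
    change coeffMap _ (-(a : LaurentSeries Qb)) = _
    rw [map_neg, ha σ hσ]
    rfl
  inv_mem' a ha σ hσ := by
    change coeffMap _ ((a : LaurentSeries Qb)⁻¹) = _
    rw [map_inv₀, ha σ hσ]
    rfl

variable {M q} {A : ValuationSubring (AlgebraicClosure ℚ)}

/-- Membership in `ratFld`: the expansion is fixed by inertia. -/
theorem mem_ratFld {f : FN (M * q * q) Qb} :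
    f ∈ ratFld M q A ↔ InertiaFixed A (f : LaurentSeries Qb) := Iff.rfl

/-- Membership in `ratFld`: inertia fixes the function. -/
theorem mem_ratFld_iff {f : FN (M * q * q) Qb} :
    f ∈ ratFld M q A ↔ ∀ σ ∈ A.inertiaSubgroupIn ℚ, gal2 M q σ • f = f := by
  refine ⟨fun hf σ hσ => Subtype.ext ?_, fun hf σ hσ => ?_⟩
  · rw [coe_gal2]; exact hf σ hσ
  · rw [← coe_gal2, hf σ hσ]

/-- Constants fixed by inertia lie in `ratFld`. -/
theorem algebraMap_mem_ratFld {c : Qb} (hc : c ∈ fixK A) :
    algebraMap Qb (FN (M * q * q) Qb) c ∈ ratFld M q A :=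
  mem_ratFld_iff.mpr fun σ hσ => by rw [gal2_algebraMap, mem_fixK.mp hc σ hσ]

/-- Natural numbers are fixed by inertia. -/
theorem natCast_mem_fixK (n : ℕ) : (n : Qb) ∈ fixK A := natCast_mem _ n

variable (M q)

/-- The action of Galois on a middle branch. -/
theorem coeffMap_br11 {σ : Γℚ} {i k : Fin q} (hi : i ≠ 0) (hk : k ≠ 0)
    (he : σ ((zpw q (zetaQ q) i : Qbˣ) : Qb) = ((zpw q (zetaQ q) k : Qbˣ) : Qb))
    (f : FN (M * q * q) Qb) :
    coeffMap (σ : Qb →+* Qb) (br11 M q hq hqM hi f) =
      br11 M q hq hqM hk (gal2 M q σ • f) :=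
  DFunLike.congr_fun (hom_ext M q hq
    (φ := (coeffMap (σ : Qb →+* Qb)).comp (br11 M q hq hqM hi))
    (ψ := (br11 M q hq hqM hk).comp (galHom (M * q) q σ))
    (fun g => by
      change coeffMap _ (br11 M q hq hqM hi _) = br11 M q hq hqM hk (gal2 M q σ • _)
      rw [gal2_alpha, br11_alpha, br11_alpha]
      exact (coe_arithmeticGalois_smul _ σ g).symm)
    fun g => by
      change coeffMap _ (br11 M q hq hqM hi _) = br11 M q hq hqM hk (gal2 M q σ • _)
      rw [gal2_beta, br11_beta, br11_beta, emb_galAut, coeffMap_twist]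
      congr 2
      refine Units.ext ?_
      exact he) f

/-- The involution commutes with the Galois action. -/
theorem gal2_alW2 (σ : Γℚ) (f : FN (M * q * q) Qb) :
    gal2 M q σ • alW2 M q hq hqM f = alW2 M q hq hqM (gal2 M q σ • f) :=
  DFunLike.congr_fun (hom_ext M q hq
    (φ := (galHom (M * q) q σ).comp (alW2 M q hq hqM).toAlgHom.toRingHom)
    (ψ := (alW2 M q hq hqM).toAlgHom.toRingHom.comp (galHom (M * q) q σ))
    (fun g => by
      change gal2 M q σ • alW2 M q hq hqM _ = alW2 M q hq hqM (gal2 M q σ • _)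
      rw [gal2_alpha, alW2_alpha, alW2_alpha, gal2_beta, galAut_alW])
    fun g => by
      change gal2 M q σ • alW2 M q hq hqM _ = alW2 M q hq hqM (gal2 M q σ • _)
      rw [gal2_beta, alW2_beta, alW2_beta, gal2_alpha, galAut_alW]) f

/-- The involution preserves `ratFld`. -/
theorem alW2_mem_ratFld {f : FN (M * q * q) Qb} (hf : f ∈ ratFld M q A) :
    alW2 M q hq hqM f ∈ ratFld M q A :=
  mem_ratFld_iff.mpr fun σ hσ => by rw [gal2_alW2, mem_ratFld_iff.mp hf σ hσ]

/-- Inertia permutes the middle branches transitively. -/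
theorem exists_inertia_zpw [Fact q.Prime] (hA : A.LiesOverPrime q) {i k : Fin q} (hi : i ≠ 0)
    (hk : k ≠ 0) : ∃ σ ∈ A.inertiaSubgroupIn ℚ,
      σ ((zpw q (zetaQ q) i : Qbˣ) : Qb) = ((zpw q (zetaQ q) k : Qbˣ) : Qb) := by
  have hne : ∀ l : Fin q, l ≠ 0 → ((l : ℕ) : ZMod q) ≠ 0 := fun l hl h0 => hl (Fin.ext (by
    rw [Fin.val_zero]
    exact Nat.eq_zero_of_dvd_of_lt ((ZMod.natCast_eq_zero_iff _ _).mp h0) l.2))
  obtain ⟨σ, hσ, hχ⟩ := Fermat.CFT.exists_mem_inertia_cycChar (q := q) hA
    (Units.mk0 _ (hne k hk) / Units.mk0 _ (hne i hi))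
  refine ⟨σ, hσ, ?_⟩
  have hz : ∀ l : Fin q, ((zpw q (zetaQ q) l : Qbˣ) : Qb) = (zetaQ q : Qb) ^ (l : ℕ) := fun l => by
    rw [zpw, Units.val_pow_eq_pow_val]
  rw [hz, hz, map_pow, Fermat.CFT.apply_eq_pow_cycChar σ (zetaQ_spec q).pow_eq_one, hχ, ← pow_mul]
  refine ((zetaQ_spec q).isOfFinOrder (NeZero.ne q)).pow_inj_mod.mpr ?_
  rw [← (zetaQ_spec q).eq_orderOf, ← ZMod.natCast_eq_natCast_iff', Nat.cast_mul,
    ZMod.natCast_zmod_val, Units.val_div_eq_div_val, Units.val_mk0, Units.val_mk0,
    div_mul_cancel₀ _ (hne i hi)]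

section Orders

variable [Fact q.Prime] [CharP (IsLocalRing.ResidueField A) q] (h : IsPlace A q)
include h

omit h in
/-- An integral expansion of a function of any level is tame. -/
theorem tame_coe {N : ℕ} (f : FN N Qb)
    (hf : (f : LaurentSeries Qb) ∈ intSeries A) : Tame A (f : LaurentSeries Qb) := by
  obtain ⟨L₀, hfin, hL⟩ := coeff_mem_of_fixed f
  have := hfin
  exact tame_of_int hf hL

omit h in
/-- The expansions of `j (d z)` on the three kinds of branches are tame. -/
theorem tame_brC_jdL (C : Br) (d : DivIdx (M * q * q)) :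
    Tame A (brC M q hq hqM C (jdL Qb d)) := by
  -- a divisor theta series in `FN N` is tame
  have hj : ∀ {N : ℕ} [NeZero N] (e : DivIdx N), Tame A ((jdL Qb e : FN N Qb) : LaurentSeries Qb) :=
    fun e => tame_coe _ (by rw [coe_jdL]; exact jb_mem _)
  cases C with
  | low => exact hj d
  | top =>
    rw [brC_top]
    refine tame_coe _ ?_
    show ((alW2 M q hq hqM (jdL Qb d) : FN (M * q * q) Qb) : LaurentSeries Qb) ∈ intSeries A
    -- `q ∣ d`: the series comes from level `M q` through the second degeneracy map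
    by_cases hd : q ∣ (d : ℕ)
    · obtain ⟨e, he⟩ := hd
      have hed : e ∣ M * q := by
        have h := d.dvd
        rw [he, mul_comm (M * q) q] at h
        exact Nat.dvd_of_mul_dvd_mul_left hq.pos h
      rw [show jdL Qb d = heckeBetaBar Qb (M * q) q
          (jdL Qb ⟨e, Nat.mem_divisors.mpr ⟨hed, NeZero.ne _⟩⟩) by
        rw [beta_jdL]
        exact congrArg (jdL Qb) (Subtype.ext (by change (d : ℕ) = e * q; rw [he, mul_comm])),
        alW2_beta, coe_heckeAlphaBar, alW_jdL, coe_jdL]
      exact jb_mem _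
    -- `q ∤ d`: it comes through the first
    · have hdd : (d : ℕ) ∣ M * q :=
        ((hq.coprime_iff_not_dvd.mpr hd).symm).dvd_of_dvd_mul_right d.dvd
      rw [show jdL Qb d = heckeAlphaBar Qb (M * q) q
          (jdL Qb ⟨d, Nat.mem_divisors.mpr ⟨hdd, NeZero.ne _⟩⟩) by
        rw [alpha_jdL]
        exact congrArg (jdL Qb) (Subtype.ext rfl),
        alW2_alpha, coe_heckeBetaBar, alW_jdL, coe_jdL, qExpand_qExpand]
      exact jb_mem _
  | mid =>
    rw [brC_mid]
    by_cases hd : q ∣ (d : ℕ)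
    · obtain ⟨e, he⟩ := hd
      have hed : e ∣ M * q := by
        have h := d.dvd
        rw [he, mul_comm (M * q) q] at h
        exact Nat.dvd_of_mul_dvd_mul_left hq.pos h
      rw [show jdL Qb d = heckeBetaBar Qb (M * q) q
          (jdL Qb ⟨e, Nat.mem_divisors.mpr ⟨hed, NeZero.ne _⟩⟩) by
        rw [beta_jdL]
        exact congrArg (jdL Qb) (Subtype.ext (by change (d : ℕ) = e * q; rw [he, mul_comm])),
        br11_beta, emb_false, alW_jdL]
      exact tame_twist (zpw_pow q _) (hj _)
    · have hdd : (d : ℕ) ∣ M * q :=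
        ((hq.coprime_iff_not_dvd.mpr hd).symm).dvd_of_dvd_mul_right d.dvd
      rw [show jdL Qb d = heckeAlphaBar Qb (M * q) q
          (jdL Qb ⟨d, Nat.mem_divisors.mpr ⟨hdd, NeZero.ne _⟩⟩) by
        rw [alpha_jdL]
        exact congrArg (jdL Qb) (Subtype.ext rfl), br11_alpha]
      exact hj _

omit h in
/-- The branches of a polynomial in the integral generators are tame. -/
theorem tame_brC_poly (C : Br) {P : FN (M * q * q) Qb} (hP : P ∈ polyAlg (M * q) q) :
    Tame A (brC M q hq hqM C P) := by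
  induction hP using Algebra.adjoin_induction with
  | mem x hx => obtain ⟨d, rfl⟩ := hx; exact tame_brC_jdL M q hq hqM C d
  | algebraMap c => rw [brC_algebraMap]; exact tame_algebraMap c
  | add x y _ _ hx hy => rw [map_add]; exact hx.add hy
  | mul x y _ _ hx hy => rw [map_mul]; exact hx.mul hy

/-- Every function has an order on every branch. -/
theorem exists_gIs (C : Br) {f : FN (M * q * q) Qb} (hf : f ≠ 0) :
    ∃ r, GIs A q (brC M q hq hqM C f) r := by
  obtain ⟨P, hP, Q, hQ, hQ0, e⟩ := exists_eq_div (M * q) q f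
  have hP0 : P ≠ 0 := e ▸ mul_ne_zero hf hQ0
  have he : brC M q hq hqM C f = brC M q hq hqM C P / brC M q hq hqM C Q := by
    rw [← e, map_mul, mul_div_cancel_right₀ _ ((map_ne_zero _).mpr hQ0)]
  rw [he]
  exact (tame_brC_poly M q hq hqM C hP).exists_gIs_div h (tame_brC_poly M q hq hqM C hQ)
    ((map_ne_zero _).mpr hP0) ((map_ne_zero _).mpr hQ0)

end Orders

open Classical in
/-- The order of a function on a branch (zero when there is none, as for the zero function). -/
def gv (A : ValuationSubring (AlgebraicClosure ℚ)) (C : Br) (f : FN (M * q * q) Qb) : ℚ :=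
  if hr : ∃ r, GIs A q (brC M q hq hqM C f) r then hr.choose else 0

section Orders

variable [Fact q.Prime] [CharP (IsLocalRing.ResidueField A) q] (h : IsPlace A q)
include h

/-- `gv` is the Gauss valuation of the expansion on the branch. -/
theorem gIs_gv (C : Br) {f : FN (M * q * q) Qb} (hf : f ≠ 0) :
    GIs A q (brC M q hq hqM C f) (gv M q hq hqM A C f) := by
  have hr := exists_gIs M q hq hqM h C hf
  rw [gv, dif_pos hr]
  exact hr.choose_spec

/-- `gv` is determined by any presentation of the expansion. -/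
theorem gv_eq {C : Br} {f : FN (M * q * q) Qb} {r : ℚ}
    (hr : GIs A q (brC M q hq hqM C f) r) : gv M q hq hqM A C f = r :=
  (gIs_gv M q hq hqM h C fun h0 => hr.ne_zero (by rw [h0, map_zero])).unique h hr

/-- `gv` is additive on products. -/
theorem gv_mul (C : Br) {f g : FN (M * q * q) Qb} (hf : f ≠ 0) (hg : g ≠ 0) :
    gv M q hq hqM A C (f * g) = gv M q hq hqM A C f + gv M q hq hqM A C g :=
  gv_eq M q hq hqM h (by
    rw [map_mul]; exact (gIs_gv M q hq hqM h C hf).mul h (gIs_gv M q hq hqM h C hg))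

/-- `gv` of an inverse is the negative. -/
theorem gv_inv (C : Br) {f : FN (M * q * q) Qb} (hf : f ≠ 0) :
    gv M q hq hqM A C f⁻¹ = -gv M q hq hqM A C f :=
  gv_eq M q hq hqM h (by rw [map_inv₀]; exact (gIs_gv M q hq hqM h C hf).inv h)

/-- `gv` of a power is the multiple. -/
theorem gv_pow (C : Br) {f : FN (M * q * q) Qb} (hf : f ≠ 0) (n : ℕ) :
    gv M q hq hqM A C (f ^ n) = n * gv M q hq hqM A C f :=
  gv_eq M q hq hqM h (by rw [map_pow]; exact (gIs_gv M q hq hqM h C hf).pow h n)

/-- `gv` of a constant is its order. -/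
theorem gv_algebraMap (C : Br) {c : Qb} (hc : c ≠ 0) :
    gv M q hq hqM A C (algebraMap Qb (FN (M * q * q) Qb) c) = ord A q c :=
  gv_eq M q hq hqM h (by rw [brC_algebraMap]; exact gIs_const hc)

/-- `gv` of `q` is `1`. -/
theorem gv_natCast_q (C : Br) : gv M q hq hqM A C (q : FN (M * q * q) Qb) = 1 := by
  rw [← map_natCast (algebraMap Qb (FN (M * q * q) Qb)),
    gv_algebraMap M q hq hqM h C (Nat.cast_ne_zero.mpr hq.ne_zero)]
  exact ord_q h

/-- The branch is defined at the generic point exactly when `gv` is not negative. -/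
theorem brC_mem_iff (C : Br) {f : FN (M * q * q) Qb} (hf : f ≠ 0) :
    brC M q hq hqM C f ∈ gS A ↔ 0 ≤ gv M q hq hqM A C f :=
  (gIs_gv M q hq hqM h C hf).mem_gS_iff h

/-- The branch has nonzero reduction exactly when `gv` is zero. -/
theorem prim_iff (C : Br) {f : FN (M * q * q) Qb} (hf : f ≠ 0) :
    Prim A (brC M q hq hqM C f) ↔ gv M q hq hqM A C f = 0 :=
  (gIs_gv M q hq hqM h C hf).prim_iff h

/-- The orders on all middle branches of a rational function agree. -/
theorem gIs_br11 {i : Fin q} (hi : i ≠ 0) {f : FN (M * q * q) Qb} (hf : f ≠ 0)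
    (hr : f ∈ ratFld M q A) :
    GIs A q (br11 M q hq hqM hi f) (gv M q hq hqM A .mid f) := by
  obtain ⟨σ, hσ, he⟩ := exists_inertia_zpw q h.2 (one_ne_zero_fin q hq) hi
  have h1 := coeffMap_br11 M q hq hqM (one_ne_zero_fin q hq) hi he f
  rw [mem_ratFld_iff.mp hr σ hσ] at h1
  rw [← h1]
  exact gIs_inertia h hσ (gIs_gv M q hq hqM h .mid hf)

omit h in
/-- An invariant function is a quotient of invariant members of the polynomial algebra of level
`M q`. -/
theorem exists_poly_fixed {f : FN (M * q * q) Qb} (hr : f ∈ ratFld M q A) :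
    ∃ P Q : FN (M * q * q) Qb, P ∈ ratFld M q A ∧ Q ∈ ratFld M q A ∧ P ∈ polyAlg (M * q) q ∧
      Q ∈ polyAlg (M * q) q ∧ Q ≠ 0 ∧ f * Q = P := by
  obtain ⟨P, hP, Q, hQ, hQ0, e⟩ := exists_eq_div (M * q) q f
  let ι : FN (M * q * q) Qb →ₗ[Qb] LaurentSeries Qb :=
    { toFun := fun g => (g : LaurentSeries Qb)
      map_add' := fun _ _ => rfl
      map_smul' := fun a g => by
        rw [Algebra.smul_def, RingHom.id_apply, Fermat.RED.laurent_smul_def]; rfl }
  -- the series of denominators of `f` in the polynomial algebra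
  let W : Submodule Qb (LaurentSeries Qb) :=
    ((Subalgebra.toSubmodule (polyAlg (M * q) q)) ⊓
      (Subalgebra.toSubmodule (polyAlg (M * q) q)).comap (LinearMap.mulLeft Qb f)).map ι
  have hgP : ∀ σ : Γℚ, ∀ g ∈ polyAlg (M * q) q, gal2 M q σ • g ∈ polyAlg (M * q) q := by
    intro σ g hg
    induction hg using Algebra.adjoin_induction with
    | mem x hx =>
      obtain ⟨d, rfl⟩ := hx
      rw [gal2, galAut_jdL]
      exact Algebra.subset_adjoin ⟨d, rfl⟩
    | algebraMap c => rw [gal2_algebraMap]; exact Subalgebra.algebraMap_mem _ _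
    | add x y _ _ hx hy => rw [smul_add]; exact add_mem hx hy
    | mul x y _ _ hx hy => rw [smul_mul']; exact mul_mem hx hy
  -- they are stable under inertia, as `f` is invariant
  have hW : ∀ σ ∈ A.inertiaSubgroupIn ℚ, ∀ w ∈ W, coeffMap (σ : Qb →+* Qb) w ∈ W := by
    rintro σ hσ _ ⟨g, ⟨hg, hg'⟩, rfl⟩
    refine ⟨gal2 M q σ • g, ⟨hgP σ g hg, ?_⟩, coe_gal2 M q σ g⟩
    change f * (gal2 M q σ • g) ∈ polyAlg (M * q) q
    have hg'' : f * g ∈ polyAlg (M * q) q := hg'
    rw [← mem_ratFld_iff.mp hr σ hσ, ← smul_mul']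
    exact hgP σ _ hg''
  have hQW : (Q : LaurentSeries Qb) ∈ W :=
    ⟨Q, ⟨hQ, show f * Q ∈ polyAlg (M * q) q by rw [e]; exact hP⟩, rfl⟩
  -- so an invariant one is nonzero, and its product with `f` is invariant
  have hspan := mem_span_fixed W hW hQW (coeff_mem_of_fixed Q)
  obtain ⟨w, ⟨hwW, hwI⟩, hw0⟩ : ∃ w ∈ {r | r ∈ W ∧ InertiaFixed A r}, w ≠ 0 := by
    by_contra! hall
    have : Submodule.span Qb {r | r ∈ W ∧ InertiaFixed A r} = ⊥ :=
      Submodule.span_eq_bot.mpr hall
    rw [this, Submodule.mem_bot] at hspan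
    exact hQ0 (Subtype.ext hspan)
  obtain ⟨g, ⟨hg, hg'⟩, rfl⟩ := hwW
  exact ⟨f * g, g, mul_mem hr hwI, hwI, hg', hg, fun h0 => hw0 (by rw [h0, map_zero]), rfl⟩

/-- The orders on the outer branch at `∞` are integers on rational functions. -/
theorem exists_int_gv_low {f : FN (M * q * q) Qb} (hf : f ≠ 0) (hr : f ∈ ratFld M q A) :
    ∃ k : ℤ, gv M q hq hqM A .low f = k := by
  obtain ⟨P, Q, hPr, hQr, hP, hQ, hQ0, e⟩ := exists_poly_fixed M q hr
  have hP0 : P ≠ 0 := e ▸ mul_ne_zero hf hQ0
  have hint : ∀ {R : FN (M * q * q) Qb}, R ≠ 0 → R ∈ ratFld M q A → R ∈ polyAlg (M * q) q →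
      ∃ k : ℤ, gv M q hq hqM A .low R = k := fun {R} hR0 hRr hR => by
    obtain ⟨n, hn, hG⟩ := (tame_brC_poly M q hq hqM .low hR).exists_coeff h
      ((map_ne_zero _).mpr hR0)
    obtain ⟨k, hk⟩ := exists_int_ord_fixK h hn ((inertiaFixed_iff).mp hRr n)
    exact ⟨k, by rw [gv_eq M q hq hqM h hG, hk]⟩
  obtain ⟨a, ha⟩ := hint hP0 hPr hP
  obtain ⟨b, hb⟩ := hint hQ0 hQr hQ
  refine ⟨a - b, ?_⟩
  rw [← e, gv_mul M q hq hqM h .low hf hQ0, hb] at ha
  push_cast
  linarith

/-- `gv` on the top branch is `gv` on the low branch of the image under the involution. -/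
theorem gv_top_eq (f : FN (M * q * q) Qb) (hf : f ≠ 0) :
    gv M q hq hqM A .top f = gv M q hq hqM A .low (alW2 M q hq hqM f) :=
  gv_eq M q hq hqM h (gIs_gv M q hq hqM h .low (f := alW2 M q hq hqM f)
    ((map_ne_zero _).mpr hf))

/-- On the top branch `gv` of an invariant function is an integer. -/
theorem exists_int_gv_top {f : FN (M * q * q) Qb} (hf : f ≠ 0) (hr : f ∈ ratFld M q A) :
    ∃ k : ℤ, gv M q hq hqM A .top f = k := by
  rw [gv_top_eq M q hq hqM h f hf]
  exact exists_int_gv_low M q hq hqM h ((map_ne_zero _).mpr hf) (alW2_mem_ratFld M q hq hqM hr)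

end Orders

end Fermat.CAR

end
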