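import Fermat.Agent.CAR.BaseNoeth
import Fermat.Agent.RED.Model.Place

/-!
# Points of the special fibre as characters and their tubes

A character of `Bx` is a ring map to the residue field extending reduction on `O0`.  Its tube is
the set of places where all members reduce to it.  A function regular on the tube becomes regular
over the chart after multiplication by a member not vanishing at the character.
-/

set_option autoImplicit false
set_option linter.unusedSectionVars false

attribute [local instance 10000] SubalgebraClass.toAlgebra HahnSeries.powerSeriesAlgebra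

noncomputable section

open AlgebraicCurve Polynomial

namespace Fermat.CAR

open Fermat.FF Fermat.MC Fermat.RED.Model Fermat.EC.Val

local notation "Qb" => AlgebraicClosure ℚ

section Eval

variable {L F : Type*} [Field L] [IsAlgClosed L] [Field F] [Algebra L F] [FF.IsFunctionField L F]
  (P : Place L F)

/-- Evaluation of a polynomial expression. -/
theorem evalAt_eval₂ {R : Type*} [CommRing R] (i : R →+* L) {f : F}
    (hf : FF.OrdGE P f 0) (Q : R[X]) :
    FF.OrdGE P (eval₂ ((algebraMap L F).comp i) f Q) 0 ∧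
      FF.evalAt P (eval₂ ((algebraMap L F).comp i) f Q) = eval₂ i (FF.evalAt P f) Q := by
  have e : eval₂ ((algebraMap L F).comp i) f Q = aeval f (Q.map i) := by rw [aeval_def, eval₂_map]
  refine ⟨e ▸ FF.ordGE_aeval hf _, ?_⟩
  obtain ⟨φ, hφ⟩ := FF.IsLocalFamily.exists_evalHom (K := L) P
  let c : L →+* P.toValuationSubring :=
    (algebraMap L F).codRestrict P.toValuationSubring.toSubring fun a =>
      (FF.mem_iff_ordGE P).mpr (FF.ordGE_algebraMap P a)
  set fv : P.toValuationSubring := ⟨f, (FF.mem_iff_ordGE P).mpr hf⟩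
  have h1 : ((eval₂ (c.comp i) fv Q : P.toValuationSubring) : F) =
      eval₂ ((algebraMap L F).comp i) f Q := by
    change P.toValuationSubring.subtype (eval₂ (c.comp i) fv Q) = _
    rw [hom_eval₂]
    rfl
  rw [← h1, ← hφ, hom_eval₂, hφ]
  congr 1
  refine RingHom.ext fun r => ?_
  change φ (c (i r)) = i r
  rw [hφ]
  exact FF.evalAt_algebraMap P _

end Eval

variable (M q : ℕ) [NeZero M] [NeZero q]

/-- A character of `Bx`. -/
structure BChar (A : ValuationSubring (AlgebraicClosure ℚ)) (b : Bool) where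
  /-- The character itself, with values in the residue field of `A`. -/
  res : Bx M q A b →+* IsLocalRing.ResidueField A
  /-- On constants it is the reduction. -/
  const : ∀ (c : Qb) (hc : c ∈ O0 A),
    res ⟨algebraMap Qb _ c, algebraMap_mem_Bx hc⟩ = IsLocalRing.residue A ⟨c, hc.2⟩

variable {M q} {A : ValuationSubring (AlgebraicClosure ℚ)} {b : Bool}

namespace BChar

variable (χ : BChar M q A b)

/-- The places reducing to the character. -/
def tube : Set (Place Qb (FN (M * q * q) Qb)) :=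
  {P | OrdGE P (aM M q (xch M b)) 0 ∧ ∀ a : Bx M q A b,
    ∃ hm : evalAt P (a : FN (M * q * q) Qb) ∈ A, IsLocalRing.residue A ⟨_, hm⟩ = χ.res a}

/-- Membership in the tube: regular coordinate, and the values of `Bx` reduce to those of the
character. -/
theorem mem_tube {P : Place Qb (FN (M * q * q) Qb)} :
    P ∈ χ.tube ↔ OrdGE P (aM M q (xch M b)) 0 ∧ ∀ a : Bx M q A b,
      ∃ hm : evalAt P (a : FN (M * q * q) Qb) ∈ A, IsLocalRing.residue A ⟨_, hm⟩ = χ.res a :=
  Iff.rfl

/-- Functions in `Bx` are regular on the tube. -/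
theorem ordGE_of_mem_tube {P : Place Qb (FN (M * q * q) Qb)} (hP : P ∈ χ.tube)
    {f : FN (M * q * q) Qb} (hf : f ∈ Bx M q A b) : OrdGE P f 0 :=
  (evalAt_mem hf.2 hP.1 (hP.2 ⟨_, self_mem_Bx⟩).1).1

/-- The character commutes with polynomials over `O0`. -/
theorem res_eval₂ (P : (O0 A)[X]) {f : FN (M * q * q) Qb} (hf : f ∈ Bx M q A b) :
    χ.res ⟨_, eval₂_mem_Bx hf P⟩ =
      eval₂ ((IsLocalRing.residue A).comp O0ToA) (χ.res ⟨f, hf⟩) P := by
  set c : O0 A →+* Bx M q A b :=
    ((algebraMap Qb (FN (M * q * q) Qb)).comp (O0 A).subtype).codRestrict _ fun c =>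
      algebraMap_mem_Bx c.2
  have e : (⟨_, eval₂_mem_Bx hf P⟩ : Bx M q A b) = eval₂ c ⟨f, hf⟩ P := Subtype.ext (by
    change _ = (Bx M q A b).subtype (eval₂ c ⟨f, hf⟩ P)
    rw [hom_eval₂]
    rfl)
  rw [e, hom_eval₂]
  congr 1
  exact RingHom.ext fun a => χ.const a a.2

end BChar

omit [NeZero M] in
/-- The reverse of a polynomial reducing to a power of the variable reduces to `1`. -/
theorem eval₂_reverse_map {R : Type*} [CommRing R] {k : Type*} [CommRing k]
    (π : R →+* k) {P : R[X]} (hPk : P.map π = X ^ P.natDegree) (z : k) :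
    eval₂ π z P.reverse = 1 := by
  have h1 : P.reverse.map π = 1 := by
    refine Polynomial.ext fun n => ?_
    rw [coeff_map, coeff_reverse, ← coeff_map, hPk, coeff_X_pow, coeff_one]
    rcases le_or_gt n P.natDegree with hn | hn
    · rw [revAt_le hn]
      rcases eq_or_ne n 0 with rfl | h0
      · simp
      · rw [if_neg (by omega), if_neg h0]
    · rw [show revAt P.natDegree n = n from if_neg hn.not_ge, if_neg (by omega),
        if_neg (by omega)]
  rw [← eval_map, h1, eval_one]

variable (hq : q.Prime) (hqM : ¬ q ∣ M)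
variable [Fact q.Prime] [IsAlgClosed (IsLocalRing.ResidueField A)]
variable [CharP (IsLocalRing.ResidueField A) q] (h : IsPlace A q)
variable [FF.IsFunctionField Qb (FN M Qb)] [FF.IsFunctionField Qb (FN (M * q) Qb)]
  [FF.IsFunctionField Qb (FN (M * q * q) Qb)]

/-- A nonzero member vanishing at a place of the chart; if the place lies over no integral value
of the coordinate, its residue is one at every character. -/
theorem exists_vanish (P : Place Qb (FN (M * q * q) Qb))
    (hP : OrdGE P (aM M q (xch M b)) 0) :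
    ∃ g : Bx M q A b, (g : FN (M * q * q) Qb) ≠ 0 ∧ evalAt P (g : FN (M * q * q) Qb) = 0 ∧
      (evalAt P (aM M q (xch M b)) ∉ A → ∀ χ : BChar M q A b, χ.res g = 1) := by
  set x := aM M q (xch M b)
  set a := evalAt P x
  by_cases ha : a ∈ A
  · obtain ⟨Q, hQ, -, hQa, -⟩ := exists_orbPoly_O0 ha
    refine ⟨⟨_, eval₂_mem_Bx self_mem_Bx Q⟩, fun h0 => hQ.ne_zero (bPoly_injective (b := b)
      (h0.trans (map_zero (bPoly M q A b)).symm)), ?_, fun hn => absurd ha hn⟩
    exact (evalAt_eval₂ P (O0 A).subtype hP Q).2.trans hQa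
  · have ha0 : a ≠ 0 := fun h0 => ha (h0 ▸ zero_mem A)
    have hinv : a⁻¹ ∈ A := (A.mem_or_inv_mem a).resolve_left ha
    obtain ⟨Q, hQ, -, hQa, hQres⟩ := exists_orbPoly_O0 hinv
    have hres0 : IsLocalRing.residue A ⟨a⁻¹, hinv⟩ = 0 := by
      rw [IsLocalRing.residue_eq_zero_iff, IsLocalRing.mem_maximalIdeal]
      intro hu
      obtain ⟨u, hu⟩ := hu.exists_right_inv
      refine ha ?_
      have h1 := congrArg Subtype.val hu
      have : (u : Qb) = a := by
        refine mul_left_cancel₀ (inv_ne_zero ha0) ?_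
        rw [inv_mul_cancel₀ ha0]; exact h1
      rw [← this]; exact u.2
    rw [hres0, map_zero, sub_zero] at hQres
    refine ⟨⟨_, eval₂_mem_Bx self_mem_Bx Q.reverse⟩, fun h0 => ?_, ?_, fun _ χ => ?_⟩
    · exact hQ.ne_zero (reverse_eq_zero.mp (bPoly_injective (b := b)
        (h0.trans (map_zero (bPoly M q A b)).symm)))
    · refine (evalAt_eval₂ P (O0 A).subtype hP Q.reverse).2.trans ?_
      have : Invertible a⁻¹ := invertibleOfNonzero (inv_ne_zero ha0)
      have h1 := (eval₂_reverse_eq_zero_iff (O0 A).subtype a⁻¹ Q).mpr hQa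
      rwa [invOf_eq_inv, inv_inv] at h1
    · rw [χ.res_eval₂ Q.reverse self_mem_Bx]
      exact eval₂_reverse_map _ hQres _

/-- A member not vanishing at the character vanishing at a place outside the tube. -/
theorem BChar.exists_kill (χ : BChar M q A b) {P : Place Qb (FN (M * q * q) Qb)}
    (hP : OrdGE P (aM M q (xch M b)) 0) (hout : P ∉ χ.tube) :
    ∃ g : Bx M q A b, χ.res g ≠ 0 ∧ evalAt P (g : FN (M * q * q) Qb) = 0 := by
  by_cases hx : evalAt P (aM M q (xch M b)) ∈ A
  · obtain ⟨a, ha⟩ : ∃ a : Bx M q A b, ¬∃ hm : evalAt P (a : FN (M * q * q) Qb) ∈ A,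
        IsLocalRing.residue A ⟨_, hm⟩ = χ.res a := by
      by_contra! hall
      exact hout ⟨hP, hall⟩
    obtain ⟨hr, hm⟩ := evalAt_mem a.2.2 hP hx
    obtain ⟨Q, hQ, hd, hQa, hQres⟩ := exists_orbPoly_O0 hm
    refine ⟨⟨_, eval₂_mem_Bx a.2 Q⟩, ?_, (evalAt_eval₂ P (O0 A).subtype hr Q).2.trans hQa⟩
    rw [χ.res_eval₂ Q a.2, ← eval_map, hQres, eval_pow, eval_sub, eval_X, eval_C]
    exact pow_ne_zero _ (sub_ne_zero.mpr fun e => ha ⟨hm, e.symm⟩)
  · obtain ⟨g, -, hg, hg1⟩ := exists_vanish (A := A) P hP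
    exact ⟨g, by rw [hg1 hx χ]; exact one_ne_zero, hg⟩

/-- The finitely many poles over the chart can be removed. -/
theorem exists_mul_mem_intClosure {f : FN (M * q * q) Qb} (S : Submonoid (Bx M q A b))
    (hS : ∀ P : Place Qb (FN (M * q * q) Qb), OrdGE P (aM M q (xch M b)) 0 → ¬ OrdGE P f 0 →
      ∃ g ∈ S, evalAt P (g : FN (M * q * q) Qb) = 0) :
    ∃ g ∈ S, f * (g : FN (M * q * q) Qb) ∈ intClosure Qb (aM M q (xch M b)) := by
  classical
  set x := aM M q (xch M b)
  set T : Finset (Place Qb (FN (M * q * q) Qb)) :=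
    (finite_setOf_ord_ne_zero (K := Qb) f).toFinset.filter fun P =>
      OrdGE P x 0 ∧ ¬ OrdGE P f 0
  have hT : ∀ P ∈ T, ∃ g ∈ S, evalAt P (g : FN (M * q * q) Qb) = 0 := fun P hP =>
    hS P (Finset.mem_filter.mp hP).2.1 (Finset.mem_filter.mp hP).2.2
  choose g hgS hg0 using hT
  set N : Place Qb (FN (M * q * q) Qb) → ℕ := fun P => (P.ord f).natAbs
  refine ⟨∏ P ∈ T.attach, g P.1 P.2 ^ N P.1, prod_mem fun P _ => pow_mem (hgS _ _) _,
    FF.mem_intClosure_iff.mpr fun P hP => ?_⟩
  have hreg : ∀ a : Bx M q A b, OrdGE P (a : FN (M * q * q) Qb) 0 := fun a =>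
    FF.mem_intClosure_iff.mp (mem_intClosure_of_chart a.2.2) P hP
  by_cases hPf : OrdGE P f 0
  · exact (hPf.mul (hreg _)).mono (add_zero (0 : ℤ)).ge
  have hf0 : f ≠ 0 := fun h0 => hPf (h0 ▸ ordGE_zero _ _)
  have hneg : P.ord f < 0 := not_le.mp fun h0 => hPf ((ordGE_iff_of_ne hf0).mpr h0)
  have hPT : P ∈ T := Finset.mem_filter.mpr
    ⟨(finite_setOf_ord_ne_zero (K := Qb) f).mem_toFinset.mpr hneg.ne, hP, hPf⟩
  rw [← Finset.mul_prod_erase _ _ (Finset.mem_attach T ⟨P, hPT⟩), Subring.coe_mul, ← mul_assoc]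
  have h1 : OrdGE P (g P hPT : FN (M * q * q) Qb) 1 := by
    have := FF.evalAt_spec (hreg (g P hPT))
    rwa [hg0 P hPT, map_zero, sub_zero] at this
  have h2 : OrdGE P (f * ((g P hPT ^ N P : Bx M q A b) : FN (M * q * q) Qb)) 0 := by
    rw [SubmonoidClass.coe_pow]
    have h3 := (show OrdGE P f (P.ord f) from ordGE_iff.mpr (.inr le_rfl)).mul (h1.pow (N P))
    refine h3.mono ?_
    simp only [N, mul_one]
    omega
  exact (h2.mul (hreg _)).mono (add_zero (0 : ℤ)).ge

/-- A function regular on the tube becomes integral over the coordinate after multiplying by an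
element of `Bx` of nonzero value. -/
theorem BChar.exists_regular (χ : BChar M q A b) {f : FN (M * q * q) Qb}
    (hf : ∀ P ∈ χ.tube, OrdGE P f 0) :
    ∃ g : Bx M q A b, χ.res g ≠ 0 ∧
      f * (g : FN (M * q * q) Qb) ∈ intClosure Qb (aM M q (xch M b)) :=
  exists_mul_mem_intClosure
    { carrier := {g | χ.res g ≠ 0}
      mul_mem' := fun {a a'} ha ha' => by
        change χ.res (a * a') ≠ 0
        rw [map_mul]; exact mul_ne_zero ha ha'
      one_mem' := by
        change χ.res 1 ≠ 0
        rw [map_one]; exact one_ne_zero }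
    fun P hP hPf => χ.exists_kill hP fun hm => hPf (hf P hm)

include hq hqM h

/-- Invariant functions are fractions of members. -/
theorem exists_eq_frac {f : FN (M * q * q) Qb} (hf : f ∈ ratFld M q A) :
    ∃ a c : Bx M q A b, (c : FN (M * q * q) Qb) ≠ 0 ∧ f * c = a := by
  obtain ⟨g, hg, hgi⟩ := exists_mul_mem_intClosure (M := M) (q := q) (A := A) (b := b)
    { carrier := {g | (g : FN (M * q * q) Qb) ≠ 0}
      mul_mem' := fun {a a'} ha ha' => mul_ne_zero ha ha'
      one_mem' := one_ne_zero } (fun P hP _ => by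
      obtain ⟨g, h0, hv, -⟩ := exists_vanish (A := A) P hP
      exact ⟨g, h0, hv⟩)
  rcases eq_or_ne f 0 with rfl | hf0
  · exact ⟨0, g, hg, (zero_mul (g : FN (M * q * q) Qb)).trans
      (ZeroMemClass.coe_zero (Bx M q A b)).symm⟩
  obtain ⟨N, hN⟩ := exists_nat_gt (∑ C, |gv M q hq hqM A C (f * (g : FN (M * q * q) Qb))|)
  have hqB : (q : FN (M * q * q) Qb) ^ N ∈ Bx M q A b := pow_mem (natCast_mem _ q) N
  have hq0 : (q : FN (M * q * q) Qb) ≠ 0 := by
    rw [← map_natCast (algebraMap Qb (FN (M * q * q) Qb)), _root_.map_ne_zero]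
    exact Nat.cast_ne_zero.mpr hq.ne_zero
  have hfg : f * (g : FN (M * q * q) Qb) * (q : FN (M * q * q) Qb) ^ N ∈ Bx M q A b := by
    refine (mem_Bx_iff hq hqM h).mpr ⟨mul_mem (mul_mem hf g.2.1) hqB.1,
      mul_mem hgi (mem_intClosure_of_chart hqB.2), fun C => ?_⟩
    have hne := mul_ne_zero hf0 hg
    rw [mem_OC, brC_mem_iff M q hq hqM h C (mul_ne_zero hne (pow_ne_zero _ hq0)),
      gv_mul M q hq hqM h C hne (pow_ne_zero _ hq0), gv_pow M q hq hqM h C hq0,
      gv_natCast_q M q hq hqM h C, mul_one]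
    have h1 := Finset.single_le_sum (f := fun D =>
      |gv M q hq hqM A D (f * (g : FN (M * q * q) Qb))|)
      (fun _ _ => abs_nonneg _) (Finset.mem_univ C)
    have h2 := neg_abs_le (gv M q hq hqM A C (f * (g : FN (M * q * q) Qb)))
    linarith
  refine ⟨⟨_, hfg⟩, g * ⟨_, hqB⟩, ?_, ?_⟩
  · rw [Subring.coe_mul]
    exact mul_ne_zero hg (pow_ne_zero _ hq0)
  · rw [Subring.coe_mul]
    exact (mul_assoc f (g : FN (M * q * q) Qb) _).symm

end Fermat.CAR

end
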