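import Fermat.Agent.CAR.Good

/-!
# From roots of prime degree to principal divisors

An invariant function with consistent roots of degree `m * l` of its reductions has consistent
roots of degree `l`; an `l`-th root of it is invariant and has consistent roots of degree `m`.
If invariant functions with consistent roots of degree `l` are `l`-th powers, a divisor with a
multiple cut out by a function with consistent roots is therefore principal.
-/

set_option autoImplicit false
set_option linter.unusedSectionVars false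

noncomputable section

open ModularCurve AlgebraicCurve

namespace Fermat.CAR

attribute [local instance 10000] algFN smulFN algFX smulFX

open Fermat.FF Fermat.MC Fermat.JAC Fermat.RED.Model Fermat.BAD.X0 Fermat.EC.Val

local notation "Qb" => AlgebraicClosure ℚ

section Generic

variable {K F : Type*} [Field K] [IsAlgClosed K] [Field F] [Algebra K F]

/-- A root of unity of the function field is a constant. -/
theorem exists_const_of_pow_eq_one {w : F} {n : ℕ} (hn : n ≠ 0) (hw : w ^ n = 1) :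
    ∃ c : K, algebraMap K F c = w := by
  have hi : IsIntegral K w :=
    ⟨Polynomial.X ^ n - Polynomial.C 1, Polynomial.monic_X_pow_sub_C 1 hn, by simp [hw]⟩
  exact minpoly.degree_eq_one_iff.mp
    (IsAlgClosed.degree_eq_one_of_irreducible K (minpoly.irreducible hi))

/-- A function with a regular power is regular. -/
theorem ordGE_of_pow {v : Place K F} {f : F} {m : ℕ} (hm : m ≠ 0)
    (hf : OrdGE v (f ^ m) 0) : OrdGE v f 0 := by
  rcases eq_or_ne f 0 with rfl | hf0
  · exact ordGE_zero _ _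
  rw [ordGE_iff_of_ne (pow_ne_zero m hf0), FF.ord_pow] at hf
  rw [ordGE_iff_of_ne hf0]
  exact nonneg_of_mul_nonneg_right hf (by exact_mod_cast Nat.pos_of_ne_zero hm)

end Generic

/-- A root of unity of order prime to `q` reducing to `1` is `1`. -/
theorem eq_one_of_residue {A : ValuationSubring Qb} {q l : ℕ}
    [CharP (IsLocalRing.ResidueField A) q] (hl : l.Prime) (hq : q.Prime) (hlq : l ≠ q) {c : A}
    (hc : c ^ l = 1) (hres : IsLocalRing.residue A c = 1) : c = 1 := by
  have h1 : (∑ i ∈ Finset.range l, c ^ i) * (c - 1) = 0 := by rw [geom_sum_mul, hc, sub_self]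
  have hne : (∑ i ∈ Finset.range l, c ^ i) ≠ 0 := fun h0 => by
    have h2 := congrArg (IsLocalRing.residue A) h0
    simp only [map_sum, map_pow, hres, one_pow, map_zero, Finset.sum_const, Finset.card_range,
      nsmul_eq_mul, mul_one] at h2
    rw [CharP.cast_eq_zero_iff (IsLocalRing.ResidueField A) q] at h2
    exact hlq ((Nat.prime_dvd_prime_iff_eq hq hl).mp h2).symm
  exact sub_eq_zero.mp ((mul_eq_zero.mp h1).resolve_left hne)

variable {M q : ℕ} [NeZero M] [NeZero q] {A : ValuationSubring (AlgebraicClosure ℚ)}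
variable (hq : q.Prime) (hqM : ¬ q ∣ M)
variable [Fact q.Prime] [IsAlgClosed (IsLocalRing.ResidueField A)]
variable [CharP (IsLocalRing.ResidueField A) q] (h : IsPlace A q)
variable [FF.IsFunctionField Qb (FN M Qb)] [FF.IsFunctionField Qb (FN (M * q) Qb)]
  [FF.IsFunctionField Qb (FN (M * q * q) Qb)]
variable [FF.IsFunctionField (IsLocalRing.ResidueField A) (FX (IsLocalRing.ResidueField A) M)]

local notation "kA" => IsLocalRing.ResidueField A

/-- Supersingular points exist. -/
def HasSSPoints : Prop :=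
  ∀ s ∈ SS M q hq hqM h.2, ∃ χ : BChar M q A true,
    χ.IsPoint hq hqM Finset.univ s ∧ χ.HasParam hq hqM Finset.univ

include h

/-- The character of a point is determined by it. -/
theorem BChar.eq_of_isPoint {b : Bool} {χ χ' : BChar M q A b} {S : Finset Br}
    {s : Place kA (FX kA M)} (hχ : χ.IsPoint hq hqM S s) (hχ' : χ'.IsPoint hq hqM S s) {C : Br}
    (hC : C ∈ S) : χ = χ' := by
  have e : χ.res = χ'.res := RingHom.ext fun f => by
    obtain ⟨z, hz, hzv⟩ := hχ.res_eq C hC f (chart_le_OC M q hq hqM h b f.2.2 C)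
    obtain ⟨z', hz', hzv'⟩ := hχ'.res_eq C hC f (chart_le_OC M q hq hqM h b f.2.2 C)
    rw [← hzv, ← hzv', show z = z' from Subtype.ext (hz.trans hz'.symm)]
  cases χ; cases χ'; cases e; rfl

/-- A function of order zero on a branch is regular there. -/
theorem mem_OC_of_gv {C : Br} {f : FN (M * q * q) Qb} (hf : f ≠ 0)
    (hgv : gv M q hq hqM A C f = 0) : f ∈ OC M q hq hqM A C :=
  ((prim_iff M q hq hqM h C hf).mpr hgv).mem

/-- A function of order zero on a branch has nonzero reduction there. -/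
theorem resC_ne_zero {C : Br} {f : FN (M * q * q) Qb} (hf : f ≠ 0)
    (hgv : gv M q hq hqM A C f = 0) (hm : f ∈ OC M q hq hqM A C) :
    resC M q hq hqM A C ⟨f, hm⟩ ≠ 0 :=
  ((prim_iff M q hq hqM h C hf).mpr hgv).2

/-- The value at a point of a root of the reduction divided by the local root. -/
theorem red_decomp {b : Bool} {χ : BChar M q A b} {S : Finset Br} {s : Place kA (FX kA M)}
    (hχ : χ.IsPoint hq hqM S s) {y : FN (M * q * q) Qb} {n : ℕ} (hn : n ≠ 0) (u : χ.loc)
    {e : FN (M * q * q) Qb} (hu : χ.lres u ≠ 0) (he0 : e ≠ 0)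
    (heq : y = (u : FN (M * q * q) Qb) * e ^ n) {C : Br} (hC : C ∈ S)
    (hy0 : gv M q hq hqM A C y = 0) (hy : y ∈ OC M q hq hqM A C) (he : e ∈ OC M q hq hqM A C)
    {H z : FX kA M} (hH : (H : LaurentSeries kA) ^ n = resC M q hq hqM A C ⟨y, hy⟩)
    (hz : (z : LaurentSeries kA) = resC M q hq hqM A C ⟨e, he⟩) :
    z ≠ 0 ∧ OrdGE s (H / z) 0 ∧ evalAt s (H / z) ^ n = χ.lres u := by
  obtain ⟨w, hw, hws, hwv⟩ := BChar.exists_red hq hqM h hχ hC u
  have hz0 : z ≠ 0 := fun h0 => resC_ne_zero hq hqM h he0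
    (gv_eq_zero_of_decomp hq hqM h hχ hn u hu he0 heq hC hy0) he (by rw [← hz, h0]; rfl)
  have key : H ^ n = w * z ^ n := Subtype.ext (by
    rw [MulMemClass.coe_mul, SubmonoidClass.coe_pow, SubmonoidClass.coe_pow, hH, hw, hz,
      ← map_pow, ← map_mul]
    exact congrArg _ (Subtype.ext heq))
  have hHz : (H / z) ^ n = w := by rw [div_pow, key, mul_div_cancel_right₀ _ (pow_ne_zero n hz0)]
  have hreg : OrdGE s (H / z) 0 := ordGE_of_pow hn (hHz ▸ hws)
  exact ⟨hz0, hreg, by rw [← evalAt_pow hreg, hHz, hwv]⟩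

omit h in
/-- The orders of `y` are divisible by `n` when its divisor is `n` times another. -/
theorem ord_dvd_of_divOf {y : FN (M * q * q) Qb} {n : ℕ}
    {D : Divisor Qb (FN (M * q * q) Qb)} (hD : divOf Qb y = n • D)
    (P : Place Qb (FN (M * q * q) Qb)) : (n : ℤ) ∣ P.ord y := by
  rw [← divOf_apply, hD, Finsupp.smul_apply, nsmul_eq_mul]
  exact Dvd.intro _ rfl

/-- Roots of degree `m * l` give roots of degree `l`. -/
theorem IsRooted.of_mul (hSS : HasSSPoints (M := M) hq hqM h) {y : FN (M * q * q) Qb} {m l : ℕ}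
    (hm : m ≠ 0) (hl : l ≠ 0) {H : Br → FX kA M} (hy : IsRooted hq hqM h y (m * l) H)
    {D : Divisor Qb (FN (M * q * q) Qb)} (hD : divOf Qb y = (m * l) • D) :
    IsRooted hq hqM h y l fun C => H C ^ m where
  mem_ratFld := hy.mem_ratFld
  ne_zero := hy.ne_zero
  gv_eq := hy.gv_eq
  res_eq C hyC := by rw [SubmonoidClass.coe_pow, ← pow_mul]; exact hy.res_eq C hyC
  consistent s hs χ hχ u e hu her he0 heq := by
    have hml : m * l ≠ 0 := mul_ne_zero hm hl
    -- compare with a decomposition `y = u0 e0 ^ (m l)`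
    obtain ⟨χ', hχ', hpar⟩ := hSS s hs
    obtain rfl := BChar.eq_of_isPoint hq hqM h hχ hχ' (Finset.mem_univ Br.low)
    obtain ⟨u0, e0, hu0, he0r, he00, heq0⟩ := BChar.exists_eq_unit_mul_pow hq hqM h hχ hpar hml
      hy.mem_ratFld hy.ne_zero (fun P _ => ord_dvd_of_divOf hD P) fun C _ => hy.gv_eq C
    have hge : ∀ C, gv M q hq hqM A C e = 0 := fun C =>
      gv_eq_zero_of_decomp hq hqM h hχ hl u hu he0 heq (Finset.mem_univ C) (hy.gv_eq C)
    have hge0 : ∀ C, gv M q hq hqM A C e0 = 0 := fun C =>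
      gv_eq_zero_of_decomp hq hqM h hχ hml u0 hu0 he00 heq0 (Finset.mem_univ C) (hy.gv_eq C)
    obtain ⟨u', hu'⟩ := (χ.isUnit_loc_iff.mpr hu).exists_right_inv
    have hδl : (e / e0 ^ m) ^ l = ((u0 * u' : χ.loc) : FN (M * q * q) Qb) := by
      have h1 : (u : FN (M * q * q) Qb) * (u' : FN (M * q * q) Qb) = 1 := by
        have := congrArg Subtype.val hu'
        simpa using this
      rw [Subring.coe_mul, div_pow, ← pow_mul, div_eq_iff (pow_ne_zero _ he00)]
      calc e ^ l = (u : FN (M * q * q) Qb) * (u' : FN (M * q * q) Qb) * e ^ l := by rw [h1, one_mul]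
        _ = (u' : FN (M * q * q) Qb) * y := by rw [heq]; ring
        _ = _ := by rw [heq0]; ring
    have hδ0 : e / e0 ^ m ≠ 0 := div_ne_zero he0 (pow_ne_zero m he00)
    -- `δ = e / e0 ^ m` is a unit of the local ring
    have hδmem : e / e0 ^ m ∈ χ.loc := by
      refine BChar.mem_loc_of hq hqM h hχ (div_mem her (pow_mem he0r m)) (fun P hP => ?_)
        fun C _ => mem_OC_of_gv hq hqM h hδ0 ?_
      · refine ordGE_of_pow hl ?_
        rw [hδl]
        exact (χ.regular_of_mem_loc hP).1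
      · rw [div_eq_mul_inv, gv_mul M q hq hqM h C he0 (inv_ne_zero (pow_ne_zero m he00)),
          gv_inv M q hq hqM h C (pow_ne_zero m he00), gv_pow M q hq hqM h C he00, hge, hge0,
          mul_zero, neg_zero, add_zero]
    set δ : χ.loc := ⟨e / e0 ^ m, hδmem⟩
    have hδne : χ.lres δ ≠ 0 := fun h0 => by
      have h1 : χ.lres (δ ^ l) = χ.lres (u0 * u') := congrArg _ (Subtype.ext (by
        rw [SubmonoidClass.coe_pow]; exact hδl))
      rw [map_pow, h0, zero_pow hl, map_mul, eq_comm, mul_eq_zero] at h1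
      refine h1.elim hu0 fun h2 => ?_
      have h3 := congrArg χ.lres hu'
      rw [map_mul, h2, mul_zero, map_one] at h3
      exact zero_ne_one h3
    -- so the values are those of `H / z0` to the `m`-th power, over the value of `δ`
    obtain ⟨γ, hγ⟩ := hy.consistent s hs χ hχ u0 e0 hu0 he0r he00 heq0
    refine ⟨γ ^ m / χ.lres δ, fun C z he hz => ?_⟩
    have hC : C ∈ (Finset.univ : Finset Br) := Finset.mem_univ C
    have he0C := mem_OC_of_gv hq hqM h he00 (hge0 C)
    have hyC := mem_OC_of_gv hq hqM h hy.ne_zero (hy.gv_eq C)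
    set z0 : FX kA M := ⟨_, resC_mem hq hqM h C e0 he0r he0C⟩
    obtain ⟨d, hd, hds, hdv⟩ := BChar.exists_red hq hqM h hχ hC δ
    have hzd : z = d * z0 ^ m := Subtype.ext (by
      rw [MulMemClass.coe_mul, SubmonoidClass.coe_pow, hz, hd, ← map_pow, ← map_mul]
      refine congrArg _ (Subtype.ext ?_)
      change e = e / e0 ^ m * e0 ^ m
      rw [div_mul_cancel₀ _ (pow_ne_zero m he00)])
    obtain ⟨hz00, hreg0, -⟩ := red_decomp hq hqM h hχ hml u0 hu0 he00 heq0 hC (hy.gv_eq C) hyC
      he0C (hy.res_eq C hyC) (z := z0) rfl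
    obtain ⟨hzne, hreg, -⟩ := red_decomp hq hqM h hχ hl u hu he0 heq hC (hy.gv_eq C) hyC he
      (H := H C ^ m) (by rw [SubmonoidClass.coe_pow, ← pow_mul]; exact hy.res_eq C hyC) hz
    have hd0 : d ≠ 0 := fun h0 => hzne (by rw [hzd, h0, zero_mul])
    have e1 : (H C / z0) ^ m = H C ^ m / z * d := by
      rw [hzd, div_pow]
      field_simp
    have e2 := congrArg (evalAt s) e1
    rw [evalAt_pow hreg0, evalAt_mul hreg hds, hdv, hγ C z0 he0C rfl] at e2
    rw [eq_div_iff hδne, e2]

/-- A root of prime degree is invariant. -/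
theorem mem_ratFld_of_pow {l : ℕ} (hl : l.Prime) (hlq : l ≠ q) {Y y : FN (M * q * q) Qb}
    (hy : y ∈ ratFld M q A) (hY0 : Y ≠ 0) (hY : Y ^ l = y)
    (hgv : gv M q hq hqM A .low Y = 0) : Y ∈ ratFld M q A := by
  refine mem_ratFld_iff.mpr fun σ hσ => ?_
  -- inertia multiplies `Y` by an `l`-th root of unity `c`
  have h1 : (gal2 M q σ • Y / Y) ^ l = 1 := by
    rw [div_pow, ← smul_pow', hY, mem_ratFld_iff.mp hy σ hσ, div_self]
    rw [← hY]; exact pow_ne_zero l hY0
  obtain ⟨c, hc⟩ := exists_const_of_pow_eq_one (K := Qb) hl.ne_zero h1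
  have he : gal2 M q σ • Y = algebraMap Qb (FN (M * q * q) Qb) c * Y := by
    rw [hc, div_mul_cancel₀ _ hY0]
  have hcl : c ^ l = 1 := (algebraMap Qb (FN (M * q * q) Qb)).injective (by
    rw [map_pow, hc, h1, map_one])
  have hcA : c ∈ A := by
    rcases A.mem_or_inv_mem c with hm | hm
    · exact hm
    have h2 : c = c⁻¹ ^ (l - 1) := by
      rw [inv_pow]
      refine eq_inv_of_mul_eq_one_left ?_
      rw [← pow_succ', Nat.sub_add_cancel hl.pos, hcl]
    rw [h2]; exact pow_mem hm _
  -- reduce the series of `Y`, which is primitive: the residue of `c` is one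
  have hP := (prim_iff M q hq hqM h .low hY0).mpr hgv
  have hm : (Y : LaurentSeries Qb) ∈ gS A := hP.mem
  have h2 := (redCompat_inertia hσ).sR_map hm
  rw [RingHom.id_apply] at h2
  have h3 : sR A ⟨_, (redCompat_inertia hσ).map_mem hm⟩ =
      sR A ⟨_, algebraMap_mem_gS hcA⟩ * sR A ⟨(Y : LaurentSeries Qb), hm⟩ := by
    rw [← map_mul]
    refine congrArg _ (Subtype.ext ?_)
    change coeffMap (σ : Qb →+* Qb) (Y : LaurentSeries Qb) =
      algebraMap Qb (LaurentSeries Qb) c * (Y : LaurentSeries Qb)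
    rw [← coe_gal2, he, MulMemClass.coe_mul]
    rfl
  rw [h2, sR_algebraMap hcA] at h3
  have hne : sR A ⟨(Y : LaurentSeries Qb), hm⟩ ≠ 0 := hP.2
  have h4 : IsLocalRing.residue A ⟨c, hcA⟩ = 1 := (algebraMap kA (LaurentSeries kA)).injective (by
    rw [map_one]; exact mul_right_cancel₀ hne (by rw [one_mul]; exact h3.symm))
  -- as `l` is prime to the residue characteristic, `c` is one
  have h5 := eq_one_of_residue (c := (⟨c, hcA⟩ : A)) hl hq hlq (Subtype.ext hcl) h4
  rw [he, show c = 1 from congrArg Subtype.val h5, map_one, one_mul]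

/-- A root of prime degree has consistent roots. -/
theorem IsRooted.exists_of_root (hSS : HasSSPoints (M := M) hq hqM h) {y : FN (M * q * q) Qb}
    {m l : ℕ} (hm : m ≠ 0) (hl : l.Prime) (hlq : l ≠ q) {H : Br → FX kA M}
    (hy : IsRooted hq hqM h y (m * l) H) {Y : FN (M * q * q) Qb} (hY : Y ^ l = y)
    {D : Divisor Qb (FN (M * q * q) Qb)} (hD : divOf Qb Y = m • D) :
    ∃ H' : Br → FX kA M, IsRooted hq hqM h Y m H' := by
  classical
  have hY0 : Y ≠ 0 := fun h0 => hy.ne_zero (by rw [← hY, h0, zero_pow hl.ne_zero])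
  have hgY : ∀ C, gv M q hq hqM A C Y = 0 := fun C => by
    have h1 := hy.gv_eq C
    rw [← hY, gv_pow M q hq hqM h C hY0, mul_eq_zero] at h1
    exact h1.resolve_left (Nat.cast_ne_zero.mpr hl.ne_zero)
  have hYr := mem_ratFld_of_pow hq hqM h hl hlq hy.mem_ratFld hY0 hY (hgY .low)
  have hYC := fun C => mem_OC_of_gv hq hqM h hY0 (hgY C)
  have hyC := fun C => mem_OC_of_gv hq hqM h hy.ne_zero (hy.gv_eq C)
  -- the reductions of `Y` are constants times `H C ^ m`; take `m`-th roots `c C` of the constants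
  set zY : Br → FX kA M := fun C => ⟨_, resC_mem hq hqM h C Y hYr (hYC C)⟩
  have hzY : ∀ C, zY C ^ l = H C ^ (m * l) := fun C => Subtype.ext (by
    rw [SubmonoidClass.coe_pow, SubmonoidClass.coe_pow, hy.res_eq C (hyC C)]
    change resC M q hq hqM A C ⟨Y, hYC C⟩ ^ l = _
    rw [← map_pow]
    exact congrArg _ (Subtype.ext hY))
  have hHne : ∀ C, H C ≠ 0 := fun C h0 => resC_ne_zero hq hqM h hy.ne_zero (hy.gv_eq C) (hyC C) (by
    rw [← hy.res_eq C (hyC C), h0, ZeroMemClass.coe_zero, zero_pow (mul_ne_zero hm hl.ne_zero)])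
  have hω : ∀ C, ∃ w : kA, zY C = algebraMap kA (FX kA M) w * H C ^ m := fun C => by
    have h1 : (zY C / H C ^ m) ^ l = 1 := by
      rw [div_pow, hzY, ← pow_mul, div_self (pow_ne_zero _ (hHne C))]
    obtain ⟨w, hw⟩ := exists_const_of_pow_eq_one (K := kA) hl.ne_zero h1
    exact ⟨w, by rw [hw, div_mul_cancel₀ _ (pow_ne_zero m (hHne C))]⟩
  choose ω hω using hω
  choose c hc using fun C => IsAlgClosed.exists_pow_nat_eq (ω C) (Nat.pos_of_ne_zero hm)
  have hroot : ∀ C, (algebraMap kA (FX kA M) (c C) * H C) ^ m = zY C := fun C => by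
    rw [mul_pow, ← map_pow, hc, hω]
  -- at every point the root of `y` gives one for `Y`
  have key : ∀ s ∈ SS M q hq hqM h.2, ∀ (χ : BChar M q A true),
      χ.IsPoint hq hqM Finset.univ s →
      ∀ (u : χ.loc) (e : FN (M * q * q) Qb), χ.lres u ≠ 0 → e ∈ ratFld M q A → e ≠ 0 →
        Y = (u : FN (M * q * q) Qb) * e ^ m →
        ∃ γ : kA, γ ≠ 0 ∧ ∀ C, c C ^ m * γ ^ m = χ.lres u ∧
          ∀ (z : FX kA M) (he : e ∈ OC M q hq hqM A C),
            (z : LaurentSeries kA) = resC M q hq hqM A C ⟨e, he⟩ →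
              OrdGE s (H C / z) 0 ∧ evalAt s (H C / z) = γ := by
    intro s hs χ hχ u e hu her he0 heq
    have hul : χ.lres (u ^ l) ≠ 0 := by rw [map_pow]; exact pow_ne_zero l hu
    have heql : y = ((u ^ l : χ.loc) : FN (M * q * q) Qb) * e ^ (m * l) := by
      rw [SubmonoidClass.coe_pow, pow_mul, ← mul_pow, ← heq, hY]
    obtain ⟨γ, hγ⟩ := hy.consistent s hs χ hχ (u ^ l) e hul her he0 heql
    have main : ∀ C (z : FX kA M) (he : e ∈ OC M q hq hqM A C),
        (z : LaurentSeries kA) = resC M q hq hqM A C ⟨e, he⟩ →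
        OrdGE s (H C / z) 0 ∧ evalAt s (H C / z) = γ ∧ γ ^ (m * l) = χ.lres (u ^ l) ∧
          c C ^ m * γ ^ m = χ.lres u := by
      intro C z he hz
      obtain ⟨-, hreg, hval⟩ := red_decomp hq hqM h hχ (mul_ne_zero hm hl.ne_zero) (u ^ l) hul he0
        heql (Finset.mem_univ C) (hy.gv_eq C) (hyC C) he (hy.res_eq C (hyC C)) hz
      obtain ⟨-, -, hval'⟩ := red_decomp hq hqM h hχ hm u hu he0
        heq (Finset.mem_univ C) (hgY C) (hYC C) he (H := algebraMap kA (FX kA M) (c C) * H C)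
        (by rw [← SubmonoidClass.coe_pow, hroot]) hz
      rw [hγ C z he hz] at hval
      rw [mul_div_assoc, evalAt_mul (ordGE_algebraMap s _) hreg, evalAt_algebraMap, hγ C z he hz,
        mul_pow] at hval'
      exact ⟨hreg, hγ C z he hz, hval, hval'⟩
    have hge : ∀ C, gv M q hq hqM A C e = 0 := fun C =>
      gv_eq_zero_of_decomp hq hqM h hχ hm u hu he0 heq (Finset.mem_univ C) (hgY C)
    refine ⟨γ, fun h0 => ?_, fun C =>
      ⟨?_, fun z he hz => ⟨(main C z he hz).1, (main C z he hz).2.1⟩⟩⟩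
    · have he := mem_OC_of_gv hq hqM h he0 (hge .low)
      have h1 := (main .low ⟨_, resC_mem hq hqM h .low e her he⟩ he rfl).2.2.1
      rw [h0, zero_pow (mul_ne_zero hm hl.ne_zero)] at h1
      exact hul h1.symm
    · have he := mem_OC_of_gv hq hqM h he0 (hge C)
      exact (main C ⟨_, resC_mem hq hqM h C e her he⟩ he rfl).2.2.2
  -- so the constants are the same on all sheets
  have hωeq : ∀ C, c .low ^ m = c C ^ m := fun C => by
    obtain ⟨s, hs⟩ := SS_nonempty M q hq hqM h.2
    obtain ⟨χ, hχ, hpar⟩ := hSS s hs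
    obtain ⟨u, e, hu, her, he0, heq⟩ := BChar.exists_eq_unit_mul_pow hq hqM h hχ hpar hm hYr hY0
      (fun P _ => ord_dvd_of_divOf hD P) fun C _ => hgY C
    obtain ⟨γ, hγ0, hγ⟩ := key s hs χ hχ u e hu her he0 heq
    exact mul_right_cancel₀ (pow_ne_zero m hγ0) ((hγ .low).1.trans (hγ C).1.symm)
  refine ⟨fun C => algebraMap kA (FX kA M) (c .low) * H C, hYr, hY0, hgY, fun C hC => ?_,
    fun s hs χ hχ u e hu her he0 heq => ?_⟩
  · rw [← SubmonoidClass.coe_pow, mul_pow, ← map_pow, hωeq C, map_pow, ← mul_pow, hroot]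
  · obtain ⟨γ, -, hγ⟩ := key s hs χ hχ u e hu her he0 heq
    refine ⟨c .low * γ, fun C z he hz => ?_⟩
    obtain ⟨hreg, hval⟩ := (hγ C).2 z he hz
    rw [mul_div_assoc, evalAt_mul (ordGE_algebraMap s _) hreg, evalAt_algebraMap, hval]

/-- If functions with consistent roots of prime degree `l` are powers, then a divisor is principal
when some `l`-power multiple of it is cut out by a function with consistent roots. -/
theorem exists_divOf_eq (hSS : HasSSPoints (M := M) hq hqM h) {l : ℕ} (hl : l.Prime) (hlq : l ≠ q)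
    (hroot : ∀ (D : Divisor Qb (FN (M * q * q) Qb)) (y : FN (M * q * q) Qb) (H : Br → FX kA M),
      IsRooted hq hqM h y l H → divOf Qb y = l • D → ∃ Y, Y ^ l = y) :
    ∀ (k : ℕ) (D : Divisor Qb (FN (M * q * q) Qb)) (y : FN (M * q * q) Qb) (H : Br → FX kA M),
      IsRooted hq hqM h y (l ^ k) H → divOf Qb y = l ^ k • D →
        ∃ Z, Z ≠ 0 ∧ divOf Qb Z = D := by
  intro k
  induction k with
  | zero =>
    intro D y H hy hD
    exact ⟨y, hy.ne_zero, by rw [hD, pow_zero, one_smul]⟩
  | succ k ih =>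
    intro D y H hy hD
    rw [pow_succ] at hy hD
    have hm : l ^ k ≠ 0 := pow_ne_zero k hl.ne_zero
    obtain ⟨Y, hY⟩ := hroot (l ^ k • D) y _ (hy.of_mul hq hqM h hSS hm hl.ne_zero hD)
      (by rw [hD, smul_smul, mul_comm (l ^ k) l])
    have hDY : divOf Qb Y = l ^ k • D := by
      refine smul_right_injective _ hl.ne_zero ?_
      change l • divOf Qb Y = l • (l ^ k • D)
      rw [← divOf_pow, hY, hD, smul_smul, mul_comm (l ^ k) l]
    obtain ⟨H', hH'⟩ := hy.exists_of_root hq hqM h hSS hm hl hlq hY hDY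
    exact ih D Y H' hH' hDY

omit h in
/-- The class of a principal divisor. -/
theorem isCls_eq_zero {D : Divisor Qb (FN (M * q * q) Qb)} {x : JZero (M * q * q)}
    (hD : Fermat.BAD.IsCls D x) (hZ : ∃ Z, Z ≠ 0 ∧ divOf Qb Z = D) : x = 0 := by
  obtain ⟨hD, rfl⟩ := hD
  exact pic0_mk_eq_zero_iff.mpr hZ

end Fermat.CAR

end
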