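import Fermat.Agent.CAR.SheetInf
import Fermat.Agent.FF.RiemannRoch

/-!
# Sections vanishing at the cusp

For `l • D` the divisor of the invariant function `y` there are invariant functions `g j`, not all
zero, with poles bounded by `j • D` outside `∞` and by `j • D + 2 g` at `∞`, such that the
combination with the powers of a given function vanishes at `∞`.
-/

set_option autoImplicit false

noncomputable section

open ModularCurve AlgebraicCurve

namespace Fermat.CAR

attribute [local instance 10000] algFN smulFN algFX smulFX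

open Fermat.FF Fermat.MC Fermat.BAD.X0

local notation "Qb" => AlgebraicClosure ℚ
local notation "Γℚ" => (AlgebraicClosure ℚ ≃ₐ[ℚ] AlgebraicClosure ℚ)

variable {M q : ℕ} [NeZero M] [NeZero q] {A : ValuationSubring (AlgebraicClosure ℚ)}
variable [Fact q.Prime] [FF.IsFunctionField Qb (FN M Qb)] [FF.IsFunctionField Qb (FN (M * q) Qb)]
  [FF.IsFunctionField Qb (FN (M * q * q) Qb)]

omit [Fact (Nat.Prime q)] [IsFunctionField Qb ↥(FN M Qb)] [IsFunctionField Qb ↥(FN (M * q) Qb)] in
/-- Galois fixes the cusp `∞`. -/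
theorem gal2_infP (σ : Γℚ) : gal2 M q σ • infP M q = infP M q :=
  Fermat.BAD.Inst.galAut_inf (M * q) q σ

omit [Fact (Nat.Prime q)] [IsFunctionField Qb ↥(FN M Qb)] [IsFunctionField Qb ↥(FN (M * q) Qb)] in
/-- The divisor of an invariant function is invariant. -/
theorem gal2_apply_divisor {l : ℕ} (hl : l ≠ 0) {D : Divisor Qb (FN (M * q * q) Qb)}
    {y : FN (M * q * q) Qb} (hy : y ∈ ratFld M q A) (hD : divOf Qb y = l • D) {σ : Γℚ}
    (hσ : σ ∈ A.inertiaSubgroupIn ℚ) (P : Place Qb (FN (M * q * q) Qb)) :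
    D (gal2 M q σ • P) = D P := by
  have h1 : ∀ v, v.ord y = (l : ℤ) * D v := fun v => by
    rw [← divOf_apply (K := Qb) y v, hD, Finsupp.smul_apply, nsmul_eq_mul]
  have h2 := h1 (gal2 M q σ • P)
  conv_lhs at h2 => rw [← mem_ratFld_iff.mp hy σ hσ]
  rw [SemilinearAut.ord_smul, h1] at h2
  exact (mul_left_cancel₀ (by exact_mod_cast hl) h2).symm

/-- Two or more Riemann-Roch spaces of degree twice the genus `γ` have dimension more than
`2 γ + 1` together. -/
theorem lt_finrank_pi_riemannRochSpace {F : Type*} [Field F] [Algebra Qb F]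
    [FF.IsFunctionField Qb F] {l : ℕ} (hl : 2 ≤ l) (E : Fin l → Divisor Qb F)
    (hE : ∀ j, Divisor.degree (E j) = 2 * (genusFF Qb F : ℤ)) :
    2 * genusFF Qb F + 1 < Module.finrank Qb (∀ j, riemannRochSpace (E j)) := by
  rw [Module.finrank_pi_fintype]
  set γ := genusFF Qb F
  have h1 : ∀ j : Fin l, γ + 1 ≤ Module.finrank Qb (riemannRochSpace (E j)) := fun j => by
    have h2 := riemann_inequality (E j)
    rw [hE] at h2
    have h3 : ((γ + 1 : ℕ) : ℤ) ≤ (ell (E j) : ℤ) := by push_cast; linarith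
    exact_mod_cast h3
  calc 2 * γ + 1 < l * (γ + 1) := by
        have := Nat.mul_le_mul_right (γ + 1) hl
        omega
    _ = ∑ _j : Fin l, (γ + 1) := by
        rw [Finset.sum_const, Finset.card_univ, Fintype.card_fin, smul_eq_mul]
    _ ≤ _ := Finset.sum_le_sum fun j _ => h1 j

/-- **Sections.** For an invariant function with divisor `l • D` some invariant sections, not all
zero, combine with the powers of `T` to vanish at `∞`. -/
theorem exists_section {l : ℕ} (hl : 2 ≤ l) {D : Divisor Qb (FN (M * q * q) Qb)}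
    {y : FN (M * q * q) Qb} (hy : y ∈ ratFld M q A) (hD : divOf Qb y = l • D)
    {T : FN (M * q * q) Qb} (hTr : T ∈ ratFld M q A) (hT : OrdGE (infP M q) T (D (infP M q))) :
    ∃ g : Fin l → FN (M * q * q) Qb, (∃ j, g j ≠ 0) ∧ (∀ j, g j ∈ ratFld M q A) ∧
      (∀ P, P ≠ infP M q → ∀ j, OrdGE P (g j) (-((j : ℤ) * D P))) ∧
      (∀ j, OrdGE (infP M q) (g j)
        (-((j : ℤ) * D (infP M q) + 2 * (genusFF Qb (FN (M * q * q) Qb) : ℤ)))) ∧
      OrdGE (infP M q) (∑ j, g j * T ^ (j : ℕ)) 1 := by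
  classical
  set P0 := infP M q
  set γ := genusFF Qb (FN (M * q * q) Qb)
  have hdeg : Divisor.degree D = 0 := by
    have h1 := congrArg Divisor.degree hD
    rw [degree_divOf, map_nsmul, nsmul_eq_mul, eq_comm, mul_eq_zero] at h1
    exact h1.resolve_left (Nat.cast_ne_zero.mpr (by omega))
  -- `j D` plus twice the genus `γ` times the point at infinity
  let E : Fin l → Divisor Qb (FN (M * q * q) Qb) :=
    fun j => (j : ℕ) • D + Finsupp.single P0 (2 * (γ : ℤ))
  have hE : ∀ j P, E j P = (j : ℤ) * D P + (if P0 = P then 2 * (γ : ℤ) else 0) := fun j P => by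
    simp only [E, Finsupp.add_apply, Finsupp.smul_apply, Finsupp.single_apply, nsmul_eq_mul]
  let RR := fun j => riemannRochSpace (E j)
  let incl : (∀ j, RR j) →ₗ[Qb] (Fin l → FN (M * q * q) Qb) :=
    LinearMap.pi fun j => (RR j).subtype.comp (LinearMap.proj j)
  -- the coefficients of `∑ g j T ^ j` at the orders `0, -1, …, -2 γ`
  let Φ : (Fin l → FN (M * q * q) Qb) →ₗ[Qb] (Fin (2 * γ + 1) → Qb) :=
    LinearMap.pi fun k => (Fermat.BAD.Inst.coeffInf (M * q) q (-((k : ℕ) : ℤ))).comp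
      (∑ j : Fin l, (LinearMap.mulRight Qb (T ^ (j : ℕ))).comp (LinearMap.proj j))
  have hΦ : ∀ g k, Φ g k =
      ((∑ j, g j * T ^ (j : ℕ) : FN (M * q * q) Qb) : LaurentSeries Qb).coeff (-((k : ℕ) : ℤ)) :=
        fun g k => by
    simp only [Φ, LinearMap.pi_apply, LinearMap.comp_apply, LinearMap.sum_apply,
      LinearMap.mulRight_apply, LinearMap.proj_apply]
    rfl
  -- the spaces together have dimension more than `2 γ + 1`, so some section is killed
  have hbig : Module.finrank Qb (Fin (2 * γ + 1) → Qb) < Module.finrank Qb (∀ j, RR j) := by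
    rw [Module.finrank_fintype_fun_eq_card, Fintype.card_fin]
    exact lt_finrank_pi_riemannRochSpace hl E fun j => by
      rw [map_add, map_nsmul, hdeg, smul_zero, zero_add, degree_eq_sum,
        Finsupp.sum_single_index rfl]
  set V := (LinearMap.ker (Φ.comp incl)).map incl
  have hV : ∀ w, w ∈ V ↔ (∀ j, w j ∈ RR j) ∧ Φ w = 0 := by
    refine fun w => ⟨?_, fun hw => ⟨fun j => ⟨w j, hw.1 j⟩, hw.2, rfl⟩⟩
    rintro ⟨x, hx, rfl⟩
    exact ⟨fun j => (x j).2, hx⟩
  obtain ⟨x, hx, hx0⟩ := Submodule.exists_mem_ne_zero_of_ne_bot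
    (LinearMap.ker_ne_bot_of_finrank_lt (f := Φ.comp incl) hbig)
  let galV : A.inertiaSubgroupIn ℚ → (Fin l → FN (M * q * q) Qb) →+
      (Fin l → FN (M * q * q) Qb) := fun t =>
    { toFun := fun w j => gal2 M q (t : Γℚ) • w j
      map_zero' := funext fun j => smul_zero _
      map_add' := fun a b => funext fun j => smul_add _ _ _ }
  let c : Fin l × ℤ → (Fin l → FN (M * q * q) Qb) →ₗ[Qb] Qb := fun i =>
    (Fermat.BAD.Inst.coeffInf (M * q) q i.2).comp (LinearMap.proj i.1)
  -- inertia acts semilinearly on the space of killed sections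
  have hstab : ∀ t, ∀ w ∈ V, galV t w ∈ V := by
    intro t w hw
    obtain ⟨hw1, hw2⟩ := (hV w).mp hw
    refine (hV _).mpr ⟨fun j => mem_riemannRochSpace.mpr fun v => ?_, funext fun k => ?_⟩
    · obtain ⟨v, rfl⟩ : ∃ v', gal2 M q (t : Γℚ) • v' = v :=
        ⟨(gal2 M q (t : Γℚ))⁻¹ • v, smul_inv_smul _ _⟩
      change OrdGE (gal2 M q (t : Γℚ) • v) (gal2 M q (t : Γℚ) • w j) _
      refine (ordGE_smul _ (mem_riemannRochSpace.mp (hw1 j) v)).mono (le_of_eq ?_)
      rw [hE, hE, gal2_apply_divisor (by omega) hy hD t.2]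
      congr 2
      refine if_congr ⟨fun e => ?_, fun e => ?_⟩ rfl rfl
      · exact MulAction.injective (gal2 M q (t : Γℚ)) ((gal2_infP _).trans e)
      · rw [show P0 = gal2 M q (t : Γℚ) • P0 from (gal2_infP _).symm]; exact congrArg _ e
    · rw [hΦ]
      have e : (∑ j, galV t w j * T ^ (j : ℕ) : FN (M * q * q) Qb) =
          gal2 M q (t : Γℚ) • ∑ j, w j * T ^ (j : ℕ) := by
        rw [Finset.smul_sum]
        refine Finset.sum_congr rfl fun j _ => ?_
        rw [smul_mul', smul_pow', mem_ratFld_iff.mp hTr _ t.2]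
        rfl
      rw [e, coe_gal2, coeffMap_coeff, ← hΦ, hw2]
      exact map_zero _
  have : FiniteDimensional Qb V := Module.Finite.map _ _
  have hspan := Fermat.BAD.Inst.le_span_fixed c
    (fun v hv => funext fun j => Subtype.ext (HahnSeries.ext (funext fun n => hv (j, n))))
    (fun t : A.inertiaSubgroupIn ℚ => ((t : Γℚ) : Qb →+* Qb)) galV
    (fun t n v => (congrArg (fun z : LaurentSeries Qb => z.coeff n.2)
      (coe_gal2 M q (t : Γℚ) (v n.1))).trans (coeffMap_coeff _ _ _)) V hstab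
  -- so a nonzero section is fixed
  obtain ⟨w, ⟨hwV, hwfix⟩, hw0⟩ : ∃ w ∈ {v | v ∈ V ∧ ∀ t, galV t v = v}, w ≠ 0 := by
    by_contra! hall
    have hbot := hspan (show incl x ∈ V from ⟨x, hx, rfl⟩)
    rw [Submodule.span_eq_bot.mpr hall, Submodule.mem_bot] at hbot
    exact hx0 (funext fun j => Subtype.ext (congrFun hbot j))
  obtain ⟨hw1, hw2⟩ := (hV w).mp hwV
  have hpole : ∀ P j, OrdGE P (w j) (-E j P) := fun P j => mem_riemannRochSpace.mp (hw1 j) P
  refine ⟨w, by
    by_contra! hall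
    exact hw0 (funext hall), fun j => mem_ratFld_iff.mpr fun σ hσ =>
      congrFun (hwfix ⟨σ, hσ⟩) j, fun P hP j => ?_, fun j => ?_, ?_⟩
  · exact (hpole P j).mono (by rw [hE, if_neg (Ne.symm hP), add_zero])
  · exact (hpole P0 j).mono (by rw [hE, if_pos rfl])
  -- the sum has order at least `-2 γ` and no coefficients down to there
  · refine (ordGE_iff_coeff ord_infP).mpr fun k hk => ?_
    have hlow : OrdGE P0 (∑ j, w j * T ^ (j : ℕ)) (-(2 * (γ : ℤ))) := OrdGE.sum fun j _ =>
      ((hpole P0 j).mul (hT.pow (j : ℕ))).mono (by rw [hE, if_pos rfl]; linarith)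
    by_cases hk' : k < -(2 * (γ : ℤ))
    · exact (ordGE_iff_coeff ord_infP).mp hlow k hk'
    · have h1 := congrFun hw2 ⟨(-k).toNat, by omega⟩
      rw [hΦ, show (-(((-k).toNat : ℕ) : ℤ)) = k by omega, Pi.zero_apply] at h1
      exact h1

end Fermat.CAR

end
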