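import Fermat.Agent.CAR.SheetReg
import Fermat.Agent.CAR.SheetSpace
import Fermat.Agent.CAR.Induct
import Fermat.Agent.CAR.Assemble

/-!
# Roots of prime degree

An invariant function of prime degree `l` with consistent roots and divisor divisible by `l` is an
`l`-th power: otherwise a section vanishing at the cusp gives an expression in the root whose
reductions at the chosen roots are regular on the three copies of the reduced curve, hence
constants, equal at the glued points and zero at the cusp, although one of them is not zero.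
-/

set_option autoImplicit false
set_option linter.unusedSectionVars false

noncomputable section

open AlgebraicCurve Polynomial

namespace Fermat.CAR

attribute [local instance 10000] algFN smulFN algFX smulFX

open Fermat.FF Fermat.MC Fermat.RED.Model Fermat.BAD.X0 Fermat.EC.Val

local notation "Qb" => AlgebraicClosure ℚ

section Lifts

variable {R : Type*} [CommRing R]

/-- A polynomial lifted from a subring has its coefficients there. -/
theorem coeff_mem_of_lifts {O : Subring R} {P : R[X]} (hP : P ∈ lifts O.subtype) (j : ℕ) :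
    P.coeff j ∈ O := by
  obtain ⟨⟨a, ha⟩, e⟩ := (lifts_iff_coeff_lifts P).mp hP j
  exact e ▸ ha

/-- Conversely, a polynomial with coefficients in a subring lifts. -/
theorem mem_lifts_of_coeff {O : Subring R} {P : R[X]} (hP : ∀ j, P.coeff j ∈ O) :
    P ∈ lifts O.subtype :=
  (lifts_iff_coeff_lifts P).mpr fun j => ⟨⟨_, hP j⟩, rfl⟩

/-- Division by `X ^ l - u` keeps the coefficients in a subring. -/
theorem coeff_modByMonic_mem {O : Subring R} {P : R[X]}
    (hP : P ∈ lifts O.subtype) {u : R} (hu : u ∈ O) {l : ℕ} (hl : l ≠ 0) (j : ℕ) :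
    (P %ₘ (X ^ l - Polynomial.C u)).coeff j ∈ O ∧ (P /ₘ (X ^ l - Polynomial.C u)).coeff j ∈ O := by
  obtain ⟨P', rfl⟩ := (Polynomial.mem_lifts P).mp hP
  have hm : (X ^ l - Polynomial.C (⟨u, hu⟩ : O)).Monic := monic_X_pow_sub_C _ hl
  have e : (X ^ l - Polynomial.C u : R[X]) =
      (X ^ l - Polynomial.C (⟨u, hu⟩ : O)).map O.subtype := by simp
  rw [e, ← map_modByMonic _ hm, ← map_divByMonic _ hm, coeff_map, coeff_map]
  exact ⟨SetLike.coe_mem _, SetLike.coe_mem _⟩

/-- Such a polynomial takes values in the subring at its points. -/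
theorem eval_mem_of_coeff {O : Subring R} {P : R[X]} (hP : ∀ j, P.coeff j ∈ O) {x : R}
    (hx : x ∈ O) : P.eval x ∈ O := by
  rw [eval_eq_sum_range]
  exact sum_mem fun i _ => mul_mem (hP i) (pow_mem hx i)

end Lifts

section Vanish

variable {K F : Type*} [Field K] [IsAlgClosed K] [Field F] [Algebra K F] [FF.IsFunctionField K F]

/-- The polynomial vanishing at the multiples of `c` by nontrivial roots of unity. -/
def cuspKill (c : K) (l : ℕ) : F[X] :=
  ∑ j ∈ Finset.range l, Polynomial.C (algebraMap K F c⁻¹ ^ j) * X ^ j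

/-- A function regular everywhere and vanishing somewhere is zero. -/
theorem eq_zero_of_ordGE_evalAt {z : F} (s₀ : Place K F) (hz : ∀ v : Place K F, FF.OrdGE v z 0)
    (h0 : FF.evalAt s₀ z = 0) : z = 0 := by
  obtain ⟨a, rfl⟩ := FF.mem_range_of_forall_ordGE hz
  rw [FF.evalAt_algebraMap] at h0
  rw [h0, map_zero]

/-- The values of `cuspKill`: a geometric sum. -/
theorem eval_cuspKill (c : K) (l : ℕ) (x : F) :
    (cuspKill c l).eval x = ∑ j ∈ Finset.range l, (algebraMap K F c⁻¹ * x) ^ j := by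
  simp [cuspKill, eval_finsetSum, mul_pow]

/-- `cuspKill` vanishes at a point where `x / c` is a nontrivial root of unity. -/
theorem ordGE_eval_cuspKill (v : Place K F) {ζ c : K} {l i : ℕ} (hζ : IsPrimitiveRoot ζ l)
    (hi0 : i ≠ 0) (hi : i < l) {x : F} (hx : FF.OrdGE v x 0)
    (hv1 : FF.evalAt v (algebraMap K F c⁻¹ * x) = ζ ^ i) :
    FF.OrdGE v ((cuspKill c l).eval x) 1 := by
  have hy' : FF.OrdGE v (algebraMap K F c⁻¹ * x) 0 :=
    ((FF.ordGE_algebraMap v _).mul hx).mono (add_zero (0 : ℤ)).ge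
  have hreg : FF.OrdGE v ((cuspKill c l).eval x) 0 := by
    rw [eval_cuspKill]
    exact FF.OrdGE.sum fun j _ => (hy'.pow j).mono (by simp)
  refine (FF.evalAt_eq_zero_iff hreg).mp ?_
  obtain ⟨φ, hφ⟩ := FF.IsLocalFamily.exists_evalHom (K := K) v
  rw [eval_cuspKill,
    show (∑ j ∈ Finset.range l, (algebraMap K F c⁻¹ * x) ^ j) =
      ((∑ j ∈ Finset.range l, (⟨_, (FF.mem_iff_ordGE v).mpr hy'⟩ : v.toValuationSubring) ^ j :
        v.toValuationSubring) : F) by push_cast; rfl, ← hφ, map_sum]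
  simp only [map_pow]
  simp only [hφ, hv1]
  have hne : ζ ^ i ≠ 1 := hζ.pow_ne_one_of_pos_of_lt hi0 hi
  have h1 := geom_sum_mul (ζ ^ i) l
  rw [← pow_mul, mul_comm i l, pow_mul, hζ.pow_eq_one, one_pow, sub_self, mul_eq_zero] at h1
  exact h1.resolve_right (sub_ne_zero.mpr hne)

omit [IsAlgClosed K] [Algebra K F] [FF.IsFunctionField K F] in
/-- Reducing `f (e X) b ^ n` modulo `X ^ l - u` and raising it to the power `d`: the values change
by a multiple of `x ^ l - u`. -/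
theorem exists_eval_modByMonic_pow (f b : F[X]) {e : F} (he : e ≠ 0) (u : F) (l : ℕ) (κ : F)
    (n d : ℕ) : ∃ E : F[X], ∀ r : F,
      (Polynomial.C κ *
          ((f.comp (Polynomial.C e * X) * b ^ n) %ₘ (X ^ l - Polynomial.C u)) ^ d).eval (r / e) =
        (Polynomial.C κ * f ^ d).eval r * b.eval (r / e) ^ (n * d) -
        ((r / e) ^ l - u) * E.eval (r / e) := by
  set p := f.comp (Polynomial.C e * X) * b ^ n
  set Mu : F[X] := X ^ l - Polynomial.C u
  obtain ⟨E, hE⟩ : Mu ∣ p ^ d - (p %ₘ Mu) ^ d :=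
    Dvd.dvd.trans ⟨p /ₘ Mu, by
      rw [eq_comm, eq_sub_iff_add_eq, add_comm]; exact modByMonic_add_div p Mu⟩
      (sub_dvd_pow_sub_pow p (p %ₘ Mu) d)
  refine ⟨Polynomial.C κ * E, fun r => ?_⟩
  have h1 := congrArg (fun T => T.eval (r / e)) hE
  simp only [eval_sub, eval_pow, eval_mul, eval_X, eval_C, p, Mu, eval_comp,
    mul_div_cancel₀ r he] at h1
  simp only [eval_mul, eval_C, eval_pow]
  rw [pow_mul]
  linear_combination κ * (-h1)

/-- If the coefficients vanish at a place, so do those of a constant times a positive power. -/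
theorem ordGE_coeff_C_mul_pow (v : Place K F) {P : F[X]} (hP : ∀ j, FF.OrdGE v (P.coeff j) 1)
    (κ : K) {d : ℕ} (hd : d ≠ 0) (j : ℕ) :
    FF.OrdGE v ((Polynomial.C (algebraMap K F κ) * P ^ d).coeff j) 1 := by
  obtain ⟨d, rfl⟩ := Nat.exists_eq_succ_of_ne_zero hd
  rw [pow_succ, ← mul_assoc, coeff_mul]
  refine FF.OrdGE.sum fun i _ => ?_
  have h0 := (FF.mem_iff_ordGE v).mp (coeff_mem_of_lifts (O := v.toValuationSubring.toSubring)
    (mul_mem (C'_mem_lifts (f := v.toValuationSubring.toSubring.subtype)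
        ⟨⟨_, (FF.mem_iff_ordGE v).mpr (FF.ordGE_algebraMap v κ)⟩, rfl⟩)
      (pow_mem (mem_lifts_of_coeff fun k => (FF.mem_iff_ordGE v).mpr ((hP k).mono zero_le_one)) d))
    i.1)
  exact (h0.mul (hP i.2)).mono (zero_add (1 : ℤ)).ge

/-- A polynomial in a root near `c` vanishing there, with poles of order at most `m`, multiplied
by a high power of `cuspKill` and reduced, has coefficients vanishing at the place. -/
theorem coeff_cusp_vanish (v : Place K F) {ζ : K} {l : ℕ} (hζ : IsPrimitiveRoot ζ l)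
    (hlK : (l : K) ≠ 0) {c : K} (hc0 : c ≠ 0) {u R : F} (hu : FF.OrdGE v u 0)
    (hRc : FF.OrdGE v (R - algebraMap K F c) 1) {m : ℕ}
    (hRu : FF.OrdGE v (R ^ l - u) ((m : ℤ) + 1)) {Qf : F[X]}
    (hQ : ∀ j, FF.OrdGE v (Qf.coeff j) (-(m : ℤ))) (hQR : FF.OrdGE v (Qf.eval R) 1) (j : ℕ) :
    FF.OrdGE v (((Qf * cuspKill c l ^ (m + 1)) %ₘ (X ^ l - Polynomial.C u)).coeff j) 1 := by
  classical
  have hl : l ≠ 0 := fun h0 => hlK (by rw [h0, Nat.cast_zero])
  set b' : F[X] := cuspKill c l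
  set Mu : F[X] := X ^ l - Polynomial.C u
  set p := Qf * b' ^ (m + 1)
  set Rp := p %ₘ Mu
  -- scale by `τ` of order `m`, so that all coefficients are regular
  obtain ⟨τ, hτ0, hτ⟩ := FF.exists_ord_eq v (m : ℤ)
  have hτm : FF.OrdGE v τ (m : ℤ) := FF.ordGE_iff.mpr (.inr hτ.ge)
  let O := v.toValuationSubring.toSubring
  have hO : ∀ {x : F}, x ∈ O ↔ FF.OrdGE v x 0 := fun {x} => FF.mem_iff_ordGE v
  have hb'O : ∀ k, b'.coeff k ∈ O := fun k => by
    simp only [b', cuspKill, finsetSum_coeff]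
    refine sum_mem fun i _ => ?_
    rw [coeff_C_mul_X_pow]
    split_ifs
    · exact pow_mem (hO.mpr (FF.ordGE_algebraMap v _)) i
    · exact zero_mem _
  have hτQ : Polynomial.C τ * Qf ∈ lifts O.subtype := mem_lifts_of_coeff fun k => by
    rw [coeff_C_mul, hO]
    exact (hτm.mul (hQ k)).mono (by linarith)
  have hτp : Polynomial.C τ * p ∈ lifts O.subtype := by
    rw [← mul_assoc]
    exact mul_mem hτQ (pow_mem (mem_lifts_of_coeff hb'O) (m + 1))
  set zF : F := algebraMap K F ζ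
  have hzpow : ∀ i : ℕ, (zF ^ i) ^ l = 1 := fun i => by
    rw [← pow_mul, mul_comm i l, pow_mul, ← map_pow, hζ.pow_eq_one, map_one, one_pow]
  have hRreg : FF.OrdGE v R 0 := by
    simpa using (hRc.mono zero_le_one).add (FF.ordGE_algebraMap v c)
  -- at each conjugate `ζ ^ i R` the scaled remainder vanishes to order `m + 1`
  have hvals : ∀ i < l, FF.OrdGE v (τ * Rp.eval (zF ^ i * R)) ((m : ℤ) + 1) := by
    intro i hi
    set x := zF ^ i * R
    have hzi : FF.OrdGE v (zF ^ i) 0 := ((FF.ordGE_algebraMap v _).pow i).mono (by simp)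
    have hx : FF.OrdGE v x 0 := (hzi.mul hRreg).mono (add_zero (0 : ℤ)).ge
    have hM : FF.OrdGE v (x ^ l - u) ((m : ℤ) + 1) := by rw [mul_pow, hzpow, one_mul]; exact hRu
    have hdiv : FF.OrdGE v ((Polynomial.C τ * p /ₘ Mu).eval x) 0 := hO.mp (eval_mem_of_coeff
      (fun j => (coeff_modByMonic_mem hτp (hO.mpr hu) hl j).2) (hO.mpr hx))
    have e1 : τ * Rp.eval x = τ * Qf.eval x * b'.eval x ^ (m + 1) -
        (x ^ l - u) * (Polynomial.C τ * p /ₘ Mu).eval x := by
      have h1 := congrArg (fun T => T.eval x) (modByMonic_add_div (Polynomial.C τ * p) Mu)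
      have h2 : (Polynomial.C τ * p) %ₘ Mu = Polynomial.C τ * Rp := by
        rw [← smul_eq_C_mul, smul_modByMonic, smul_eq_C_mul]
      simp only [h2, eval_add, eval_mul, eval_sub, eval_pow, eval_X, eval_C, p, Mu] at h1
      rw [eq_sub_iff_add_eq, h1, mul_assoc]
    rw [e1]
    refine FF.OrdGE.sub ?_ ((hM.mul hdiv).mono (by linarith))
    -- at `R` itself through `Qf`, elsewhere through the power of `cuspKill`
    rcases eq_or_ne i 0 with rfl | hi0
    · have hx0 : x = R := by simp [x]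
      rw [hx0]
      have hb : FF.OrdGE v (b'.eval R) 0 :=
        hO.mp (eval_mem_of_coeff hb'O
          (hO.mpr hRreg))
      exact (((hτm.mul hQR).mul
        (hb.pow (m + 1))).mono (by simp))
    · have hQ : FF.OrdGE v (τ * Qf.eval x) 0 := by
        have h1 := eval_mem_of_coeff (coeff_mem_of_lifts hτQ) (hO.mpr hx)
        rw [eval_mul, eval_C] at h1
        exact hO.mp h1
      have hb : FF.OrdGE v (b'.eval x) 1 := by
        have hv1 : FF.evalAt v (algebraMap K F c⁻¹ * x) = ζ ^ i := by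
          rw [FF.evalAt_mul (FF.ordGE_algebraMap v _) hx, FF.evalAt_algebraMap,
            FF.evalAt_mul hzi hRreg, FF.evalAt_pow (FF.ordGE_algebraMap v _), FF.evalAt_algebraMap,
            FF.evalAt_eq hRc, mul_left_comm,
            inv_mul_cancel₀ hc0, mul_one]
        exact ordGE_eval_cuspKill v hζ hi0 hi hx hv1
      exact (hQ.mul (hb.pow (m + 1))).mono (by push_cast; linarith)
  have hdeg : Rp.natDegree < l := natDegree_modByMonic_X_pow_lt p u hl
  change FF.OrdGE v (Rp.coeff j) 1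
  rcases lt_or_ge j l with hj | hj
  swap
  · rw [coeff_eq_zero_of_natDegree_lt (lt_of_lt_of_le hdeg hj)]
    exact FF.ordGE_zero _ _
  -- Fourier inversion recovers each coefficient from these values
  have hsum := dft (hζ.map_of_injective (algebraMap K F).injective) hdeg hj R
  have h1 : FF.OrdGE v (τ * ((l : F) * (Rp.coeff j * R ^ j))) ((m : ℤ) + 1) := by
    rw [← hsum, Finset.mul_sum]
    refine FF.OrdGE.sum fun i hi => ?_
    rw [mul_left_comm]
    exact ((((FF.ordGE_algebraMap v _).pow _)).mul (hvals i (Finset.mem_range.mp hi))).mono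
      (by simp)
  rcases eq_or_ne (Rp.coeff j) 0 with h0 | h0
  · rw [h0]; exact FF.ordGE_zero _ _
  have hR0 : R ≠ 0 ∧ v.ord R = 0 := by
    have hev : FF.evalAt v R = c := FF.evalAt_eq hRc
    have hne : R ≠ 0 := fun h0 => hc0 (by rw [← hev, h0]; exact RED.Model.evalAt_zero v)
    exact ⟨hne, le_antisymm (not_lt.mp fun hlt => hc0 (hev ▸
      (FF.evalAt_eq_zero_iff hRreg).mpr (FF.ordGE_iff.mpr (.inr hlt)))) (hRreg.le_ord hne)⟩
  have hlne : (l : F) ≠ 0 := by
    rw [← map_natCast (algebraMap K F), _root_.map_ne_zero]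
    exact hlK
  have h2 := h1.le_ord (mul_ne_zero hτ0 (mul_ne_zero hlne (mul_ne_zero h0 (pow_ne_zero j hR0.1))))
  rw [v.ord_mul hτ0 (mul_ne_zero hlne (mul_ne_zero h0 (pow_ne_zero j hR0.1))), hτ,
    v.ord_mul hlne (mul_ne_zero h0 (pow_ne_zero j hR0.1)), v.ord_mul h0 (pow_ne_zero j hR0.1),
    FF.ord_pow, hR0.2, ← map_natCast (algebraMap K F), FF.ord_algebraMap] at h2
  exact FF.ordGE_iff.mpr (.inr (by linarith))

end Vanish

variable {M q : ℕ} [NeZero M] [NeZero q] (hq : q.Prime) (hqM : ¬ q ∣ M)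
variable {A : ValuationSubring (AlgebraicClosure ℚ)} [Fact q.Prime]
variable [IsAlgClosed (IsLocalRing.ResidueField A)] [CharP (IsLocalRing.ResidueField A) q]
variable [FF.IsFunctionField Qb (FN M Qb)] [FF.IsFunctionField Qb (FN (M * q) Qb)]
  [FF.IsFunctionField Qb (FN (M * q * q) Qb)]
variable [FF.IsFunctionField (IsLocalRing.ResidueField A) (FX (IsLocalRing.ResidueField A) M)]
variable (h : IsPlace A q)
include h

local notation "kA" => IsLocalRing.ResidueField A

section Involution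

variable {Hc : FX (IsLocalRing.ResidueField A) M} {y : FN (M * q * q) Qb} {l : ℕ}

omit h in
/-- The involution reflects invariance. -/
theorem mem_ratFld_of_alW2 {f : FN (M * q * q) Qb}
    (hf : alW2 M q hq hqM f ∈ ratFld M q A) : f ∈ ratFld M q A :=
  mem_ratFld_iff.mpr fun σ hσ => (alW2 M q hq hqM).injective (by
    rw [← gal2_alW2, mem_ratFld_iff.mp hf σ hσ])

/-- The involution exchanges bounds on the low and the top branch. -/
theorem gvGE_alW2 {f : FN (M * q * q) Qb} {δ : ℚ} :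
    GvGE hq hqM A .low (alW2 M q hq hqM f) δ ↔ GvGE hq hqM A .top f δ := by
  rcases eq_or_ne f 0 with rfl | hf
  · rw [map_zero]
    exact iff_of_true (gvGE_zero hq hqM δ) (gvGE_zero hq hqM δ)
  · have hf' : alW2 M q hq hqM f ≠ 0 := (_root_.map_ne_zero _).mpr hf
    rw [GvGE, GvGE, gv_top_eq M q hq hqM h f hf]
    simp [hf, hf']

/-- The involution carries roots on the top branch to the low one. -/
theorem rootOn_alW2 (hy : RootOn hq hqM A .top Hc y l) :
    RootOn hq hqM A .low Hc (alW2 M q hq hqM y) l :=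
  ⟨alW2_mem_ratFld M q hq hqM hy.mem_ratFld, (_root_.map_ne_zero _).mpr hy.ne_zero,
    by rw [← gv_top_eq M q hq hqM h y hy.ne_zero]; exact hy.gv_eq,
    fun hm => (hy.res_eq ((mem_OC_alW2 M q hq hqM A).mp hm)).trans
      (resC_top_eq M q hq hqM A y _)⟩

/-- The involution carries properties of approximations to the low branch. -/
theorem Ev.alW2_low {p : FN (M * q * q) Qb → Prop} (hp : Ev hq hqM A .top Hc y l p) :
    Ev hq hqM A .low Hc (alW2 M q hq hqM y) l fun r =>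
      ∃ r', alW2 M q hq hqM r' = r ∧ p r' := by
  obtain ⟨δ₀, hδ⟩ := hp
  refine ⟨δ₀, fun r δ hle hr => ?_⟩
  obtain ⟨r', rfl⟩ := (alW2 M q hq hqM).surjective r
  obtain ⟨h1, ⟨hm, hres⟩, h3⟩ := hr
  refine ⟨r', rfl, hδ r' δ hle ⟨mem_ratFld_of_alW2 hq hqM h1,
    ⟨(mem_OC_alW2 M q hq hqM A).mp hm, (resC_top_eq M q hq hqM A r' _).trans hres⟩, ?_⟩⟩
  rw [← map_pow, ← map_sub] at h3
  exact (gvGE_alW2 hq hqM h).mp h3

end Involution

variable {b : Bool} {χ : BChar M q A b} {S : Finset Br}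
  {s : Place (IsLocalRing.ResidueField A) (FX (IsLocalRing.ResidueField A) M)}
  {y : FN (M * q * q) Qb} {l : ℕ} {H : Br → FX (IsLocalRing.ResidueField A) M}

omit h in
/-- A unit at the point has order zero on the tube. -/
theorem ord_unit (u : χ.loc) (hu : χ.lres u ≠ 0) {P : Place Qb (FN (M * q * q) Qb)}
    (hP : P ∈ χ.tube) : P.ord (u : FN (M * q * q) Qb) = 0 := by
  obtain ⟨hreg, hm, he⟩ := χ.regular_of_mem_loc (f := u) hP
  have hu0 : (u : FN (M * q * q) Qb) ≠ 0 := fun h0 => hu (by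
    rw [show u = 0 from Subtype.ext h0, map_zero])
  refine le_antisymm (not_lt.mp fun hlt => hu ?_) (hreg.le_ord hu0)
  have h1 := (evalAt_eq_zero_iff hreg).mpr (ordGE_iff.mpr (.inr hlt))
  rw [← he, show (⟨_, hm⟩ : A) = 0 from Subtype.ext h1, map_zero]

/-- The common value on a single branch. -/
theorem exists_g0_single {C : Br} (hχ : χ.IsPoint hq hqM {C} s) (hl : l ≠ 0)
    (hy : RootOn hq hqM A C (H C) y l) (u : χ.loc) {e : FN (M * q * q) Qb} (hu : χ.lres u ≠ 0)
    (her : e ∈ ratFld M q A) (he : e ≠ 0) (heq : y = (u : FN (M * q * q) Qb) * e ^ l) :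
    ∃ g0 : kA, ∀ D ∈ ({C} : Finset Br), ∀ (z : FX kA M) (hm : e ∈ OC M q hq hqM A D),
      (z : LaurentSeries kA) = resC M q hq hqM A D ⟨e, hm⟩ → evalAt s (H D / z) = g0 := by
  have hem : e ∈ OC M q hq hqM A C := by
    rw [mem_OC, brC_mem_iff M q hq hqM h C he,
      gv_eq_zero_of_decomp hq hqM h hχ hl u hu he heq (Finset.mem_singleton_self C) hy.gv_eq]
  refine ⟨evalAt s (H C / ⟨_, resC_mem hq hqM h C e her hem⟩), fun D hD z hm hz => ?_⟩
  obtain rfl := Finset.mem_singleton.mp hD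
  rw [show z = ⟨_, resC_mem hq hqM h D e her hem⟩ from Subtype.ext hz]

/-- The value of the reduction of `κ f ^ d` at a point of a tube avoiding the poles of `f`. -/
theorem exists_value_at (hχ : χ.IsPoint hq hqM S s) (hpar : χ.HasParam hq hqM S) (hl : l.Prime)
    (hlq : l ≠ q) (hyr : y ∈ ratFld M q A) (hy0 : y ≠ 0)
    (hy : ∀ C ∈ S, RootOn hq hqM A C (H C) y l) (hdvd : ∀ P ∈ χ.tube, (l : ℤ) ∣ P.ord y)
    (hcons : ∀ (u : χ.loc) (e : FN (M * q * q) Qb), χ.lres u ≠ 0 → e ∈ ratFld M q A → e ≠ 0 →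
      y = (u : FN (M * q * q) Qb) * e ^ l →
      ∃ g0 : kA, ∀ C ∈ S, ∀ (z : FX kA M) (hm : e ∈ OC M q hq hqM A C),
        (z : LaurentSeries kA) = resC M q hq hqM A C ⟨e, hm⟩ → evalAt s (H C / z) = g0)
    {f : (FN (M * q * q) Qb)[X]} (hfr : ∀ j, f.coeff j ∈ ratFld M q A) {κ : Qb}
    (hκ : κ ∈ fixK A) (d : ℕ)
    (hft : ∀ P ∈ χ.tube, ∀ j, f.coeff j ≠ 0 → 0 ≤ (l : ℤ) * P.ord (f.coeff j) + j * P.ord y)
    (hv : ∀ C ∈ S, Ev hq hqM A C (H C) y l fun r =>
      GvGE hq hqM A C ((Polynomial.C (algebraMap Qb _ κ) * f ^ d).eval r) 0) :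
    ∃ w : kA, ∀ C ∈ S, ∀ ρ : FX kA M, Ev hq hqM A C (H C) y l (fun r =>
      ∃ hm : (Polynomial.C (algebraMap Qb _ κ) * f ^ d).eval r ∈ OC M q hq hqM A C,
        resC M q hq hqM A C ⟨_, hm⟩ = (ρ : LaurentSeries kA)) →
      OrdGE s ρ 0 ∧ evalAt s ρ = w := by
  obtain ⟨u, e, hu, her, he, heq⟩ := BChar.exists_eq_unit_mul_pow hq hqM h hχ hpar hl.ne_zero
    hyr hy0 hdvd fun C hC => (hy C hC).gv_eq
  obtain ⟨g0, hg0⟩ := hcons u e hu her he heq
  set Q := Polynomial.C (algebraMap Qb (FN (M * q * q) Qb) κ) *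
    (f.comp (Polynomial.C e * X)) ^ d
  have hQ : Q ∈ lifts χ.treg.subtype := by
    refine mul_mem (mem_lifts_of_coeff fun j => ?_) (pow_mem (mem_lifts_of_coeff fun j => ?_) d)
    · rw [coeff_C]
      split_ifs
      · exact ⟨algebraMap_mem_ratFld hκ, fun P _ => ordGE_algebraMap P κ⟩
      · exact zero_mem _
    · rw [comp_C_mul_X_coeff]
      refine ⟨mul_mem (hfr j) (pow_mem her j), fun P hP => ordGE_iff.mpr (or_iff_not_imp_left.mpr
        fun hne => ?_)⟩
      have hc := left_ne_zero_of_mul hne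
      have h1 := hft P hP j hc
      rw [heq, P.ord_mul (fun h0 => hu (by rw [show u = 0 from Subtype.ext h0, map_zero]))
        (pow_ne_zero l he), ord_unit u hu hP, zero_add, FF.ord_pow] at h1
      rw [P.ord_mul hc (pow_ne_zero j he), FF.ord_pow]
      refine nonneg_of_mul_nonneg_right (a := (l : ℤ)) ?_ (by exact_mod_cast hl.pos)
      linarith
  have hev : ∀ r, Q.eval (r / e) =
      (Polynomial.C (algebraMap Qb (FN (M * q * q) Qb) κ) * f ^ d).eval r := fun r => by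
    simp only [Q, eval_mul, eval_C, eval_pow, eval_comp, eval_X, mul_div_cancel₀ r he]
  obtain ⟨w, hw, -⟩ := exists_value hq hqM h hχ hl hlq hy u hu her he heq hg0
    (coeff_mem_of_lifts hQ) fun C hC => (hv C hC).mono hq hqM fun r hr => by rwa [hev]
  exact ⟨w, fun C hC ρ hρ => hw C hC ρ (hρ.mono hq hqM fun r hr => by simpa only [hev] using hr)⟩

omit h in
/-- A root of an invariant function near the cusp. -/
theorem exists_root_at {u : FN (M * q * q) Qb} (hu : u ∈ ratFld M q A)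
    (hur : OrdGE (infP M q) u 0) {c : Qb} (hcK : c ∈ fixK A) (hc0 : c ≠ 0)
    (hc : evalAt (infP M q) u = c ^ l) (hl : l ≠ 0) (L : ℕ) :
    ∃ R ∈ ratFld M q A, OrdGE (infP M q) (R - algebraMap Qb _ c) 1 ∧
      OrdGE (infP M q) (R ^ l - u) L := by
  set P := infP M q
  -- induction on the precision
  suffices hL : ∀ L : ℕ, ∃ R ∈ ratFld M q A, OrdGE P (R - algebraMap Qb _ c) 1 ∧
      OrdGE P (R ^ l - u) ((L : ℤ) + 1) by
    obtain ⟨R, h1, h2, h3⟩ := hL L
    exact ⟨R, h1, h2, h3.mono (by linarith)⟩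
  intro L
  induction L with
  | zero =>
    refine ⟨algebraMap Qb _ c, algebraMap_mem_ratFld hcK, ?_, ?_⟩
    · rw [sub_self]; exact ordGE_zero _ _
    · have h1 := (evalAt_spec hur).neg
      rw [neg_sub, hc, map_pow] at h1
      simpa using h1
  | succ L ih =>
    obtain ⟨R, hR, hRc, hd⟩ := ih
    -- `s = l R ^ (l - 1)` is a unit at the place
    have hRreg : OrdGE P R 0 := by
      simpa using (hRc.mono zero_le_one).add (ordGE_algebraMap P c)
    set s := (l : FN (M * q * q) Qb) * R ^ (l - 1)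
    have hsreg : OrdGE P s 0 := by
      refine (OrdGE.mul (m := 0) ?_ ((hRreg.pow (l - 1)))).mono (by simp)
      rw [← map_natCast (algebraMap Qb (FN (M * q * q) Qb))]
      exact ordGE_algebraMap P _
    have hsv : evalAt P s ≠ 0 := by
      rw [show s = algebraMap Qb _ (l : Qb) * R ^ (l - 1) by rw [map_natCast],
        evalAt_mul (ordGE_algebraMap P _) ((hRreg.pow _).mono (by simp)), evalAt_algebraMap,
        evalAt_pow hRreg, evalAt_eq hRc]
      exact mul_ne_zero (Nat.cast_ne_zero.mpr hl) (pow_ne_zero _ hc0)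
    have hs0 : s ≠ 0 := fun h0 => hsv (by rw [h0]; exact RED.Model.evalAt_zero P)
    have hsord : P.ord s = 0 := le_antisymm (not_lt.mp fun hlt =>
      hsv ((evalAt_eq_zero_iff hsreg).mpr (ordGE_iff.mpr (.inr hlt)))) (hsreg.le_ord hs0)
    set t := (R ^ l - u) / s
    -- one Newton step gains one order
    have ht : OrdGE P t ((L : ℤ) + 1) := by
      have := hd.mul (show OrdGE P s⁻¹ 0 from ordGE_iff.mpr (.inr (by
        rw [P.ord_inv, hsord, neg_zero])))
      rwa [add_zero, ← div_eq_mul_inv] at this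
    obtain ⟨k, hk, hke⟩ := exists_newton P.toValuationSubring.toSubring
      ((mem_iff_ordGE P).mpr hRreg) ((mem_iff_ordGE P).mpr (ht.mono (by positivity)))
      (y := u) (l := l) (show s * t = _ from mul_div_cancel₀ _ hs0)
    refine ⟨R - t, sub_mem hR (div_mem (sub_mem (pow_mem hR l) hu)
      (mul_mem (natCast_mem _ l) (pow_mem hR _))), ?_, ?_⟩
    · rw [sub_right_comm]
      exact hRc.sub (ht.mono (by linarith))
    · rw [hke]
      refine (((mem_iff_ordGE P).mp hk).mul (ht.pow 2)).mono ?_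
      push_cast
      linarith

/-- A constant root of the unit at the cusp with the given residue. -/
theorem exists_const_root {χ : BChar M q A false} (hP : infP M q ∈ χ.tube) (hl : l.Prime)
    (hlq : l ≠ q) (u : χ.loc) (hu : χ.lres u ≠ 0) {g0 : kA} (hg0 : g0 ^ l = χ.lres u) :
    ∃ c : O0 A, (c : Qb) ≠ 0 ∧ IsLocalRing.residue A ⟨(c : Qb), c.2.2⟩ = g0 ∧
      evalAt (infP M q) (u : FN (M * q * q) Qb) = (c : Qb) ^ l := by
  obtain ⟨hreg, hm, he⟩ := χ.regular_of_mem_loc (f := u) hP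
  set u0 := evalAt (infP M q) (u : FN (M * q * q) Qb)
  have hu0 : u0 ≠ 0 := fun h0 => hu (by
    rw [← he, show (⟨_, hm⟩ : A) = 0 from Subtype.ext h0, map_zero])
  -- the value at the cusp is a unit of the fixed field
  have hord : ord A q u0 = 0 := by
    refine le_antisymm (not_lt.mp fun hlt => hu ?_) ((mem_iff_ord h hu0).mp hm)
    rw [← he, IsLocalRing.residue_eq_zero_iff, ← A.coe_mem_nonunits_iff, nonunit_iff_ord h hu0]
    exact hlt
  have hK : u0 ∈ fixK A := by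
    rw [show u0 = _ from evalAt_eq_coeff ord_infP hreg]
    exact inertiaFixed_iff.mp (χ.loc_le_ratFld u.2) 0
  -- a root, corrected by a root of unity to the given residue
  obtain ⟨z, hz⟩ := IsAlgClosed.exists_pow_nat_eq u0 hl.pos
  have hz0 : z ≠ 0 := fun h0 => hu0 (by rw [← hz, h0, zero_pow hl.ne_zero])
  have hzord : ord A q z = 0 := by
    have h1 := ord_pow h z l
    rw [hz, hord, eq_comm, mul_eq_zero] at h1
    exact h1.resolve_left (Nat.cast_ne_zero.mpr hl.ne_zero)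
  have hzA : z ∈ A := (mem_iff_ord h hz0).mpr hzord.ge
  have hzl : IsLocalRing.residue A ⟨z, hzA⟩ ^ l = χ.lres u := by
    rw [← he, ← map_pow]
    exact congrArg _ (Subtype.ext hz)
  have hzne : IsLocalRing.residue A ⟨z, hzA⟩ ≠ 0 := fun h0 => hu (by
    rw [← hzl, h0, zero_pow hl.ne_zero])
  obtain ⟨ζ, hζ, hζk⟩ := exists_zeta h hl hlq (A := A)
  have : NeZero l := ⟨hl.ne_zero⟩
  obtain ⟨i, -, hi⟩ := hζk.eq_pow_of_pow_eq_one
    (ξ := g0 / IsLocalRing.residue A ⟨z, hzA⟩) (by rw [div_pow, hg0, hzl, div_self hu])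
  have hc0 : z * (ζ : Qb) ^ i ≠ 0 := mul_ne_zero hz0 (pow_ne_zero i (hζ.ne_zero hl.ne_zero))
  have hcl : (z * (ζ : Qb) ^ i) ^ l = u0 := by
    rw [mul_pow, hz, ← pow_mul, mul_comm i l, pow_mul, hζ.pow_eq_one, one_pow, mul_one]
  have hcA : z * (ζ : Qb) ^ i ∈ A := mul_mem hzA (pow_mem ζ.2.2 i)
  -- it is fixed, having order zero and a fixed `l`-th power, `l` prime to `q`
  have hcK : z * (ζ : Qb) ^ i ∈ fixK A := by
    refine root_mem_fixK h (fun hd => hlq ((Nat.prime_dvd_prime_iff_eq h.1 hl).mp hd).symm)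
      ⟨hc0, ?_⟩ (hcl.symm ▸ hK)
    have h1 := ord_pow h (z * (ζ : Qb) ^ i) l
    rw [hcl, hord, eq_comm, mul_eq_zero] at h1
    exact h1.resolve_left (Nat.cast_ne_zero.mpr hl.ne_zero)
  refine ⟨⟨_, hcK, hcA⟩, hc0, ?_, hcl.symm⟩
  rw [show (⟨z * (ζ : Qb) ^ i, hcA⟩ : A) = ⟨z, hzA⟩ * ⟨(ζ : Qb), ζ.2.2⟩ ^ i from rfl, map_mul,
    map_pow, hi, mul_div_cancel₀ _ hzne]

omit h in
/-- The inverse of a constant with nonzero residue is local, with the inverse residue. -/
theorem exists_loc_const_inv (χ : BChar M q A false) {c : O0 A} (hc0 : (c : Qb) ≠ 0) {g0 : kA}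
    (hg00 : g0 ≠ 0) (hcres : IsLocalRing.residue A ⟨(c : Qb), c.2.2⟩ = g0) :
    ∃ cL : χ.loc, (cL : FN (M * q * q) Qb) = algebraMap Qb _ (c : Qb)⁻¹ ∧
      χ.lres cL = g0⁻¹ := by
  have hci : (c : Qb)⁻¹ ∈ O0 A := mem_O0.mpr ⟨(fixK A).inv_mem c.2.1,
    inv_mem_of_map_ne_zero (π := IsLocalRing.residue A) IsLocalRing.residue_surjective
      (a := ⟨(c : Qb), c.2.2⟩) (hcres ▸ hg00)⟩
  refine ⟨⟨_, χ.Bx_le_loc (algebraMap_mem_Bx hci)⟩, rfl, ?_⟩
  rw [χ.lres_of_mem (algebraMap_mem_Bx hci), χ.const _ hci, ← hcres]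
  refine eq_inv_of_mul_eq_one_left ?_
  rw [← map_mul, ← map_one (IsLocalRing.residue A)]
  exact congrArg _ (Subtype.ext (inv_mul_cancel₀ hc0))

/-- At the cusp the reduction of `κ f ^ d` takes the value `0` if `f` vanishes there. -/
theorem value_cusp {χ : BChar M q A false}
    (hχ : χ.IsPoint hq hqM {Br.low} (sInf M (IsLocalRing.ResidueField A))) (hl : l.Prime)
    (hlq : l ≠ q) (hy : RootOn hq hqM A .low (H .low) y l) (u : χ.loc) {e : FN (M * q * q) Qb}
    (hu : χ.lres u ≠ 0) (her : e ∈ ratFld M q A) (he : e ≠ 0)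
    (heq : y = (u : FN (M * q * q) Qb) * e ^ l) {g0 : kA}
    (hg0 : ∀ D ∈ ({Br.low} : Finset Br), ∀ (z : FX kA M) (hm : e ∈ OC M q hq hqM A D),
      (z : LaurentSeries kA) = resC M q hq hqM A D ⟨e, hm⟩ →
        evalAt (sInf M (IsLocalRing.ResidueField A)) (H D / z) = g0)
    {c : O0 A} (hc0 : (c : Qb) ≠ 0) (hcres : IsLocalRing.residue A ⟨(c : Qb), c.2.2⟩ = g0)
    {m : ℕ}
    {R : FN (M * q * q) Qb} (hRc : OrdGE (infP M q) (R - algebraMap Qb _ (c : Qb)) 1)
    (hRu : OrdGE (infP M q) (R ^ l - (u : FN (M * q * q) Qb)) ((m : ℤ) + 1))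
    {f : (FN (M * q * q) Qb)[X]} (hfr : ∀ j, f.coeff j ∈ ratFld M q A)
    (hfP : ∀ P ∈ χ.tube, P ≠ infP M q → ∀ j, OrdGE P (f.coeff j * e ^ j) 0)
    (hf0 : ∀ j, OrdGE (infP M q) (f.coeff j * e ^ j) (-(m : ℤ)))
    (hfT : OrdGE (infP M q) (f.eval (e * R)) 1)
    {κ : Qb} (hκ : κ ∈ fixK A) {d : ℕ} (hd : d ≠ 0)
    (hv : Ev hq hqM A .low (H .low) y l fun r =>
      GvGE hq hqM A .low ((Polynomial.C (algebraMap Qb _ κ) * f ^ d).eval r) 0)
    {ρ : FX kA M} (hρ : Ev hq hqM A .low (H .low) y l fun r =>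
      ∃ hm : (Polynomial.C (algebraMap Qb _ κ) * f ^ d).eval r ∈ OC M q hq hqM A .low,
        resC M q hq hqM A .low ⟨_, hm⟩ = (ρ : LaurentSeries kA)) :
    OrdGE (sInf M (IsLocalRing.ResidueField A)) ρ 0 ∧
      evalAt (sInf M (IsLocalRing.ResidueField A)) ρ = 0 := by
  classical
  set P0 := infP M q
  have hlow : Br.low ∈ ({Br.low} : Finset Br) := Finset.mem_singleton_self _
  have hys : ∀ C ∈ ({Br.low} : Finset Br), RootOn hq hqM A C (H C) y l := fun C hC => by
    obtain rfl := Finset.mem_singleton.mp hC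
    exact hy
  have hP0 : P0 ∈ χ.tube := infP_mem_tube hq hqM h hlow hχ
  obtain ⟨γ, hγs, hγv, hg0l, -, -, hγr⟩ :=
    exists_gamma hq hqM h hχ hl hys u hu her he heq hg0 hlow
  have hg00 : g0 ≠ 0 := fun h0 => hu (by rw [← hg0l, h0, zero_pow hl.ne_zero])
  -- the element vanishing at the other roots at the cusp
  obtain ⟨cL, hcL', hcL⟩ := exists_loc_const_inv χ hc0 hg00 hcres
  let bL : χ.loc[X] := ∑ j ∈ Finset.range l, Polynomial.C (cL ^ j) * X ^ j
  set b' := bL.map χ.loc.subtype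
  have hb' : b' = cuspKill (c : Qb) l := by
    simp [b', bL, cuspKill, Polynomial.map_sum, hcL', -inv_pow]
  set u' : (FN (M * q * q) Qb) := (u : (FN (M * q * q) Qb))
  set Qf := f.comp (Polynomial.C e * X)
  set p := Qf * b' ^ (m + 1)
  set Mu : (FN (M * q * q) Qb)[X] := X ^ l - Polynomial.C u'
  set Rp := p %ₘ Mu
  have hut : u' ∈ χ.treg := χ.loc_le_treg u.2
  -- regularity away from the cusp
  have hb'O : ∀ O : Subring (FN (M * q * q) Qb), (∀ f ∈ χ.loc, f ∈ O) →
      b' ∈ lifts O.subtype := fun O hO =>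
    mem_lifts_of_coeff fun j => by rw [coeff_map]; exact hO _ (SetLike.coe_mem _)
  have hRp_rat : ∀ j, Rp.coeff j ∈ ratFld M q A := fun j =>
    (coeff_modByMonic_mem (O := (ratFld M q A).toSubring)
      (mul_mem (mem_lifts_of_coeff fun j =>
          show Qf.coeff j ∈ ratFld M q A by
            rw [comp_C_mul_X_coeff]; exact mul_mem (hfr j) (pow_mem her j))
        (pow_mem (hb'O _ fun f hf => χ.loc_le_ratFld hf) (m + 1)))
      hut.1 hl.ne_zero j).1
  obtain ⟨ζ, hζ, -⟩ := exists_zeta h hl hlq (A := A)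
  -- at the cusp the remainder `Rp` vanishes
  have hRp0 : ∀ j, OrdGE P0 (Rp.coeff j) 1 := fun j => by
    simp only [Rp, p, Mu, hb']
    exact coeff_cusp_vanish P0 hζ (Nat.cast_ne_zero.mpr hl.ne_zero) hc0 (hut.2 P0 hP0) hRc hRu
      (fun k => by rw [comp_C_mul_X_coeff]; exact hf0 k)
      (by simpa [Qf, eval_comp] using hfT) j
  have hRp : ∀ j, Rp.coeff j ∈ χ.treg := fun j => by
    refine ⟨hRp_rat j, fun P hP => ?_⟩
    rcases eq_or_ne P P0 with rfl | hne
    · exact (hRp0 j).mono zero_le_one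
    refine (mem_iff_ordGE P).mp (coeff_modByMonic_mem (O := P.toValuationSubring.toSubring)
      (mul_mem (mem_lifts_of_coeff fun j => ?_) (pow_mem (hb'O _ fun g hg => ?_) (m + 1)))
      ?_ hl.ne_zero j).1
    · rw [comp_C_mul_X_coeff]; exact (mem_iff_ordGE P).mpr (hfP P hP hne j)
    · exact (mem_iff_ordGE P).mpr ((χ.loc_le_treg hg).2 P hP)
    · exact (mem_iff_ordGE P).mpr (hut.2 P hP)
  -- so does `Q = κ Rp ^ d`; at `r / e` it is `P r` times a power of `cuspKill`, up to a small term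
  set Q := Polynomial.C (algebraMap Qb (FN (M * q * q) Qb) κ) * Rp ^ d
  have hQ1 : ∀ j, OrdGE P0 (Q.coeff j) 1 := fun j => ordGE_coeff_C_mul_pow P0 hRp0 κ hd j
  let κt : χ.treg := ⟨algebraMap Qb (FN (M * q * q) Qb) κ, algebraMap_mem_ratFld hκ,
    fun P _ => ordGE_algebraMap P κ⟩
  have hQ : ∀ j, Q.coeff j ∈ χ.treg := coeff_mem_of_lifts (O := χ.treg) (P := Q)
    (mul_mem (C'_mem_lifts (f := χ.treg.subtype) ⟨κt, rfl⟩) (pow_mem (mem_lifts_of_coeff hRp) d))
  obtain ⟨E', hQev⟩ := exists_eval_modByMonic_pow f b' he u' l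
    (algebraMap Qb (FN (M * q * q) Qb) κ) (m + 1) d
  obtain ⟨β, hβ⟩ := exists_eval_bound hq hqM (A := A) (C := Br.low) h E'
  have hsmall : ∀ r δ, IsApprox hq hqM A .low (H .low) y l r δ →
    ∃ (hm : r / e ∈ OC M q hq hqM A .low),
      resC M q hq hqM A .low ⟨_, hm⟩ = (γ : LaurentSeries kA) ∧
      GvGE hq hqM A .low (((r / e) ^ l - u') * E'.eval (r / e)) (δ + β) := by
    rintro r δ ⟨hrat, ⟨hm, hres⟩, hd'⟩
    obtain ⟨hm', hres'⟩ := hγr r hm hres
    refine ⟨hm', hres', ?_⟩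
    have hge : gv M q hq hqM A .low e = 0 :=
      gv_eq_zero_of_decomp hq hqM h hχ hl.ne_zero u hu he heq hlow hy.gv_eq
    have h1 := gvGE_mul_div_pow_sub hq hqM h (u₀ := u') (z := 1) he heq hge (one_pow l)
      (r := r) (δ := δ) ⟨hrat, ⟨hm, hres⟩, hd'⟩
    rw [one_mul] at h1
    exact h1.mul hq hqM h (hβ _ hm')
  obtain ⟨w, hw, hw0⟩ := exists_value hq hqM h hχ hl hlq hys u hu her he heq hg0 hQ fun C hC => by
    obtain rfl := Finset.mem_singleton.mp hC
    obtain ⟨δv, hδv⟩ := hv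
    refine ⟨max δv (-β), fun r δ hδ hr => ?_⟩
    beta_reduce
    obtain ⟨hm, hres, hs⟩ := hsmall r δ hr
    rw [hQev]
    refine GvGE.sub hq hqM h ?_ (hs.mono hq hqM (by linarith [le_max_right δv (-β)]))
    obtain ⟨hBm, -⟩ := BChar.resC_eval hq hqM h hχ hlow bL hm hres
    simpa using (hδv r δ ((le_max_left _ _).trans hδ) hr).mul hq hqM h
      ((gvGE_zero_iff hq hqM h).mpr (pow_mem hBm ((m + 1) * d)))
  set bb : FX kA M := bL.eval₂ (BChar.redLoc hq hqM h hχ hlow) γ ^ ((m + 1) * d)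
  obtain ⟨hρ'1, hρ'2⟩ := hw .low hlow (ρ * bb) (by
    obtain ⟨δρ, hδρ⟩ := hρ
    refine ⟨max δρ (1 - β), fun r δ hδ hr => ?_⟩
    obtain ⟨hm, hres, hs⟩ := hsmall r δ hr
    obtain ⟨hPm, hPres⟩ := hδρ r δ ((le_max_left _ _).trans hδ) hr
    obtain ⟨hBm, hBres⟩ := BChar.resC_eval hq hqM h hχ hlow bL hm hres
    obtain ⟨hg, e1⟩ := res_congr hq hqM h
      (f := (Polynomial.C (algebraMap Qb (FN (M * q * q) Qb) κ) * f ^ d).eval r *
        b'.eval (r / e) ^ ((m + 1) * d))
      (g := Q.eval (r / e))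
      (by rw [hQev, sub_sub_cancel_left]; exact hs.neg hq hqM h)
      (by linarith [le_max_right δρ (1 - β)]) (mul_mem hPm (pow_mem hBm _))
    refine ⟨hg, e1.trans ?_⟩
    rw [MulMemClass.coe_mul, SubmonoidClass.coe_pow, ← hBres, ← hPres, ← map_pow, ← map_mul]
    rfl)
  -- so `ρ` times that power has value zero, while the power has value a power of `l`, not zero
  rw [hw0 P0 hP0 hQ1] at hρ'2
  obtain ⟨hBr, hBv⟩ := evalAt_eval₂_hom (sInf M (IsLocalRing.ResidueField A))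
    (fun a => (BChar.redLoc_spec hq hqM h hχ hlow a).1)
    (fun a => (BChar.redLoc_spec hq hqM h hχ hlow a).2) hγs bL
  have hBv' : evalAt (sInf M (IsLocalRing.ResidueField A))
      (bL.eval₂ (BChar.redLoc hq hqM h hχ hlow) γ) = (l : kA) := by
    rw [hBv, hγv, eval₂_finsetSum, Finset.sum_congr rfl (g := fun _ => (1 : kA)) fun j _ => by
      rw [eval₂_mul, eval₂_C, eval₂_X_pow, map_pow, hcL, ← mul_pow, inv_mul_cancel₀ hg00, one_pow]]
    simp
  have hbb : evalAt (sInf M (IsLocalRing.ResidueField A)) bb ≠ 0 := by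
    rw [evalAt_pow hBr, hBv']
    exact pow_ne_zero _ (CharP.cast_ne_zero_of_ne_of_prime kA hl hlq.symm)
  have hbbr : OrdGE (sInf M (IsLocalRing.ResidueField A)) bb 0 := (hBr.pow _).mono (by simp)
  obtain ⟨hρr, hρv⟩ := ordGE_evalAt_of_mul_eq (sInf M (IsLocalRing.ResidueField A)) (x := ρ) hbbr
    hbb hρ'1 rfl
  exact ⟨hρr, by rw [hρv, hρ'2, zero_div]⟩

/-- A nonzero constant fixed by inertia of any integral order. -/
theorem exists_scalar (a : ℤ) : ∃ κ : Qb, κ ∈ fixK A ∧ κ ≠ 0 ∧ ord A q κ = a := by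
  have hq0 : (q : Qb) ≠ 0 := Nat.cast_ne_zero.mpr h.1.ne_zero
  have hord : ∀ n : ℕ, ord A q ((q : Qb) ^ n) = n := fun n => by
    rw [ord_pow h, show ord A q (q : Qb) = 1 from ord_q h, mul_one]
  obtain ⟨n, rfl | rfl⟩ := a.eq_nat_or_neg
  · exact ⟨(q : Qb) ^ n, pow_mem (natCast_mem_fixK q) n, pow_ne_zero n hq0, by
      rw [hord]; norm_cast⟩
  · refine ⟨((q : Qb) ^ n)⁻¹, (fixK A).inv_mem (pow_mem (natCast_mem_fixK q) n),
      inv_ne_zero (pow_ne_zero n hq0), ?_⟩
    rw [ord_inv h, hord]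
    push_cast
    ring

include hq hqM

omit hq hqM h in
/-- The polynomial with section coefficients vanishing at a given point over the cusp. -/
theorem exists_cusp_poly (hl : l.Prime) (hyr : y ∈ ratFld M q A)
    {D : Divisor Qb (FN (M * q * q) Qb)} (hD : divOf Qb y = l • D) {T : FN (M * q * q) Qb}
    (hTr : T ∈ ratFld M q A) (hT : OrdGE (infP M q) T (D (infP M q))) :
    ∃ f : (FN (M * q * q) Qb)[X], f ≠ 0 ∧ f.natDegree < l ∧ (∀ k, f.coeff k ∈ ratFld M q A) ∧
      (∀ Q : Place Qb (FN (M * q * q) Qb), Q ≠ infP M q → ∀ k, f.coeff k ≠ 0 →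
        0 ≤ (l : ℤ) * Q.ord (f.coeff k) + k * Q.ord y) ∧
      (∀ k, OrdGE (infP M q) (f.coeff k)
        (-((k : ℤ) * D (infP M q) + 2 * (genusFF Qb (FN (M * q * q) Qb) : ℤ)))) ∧
      OrdGE (infP M q) (f.eval T) 1 := by
  classical
  obtain ⟨g, ⟨j₀, hj₀⟩, hgr, hgP, hg0, hgT⟩ := exists_section hl.two_le hyr hD hTr hT
  set f : (FN (M * q * q) Qb)[X] := ∑ j : Fin l, Polynomial.C (g j) * X ^ (j : ℕ)
  have hfc : ∀ j : Fin l, f.coeff (j : ℕ) = g j := fun j => by
    simp [f, finsetSum_coeff, Fin.val_inj]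
  have hfc' : ∀ k, l ≤ k → f.coeff k = 0 := fun k hk => by
    rw [finsetSum_coeff]
    exact Finset.sum_eq_zero fun j _ => by rw [coeff_C_mul_X_pow, if_neg (by omega)]
  have hfne : f ≠ 0 := fun h0 => hj₀ (by rw [← hfc j₀, h0, coeff_zero])
  have hdeg : f.natDegree < l := not_le.mp fun hle =>
    (mt leadingCoeff_eq_zero.mp hfne) (hfc' _ hle)
  refine ⟨f, hfne, hdeg, fun k => ?_, fun Q hQ k hne => ?_, fun k => ?_, ?_⟩
  · rcases lt_or_ge k l with hk | hk
    · rw [show k = ((⟨k, hk⟩ : Fin l) : ℕ) from rfl, hfc]; exact hgr _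
    · rw [hfc' k hk]; exact zero_mem _
  · rcases lt_or_ge k l with hk | hk
    swap
    · exact absurd (hfc' k hk) hne
    have e1 : f.coeff k = g ⟨k, hk⟩ := hfc ⟨k, hk⟩
    rw [e1] at hne
    have h1 := (hgP Q hQ ⟨k, hk⟩).le_ord hne
    rw [e1, ← divOf_apply (K := Qb) y Q, hD, Finsupp.smul_apply, nsmul_eq_mul]
    have h2 := mul_le_mul_of_nonneg_left h1 (Int.natCast_nonneg l)
    simp only at h2
    linarith
  · rcases lt_or_ge k l with hk | hk
    · rw [show f.coeff k = g ⟨k, hk⟩ from hfc ⟨k, hk⟩]; exact hg0 ⟨k, hk⟩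
    · rw [hfc' k hk]; exact ordGE_zero _ _
  · rw [show f.eval T = ∑ j : Fin l, g j * T ^ (j : ℕ) by simp [f, eval_finsetSum]]
    exact hgT

/-- At the cusp a suitable polynomial in the root reduces to a function vanishing there. -/
theorem exists_cusp_section (hOrd : HasOrdPoints (M := M) hq hqM h) (hl : l.Prime) (hlq : l ≠ q)
    {D : Divisor Qb (FN (M * q * q) Qb)} (hy : IsRooted hq hqM h y l H)
    (hD : divOf Qb y = l • D) :
    ∃ f : (FN (M * q * q) Qb)[X], f ≠ 0 ∧ f.natDegree < l ∧ (∀ k, f.coeff k ∈ ratFld M q A) ∧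
      (∀ Q : Place Qb (FN (M * q * q) Qb), Q ≠ infP M q → ∀ k, f.coeff k ≠ 0 →
        0 ≤ (l : ℤ) * Q.ord (f.coeff k) + k * Q.ord y) ∧
      ∀ κ : Qb, κ ∈ fixK A → ∀ d : ℕ, d ≠ 0 → ∀ ρ : FX kA M,
        (Ev hq hqM A .low (H .low) y l fun r =>
          GvGE hq hqM A .low ((Polynomial.C (algebraMap Qb _ κ) * f ^ d).eval r) 0) →
        (Ev hq hqM A .low (H .low) y l fun r =>
          ∃ hm : (Polynomial.C (algebraMap Qb _ κ) * f ^ d).eval r ∈ OC M q hq hqM A .low,
            resC M q hq hqM A .low ⟨_, hm⟩ = (ρ : LaurentSeries kA)) →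
        OrdGE (sInf M kA) ρ 0 ∧ evalAt (sInf M kA) ρ = 0 := by
  classical
  have hyC : ∀ C, RootOn hq hqM A C (H C) y l := fun C =>
    ⟨hy.mem_ratFld, hy.ne_zero, hy.gv_eq C, hy.res_eq C⟩
  -- the data at the cusp: the unit `u` and the constant root `c` of its value
  have hord : ∀ P : Place Qb (FN (M * q * q) Qb), P.ord y = (l : ℤ) * D P := fun P => by
    rw [← divOf_apply (K := Qb) y P, hD, Finsupp.smul_apply, nsmul_eq_mul]
  obtain ⟨b, χ, hχ, hpar⟩ :=
    hOrd .low (by decide) (sInf M kA) (sInf_not_mem_SS hq hqM h.2)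
  obtain rfl := eq_false_of_isPoint_sInf hq hqM hχ
  have hlow : Br.low ∈ ({Br.low} : Finset Br) := Finset.mem_singleton_self _
  have hP0 : infP M q ∈ χ.tube := infP_mem_tube hq hqM h hlow hχ
  obtain ⟨u, e, hu, her, he, heq⟩ := BChar.exists_eq_unit_mul_pow hq hqM h hχ hpar hl.ne_zero
    hy.mem_ratFld hy.ne_zero (fun P _ => ⟨D P, hord P⟩) fun C _ => hy.gv_eq C
  obtain ⟨g0, hg0⟩ := exists_g0_single hq hqM h hχ hl.ne_zero (hyC .low) u hu her he heq
  obtain ⟨-, -, -, hg0l, -, -, -⟩ := exists_gamma hq hqM h hχ hl (fun C _ => hyC C) u hu her he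
    heq hg0 hlow
  obtain ⟨c, hc0, hcres, hcu⟩ := exists_const_root h hP0 hl hlq u hu hg0l
  set γ := genusFF Qb (FN (M * q * q) Qb)
  -- a root `R` of `u` to order `2 γ + 1`
  obtain ⟨R, hR, hRc, hRu⟩ := exists_root_at (χ.loc_le_ratFld u.2)
    (χ.regular_of_mem_loc hP0).1 c.2.1 hc0 hcu hl.ne_zero (2 * γ + 1)
  have hede : ∀ P ∈ χ.tube, P.ord e = D P := fun P hP => by
    have h1 := hord P
    rw [heq, P.ord_mul (fun h0 => hu (by rw [show u = 0 from Subtype.ext h0, map_zero]))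
      (pow_ne_zero l he), ord_unit u hu hP, zero_add, FF.ord_pow] at h1
    exact mul_left_cancel₀ (by exact_mod_cast hl.ne_zero) h1
  have heP : OrdGE (infP M q) e (D (infP M q)) := ordGE_iff.mpr (.inr (hede _ hP0).ge)
  have hT : OrdGE (infP M q) (e * R) (D (infP M q)) := by
    refine (heP.mul (n := 0) ?_).mono (add_zero _).ge
    simpa using (hRc.mono zero_le_one).add (ordGE_algebraMap (infP M q) (c : Qb))
  -- the polynomial, from the Riemann-Roch count
  obtain ⟨f, hfne, hdeg, hfr, hbound, hf0, hfT⟩ :=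
    exists_cusp_poly hl hy.mem_ratFld hD (mul_mem her hR) hT
  refine ⟨f, hfne, hdeg, hfr, hbound, fun κ hκ d hd ρ hv hρ => ?_⟩
  refine value_cusp hq hqM h hχ hl hlq (hyC .low) u hu her he heq hg0 hc0 hcres
    (m := 2 * γ) hRc (hRu.mono (by push_cast; rfl)) hfr (fun Q hQ hne k => ?_) (fun k => ?_) hfT
    hκ hd hv hρ
  -- the two bounds needed for the value at the cusp
  · refine ordGE_iff.mpr (or_iff_not_imp_left.mpr fun h0 => ?_)
    have h1 := hbound Q hne k (left_ne_zero_of_mul h0)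
    rw [hord Q] at h1
    rw [Q.ord_mul (left_ne_zero_of_mul h0) (pow_ne_zero k he), FF.ord_pow, hede Q hQ]
    refine nonneg_of_mul_nonneg_right (a := (l : ℤ)) ?_ (by exact_mod_cast hl.pos)
    linarith
  · refine ((hf0 k).mul (heP.pow k)).mono ?_
    push_cast
    linarith

/-- A power of a polynomial of small degree, scaled by a constant, is integral on the three
branches and of order zero on one of them. -/
theorem exists_scaled_pow (hl : l.Prime) (hlq : l ≠ q) (hy : ∀ C, RootOn hq hqM A C (H C) y l)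
    (hroot : ∀ Y, Y ^ l ≠ y) {f : (FN (M * q * q) Qb)[X]} (hf : f ≠ 0) (hdeg : f.natDegree < l) :
    ∃ κ ∈ fixK A, ∃ d ≠ 0,
      (∀ C, Ev hq hqM A C (H C) y l fun r =>
        GvGE hq hqM A C ((Polynomial.C (algebraMap Qb _ κ) * f ^ d).eval r) 0) ∧
      ∃ C, Ev hq hqM A C (H C) y l fun r =>
        (Polynomial.C (algebraMap Qb _ κ) * f ^ d).eval r ≠ 0 ∧
          gv M q hq hqM A C ((Polynomial.C (algebraMap Qb _ κ) * f ^ d).eval r) = 0 := by
  have hndvd : ¬ (X ^ l - Polynomial.C y) ∣ f := fun hdvd => by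
    have h1 := natDegree_le_of_dvd hdvd hf
    rw [natDegree_X_pow_sub_C] at h1
    exact absurd h1 (not_le.mpr hdeg)
  choose v hv using fun C => exists_ev_gv hq hqM h hl hlq (hy C) hroot hndvd
  obtain ⟨C₀, -, hmin⟩ := Finset.exists_min_image Finset.univ v ⟨Br.low, Finset.mem_univ _⟩
  obtain ⟨κ, hκ, hκ0, hκord⟩ := exists_scalar (A := A) h (-(v C₀).num)
  set d := (v C₀).den
  set P : (FN (M * q * q) Qb)[X] := Polynomial.C (algebraMap Qb (FN (M * q * q) Qb) κ) * f ^ d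
  have hPval : ∀ C, Ev hq hqM A C (H C) y l fun r =>
      P.eval r ≠ 0 ∧ gv M q hq hqM A C (P.eval r) = d * (v C - v C₀) := fun C =>
    (hv C).mono hq hqM fun r hr => by
      have h1 : algebraMap Qb (FN (M * q * q) Qb) κ ≠ 0 := (_root_.map_ne_zero _).mpr hκ0
      simp only [P, eval_mul, eval_C, eval_pow]
      refine ⟨mul_ne_zero h1 (pow_ne_zero d hr.1), ?_⟩
      rw [gv_mul M q hq hqM h C h1 (pow_ne_zero d hr.1), gv_algebraMap M q hq hqM h C hκ0,
        gv_pow M q hq hqM h C hr.1, hr.2, hκord]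
      have h2 : (d : ℚ) * v C₀ = ((v C₀).num : ℚ) := by
        rw [mul_comm]; exact Rat.mul_den_eq_num (v C₀)
      push_cast
      linarith
  refine ⟨κ, hκ, d, (v C₀).den_nz, fun C => (hPval C).mono hq hqM fun r hr => Or.inr (by
    rw [hr.2]
    exact mul_nonneg (Nat.cast_nonneg d) (sub_nonneg.mpr (hmin C (Finset.mem_univ C)))),
    C₀, (hPval C₀).mono hq hqM fun r hr => ⟨hr.1, by rw [hr.2, sub_self, mul_zero]⟩⟩

/-- Regularity of the reduction at an ordinary point, on its branch. -/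
theorem ordGE_res_single {C : Br} (hχ : χ.IsPoint hq hqM {C} s) (hpar : χ.HasParam hq hqM {C})
    (hl : l.Prime) (hlq : l ≠ q) (hy : RootOn hq hqM A C (H C) y l)
    (hdvd : ∀ P ∈ χ.tube, (l : ℤ) ∣ P.ord y)
    {f : (FN (M * q * q) Qb)[X]} (hfr : ∀ j, f.coeff j ∈ ratFld M q A) {κ : Qb} (hκ : κ ∈ fixK A)
    (d : ℕ)
    (hft : ∀ P ∈ χ.tube, ∀ j, f.coeff j ≠ 0 → 0 ≤ (l : ℤ) * P.ord (f.coeff j) + j * P.ord y)
    (hv : Ev hq hqM A C (H C) y l fun r =>
      GvGE hq hqM A C ((Polynomial.C (algebraMap Qb _ κ) * f ^ d).eval r) 0)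
    {ρ : FX kA M} (hρ : Ev hq hqM A C (H C) y l fun r =>
      ∃ hm : (Polynomial.C (algebraMap Qb _ κ) * f ^ d).eval r ∈ OC M q hq hqM A C,
        resC M q hq hqM A C ⟨_, hm⟩ = (ρ : LaurentSeries kA)) :
    OrdGE s ρ 0 := by
  obtain ⟨w, hw⟩ := exists_value_at hq hqM h hχ hpar hl hlq hy.mem_ratFld hy.ne_zero
    (fun D hD => by rw [Finset.mem_singleton.mp hD]; exact hy) hdvd
    (fun u e hu her he heq => exists_g0_single hq hqM h hχ hl.ne_zero hy u hu her he heq)
    hfr hκ d hft (fun D hD => by rw [Finset.mem_singleton.mp hD]; exact hv)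
  exact (hw C (Finset.mem_singleton_self C) ρ hρ).1

/-- Regularity of the reduction on the top branch at an ordinary point, by the involution. -/
theorem ordGE_res_top (hχ : χ.IsPoint hq hqM {Br.low} s) (hpar : χ.HasParam hq hqM {Br.low})
    (hl : l.Prime) (hlq : l ≠ q) (hy : RootOn hq hqM A .top (H .top) y l)
    (hdvd : ∀ P : Place Qb (FN (M * q * q) Qb), (l : ℤ) ∣ P.ord y)
    {f : (FN (M * q * q) Qb)[X]} (hfr : ∀ j, f.coeff j ∈ ratFld M q A) {κ : Qb} (hκ : κ ∈ fixK A)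
    (d : ℕ)
    (hft : ∀ P : Place Qb (FN (M * q * q) Qb), P ≠ infP M q → ∀ j, f.coeff j ≠ 0 →
      0 ≤ (l : ℤ) * P.ord (f.coeff j) + j * P.ord y)
    (hv : Ev hq hqM A .top (H .top) y l fun r =>
      GvGE hq hqM A .top ((Polynomial.C (algebraMap Qb _ κ) * f ^ d).eval r) 0)
    {ρ : FX kA M} (hρ : Ev hq hqM A .top (H .top) y l fun r =>
      ∃ hm : (Polynomial.C (algebraMap Qb _ κ) * f ^ d).eval r ∈ OC M q hq hqM A .top,
        resC M q hq hqM A .top ⟨_, hm⟩ = (ρ : LaurentSeries kA)) :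
    OrdGE s ρ 0 := by
  -- transport `y` and `f` by the involution to the low branch
  set W := alW2 M q hq hqM
  set f' := f.map (W : (FN (M * q * q) Qb) →+* (FN (M * q * q) Qb))
  have heval : ∀ r, (Polynomial.C (algebraMap Qb (FN (M * q * q) Qb) κ) * f' ^ d).eval (W r) =
      W ((Polynomial.C (algebraMap Qb (FN (M * q * q) Qb) κ) * f ^ d).eval r) := fun r => by
    simp only [f', eval_mul, eval_C, eval_pow, map_mul, map_pow, AlgEquiv.commutes]
    congr 2
    exact eval_map_apply (W : (FN (M * q * q) Qb) →+* (FN (M * q * q) Qb)) r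
  have hsurj : ∀ Q : Place Qb (FN (M * q * q) Qb),
      ∃ Q', invW M q hq hqM • Q' = Q := fun Q =>
    ⟨(invW M q hq hqM)⁻¹ • Q, smul_inv_smul _ _⟩
  refine ordGE_res_single (H := fun _ => H .top) (f := f') hq hqM h hχ hpar hl hlq
    (rootOn_alW2 hq hqM h hy) (fun Q _ => ?_)
    (fun k => by rw [coeff_map]; exact alW2_mem_ratFld M q hq hqM (hfr k)) hκ d
    (fun Q hQ k hne => ?_) ?_ ?_
  -- the hypotheses at the moved places
  · obtain ⟨Q', rfl⟩ := hsurj Q
    rw [← invW_smul hq hqM y, SemilinearAut.ord_smul]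
    exact hdvd Q'
  · obtain ⟨Q', rfl⟩ := hsurj Q
    rw [coeff_map] at hne ⊢
    change 0 ≤ (l : ℤ) * (invW M q hq hqM • Q').ord (W (f.coeff k)) +
      k * (invW M q hq hqM • Q').ord (W y)
    rw [← invW_smul hq hqM y, ← invW_smul hq hqM (f.coeff k), SemilinearAut.ord_smul,
      SemilinearAut.ord_smul]
    refine hft Q' (fun e0 => ?_) k (fun h0 => hne (by rw [h0, map_zero]))
    subst e0
    exact not_mem_tube_of_indicator hq hqM h (C := .top) (not_ordGE_invW_jL hq hqM)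
      (fun x hx => evalAt_invW hq hqM hx) hχ (by decide) hQ
  -- and those on the reductions
  · refine (Ev.alW2_low hq hqM h hv).mono hq hqM fun r hr => ?_
    obtain ⟨r', rfl, hr'⟩ := hr
    rw [heval]
    exact (gvGE_alW2 hq hqM h).mpr hr'
  · refine (Ev.alW2_low hq hqM h hρ).mono hq hqM fun r hr => ?_
    obtain ⟨r', rfl, hm, hres⟩ := hr
    rw [heval]
    exact ⟨(mem_OC_alW2 M q hq hqM A).mpr hm, (resC_top_eq M q hq hqM A _ hm).symm.trans hres⟩

/-- **Roots of prime degree.** A function with consistent roots and divisor divisible by a prime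
`l ≠ q` is an `l`-th power. -/
theorem exists_root (hSS : HasSSPoints (M := M) hq hqM h)
    (hOrd : HasOrdPoints (M := M) hq hqM h) (hl : l.Prime) (hlq : l ≠ q)
    {D : Divisor Qb (FN (M * q * q) Qb)} (hy : IsRooted hq hqM h y l H)
    (hD : divOf Qb y = l • D) : ∃ Y, Y ^ l = y := by
  classical
  by_contra! hroot
  have hyC : ∀ C, RootOn hq hqM A C (H C) y l := fun C =>
    ⟨hy.mem_ratFld, hy.ne_zero, hy.gv_eq C, hy.res_eq C⟩
  have hdvd : ∀ P : Place Qb (FN (M * q * q) Qb), (l : ℤ) ∣ P.ord y := fun P => ⟨D P, by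
    rw [← divOf_apply (K := Qb) y P, hD, Finsupp.smul_apply, nsmul_eq_mul]⟩
  obtain ⟨f, hfne, hdeg, hfr, hbound, hcusp'⟩ := exists_cusp_section hq hqM h hOrd hl hlq hy hD
  obtain ⟨κ, hκ, d, hd, hP0', C₀, hC₀⟩ := exists_scaled_pow hq hqM h hl hlq hyC hroot hfne hdeg
  set P : (FN (M * q * q) Qb)[X] := Polynomial.C (algebraMap Qb (FN (M * q * q) Qb) κ) * f ^ d
  have hPr : ∀ k, P.coeff k ∈ ratFld M q A := fun k =>
    coeff_mem_of_lifts (O := (ratFld M q A).toSubring) (mul_mem (mem_lifts_of_coeff fun j => by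
      rw [coeff_C]
      split_ifs
      · exact algebraMap_mem_ratFld hκ
      · exact zero_mem _) (pow_mem (mem_lifts_of_coeff hfr) d)) k
  choose ρ hρ using fun C => exists_ev_res hq hqM h hl hlq (hyC C) hPr (hP0' C)
  -- the glued points
  have hvalSS : ∀ s ∈ SS M q hq hqM h.2,
      ∃ w : kA, ∀ C, OrdGE s (ρ C) 0 ∧ evalAt s (ρ C) = w := fun s hs => by
    obtain ⟨χ', hχ', hpar'⟩ := hSS s hs
    obtain ⟨w, hw⟩ := exists_value_at hq hqM h hχ' hpar' hl hlq hy.mem_ratFld hy.ne_zero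
      (fun C _ => hyC C) (fun Q _ => hdvd Q)
      (fun u' e' hu' her' he' heq' => by
        obtain ⟨g1, hg1⟩ := hy.consistent s hs χ' hχ' u' e' hu' her' he' heq'
        exact ⟨g1, fun C _ z hm hz => hg1 C z hm hz⟩)
      hfr hκ d (fun Q hQ => hbound Q fun e0 => not_ordGE_infP_jL (e0 ▸ hQ.1))
      (fun C _ => hP0' C)
    exact ⟨w, fun C => hw C (Finset.mem_univ C) (ρ C) (hρ C)⟩
  have hcusp := hcusp' κ hκ d hd (ρ .low) (hP0' .low) (hρ .low)
  -- the three branches
  have hL : ρ .low = 0 := eq_zero_of_ordGE_evalAt _ (fun s => by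
    by_cases hs : s ∈ SS M q hq hqM h.2
    · exact ((hvalSS s hs).choose_spec .low).1
    rcases eq_or_ne s (sInf M kA) with rfl | hne
    · exact hcusp.1
    obtain ⟨b', χ', hχ', hpar'⟩ := hOrd .low (by decide) s hs
    exact ordGE_res_single hq hqM h hχ' hpar' hl hlq (hyC .low) (fun Q _ => hdvd Q) hfr hκ d
      (fun Q hQ => hbound Q fun e0 =>
        infP_not_mem_tube hq hqM h (Finset.mem_singleton_self _) hχ' hne (e0 ▸ hQ))
      (hP0' .low) (hρ .low)) hcusp.2
  obtain ⟨s₀, hs₀⟩ := SS_nonempty M q hq hqM h.2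
  obtain ⟨w₀, hw₀⟩ := hvalSS s₀ hs₀
  have hw0 : w₀ = 0 := by
    rw [← (hw₀ .low).2, hL]; exact RED.Model.evalAt_zero s₀
  have hM : ρ .mid = 0 := eq_zero_of_ordGE_evalAt s₀ (fun s => by
    by_cases hs : s ∈ SS M q hq hqM h.2
    · exact ((hvalSS s hs).choose_spec .mid).1
    obtain ⟨b', χ', hχ', hpar'⟩ := hOrd .mid (by decide) s hs
    exact ordGE_res_single hq hqM h hχ' hpar' hl hlq (hyC .mid) (fun Q _ => hdvd Q) hfr hκ d
      (fun Q hQ => hbound Q fun e0 => not_mem_tube_of_indicator hq hqM h (C := .low)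
        not_ordGE_infP_jL (fun x hx => evalAt_eq_coeff ord_infP hx) hχ' (by decide) (e0 ▸ hQ))
      (hP0' .mid) (hρ .mid)) ((hw₀ .mid).2.trans hw0)
  have hT : ρ .top = 0 := eq_zero_of_ordGE_evalAt s₀ (fun s => by
    by_cases hs : s ∈ SS M q hq hqM h.2
    · exact ((hvalSS s hs).choose_spec .top).1
    obtain ⟨b', χ', hχ', hpar'⟩ := hOrd .low (by decide) s hs
    exact ordGE_res_top hq hqM h hχ' hpar' hl hlq (hyC .top) hdvd hfr hκ d hbound
      (hP0' .top) (hρ .top)) ((hw₀ .top).2.trans hw0)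
  -- contradiction
  obtain ⟨r, -, ⟨hPne, hPgv⟩, hm, hres⟩ :=
    Ev.exists hq hqM h hl hlq (hyC C₀) (hC₀.and hq hqM (hρ C₀))
  refine ((prim_iff M q hq hqM h C₀ hPne).mpr hPgv).2 (hres.trans ?_)
  cases C₀
  · rw [hL]; rfl
  · rw [hM]; rfl
  · rw [hT]; rfl

end Fermat.CAR

end
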