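import Fermat.Agent.CAR.PtCuspAux

/-!
# The cusps of the branch at `∞` and of the middle branches

Pullbacks of `cuspS` are indicators at a cusp.  The generators are `q` at `∞` and, on the middle
branches, `t = 1 - (first coordinate) / (third coordinate)`: `t ^ (q - 1) / q` reduces to a
multiple of `(θ j / j) ^ (q - 1)`, a unit at a cusp.
-/

set_option autoImplicit false
set_option linter.unusedSectionVars false

noncomputable section

open ModularCurve AlgebraicCurve

namespace Fermat.CAR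

attribute [local instance 10000] algFN smulFN algFX smulFX

open Fermat.FF Fermat.MC Fermat.RED Fermat.RED.Model Fermat.BAD.X0 Fermat.EC.Val

local notation "Qb" => AlgebraicClosure ℚ

variable {M q : ℕ} [NeZero M] [NeZero q] {A : ValuationSubring (AlgebraicClosure ℚ)}

/-- The expansion of `j` is fixed by inertia. -/
theorem inertiaFixed_jL : InertiaFixed A ((jL M Qb : FN M Qb) : LaurentSeries Qb) := fun σ _ => by
  rw [coe_jL, coeffMap_jqModC]

/-- The reduction of a product. -/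
theorem sR_mul_mk {a b : LaurentSeries Qb} (ha : a ∈ gS A) (hb : b ∈ gS A) :
    sR A ⟨a * b, mul_mem ha hb⟩ = sR A ⟨a, ha⟩ * sR A ⟨b, hb⟩ := by
  rw [← map_mul (sR A)]
  refine congrArg (sR A) (Subtype.ext ?_)
  rw [Subring.coe_mul]

/-- The image of the separating function is invariant when those of the coordinates are. -/
theorem cuspS_map_mem_ratFld (φ : FN (M * q) Qb →ₐ[Qb] FN (M * q * q) Qb)
    (ha : φ (aj M q) ∈ ratFld M q A) (hb : φ (bj M q) ∈ ratFld M q A) :
    φ (cuspS M q) ∈ ratFld M q A := by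
  simp only [cuspS, map_sub, map_mul, map_pow, map_inv₀]
  exact sub_mem (pow_mem (inv_mem ha) _) (pow_mem (mul_mem (pow_mem (inv_mem ha) _) hb) _)

/-- `j` at level `M q²` is invariant. -/
theorem aM_jL_mem_ratFld : aM M q (jL M Qb) ∈ ratFld M q A := fun σ hσ => by
  rw [coe_aM]; exact inertiaFixed_jL σ hσ

variable (hq : q.Prime) (hqM : ¬ q ∣ M)
variable [Fact q.Prime] [IsAlgClosed (IsLocalRing.ResidueField A)]
variable [CharP (IsLocalRing.ResidueField A) q]
variable [FF.IsFunctionField Qb (FN M Qb)] [FF.IsFunctionField Qb (FN (M * q) Qb)]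
  [FF.IsFunctionField Qb (FN (M * q * q) Qb)]

local notation "kA" => IsLocalRing.ResidueField A

include hq hqM in
/-- The pullback of `aj` along the second map is invariant. -/
theorem beta_aj_mem_ratFld : heckeBetaBar Qb (M * q) q (aj M q) ∈ ratFld M q A := fun σ hσ => by
  rw [coe_heckeBetaBar, ← emb_true M q hq hqM, emb_true_aj, ModularCurve.coeffMap_qExpand,
    coeffMap_jqModC]

variable (M q) in
/-- The third and second coordinates as images of `aj` and `bj`. -/
def betaW : FN (M * q) Qb →ₐ[Qb] FN (M * q * q) Qb :=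
  (heckeBetaBar Qb (M * q) q).comp (alW M q hq hqM).toAlgHom

/-- `betaW` on `aj`. -/
theorem betaW_aj : betaW M q hq hqM (aj M q) = bM M q (jL M Qb) := by
  change heckeBetaBar Qb (M * q) q (alW M q hq hqM (aj M q)) = _
  rw [alW_aj]
  rfl

/-- `betaW` on `bj`. -/
theorem betaW_bj : betaW M q hq hqM (bj M q) = heckeBetaBar Qb (M * q) q (aj M q) := by
  change heckeBetaBar Qb (M * q) q (alW M q hq hqM (bj M q)) = _
  rw [alW_bj]

include hq hqM in
/-- Where `φ cuspS` is a unit, a pole of `φ aj` forces the pole of `φ bj`. -/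
theorem ord_of_cuspS (φ : FN (M * q) Qb →ₐ[Qb] FN (M * q * q) Qb)
    {P : Place Qb (FN (M * q * q) Qb)} (hx : P.ord (φ (aj M q)) < 0)
    (hS : ¬ OrdGE P (φ (cuspS M q)) 1) :
    P.ord (φ (bj M q)) = q * P.ord (φ (aj M q)) := by
  set x := φ (aj M q)
  set y := φ (bj M q)
  have hu : OrdGE P (x⁻¹ ^ q * y) 0 := by
    have h1 := ordGE_map_cuspS φ (bj_div_mem_intClosure hq hqM) (P := P) hx.le
    rwa [map_mul, map_pow, map_inv₀] at h1
  have h1 : OrdGE P (x⁻¹ ^ (q ^ 2 - 1)) 1 := by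
    refine ordGE_iff.mpr (.inr ?_)
    rw [FF.ord_pow, P.ord_inv]
    have : 2 ^ 2 ≤ q ^ 2 := Nat.pow_le_pow_left hq.two_le 2
    have h2 : (1 : ℤ) ≤ ((q ^ 2 - 1 : ℕ) : ℤ) := by exact_mod_cast (by omega : 1 ≤ q ^ 2 - 1)
    nlinarith
  have hnot : ¬ OrdGE P (x⁻¹ ^ q * y) 1 := fun h2 => hS (by
    simp only [cuspS, map_sub, map_mul, map_pow, map_inv₀]
    exact h1.sub ((h2.pow q).mono (by simp [hq.one_le])))
  have hne : x⁻¹ ^ q * y ≠ 0 := fun h0 => hnot (h0 ▸ ordGE_zero _ _)
  have hord : P.ord (x⁻¹ ^ q * y) = 0 := by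
    refine le_antisymm (not_lt.mp fun hlt => hnot (ordGE_iff.mpr (.inr hlt))) (hu.le_ord hne)
  rw [P.ord_mul (left_ne_zero_of_mul hne) (right_ne_zero_of_mul hne), FF.ord_pow, P.ord_inv,
    mul_neg] at hord
  linarith

include hq hqM in
/-- `aj` is integral over `bj`. -/
theorem aj_mem_intClosure_bj : aj M q ∈ intClosure Qb (bj M q) := by
  have h1 := map_mem_intClosure (alW M q hq hqM).toAlgHom (bj_mem_intClosure M q hq hqM)
  simp only [AlgEquiv.coe_toAlgHom] at h1
  rwa [alW_aj, alW_bj] at h1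

include hq hqM in
/-- The pole order of the first coordinate is at most that of the third. -/
theorem ord_third_le {P : Place Qb (FN (M * q * q) Qb)}
    (h1 : P.ord (aM M q (jL M Qb)) ≤ 0) (h3 : P.ord (bM M q (jL M Qb)) ≤ 0)
    (hA : ¬ OrdGE P (heckeAlphaBar Qb (M * q) q (cuspS M q)) 1)
    (hB : ¬ OrdGE P (betaW M q hq hqM (cuspS M q)) 1) :
    P.ord (bM M q (jL M Qb)) ≤ P.ord (aM M q (jL M Qb)) := by
  rcases h1.lt_or_eq with h1' | h1'
  · have e1 := ord_of_cuspS hq hqM (heckeAlphaBar Qb (M * q) q) (P := P) h1' hA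
    rw [show heckeAlphaBar Qb (M * q) q (bj M q) = heckeBetaBar Qb (M * q) q (aj M q) from
        alpha_beta_comm M q (jL M Qb),
      show heckeAlphaBar Qb (M * q) q (aj M q) = aM M q (jL M Qb) from rfl] at e1
    have hq0 : (0 : ℤ) < q := by exact_mod_cast hq.pos
    rcases h3.lt_or_eq with h3' | h3'
    · have e3 := ord_of_cuspS hq hqM (betaW M q hq hqM) (P := P)
        (by rw [betaW_aj]; exact h3') hB
      rw [betaW_aj, betaW_bj] at e3
      exact le_of_eq (mul_left_cancel₀ hq0.ne' (e3.symm.trans e1))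
    · exfalso
      have h4 := FF.mem_intClosure_iff.mp
        (map_mem_intClosure (heckeBetaBar Qb (M * q) q) (aj_mem_intClosure_bj hq hqM)) P
        (ordGE_iff.mpr (.inr h3'.ge))
      have hne : heckeBetaBar Qb (M * q) q (aj M q) ≠ 0 := fun h0 => by
        rw [h0, Place.ord_zero] at e1; nlinarith
      have h5 := h4.le_ord hne
      rw [e1] at h5
      nlinarith
  · omega

variable (h : IsPlace A q)
variable [FF.IsFunctionField (IsLocalRing.ResidueField A) (FX (IsLocalRing.ResidueField A) M)]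
include hq hqM h

omit h in
/-- Membership in `OC` and the reduction on a branch, from the expansion. -/
theorem exists_resC_eq (C : Br) (φ : FN (M * q * q) Qb) {Z : LaurentSeries Qb}
    (e : brC M q hq hqM C φ = Z) (hZ : Z ∈ gS A) :
    ∃ hm : φ ∈ OC M q hq hqM A C, resC M q hq hqM A C ⟨φ, hm⟩ = sR A ⟨Z, hZ⟩ := by
  subst e
  exact ⟨hZ, rfl⟩

/-- Zero reduction means positive order. -/
theorem gv_pos_of_resC (C : Br) {φ : FN (M * q * q) Qb} (hφ : φ ≠ 0)
    (hm : φ ∈ OC M q hq hqM A C) (h0 : resC M q hq hqM A C ⟨φ, hm⟩ = 0) :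
    0 < gv M q hq hqM A C φ :=
  lt_of_le_of_ne ((brC_mem_iff M q hq hqM h C hφ).mp hm)
    fun e => ((prim_iff M q hq hqM h C hφ).mpr e.symm).2 h0

omit hqM h in
/-- The reduced separating function. -/
theorem exists_cuspR {s : Place kA (FX kA M)} (hs : s.ord (jX kA M) < 0) :
    ∃ R : FX kA M, (R : LaurentSeries kA) = (jqModC kA)⁻¹ ^ (q ^ 2 - 1) - 1 ∧
      OrdGE s R 0 ∧ evalAt s R ≠ 0 := by
  have h1 : OrdGE s ((jX kA M)⁻¹ ^ (q ^ 2 - 1)) 1 := by
    refine ordGE_iff.mpr (.inr ?_)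
    rw [FF.ord_pow, s.ord_inv]
    have : 2 ^ 2 ≤ q ^ 2 := Nat.pow_le_pow_left hq.two_le 2
    have h2 : (1 : ℤ) ≤ ((q ^ 2 - 1 : ℕ) : ℤ) := by exact_mod_cast (by omega : 1 ≤ q ^ 2 - 1)
    nlinarith
  have hR : OrdGE s ((jX kA M)⁻¹ ^ (q ^ 2 - 1) - 1) 0 :=
    (h1.mono zero_le_one).sub (ordGE_iff.mpr (.inr s.ord_one.ge))
  refine ⟨(jX kA M)⁻¹ ^ (q ^ 2 - 1) - 1, ?_, hR, fun h0 => ?_⟩
  · rw [AddSubgroupClass.coe_sub, SubmonoidClass.coe_pow, OneMemClass.coe_one]
    rfl
  · have h2 := h1.sub ((evalAt_eq_zero_iff hR).mp h0)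
    rw [sub_sub_cancel] at h2
    have := h2.le_ord one_ne_zero
    rw [s.ord_one] at this
    omega

/-- A cusp on a branch other than the top one gives a character killing `xbar` there. -/
theorem exists_char_cusp (C : Br) (hC : C ≠ .top) {s : Place kA (FX kA M)}
    (hs : s.ord (jX kA M) < 0) :
    ∃ (χ : BChar M q A false) (_ : OrdGE s (xbar M kA false) 0),
      (∀ f, χ.res f = evalAt s (redB hq hqM h C f)) ∧ χ.res ⟨_, self_mem_Bx⟩ = 0 := by
  have h1 : OrdGE s (xbar M kA false) 1 := by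
    change OrdGE s (jX kA M)⁻¹ 1
    exact ordGE_iff.mpr (.inr (by rw [s.ord_inv]; omega))
  have hs' := h1.mono zero_le_one
  refine ⟨ptChar false hq hqM h C s hs', hs', fun f => ptChar_res hq hqM h C s hs' f, ?_⟩
  rw [ptChar_res]
  refine (congrArg (evalAt s) (Subtype.ext ?_)).trans ((evalAt_eq_zero_iff hs').mpr h1)
  rw [coe_redB hq hqM h C (⟨_, self_mem_Bx⟩ : Bx M q A false)
    (mem_OC_Bx hq hqM h C (⟨_, self_mem_Bx⟩ : Bx M q A false)), resC_xch M q hq hqM h false C,
    show eBr q C = 1 by cases C <;> first | rfl | exact absurd rfl hC, pow_one]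

/-- **Cusps of the branch at `∞`.** A cusp of the reduced curve gives a character at it on the
branch at `∞`, with parameters. -/
theorem exists_point_cusp_low {s : Place kA (FX kA M)} (hs : s.ord (jX kA M) < 0) :
    ∃ χ : BChar M q A false, χ.IsPoint hq hqM {Br.low} s ∧ χ.HasParam hq hqM {Br.low} := by
  obtain ⟨χ, hs', hres, hx⟩ := exists_char_cusp hq hqM h .low (by simp) hs
  obtain ⟨mT, rT⟩ := exists_cuspS_red (A := A) hq hqM true
  obtain ⟨mF, rF⟩ := exists_cuspS_red (A := A) hq hqM false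
  rw [if_pos rfl] at rT
  rw [if_neg Bool.false_ne_true] at rF
  obtain ⟨R, hR, hR0, hR1⟩ := exists_cuspR hq hs
  set φ := heckeBetaBar Qb (M * q) q (cuspS M q)
  -- the cusp function reduces to `R ^ q` on the low sheet and to `0` on the others
  obtain ⟨ml, rl⟩ := exists_resC_eq hq hqM .low φ
    (Z := qExpand Qb q (emb M q hq hqM true (cuspS M q)))
    (by rw [brC_low, emb_true]; exact coe_heckeBetaBar _ _ _) ((redCompat_qExpand q).map_mem mT)
  obtain ⟨mm, rm⟩ := exists_resC_eq hq hqM .mid φ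
    (Z := twist (zpw q (zetaQ q) (1 : Fin q)) (emb M q hq hqM false (cuspS M q)))
    (by rw [brC_mid]; exact br11_beta M q hq hqM _ _)
    ((redCompat_twist (zpw_pow q (1 : Fin q))).map_mem mF)
  obtain ⟨mt, rt⟩ := exists_resC_eq hq hqM .top φ (Z := emb M q hq hqM false (cuspS M q))
    (by rw [brC_top, alW2_beta, coe_heckeAlphaBar, emb_false]) mF
  rw [(redCompat_qExpand q).sR_map mT, rT] at rl
  rw [sR_twist (zpw_pow q (1 : Fin q)) mF, rF] at rm
  rw [rF] at rt
  have hz : ((R ^ q : FX kA M) : LaurentSeries kA) = resC M q hq hqM A .low ⟨φ, ml⟩ := by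
    rw [rl, SubmonoidClass.coe_pow, hR, laurent_pow_char q ((jqModC kA)⁻¹ ^ (q ^ 2 - 1) - 1)]
    simp only [map_sub, map_pow, map_inv₀, map_one, coeffMap_jqModC]
  have hφ : φ ≠ 0 := fun h0 => pow_ne_zero q (fun hz0 => hR1 (by
    rw [hz0]; exact RED.Model.evalAt_zero s) : R ≠ 0) (Subtype.ext (by
      rw [hz, show (⟨φ, ml⟩ : OC M q hq hqM A .low) = 0 from Subtype.ext h0, map_zero]
      rfl))
  have g1 := gv_pos_of_resC hq hqM h .mid hφ mm rm
  have g2 := gv_pos_of_resC hq hqM h .top hφ mt rt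
  have g0 := (brC_mem_iff M q hq hqM h .low hφ).mp ml
  have hpt : χ.IsPoint hq hqM {Br.low} s := isPoint_of_indicator hq hqM h χ .low s hs' hres
    (cuspS_map_mem_ratFld _ (beta_aj_mem_ratFld hq hqM)
      (bM_mem_ratFld (M := M) (q := q) inertiaFixed_jL))
    (fun P hP => ordGE_map_cuspS _ (cuspS_mem_intClosure hq hqM)
      (ord_le_zero_of_cusp hq hqM h χ hx hP).2.1)
    (fun D => by cases D <;> first | exact g0 | exact g1.le | exact g2.le)
    (fun D hD => by cases D <;> first | exact absurd rfl hD | exact g1 | exact g2)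
    ml hz ((hR0.pow q).mono (mul_zero (q : ℤ)).ge)
    (by rw [FF.evalAt_pow hR0]; exact pow_ne_zero q hR1)
  -- on the low sheet `q` generates
  exact ⟨χ, hpt, hasParam_low hq hqM h hs' hres hpt⟩

/-- The indicator at a cusp of the middle branches bounds the pole of the first coordinate. -/
theorem exists_char_cusp_mid {s : Place kA (FX kA M)} (hs : s.ord (jX kA M) < 0) :
    ∃ (χ : BChar M q A false) (_ : OrdGE s (xbar M kA false) 0),
      (∀ f, χ.res f = evalAt s (redB hq hqM h .mid f)) ∧ χ.IsPoint hq hqM {Br.mid} s ∧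
        ∀ P ∈ χ.tube, P.ord (bM M q (jL M Qb)) ≤ P.ord (aM M q (jL M Qb)) := by
  obtain ⟨χ, hs', hres, hx⟩ := exists_char_cusp hq hqM h .mid (by simp) hs
  obtain ⟨mT, rT⟩ := exists_cuspS_red (A := A) hq hqM true
  obtain ⟨mF, rF⟩ := exists_cuspS_red (A := A) hq hqM false
  rw [if_pos rfl] at rT
  rw [if_neg Bool.false_ne_true] at rF
  obtain ⟨R, hR, hR0, hR1⟩ := exists_cuspR hq hs
  set φ := heckeAlphaBar Qb (M * q) q (cuspS M q) * betaW M q hq hqM (cuspS M q)
  have hbw : betaW M q hq hqM (cuspS M q) =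
      heckeBetaBar Qb (M * q) q (alW M q hq hqM (cuspS M q)) := rfl
  have hmw := (redCompat_qExpand (A := A) q).map_mem mF
  -- the product of two cusp functions reduces to `R²` on the middle sheet, to `0` on the others
  obtain ⟨ml, rl⟩ := exists_resC_eq hq hqM .low φ
    (Z := emb M q hq hqM true (cuspS M q) * qExpand Qb q (emb M q hq hqM false (cuspS M q)))
    (by rw [brC_low, MulMemClass.coe_mul, hbw, coe_heckeAlphaBar, coe_heckeBetaBar, emb_true,
      emb_false])
    (mul_mem mT hmw)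
  obtain ⟨mm, rm⟩ := exists_resC_eq hq hqM .mid φ
    (Z := emb M q hq hqM true (cuspS M q) *
      twist (zpw q (zetaQ q) (1 : Fin q)) (emb M q hq hqM true (cuspS M q)))
    (by rw [brC_mid, map_mul, hbw, br11_alpha, br11_beta, emb_alW, Bool.not_false, emb_true])
    (mul_mem mT ((redCompat_twist (zpw_pow q (1 : Fin q))).map_mem mT))
  obtain ⟨mt, rt⟩ := exists_resC_eq hq hqM .top φ
    (Z := qExpand Qb q (emb M q hq hqM false (cuspS M q)) * emb M q hq hqM true (cuspS M q))
    (by rw [brC_top, map_mul, hbw, alW2_alpha, alW2_beta, alW_alW, MulMemClass.coe_mul,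
      coe_heckeAlphaBar, coe_heckeBetaBar, emb_true, emb_false])
    (mul_mem hmw mT)
  rw [sR_mul_mk mT hmw, (redCompat_qExpand q).sR_map mF, rF, map_zero, mul_zero] at rl
  rw [sR_mul_mk hmw mT, (redCompat_qExpand q).sR_map mF, rF, map_zero, zero_mul] at rt
  rw [sR_mul_mk mT ((redCompat_twist (zpw_pow q (1 : Fin q))).map_mem mT),
    sR_twist (zpw_pow q (1 : Fin q)) mT, rT] at rm
  have hz : ((R * R : FX kA M) : LaurentSeries kA) = resC M q hq hqM A .mid ⟨φ, mm⟩ := by
    rw [rm, MulMemClass.coe_mul, hR]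
  have hRne : R ≠ 0 := fun hz0 => hR1 (by rw [hz0]; exact RED.Model.evalAt_zero s)
  have hφ : φ ≠ 0 := fun h0 => mul_ne_zero hRne hRne (Subtype.ext (by
      rw [hz, show (⟨φ, mm⟩ : OC M q hq hqM A .mid) = 0 from Subtype.ext h0, map_zero]
      rfl))
  have g0 := gv_pos_of_resC hq hqM h .low hφ ml rl
  have g2 := gv_pos_of_resC hq hqM h .top hφ mt rt
  have g1 := (brC_mem_iff M q hq hqM h .mid hφ).mp mm
  have hax : aM M q (jL M Qb) ∈ ratFld M q A := aM_jL_mem_ratFld
  have hbx : bM M q (jL M Qb) ∈ ratFld M q A := bM_mem_ratFld inertiaFixed_jL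
  have hφr : φ ∈ ratFld M q A := mul_mem
    (cuspS_map_mem_ratFld _ hax (by
      rw [show heckeAlphaBar Qb (M * q) q (bj M q) = heckeBetaBar Qb (M * q) q (aj M q) from
        alpha_beta_comm M q (jL M Qb)]
      exact beta_aj_mem_ratFld hq hqM))
    (cuspS_map_mem_ratFld _ (by rw [betaW_aj]; exact hbx)
      (by rw [betaW_bj]; exact beta_aj_mem_ratFld hq hqM))
  have hregA : ∀ P ∈ χ.tube, OrdGE P (heckeAlphaBar Qb (M * q) q (cuspS M q)) 0 := fun P hP =>
    ordGE_map_cuspS _ (cuspS_mem_intClosure hq hqM)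
      (ord_le_zero_of_cusp hq hqM h χ hx hP).1
  have hregB : ∀ P ∈ χ.tube, OrdGE P (betaW M q hq hqM (cuspS M q)) 0 := fun P hP =>
    ordGE_map_cuspS _ (cuspS_mem_intClosure hq hqM)
      (by rw [betaW_aj]; exact (ord_le_zero_of_cusp hq hqM h χ hx hP).2.2)
  have hreg : ∀ P ∈ χ.tube, OrdGE P φ 0 := fun P hP =>
    ((hregA P hP).mul (hregB P hP)).mono (add_zero (0 : ℤ)).ge
  have hzs : OrdGE s (R * R) 0 := (hR0.mul hR0).mono (add_zero (0 : ℤ)).ge
  have hz0 : evalAt s (R * R) ≠ 0 := by rw [evalAt_mul hR0 hR0]; exact mul_ne_zero hR1 hR1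
  -- so it indicates the middle sheet
  have hpt : χ.IsPoint hq hqM {Br.mid} s := isPoint_of_indicator hq hqM h χ .mid s hs' hres
    hφr hreg
    (fun D => by cases D <;> first | exact g0.le | exact g1 | exact g2.le)
    (fun D hD => by cases D <;> first | exact absurd rfl hD | exact g0 | exact g2)
    mm hz hzs hz0
  have hφl : φ ∈ χ.loc := BChar.mem_loc_of hq hqM h hpt hφr hreg fun C hC => by
    obtain rfl := Finset.mem_singleton.mp hC; exact mm
  obtain ⟨zφ, hzφ, -, hzφv⟩ := BChar.exists_red hq hqM h hpt (Finset.mem_singleton_self Br.mid)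
    ⟨φ, hφl⟩
  obtain rfl : zφ = R * R := Subtype.ext (hzφ.trans hz.symm)
  -- nonvanishing of both factors on the tube compares the orders
  have htP : ∀ P ∈ χ.tube, P.ord (bM M q (jL M Qb)) ≤ P.ord (aM M q (jL M Qb)) := fun P hP => by
    obtain ⟨hr', hm', he'⟩ := χ.regular_of_mem_loc (f := ⟨φ, hφl⟩) hP
    have hev : evalAt P φ ≠ 0 := fun h0 => hz0 (by
      rw [hzφv, ← he', show (⟨_, hm'⟩ : A) = 0 from Subtype.ext h0, map_zero])
    refine ord_third_le hq hqM (ord_le_zero_of_cusp hq hqM h χ hx hP).1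
      (ord_le_zero_of_cusp hq hqM h χ hx hP).2.2 (fun h1 => hev ?_) fun h1 => hev ?_
    · exact (evalAt_eq_zero_iff hr').mpr ((h1.mul (hregB P hP)).mono (add_zero (1 : ℤ)).ge)
    · exact (evalAt_eq_zero_iff hr').mpr (((hregA P hP).mul h1).mono (zero_add (1 : ℤ)).ge)
  exact ⟨χ, hs', hres, hpt, htP⟩

/-- The generator of the middle branches at a cusp and the reduction of its power. -/
theorem exists_cusp_red_t :
    ∃ (cb : kA) (hu : ((1 - aM M q (jL M Qb) * (bM M q (jL M Qb))⁻¹) ^ (q - 1) /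
        (q : FN (M * q * q) Qb)) ∈ OC M q hq hqM A .mid), cb ≠ 0 ∧
      resC M q hq hqM A .mid ⟨_, hu⟩ =
        algebraMap kA (LaurentSeries kA) cb * (thetaS (jqModC kA) * (jqModC kA)⁻¹) ^ (q - 1) := by
  set x₁ := aM M q (jL M Qb)
  set x₃ := bM M q (jL M Qb)
  set t : FN (M * q * q) Qb := 1 - x₁ * x₃⁻¹
  obtain ⟨w, hw⟩ : (jqModC Qb)⁻¹ ∈ intSeries A :=
    inv_jqModC_mem_intSeries (π := IsLocalRing.residue A) IsLocalRing.residue_surjective
  have hJne : jqModC Qb ≠ 0 := fun h0 => transcendental_jL M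
    ((show jL M Qb = 0 from Subtype.ext ((coe_jL M).trans h0)) ▸ isAlgebraic_zero)
  have hwr : coeffMap (IsLocalRing.residue A) w = (jqModC kA)⁻¹ := by
    refine eq_inv_of_mul_eq_one_left ?_
    have h1 : w * jqModC A = 1 := coeffMap_injective A.subtype Subtype.val_injective (by
      rw [map_mul, map_one, hw, coeffMap_subtype_jqModC, inv_mul_cancel₀ hJne])
    have h2 := congrArg (coeffMap (IsLocalRing.residue A)) h1
    rwa [map_mul, map_one, coeffMap_jqModC] at h2
  obtain ⟨w', hw', hw'r⟩ := (redCompat_twist (A := A) (zpw_pow q (1 : Fin q))).lift w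
  obtain ⟨y', hy', hy'r⟩ := exists_twist_sub (A := A) (zetaQ_spec q) (jqModC A) ((1 : Fin q) : ℕ)
  -- on the middle branch `t` is `(ζ - 1)` times an integral series
  have hbt : brC M q hq hqM .mid t =
      algebraMap Qb (LaurentSeries Qb) ((zetaQ q : Qb) - 1) * coeffMap A.subtype (y' * w') := by
    rw [map_sub, map_one, map_mul, map_inv₀, brC_mid_bM, brC_mid_aM, coe_jL, map_mul, ← hw', hw,
      map_inv₀, ← mul_assoc, ← hy', coeffMap_subtype_jqModC,
      show zetaQ q ^ ((1 : Fin q) : ℕ) = zpw q (zetaQ q) (1 : Fin q) from rfl, sub_mul,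
      mul_inv_cancel₀ ((map_ne_zero _).mpr hJne)]
  have hzeta : Is A q ((zetaQ q : Qb) - 1) (1 / ((q : ℚ) - 1)) :=
    Fermat.EC.Cyclo.is_zeta_sub_one h (zetaQ_spec q)
  set m := q - 1
  have hm : (m : ℚ) = (q : ℚ) - 1 := by rw [Nat.cast_sub hq.one_le, Nat.cast_one]
  have hmpos : (0 : ℚ) < m := by
    rw [hm, sub_pos]; exact_mod_cast hq.one_lt
  set c : Qb := ((zetaQ q : Qb) - 1) ^ m / (q : Qb)
  have hq0' : (q : Qb) ≠ 0 := Nat.cast_ne_zero.mpr hq.ne_zero
  -- and `(ζ - 1) ^ (q - 1) / q` is a unit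
  have hc : Is A q c 0 := by
    refine ⟨div_ne_zero (pow_ne_zero m hzeta.1) hq0', ?_⟩
    rw [show c = ((zetaQ q : Qb) - 1) ^ m * (q : Qb)⁻¹ from div_eq_mul_inv _ _,
      ord_mul h (pow_ne_zero m hzeta.1) (inv_ne_zero hq0'), ord_pow h, ord_inv h, ord_q h, hzeta.2,
      ← hm]
    field_simp
    ring
  have hcA : c ∈ A := (mem_iff_ge h c).mpr hc.ge
  set u : FN (M * q * q) Qb := t ^ m / (q : FN (M * q * q) Qb)
  have hu : brC M q hq hqM .mid u =
      coeffMap A.subtype (HahnSeries.C (⟨c, hcA⟩ : A) * (y' * w') ^ m) := by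
    rw [map_div₀, map_pow, hbt, map_natCast, map_mul (coeffMap A.subtype) (HahnSeries.C _),
      map_pow (coeffMap A.subtype), HahnSeries.C_apply, coeffMap_single,
      ← algebraMap_laurentSeries_eq_single, show A.subtype (⟨c, hcA⟩ : A) = c from rfl,
      show c = ((zetaQ q : Qb) - 1) ^ m / (q : Qb) from rfl, map_div₀, map_pow,
      map_natCast, mul_pow,
      mul_div_right_comm]
  have huOC : u ∈ OC M q hq hqM A .mid := by
    rw [mem_OC, hu]; exact coeffMap_mem_gS _
  set cb := IsLocalRing.residue A ⟨c, hcA⟩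
  have hcb : cb ≠ 0 := fun h0 => hc.not_gt ((nonunit_iff_gt h c).mp
    ((ValuationSubring.coe_mem_nonunits_iff (a := (⟨c, hcA⟩ : A))).mpr
      ((IsLocalRing.residue_eq_zero_iff _).mp h0)))
  refine ⟨cb, huOC, hcb, ?_⟩
  rw [resC_apply]
  refine (congrArg (sR A) (Subtype.ext (a2 := ⟨_, coeffMap_mem_gS _⟩) hu)).trans ?_
  rw [sR_coeffMap, map_mul, map_pow, map_mul, hy'r, hw'r, RingHom.id_apply, hwr,
    coeffMap_jqModC, HahnSeries.C_apply, coeffMap_single, ← algebraMap_laurentSeries_eq_single,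
    show ((((1 : Fin q) : ℕ)) : kA) = 1 by
      rw [show ((1 : Fin q) : ℕ) = 1 from Nat.one_mod_eq_one.mpr hq.ne_one, Nat.cast_one],
    one_smul]

/-- **Cusps of the middle branches.** A cusp of the reduced curve gives a character at it on the
middle branches, with parameters. -/
theorem exists_point_cusp_mid {s : Place kA (FX kA M)} (hs : s.ord (jX kA M) < 0) :
    ∃ χ : BChar M q A false, χ.IsPoint hq hqM {Br.mid} s ∧ χ.HasParam hq hqM {Br.mid} := by
  obtain ⟨χ, hs', hres, hpt, htP⟩ := exists_char_cusp_mid hq hqM h hs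
  obtain ⟨cb, huOC, hcb, hured⟩ := exists_cusp_red_t (M := M) hq hqM h
  have hax : aM M q (jL M Qb) ∈ ratFld M q A := aM_jL_mem_ratFld
  have hbx : bM M q (jL M Qb) ∈ ratFld M q A := bM_mem_ratFld inertiaFixed_jL
  set x₁ := aM M q (jL M Qb)
  set x₃ := bM M q (jL M Qb)
  have hx1 : x₁ ≠ 0 := fun h0 => transcendental_map (aM M q) (transcendental_jL M)
    (show IsAlgebraic Qb x₁ by rw [h0]; exact isAlgebraic_zero)
  have hx3 : x₃ ≠ 0 := fun h0 => transcendental_map (bM M q) (transcendental_jL M)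
    (show IsAlgebraic Qb x₃ by rw [h0]; exact isAlgebraic_zero)
  -- `t = 1 - x₁ / x₃` and `u = t ^ (q - 1) / q`, a function with nonzero value at the point
  set t : FN (M * q * q) Qb := 1 - x₁ * x₃⁻¹
  have htr : t ∈ ratFld M q A := sub_mem (one_mem _) (mul_mem hax (inv_mem hbx))
  have htT : ∀ P ∈ χ.tube, OrdGE P t 0 := fun P hP => by
    refine (ordGE_iff.mpr (.inr P.ord_one.ge)).sub (ordGE_iff.mpr (.inr ?_))
    rw [P.ord_mul hx1 (inv_ne_zero hx3), P.ord_inv]
    have := htP P hP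
    omega
  set m := q - 1
  have hmpos : (0 : ℚ) < m := by
    have := hq.two_le
    exact_mod_cast (by omega : 0 < q - 1)
  have hq0' : (q : Qb) ≠ 0 := Nat.cast_ne_zero.mpr hq.ne_zero
  set u : FN (M * q * q) Qb := t ^ m / (q : FN (M * q * q) Qb)
  have hur : u ∈ ratFld M q A := div_mem (pow_mem htr m) (natCast_mem _ q)
  have huT : ∀ P ∈ χ.tube, OrdGE P u 0 := fun P hP => by
    change OrdGE P (t ^ m / (q : FN (M * q * q) Qb)) 0
    rw [div_eq_mul_inv, ← map_natCast (algebraMap Qb (FN (M * q * q) Qb)), ← map_inv₀]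
    exact (((htT P hP).pow m).mul (FF.ordGE_algebraMap P _)).mono (by simp)
  have hul : u ∈ χ.loc := BChar.mem_loc_of hq hqM h hpt hur huT fun C hC => by
    obtain rfl := Finset.mem_singleton.mp hC; exact huOC
  obtain ⟨zu, hzu, hzus, hzuv⟩ := BChar.exists_red hq hqM h hpt (Finset.mem_singleton_self Br.mid)
    ⟨u, hul⟩
  have hzu' : (zu : LaurentSeries kA) =
      algebraMap kA (LaurentSeries kA) cb * (thetaS (jqModC kA) * (jqModC kA)⁻¹) ^ m :=
    hzu.trans hured
  obtain ⟨hw0, hword⟩ := ord_theta_cusp M q hq hqM h.2 hs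
    (w := algebraMap kA (FX kA M) cb⁻¹ * zu) (by
      rw [MulMemClass.coe_mul, hzu',
        show ((algebraMap kA (FX kA M) cb⁻¹ : FX kA M) : LaurentSeries kA) =
        algebraMap kA (LaurentSeries kA) cb⁻¹ from rfl, ← mul_assoc, ← map_mul, inv_mul_cancel₀ hcb,
        map_one, one_mul])
  have hzune : zu ≠ 0 := right_ne_zero_of_mul hw0
  -- the reduction of `u` has order zero at the cusp
  have hures : χ.lres ⟨u, hul⟩ ≠ 0 := fun h0 => by
    rw [← hzuv] at h0
    have h1 := ((evalAt_eq_zero_iff hzus).mp h0).le_ord hzune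
    rw [s.ord_mul ((_root_.map_ne_zero _).mpr (inv_ne_zero hcb)) hzune, ord_algebraMap, zero_add]
      at hword
    omega
  have hune : u ≠ 0 := fun h0 => hures (by
    rw [show (⟨u, hul⟩ : χ.loc) = 0 from Subtype.ext h0, map_zero])
  have hq0 : (q : FN (M * q * q) Qb) ≠ 0 := by
    rw [← map_natCast (algebraMap Qb (FN (M * q * q) Qb)), _root_.map_ne_zero]
    exact hq0'
  have hm0 : m ≠ 0 := fun h0 => by rw [h0, Nat.cast_zero] at hmpos; exact lt_irrefl _ hmpos
  have htne : t ≠ 0 := fun h0 => hune (by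
    change t ^ m / (q : FN (M * q * q) Qb) = 0
    rw [h0, zero_pow hm0, zero_div])
  have hgu : gv M q hq hqM A .mid u = 0 := (prim_iff M q hq hqM h .mid hune).mp ⟨huOC, fun h0 =>
    hzune (Subtype.ext (hzu.trans h0))⟩
  -- so `t` generates: its valuation at the middle sheet is `1 / (q - 1)`
  have hgt : (m : ℚ) * gv M q hq hqM A .mid t = 1 := by
    rw [show u = t ^ m * (q : FN (M * q * q) Qb)⁻¹ from div_eq_mul_inv _ _,
      gv_mul M q hq hqM h .mid (pow_ne_zero m htne) (inv_ne_zero hq0),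
      gv_pow M q hq hqM h .mid htne, gv_inv M q hq hqM h .mid hq0,
      gv_natCast_q M q hq hqM h .mid] at hgu
    linarith
  have htpos : 0 < gv M q hq hqM A .mid t :=
    (mul_pos_iff_of_pos_left hmpos).mp (hgt.symm ▸ one_pos)
  have htl : t ∈ χ.loc := BChar.mem_loc_of hq hqM h hpt htr htT fun C hC => by
      obtain rfl := Finset.mem_singleton.mp hC
      exact (brC_mem_iff M q hq hqM h .mid htne).mpr htpos.le
  refine ⟨χ, hpt, hasParam_of_generator hq hqM h χ .mid (by simp) hs' hres hpt ⟨t, htl⟩ htne htpos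
    fun f hf hpos => ?_⟩
  exact div_generator_mem_loc hq hqM h hpt htr htne hgt hul hures hf hpos

/-- **Points with parameters at the cusps.** -/
theorem exists_point_cusp (C : Br) (hC : C ≠ .top) {s : Place kA (FX kA M)}
    (hs : s.ord (jX kA M) < 0) :
    ∃ χ : BChar M q A false, χ.IsPoint hq hqM {C} s ∧ χ.HasParam hq hqM {C} := by
  cases C
  · exact exists_point_cusp_low hq hqM h hs
  · exact exists_point_cusp_mid hq hqM h hs
  · exact absurd rfl hC

end Fermat.CAR

end
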