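import Fermat.Agent.CAR.RootsRed

/-!
# A fixed power has consistent roots

At the glued points the values of the three local roots are proportional after the power
`(q + 1) * (q - 1)`, with factors that are roots of unity not depending on the point; dividing the
roots by them makes the roots consistent.
-/

set_option autoImplicit false

noncomputable section

open ModularCurve AlgebraicCurve

namespace Fermat.CAR

attribute [local instance 10000] algFN smulFN algFX smulFX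

open Fermat.FF Fermat.MC Fermat.JAC Fermat.RED.Model Fermat.BAD.X0 Fermat.EC.Val

local notation "Qb" => AlgebraicClosure ℚ

/-- The constant of the geometric input. -/
def dCar (q : ℕ) : ℕ := (q + 1) * (q - 1) * (q - 1) * (24 * (q - 1) * (q + 1))

/-- The constant `dCar q` is nonzero. -/
theorem dCar_ne_zero {q : ℕ} (hq : q.Prime) : dCar q ≠ 0 := by
  have := hq.two_le
  exact Nat.mul_ne_zero (Nat.mul_ne_zero (Nat.mul_ne_zero (by omega) (by omega)) (by omega))
    (Nat.mul_ne_zero (Nat.mul_ne_zero (by omega) (by omega)) (by omega))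

/-- Two relations of this shape make the powers `(q + 1) * (q - 1)` of `a`, `c`, `d`
proportional. -/
theorem pow_proportional {K : Type*} [Field K] {q : ℕ} (hq : 1 ≤ q) {a c d w1 w2 : K} (ha : a ≠ 0)
    (hc : c ≠ 0) (hd : d ≠ 0) (h1 : a * c ^ (q - 1) = w1 * d ^ q)
    (h2 : d * c ^ (q - 1) = w2 * a ^ q) :
    a ^ ((q + 1) * (q - 1)) = (w1 / w2) ^ (q - 1) * d ^ ((q + 1) * (q - 1)) ∧
      c ^ ((q + 1) * (q - 1)) = w1 ^ q * w2 * d ^ ((q + 1) * (q - 1)) := by
  obtain ⟨p, rfl⟩ := Nat.exists_eq_add_of_le hq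
  have hw2 : w2 ≠ 0 := fun h0 => by
    rw [h0, zero_mul] at h2
    exact mul_ne_zero hd (pow_ne_zero _ hc) h2
  simp only [Nat.add_sub_cancel_left] at h1 h2 ⊢
  have key : a ^ (1 + p + 1) = w1 / w2 * d ^ (1 + p + 1) := by
    rw [div_mul_eq_mul_div, eq_div_iff hw2]
    refine mul_right_cancel₀ (pow_ne_zero p hc) ?_
    calc a ^ (1 + p + 1) * w2 * c ^ p = a * c ^ p * (w2 * a ^ (1 + p)) := by ring
      _ = w1 * d ^ (1 + p) * (d * c ^ p) := by rw [h1, h2]
      _ = _ := by ring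
  refine ⟨by rw [pow_mul, key, mul_pow, ← pow_mul], ?_⟩
  refine mul_left_cancel₀ (pow_ne_zero (1 + p + 1) ha) ?_
  calc a ^ (1 + p + 1) * c ^ ((1 + p + 1) * p) = (a * c ^ p) ^ (1 + p + 1) := by
        rw [mul_pow, ← pow_mul, mul_comm p]
    _ = w1 ^ (1 + p + 1) * d ^ ((1 + p) * (1 + p + 1)) := by rw [h1, mul_pow, ← pow_mul]
    _ = _ := by
        rw [key]
        field_simp
        ring

variable {M q : ℕ} [NeZero M] [NeZero q] {A : ValuationSubring (AlgebraicClosure ℚ)}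
variable (hq : q.Prime) (hqM : ¬ q ∣ M)
variable [Fact q.Prime] [IsAlgClosed (IsLocalRing.ResidueField A)]
variable [CharP (IsLocalRing.ResidueField A) q] (h : IsPlace A q)
variable [FF.IsFunctionField Qb (FN M Qb)] [FF.IsFunctionField Qb (FN (M * q) Qb)]
  [FF.IsFunctionField Qb (FN (M * q * q) Qb)]
variable [FF.IsFunctionField (IsLocalRing.ResidueField A) (FX (IsLocalRing.ResidueField A) M)]

local notation "kA" => IsLocalRing.ResidueField A

include h

/-- Two decompositions at a point give proportional values. -/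
theorem exists_ratio {χ : BChar M q A true} {s : Place kA (FX kA M)}
    (hχ : χ.IsPoint hq hqM Finset.univ s) {y : FN (M * q * q) Qb} {n : ℕ} (hn : n ≠ 0)
    (hgv : ∀ C, gv M q hq hqM A C y = 0) {Z H : Br → FX kA M} (hZ : RedOn hq hqM y Z)
    (hH : ∀ C, H C ^ n = Z C)
    (u u' : χ.loc) {e e' : FN (M * q * q) Qb} (hu : χ.lres u ≠ 0) (hu' : χ.lres u' ≠ 0)
    (her : e ∈ ratFld M q A) (her' : e' ∈ ratFld M q A) (he : e ≠ 0) (he' : e' ≠ 0)
    (heq : y = (u : FN (M * q * q) Qb) * e ^ n) (heq' : y = (u' : FN (M * q * q) Qb) * e' ^ n)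
    {E E' : Br → FX kA M} (hE : RedOn hq hqM e E) (hE' : RedOn hq hqM e' E') :
    ∃ c : kA, ∀ C, evalAt s (H C / E C) = c * evalAt s (H C / E' C) := by
  have hge : ∀ C, gv M q hq hqM A C e = 0 := fun C =>
    gv_eq_zero_of_decomp hq hqM h hχ hn u hu he heq (Finset.mem_univ C) (hgv C)
  have hge' : ∀ C, gv M q hq hqM A C e' = 0 := fun C =>
    gv_eq_zero_of_decomp hq hqM h hχ hn u' hu' he' heq' (Finset.mem_univ C) (hgv C)
  obtain ⟨v, hv⟩ := (χ.isUnit_loc_iff.mpr hu').exists_right_inv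
  have hv' : (u' : FN (M * q * q) Qb) * (v : FN (M * q * q) Qb) = 1 := by
    simpa using congrArg Subtype.val hv
  -- the `n`-th power of `e' / e` is a unit at the point
  have hδn : (e' / e) ^ n = ((u * v : χ.loc) : FN (M * q * q) Qb) := by
    rw [Subring.coe_mul, div_pow, div_eq_iff (pow_ne_zero _ he)]
    calc e' ^ n = (u' : FN (M * q * q) Qb) * (v : FN (M * q * q) Qb) * e' ^ n := by
          rw [hv', one_mul]
      _ = (v : FN (M * q * q) Qb) * y := by rw [heq']; ring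
      _ = _ := by rw [heq]; ring
  have hδ0 : e' / e ≠ 0 := div_ne_zero he' he
  have hmem : e' / e ∈ χ.loc := by
    refine BChar.mem_loc_of hq hqM h hχ (div_mem her' her) (fun P hP => ?_)
      fun C _ => mem_OC_of_gv hq hqM h hδ0 ?_
    · refine ordGE_of_pow hn ?_
      rw [hδn]
      exact (χ.regular_of_mem_loc hP).1
    · rw [div_eq_mul_inv, gv_mul M q hq hqM h C he' (inv_ne_zero he), gv_inv M q hq hqM h C he,
        hge, hge', neg_zero, add_zero]
  -- its value there is the factor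
  refine ⟨χ.lres ⟨e' / e, hmem⟩, fun C => ?_⟩
  obtain ⟨d, hd, hds, hdv⟩ :=
    BChar.exists_red hq hqM h hχ (Finset.mem_univ C) ⟨e' / e, hmem⟩
  obtain ⟨hm, hz⟩ := hE C
  obtain ⟨hm', hz'⟩ := hE' C
  obtain ⟨hmy, hzy⟩ := hZ C
  have hHC : (H C : LaurentSeries kA) ^ n = resC M q hq hqM A C ⟨y, hmy⟩ := by
    rw [← SubmonoidClass.coe_pow, hH, hzy]
  obtain ⟨hE0', hreg', -⟩ := red_decomp hq hqM h hχ hn u' hu' he' heq' (Finset.mem_univ C)
    (hgv C) hmy hm' hHC hz'
  have e1 : d * E C = E' C := Subtype.ext (by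
    rw [MulMemClass.coe_mul, hd, hz, hz', ← map_mul]
    exact congrArg _ (Subtype.ext (div_mul_cancel₀ e' he)))
  have hd0 : d ≠ 0 := fun h0 => hE0' (by rw [← e1, h0, zero_mul])
  have e2 : H C / E C = d * (H C / E' C) := by
    rw [← e1]
    field_simp
  rw [e2, evalAt_mul hds hreg', hdv]

/-- **Consistent roots of a fixed power.** After a fixed power, an invariant function with divisor
divisible by `n` and norms that are `n`-th powers has consistent roots. -/
theorem exists_rooted (hne : NoElliptic M) (hSS : HasSSPoints (M := M) hq hqM h) {n : ℕ}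
    (hn : n ≠ 0) {D : Divisor Qb (FN (M * q * q) Qb)} {y : FN (M * q * q) Qb} (hy : y ≠ 0)
    (hfix : InertiaFixed A (y : LaurentSeries Qb)) (hD : divOf Qb y = n • D)
    (ha : ∃ (c : Qb) (g : FN (M * q) Qb), c ≠ 0 ∧ g ≠ 0 ∧
      normAlong (heckeAlphaBar Qb (M * q) q) y = algebraMap Qb _ c * g ^ n)
    (hb : ∃ (c : Qb) (g : FN (M * q) Qb), c ≠ 0 ∧ g ≠ 0 ∧
      normAlong (heckeBetaBar Qb (M * q) q) y = algebraMap Qb _ c * g ^ n) :
    ∃ (D' : Divisor Qb (FN (M * q * q) Qb)) (y' : FN (M * q * q) Qb) (H : Br → FX kA M),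
      IsRooted hq hqM h y' n H ∧ divOf Qb y' = n • D' ∧
        ∀ x : JZero (M * q * q), Fermat.BAD.IsCls D x → Fermat.BAD.IsCls D' (dCar q • x) := by
  classical
  -- make all orders zero, take roots of the reductions, and raise to the power `q - 1`
  obtain ⟨D₀, y₀, hy₀, hr₀, hgv₀, hD₀, hN₀, hcls₀⟩ := exists_orders_zero M q hq hqM h hn hy
    (mem_ratFld.mpr hfix) hD fun b => by cases b; exacts [hb, ha]
  obtain ⟨Z₀, hZ₀, hZ₀0⟩ := exists_redOn hq hqM h hr₀ hy₀ hgv₀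
  obtain ⟨H, hH⟩ := exists_roots hq hqM h hn hy₀ hr₀ hgv₀ hN₀ hZ₀ hZ₀0
  set y₁ := y₀ ^ (q - 1)
  set Z₁ : Br → FX kA M := fun C => Z₀ C ^ (q - 1)
  have hy₁ : y₁ ≠ 0 := pow_ne_zero _ hy₀
  have hr₁ : y₁ ∈ ratFld M q A := pow_mem hr₀ _
  have hgv₁ : ∀ C, gv M q hq hqM A C y₁ = 0 := fun C => by
    rw [gv_pow M q hq hqM h C hy₀, hgv₀, mul_zero]
  have hN₁ : ∀ b, NormPow M q b n y₁ := fun b => (hN₀ b).pow _
  have hZ₁ : RedOn hq hqM y₁ Z₁ := hZ₀.pow hq hqM _
  have hZ₁0 : ∀ C, Z₁ C ≠ 0 := fun C => pow_ne_zero _ (hZ₀0 C)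
  have hD₁ : divOf Qb y₁ = n • ((q - 1) • D₀) := by
    rw [divOf_pow, hD₀, smul_comm]
  -- the two norms relate the values of the roots at the supersingular points
  obtain ⟨w1, -, rel1⟩ := exists_relation hq hqM h hne true hn hy₁ hr₁ hgv₁ (hN₁ true) hZ₁ hZ₁0 hH
  obtain ⟨w2, hw2, rel2⟩ :=
    exists_relation hq hqM h hne false hn hy₁ hr₁ hgv₁ (hN₁ false) hZ₁ hZ₁0 hH
  obtain ⟨m, hm⟩ : ∃ m : ℕ, m = (q + 1) * (q - 1) := ⟨_, rfl⟩
  -- hence their `m`-th powers are proportional, by constants `η` with `η ^ n = 1`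
  let η : Br → kA := fun C => match C with
    | .low => (w1 / w2) ^ (q - 1)
    | .mid => w1 ^ q * w2
    | .top => 1
  have loc : ∀ s ∈ SS M q hq hqM h.2, ∀ χ : BChar M q A true, χ.IsPoint hq hqM Finset.univ s →
      ∃ (u : χ.loc) (e : FN (M * q * q) Qb) (E : Br → FX kA M), χ.lres u ≠ 0 ∧
        e ∈ ratFld M q A ∧ e ≠ 0 ∧ y₁ = (u : FN (M * q * q) Qb) * e ^ n ∧ RedOn hq hqM e E ∧
        (∀ C, OrdGE s (H C / E C) 0 ∧ evalAt s (H C / E C) ^ n = χ.lres u) ∧
        ∀ C, evalAt s (H C / E C) ^ m = η C * evalAt s (H .top / E .top) ^ m := by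
    intro s hs χ hχ
    obtain ⟨χ', hχ', hpar⟩ := hSS s hs
    obtain rfl := BChar.eq_of_isPoint hq hqM h hχ hχ' (Finset.mem_univ Br.low)
    obtain ⟨u, e, hu, her, he0, heq⟩ := BChar.exists_eq_unit_mul_pow hq hqM h hχ hpar hn hr₁ hy₁
      (fun P _ => ord_dvd_of_divOf hD₁ P) fun C _ => hgv₁ C
    obtain ⟨E, hE, -⟩ := exists_redOn hq hqM h her he0 fun C =>
      gv_eq_zero_of_decomp hq hqM h hχ hn u hu he0 heq (Finset.mem_univ C) (hgv₁ C)
    have hv : ∀ C, OrdGE s (H C / E C) 0 ∧ evalAt s (H C / E C) ^ n = χ.lres u := fun C => by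
      obtain ⟨hm', hz⟩ := hE C
      obtain ⟨hmy, hzy⟩ := hZ₁ C
      exact (red_decomp hq hqM h hχ hn u hu he0 heq (Finset.mem_univ C) (hgv₁ C) hmy hm'
        (by rw [← SubmonoidClass.coe_pow, hH, hzy]) hz).2
    have hne0 : ∀ C, evalAt s (H C / E C) ≠ 0 := fun C h0 => hu (by
      rw [← (hv C).2, h0, zero_pow hn])
    have h1 := rel1 s hs χ hχ u e hu her he0 heq E hE
    have h2 := rel2 s hs χ hχ u e hu her he0 heq E hE
    obtain ⟨p1, p2⟩ := pow_proportional hq.one_le (hne0 .low) (hne0 .mid) (hne0 .top) h1 h2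
    rw [← hm] at p1 p2
    refine ⟨u, e, E, hu, her, he0, heq, hE, hv, fun C => ?_⟩
    cases C
    · exact p1
    · exact p2
    · exact (one_mul _).symm
  have hηn : ∀ C, η C ^ n = 1 := fun C => by
    obtain ⟨s, hs⟩ := SS_nonempty M q hq hqM h.2
    obtain ⟨χ, hχ, -⟩ := hSS s hs
    obtain ⟨u, e, E, hu, -, -, -, -, hv, hp⟩ := loc s hs χ hχ
    have h1 := congrArg (· ^ n) (hp C)
    rw [mul_pow, ← pow_mul, ← pow_mul, mul_comm m n] at h1
    rw [pow_mul, pow_mul, (hv C).2, (hv .top).2] at h1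
    exact mul_right_cancel₀ (pow_ne_zero m hu) (h1.symm.trans (one_mul _).symm)
  have hη0 : ∀ C, η C ≠ 0 := fun C h0 => by
    have := hηn C
    rw [h0, zero_pow hn] at this
    exact zero_ne_one this
  -- dividing the `m`-th powers by `η` makes them agree at every such point
  set y₂ := y₁ ^ m
  have hy₂ : y₂ ≠ 0 := pow_ne_zero _ hy₁
  set H₂ : Br → FX kA M := fun C => algebraMap kA (FX kA M) (η C)⁻¹ * H C ^ m
  have hZ₂ : RedOn hq hqM y₂ fun C => Z₁ C ^ m := hZ₁.pow hq hqM m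
  have hH₂ : ∀ C, H₂ C ^ n = Z₁ C ^ m := fun C => by
    rw [mul_pow, ← map_pow, inv_pow, hηn, inv_one, map_one, one_mul, ← pow_mul, mul_comm m n,
      pow_mul, hH]
  have hgv₂ : ∀ C, gv M q hq hqM A C y₂ = 0 := fun C => by
    rw [gv_pow M q hq hqM h C hy₁, hgv₁, mul_zero]
  refine ⟨m • ((q - 1) • D₀), y₂, H₂, ⟨pow_mem hr₁ m, hy₂, hgv₂, fun C hC => ?_, ?_⟩, ?_, ?_⟩
  · obtain ⟨hm', hz⟩ := hZ₂ C
    rw [← SubmonoidClass.coe_pow, hH₂, hz]
  -- for any other decomposition the ratio is constant, so agreement is preserved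
  · intro s hs χ hχ u e hu her he0 heq
    obtain ⟨u₁, e₁, E₁, hu₁, her₁, he₁0, heq₁, hE₁, hv₁, hp₁⟩ := loc s hs χ hχ
    obtain ⟨E, hE, -⟩ := exists_redOn hq hqM h her he0 fun C =>
      gv_eq_zero_of_decomp hq hqM h hχ hn u hu he0 heq (Finset.mem_univ C) (hgv₂ C)
    have heq' : y₂ = ((u₁ ^ m : χ.loc) : FN (M * q * q) Qb) * (e₁ ^ m) ^ n := by
      rw [SubmonoidClass.coe_pow, ← pow_mul, mul_comm m n, pow_mul, ← mul_pow, ← heq₁]
    obtain ⟨c, hc⟩ := exists_ratio hq hqM h hχ hn hgv₂ hZ₂ hH₂ u (u₁ ^ m) hu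
      (by rw [map_pow]; exact pow_ne_zero m hu₁) her (pow_mem her₁ m) he0 (pow_ne_zero m he₁0)
      heq heq' hE (hE₁.pow hq hqM m)
    refine ⟨c * evalAt s (H .top / E₁ .top) ^ m, fun C z he hz => ?_⟩
    rw [hE.eq_of hq hqM hz, hc C]
    congr 1
    change evalAt s (algebraMap kA (FX kA M) (η C)⁻¹ * H C ^ m / E₁ C ^ m) = _
    rw [mul_div_assoc, ← div_pow, evalAt_mul (ordGE_algebraMap s _)
        (by simpa using (hv₁ C).1.pow m), evalAt_algebraMap, evalAt_pow (hv₁ C).1, hp₁ C,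
      inv_mul_cancel_left₀ (hη0 C)]
  · rw [divOf_pow, hD₁, smul_comm]
  -- the class is that of `dCar q • x`
  · intro x hx
    have h1 := ((hcls₀ x hx).nsmul (q - 1)).nsmul m
    have e : dCar q • x = m • (q - 1) • (24 * (q - 1) * (q + 1)) • x := by
      rw [smul_smul, smul_smul, dCar, ← hm]
    exact e.symm ▸ h1

end Fermat.CAR

end
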