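import Fermat.Agent.CAR.SSPoint
import Fermat.Agent.CAR.Induct

/-!
# The supersingular points in the form used by the induction

`hasSSPoints`: without elliptic points of level `M` every glued point lies on all three branches,
with parameters.
-/

set_option autoImplicit false

attribute [local instance 10000] SubalgebraClass.toAlgebra HahnSeries.powerSeriesAlgebra

noncomputable section

namespace Fermat.CAR

open Fermat.MC Fermat.RED.Model Fermat.BAD.X0 Fermat.EC.Val

local notation "Qb" => AlgebraicClosure ℚ

variable {M q : ℕ} [NeZero M] [NeZero q] {A : ValuationSubring (AlgebraicClosure ℚ)}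
variable [Fact q.Prime] (hq : q.Prime) (hqM : ¬ q ∣ M)
variable [FF.IsFunctionField Qb (FN M Qb)] [FF.IsFunctionField Qb (FN (M * q) Qb)]
  [FF.IsFunctionField Qb (FN (M * q * q) Qb)]
variable [IsAlgClosed (IsLocalRing.ResidueField A)] [CharP (IsLocalRing.ResidueField A) q]
  [FF.IsFunctionField (IsLocalRing.ResidueField A) (FX (IsLocalRing.ResidueField A) M)]
variable (h : IsPlace A q)

/-- Every glued point is a point on all three branches with parameters. -/
theorem hasSSPoints (hne : NoElliptic M) : HasSSPoints (M := M) hq hqM h := fun s hs => by
  rw [show (Finset.univ : Finset Br) = {Br.low, Br.mid, Br.top} from rfl]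
  exact exists_point_ss hq hqM h hne hs

end Fermat.CAR

end
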