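import Fermat.Agent.CAR.Assemble
import Fermat.Agent.CAR.Descend
import Fermat.Agent.CAR.PtCusp
import Fermat.Agent.CAR.SSHas
import Fermat.Agent.CAR.Statement
import Fermat.Agent.CAR.RootsMain

/-!
# The geometric input

The classes of level `M q q` fixed by inertia at `q` and killed by both norms are killed by a
constant depending only on `q`, for `4 ∣ M` or `9 ∣ M` (`CoreHyp` in `CAR/Statement`).
The pieces `CAR/SSHas`, `CAR/PtCusp`, `CAR/RootsMain`, `CAR/Descend` are put together by
`CAR/Assemble`.

`coreHyp` is all that S36 needs from the geometric files; `Main` takes it as a hypothesis.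
-/

set_option autoImplicit false

noncomputable section

namespace Fermat.CAR

attribute [local instance 10000] algFN smulFN algFX smulFX

open Fermat.RED.Model Fermat.BAD.X0 Fermat.EC.Val

/-- **The geometric input `CoreHyp`**: points of each kind give rooted functions, whose classes are
killed by `dCar q`. -/
theorem coreHyp : CoreHyp := by
  intro M q _ _ hq hqM h49
  refine ⟨dCar q, dCar_ne_zero hq, fun A hA n hn hnq D y hy hfix hD ha hb x hx => ?_⟩
  have : Fact q.Prime := ⟨hq⟩
  obtain ⟨i1, i2, i3, i4, i5⟩ := standing_instances M hq hqM hA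
  have := i1; have := i2; have := i3; have := i4
  have : IsAlgClosed (IsLocalRing.ResidueField A) := isAlgClosed_residue A
  have := i5 inferInstance
  have h : IsPlace A q := ⟨hq, hA⟩
  have hne : NoElliptic M := NoElliptic.of_dvd49 h49
  have hSS := hasSSPoints hq hqM h hne
  have hOrd := hasOrdPoints hq hqM h hne fun C hC s hs => exists_point_cusp hq hqM h C hC hs
  exact smul_eq_zero_of_rooted hq hqM h hSS _ hn hnq
    (fun l hl hlq D y H hy hD => exists_root hq hqM h hSS hOrd hl hlq hy hD)
    (exists_rooted hq hqM h hne hSS hn.ne_zero hy hfix hD ha hb) hx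

end Fermat.CAR

end
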