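import Fermat.Agent.CAR.Statement
import Fermat.Agent.HT.MW.Weak
import Fermat.Agent.FF.RiemannRoch

/-!
# A presentation of a fixed class with fixed divisor and function

A class fixed by a set of semilinear automorphisms fixing a place `o` has a fixed divisor: the
least effective translate along `o` is unique.  For a torsion class fixed by inertia the function
cutting out the multiple of the divisor, with leading coefficient one, has fixed coefficients.
-/

set_option autoImplicit false

attribute [local instance 10000] SubalgebraClass.toAlgebra HahnSeries.powerSeriesAlgebra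

noncomputable section

open ModularCurve AlgebraicCurve

namespace Fermat.CAR

open Fermat.FF Fermat.BAD

section Generic

variable {K F : Type*} [Field K] [Field F] [Algebra K F] [IsAlgClosed K] [FF.IsFunctionField K F]

/-- A fixed class has a fixed divisor. -/
theorem exists_fixed_isCls (G : Set (SemilinearAut K F)) {o : Place K F}
    (ho : ∀ g ∈ G, g • o = o) {x : Pic0 K F} (hx : ∀ g ∈ G, g • x = x) :
    ∃ D, IsCls D x ∧ ∀ g ∈ G, g • D = D := by
  classical
  obtain ⟨D₀, hD₀⟩ := exists_isCls x
  have hdeg : Divisor.degree D₀ = 0 := Divisor.mem_degZero.mp hD₀.choose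
  set E : ℕ → Divisor K F := fun r => D₀ + Finsupp.single o (r : ℤ) with hE
  -- the least `r` with `D₀ + r o` effective up to equivalence
  have hEdeg : ∀ r : ℕ, Divisor.degree (E r) = (r : ℤ) := fun r => by
    rw [hE]
    simp [map_add, hdeg, Divisor.degree_single, FF.deg_eq_one]
  have hex : ∃ r : ℕ, ell (E r) ≠ 0 := ⟨genusFF K F, fun h => by
    have := riemann_inequality (E (genusFF K F))
    rw [hEdeg, h] at this
    omega⟩
  set r := Nat.find hex with hr
  -- its space of functions is a line
  have hr1 : ell (E r) = 1 := by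
    refine le_antisymm ?_ (Nat.one_le_iff_ne_zero.mpr (Nat.find_spec hex))
    rcases h : r with _ | s
    · have := ell_le_degree_add_one (D := E 0) (by rw [hEdeg]; simp)
      rw [hEdeg] at this
      omega
    · have h0 : ell (E s) = 0 := not_not.mp (Nat.find_min hex (by omega : s < r))
      have hs : E (s + 1) = E s + Finsupp.single o 1 := by
        simp only [hE]
        rw [Nat.cast_succ, Finsupp.single_add, add_assoc]
      have := (finrank_riemannRochSpace_add_single (E s) o).2
      rw [hs]
      omega
  -- so its effective divisor is unique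
  obtain ⟨f, hf, hpos⟩ := exists_effective_of_ell_ne_zero (D := E r) (Nat.find_spec hex)
  refine ⟨D₀ + divOf K f, hD₀.add_divOf hf, fun g hg => ?_⟩
  -- for `g` fixing `o` and `x` the translate is again effective, hence equal
  have hcls : IsCls (g • D₀) x := by
    have := hD₀.smul g
    rwa [hx g hg] at this
  obtain ⟨h, hh, hhd⟩ := (hcls.add hD₀.neg).exists_div (n := 1) (by rw [one_smul, add_neg_cancel])
  rw [one_smul] at hhd
  have hgD : g • D₀ = D₀ + divOf K h := by rw [hhd]; abel
  have hgf : g • f ≠ 0 := (smul_ne_zero_iff_ne g).mpr hf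
  have hgE : g • (E r + divOf K f) = E r + divOf K (h * g • f) := by
    simp only [hE]
    rw [smul_add, smul_add, hgD, SemilinearAut.smul_single, ho g hg, smul_divOf,
      divOf_mul hh hgf]
    abel
  have hnn : 0 ≤ g • (E r + divOf K f) := fun v => by
    rw [SemilinearAut.divisor_smul_apply]
    exact hpos (g⁻¹ • v)
  rw [hgE] at hnn
  have hmem := (nonneg_add_divOf_iff (mul_ne_zero hh hgf)).mp hnn
  have hfm := (nonneg_add_divOf_iff hf).mp hpos
  obtain ⟨c, hc⟩ := (finrank_eq_one_iff_of_nonzero' (⟨f, hfm⟩ : riemannRochSpace (E r))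
    (fun e => hf (congrArg Subtype.val e))).mp hr1 ⟨h * g • f, hmem⟩
  have hc' : c • f = h * g • f := congrArg Subtype.val hc
  have hc0 : c ≠ 0 := fun e => mul_ne_zero hh hgf (by rw [← hc', e, zero_smul])
  have hd : divOf K (h * g • f) = divOf K f := by
    rw [← hc']
    exact divOf_const_smul hc0 hf
  rw [smul_add, hgD, smul_divOf, add_assoc, ← divOf_mul hh hgf, hd]

end Generic

local notation "Qb" => AlgebraicClosure ℚ

/-- **A torsion class fixed by inertia has a fixed presentation.** -/
theorem exists_fixed_pres (N : ℕ) [NeZero N] {A : ValuationSubring Qb} {x : JZero N}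
    (hx : ∀ σ ∈ A.inertiaSubgroupIn ℚ, σ • x = x) {n : ℕ} (hn : n • x = 0) :
    ∃ (D : Divisor Qb (Fermat.MC.FN N Qb)) (y : Fermat.MC.FN N Qb), y ≠ 0 ∧ IsCls D x ∧
      InertiaFixed A (y : LaurentSeries Qb) ∧ divOf Qb y = n • D := by
  have := Fermat.GR.isFunctionField_modularFunctionFieldBar N
  obtain ⟨o, ho⟩ := Fermat.HT.MW.exists_fixed_place N
  -- a divisor of the class fixed by inertia, over the rational base point
  obtain ⟨D, hD, hfix⟩ := exists_fixed_isCls
    {g | ∃ σ ∈ A.inertiaSubgroupIn ℚ, g = arithmeticGalois (modularFunctionFieldFull N) σ}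
    (o := o) (fun g ⟨σ, _, hg⟩ => hg ▸ ho σ) (x := x)
    (fun g ⟨σ, hσ, hg⟩ => hg ▸ (galois_smul_pic0_def _ σ x).symm.trans (hx σ hσ))
  obtain ⟨y, hy, hyd⟩ := hD.exists_div hn
  have hy' : (y : LaurentSeries Qb) ≠ 0 := fun e => hy (Subtype.ext e)
  -- normalise the function by its first coefficient
  set m := (y : LaurentSeries Qb).order
  set c := (y : LaurentSeries Qb).coeff m
  have hc : c ≠ 0 := HahnSeries.coeff_order_eq_zero.not.mpr hy'
  have hz : c⁻¹ • y ≠ 0 := smul_ne_zero (inv_ne_zero hc) hy
  refine ⟨D, c⁻¹ • y, hz, hD, fun σ hσ => ?_,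
    (divOf_const_smul (inv_ne_zero hc) hy).trans hyd⟩
  set g := arithmeticGalois (modularFunctionFieldFull N) σ
  have hgD : g • D = D := hfix g ⟨σ, hσ, rfl⟩
  have hgz : g • (c⁻¹ • y) ≠ 0 := (smul_ne_zero_iff_ne g).mpr hz
  -- inertia changes it by a constant, which is one on that coefficient
  have hdz : divOf Qb (g • (c⁻¹ • y)) = divOf Qb (c⁻¹ • y) := by
    rw [← smul_divOf, (divOf_const_smul (inv_ne_zero hc) hy).trans hyd,
      smul_comm, hgD]
  obtain ⟨e, -, he⟩ := Fermat.JAC.exists_eq_smul_of_divOf_eq hgz hz hdz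
  have hco : ((c⁻¹ • y : Fermat.MC.FN N Qb) : LaurentSeries Qb).coeff m = 1 := by
    rw [IntermediateField.coe_smul, Algebra.smul_def, RED.coeff_algebraMap_mul]
    exact inv_mul_cancel₀ hc
  have hser : coeffMap (σ : Qb →+* Qb) ((c⁻¹ • y : Fermat.MC.FN N Qb) : LaurentSeries Qb) =
      (algebraMap Qb (LaurentSeries Qb) e) *
        ((c⁻¹ • y : Fermat.MC.FN N Qb) : LaurentSeries Qb) := by
    rw [← coe_arithmeticGalois_smul (modularFunctionFieldFull N) σ (c⁻¹ • y)]
    exact congrArg Subtype.val he
  have he1 : e = 1 := by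
    have h := congrArg (fun s : LaurentSeries Qb => s.coeff m) hser
    simp only [coeffMap_coeff] at h
    rw [hco, map_one, RED.coeff_algebraMap_mul, hco, mul_one] at h
    exact h.symm
  rw [hser, he1, map_one, one_mul]

end Fermat.CAR

end
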