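import Fermat.Agent.GR.ES.EigenChar
import Fermat.Agent.GR.ES.Gamma0
import Fermat.Agent.GR.RT.EveryPoint
import Fermat.Agent.BAD.AtP.BridgePush
import Fermat.Agent.JAC.X0.Act
import Fermat.Prelude.Def_CuspForm_Newforms

/-!
# A newform gives an operator killing both pushforwards to the lower level

A polynomial in the good Hecke operators vanishing at level `N` is carried to zero by both
pushforwards.  If all of them had value zero at a newform of level `N q`, its system would be that
of an eigenform of level `N`.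
-/

set_option autoImplicit false

noncomputable section

open ModularCurve MvPolynomial CongruenceSubgroup ModularFormClass

namespace Fermat.CAR

open Fermat.GR Fermat.GR.RT Fermat.HM Fermat.JAC Fermat.JAC.X0

/-- The good primes of level `M`. -/
abbrev GoodIdx (M : ℕ) : Type := {ℓ : Nat.Primes // ¬ (ℓ : ℕ) ∣ M}

section Level

variable (M : ℕ) (N : ℕ) [NeZero N] (hN : N ∣ M)

/-- Polynomials in the good primes of level `M` in the Hecke ring of level `N`. -/
def goodT : MvPolynomial (GoodIdx M) ℤ →+* FullHecke N :=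
  eval₂Hom (Int.castRingHom (FullHecke N)) fun i =>
    CuspForm.heckeAlgebra.T i.1.2 (fun h => i.2 (h.trans hN)) (Set.notMem_empty _)

/-- Their values on `J₀(N)`. -/
def goodBar : MvPolynomial (GoodIdx M) ℤ →+* Module.End ℤ (JZero N) :=
  (heckeEvalBar (Fermat.JAC.X0.heckeOperatorsCommuteBar N)).comp
    (rename fun i : GoodIdx M => i.1).toRingHom

/-- A variable acts as its Hecke operator. -/
theorem goodBar_X (i : GoodIdx M) : goodBar M N (X i) = heckeOperatorBar N i.1 := by
  change heckeEvalBar _ (rename (fun i : GoodIdx M => i.1) (X i)) = _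
  rw [rename_X]
  exact heckeEvalBar_heckeGen _ _

/-- An action sending `T_ℓ` to the Hecke operators sends `goodT` to `goodBar`. -/
theorem act_goodT (act : FullHecke N →+* AddMonoid.End (JZero N))
    (hT : ∀ (ℓ : ℕ) (hℓ : ℓ.Prime) (hℓN : ¬ ℓ ∣ N) (x : JZero N),
      act (CuspForm.heckeAlgebra.T hℓ hℓN (Set.notMem_empty ℓ)) x = heckeOperatorBar N ⟨ℓ, hℓ⟩ x)
    (P : MvPolynomial (GoodIdx M) ℤ) (x : JZero N) :
    act (goodT M N hN P) x = goodBar M N P x := by
  induction P using MvPolynomial.induction_on generalizing x with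
  | C n =>
    rw [eq_intCast, map_intCast, map_intCast, map_intCast, AddMonoid.End.intCast_apply,
      Module.End.intCast_apply]
  | add P Q hP hQ =>
    rw [map_add, map_add, map_add, LinearMap.add_apply, ← hP, ← hQ]
    rfl
  | mul_X P i hP =>
    rw [map_mul, map_mul, map_mul, Module.End.mul_apply, goodBar_X, ← hP, goodT, eval₂Hom_X']
    exact congrArg _ (hT _ i.1.2 (fun h => i.2 (h.trans hN)) x)

/-- The labelled operators in the Hecke ring of `Γ₀(N)`. -/
def fullLabel : MvPolynomial (Nat.Primes ⊕ (ZMod N)ˣ) ℤ →+* FullHecke N :=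
  eval₂Hom (Int.castRingHom (FullHecke N)) (Sum.elim (fun ℓ =>
    if h : (ℓ : ℕ) ∣ N then CuspForm.heckeAlgebra.U ℓ.2 h (Set.notMem_empty _)
    else CuspForm.heckeAlgebra.T ℓ.2 h (Set.notMem_empty _)) fun _ => 1)

/-- The operator of a polynomial in the labels agrees with the operator of the full Hecke ring on
forms of level `Γ₀(N)`. -/
theorem formAct_fullLabel (P : MvPolynomial (Nat.Primes ⊕ (ZMod N)ˣ) ℤ) :
    ∀ f : CuspForm (Gamma0 N) 2,
      formAct N ⊤ P (toTop N f) = toTop N ((fullLabel N P).1 f) := by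
  induction P using MvPolynomial.induction_on with
  | C n =>
    intro f
    rw [eq_intCast, map_intCast, map_intCast, Module.End.intCast_apply, SubringClass.coe_intCast,
      Module.End.intCast_apply, map_zsmul]
  | add P Q hP hQ =>
    intro f
    rw [map_add, map_add, LinearMap.add_apply, Subalgebra.coe_add, LinearMap.add_apply, map_add,
      hP, hQ]
  | mul_X P i hP =>
    intro f
    rw [map_mul, map_mul, Module.End.mul_apply, Subalgebra.coe_mul, Module.End.mul_apply,
      formAct_X, ← hP]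
    refine congrArg _ ?_
    rw [fullLabel, eval₂Hom_X']
    rcases i with ℓ | u
    · have : Fact (ℓ : ℕ).Prime := ⟨ℓ.2⟩
      change formHecke N ⊤ (ℓ : ℕ) (toTop N f) = _
      simp only [Sum.elim_inl]
      split_ifs with h
      · rw [coe_formHecke_top_of_dvd N h, CuspForm.heckeAlgebra.coe_U]
      · rw [coe_formHecke_top_of_not_dvd N h, CuspForm.heckeAlgebra.coe_T]
    · change formDia N ⊤ u (toTop N f) = _
      rw [formDia_top, Sum.elim_inr]
      rfl

/-- **A complex point of the Hecke ring of `Γ₀(N)` is the system of an eigenform.** -/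
theorem exists_eigenform_of_char (χ : FullHecke N →+* ℂ) :
    ∃ h : CuspForm (Gamma0 N) 2, h.IsNormalizedEigenform ∧
      ∀ (ℓ : ℕ) (hℓ : ℓ.Prime) (hℓN : ¬ ℓ ∣ N),
        qCoeff h ℓ = χ (CuspForm.heckeAlgebra.T hℓ hℓN (Set.notMem_empty ℓ)) := by
  let χ' := (Fermat.JAC.XH.ringEval N ⊤).liftOfSurjective (Fermat.JAC.XH.ringEval_surjective N ⊤)
    ⟨χ.comp (fullLabel N), fun P hP => by
      have h0 := (Fermat.JAC.XH.ringEval_eq_zero_iff N ⊤ P).mp (RingHom.mem_ker.mp hP)
      have h1 : fullLabel N P = 0 := Subtype.ext (LinearMap.ext fun f => (toTop N).injective (by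
        rw [← formAct_fullLabel, h0, LinearMap.zero_apply, ZeroMemClass.coe_zero,
          LinearMap.zero_apply, map_zero]))
      rw [RingHom.mem_ker, RingHom.comp_apply, h1, map_zero]⟩
  have hχ' : ∀ P, χ' (Fermat.JAC.XH.ringEval N ⊤ P) = χ (fullLabel N P) := fun P =>
    RingHom.liftOfRightInverse_comp_apply _ _ _ _ P
  obtain ⟨h, hh, hc⟩ := exists_normalized_of_point N χ'
  refine ⟨h, hh, fun ℓ hℓ hℓN => ?_⟩
  rw [hc ⟨ℓ, hℓ⟩, ← Fermat.JAC.XH.ringEval_inl, hχ', fullLabel, eval₂Hom_X', Sum.elim_inl,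
    dif_neg hℓN]

end Level

/-- A map intertwining the good Hecke operators intertwines their polynomials. -/
theorem goodBar_intertwine {M N N' : ℕ} [NeZero N] [NeZero N'] (π : JZero N' →+ JZero N)
    (hπ : ∀ (i : GoodIdx M) x, π (heckeOperatorBar N' i.1 x) = heckeOperatorBar N i.1 (π x))
    (P : MvPolynomial (GoodIdx M) ℤ) :
    ∀ x, π (goodBar M N' P x) = goodBar M N P (π x) := by
  induction P using MvPolynomial.induction_on with
  | C n =>
    intro x
    rw [eq_intCast, map_intCast, map_intCast, Module.End.intCast_apply, Module.End.intCast_apply,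
      map_zsmul]
  | add P Q hP hQ =>
    intro x
    rw [map_add, map_add, LinearMap.add_apply, LinearMap.add_apply, map_add, hP, hQ]
  | mul_X P i hP =>
    intro x
    rw [map_mul, map_mul, Module.End.mul_apply, Module.End.mul_apply, hP, goodBar_X, goodBar_X, hπ]

/-- **An operator of nonzero value killing both pushforwards.** -/
theorem exists_killer {N q : ℕ} [NeZero N] [NeZero q] (hq : q.Prime)
    {g : CuspForm (Gamma0 (N * q)) 2} (hg : g.IsNewform) :
    ∃ t : FullHecke (N * q), eigenChar hg.1 t ≠ 0 ∧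
      ∀ (act : FullHecke (N * q) →+* AddMonoid.End (JZero (N * q))),
        (∀ (ℓ : ℕ) (hℓ : ℓ.Prime) (hℓN : ¬ ℓ ∣ N * q) (x : JZero (N * q)),
          act (CuspForm.heckeAlgebra.T hℓ hℓN (Set.notMem_empty ℓ)) x =
            heckeOperatorBar (N * q) ⟨ℓ, hℓ⟩ x) →
        ∀ z, pushPic (heckeAlphaBar Qbar N q) (act t z) = 0 ∧
          pushPic (heckeBetaBar Qbar N q) (act t z) = 0 := by
  classical
  have hNd : N ∣ N * q := dvd_mul_right N q
  by_cases hall : ∀ P, goodT (N * q) N hNd P = 0 →
      eigenChar hg.1 (goodT (N * q) (N * q) dvd_rfl P) = 0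
  -- otherwise the eigen system of `g` would come from level `N`, contradicting newness
  · exfalso
    set φ := goodT (N * q) N hNd
    let f₀ : φ.range →+* ℂ := φ.rangeRestrict.liftOfSurjective φ.rangeRestrict_surjective
      ⟨(eigenChar hg.1).comp (goodT (N * q) (N * q) dvd_rfl), fun P hP => RingHom.mem_ker.mpr
        (hall P (congrArg Subtype.val (RingHom.mem_ker.mp hP)))⟩
    have hf₀ : ∀ P, f₀ (φ.rangeRestrict P) = eigenChar hg.1 (goodT (N * q) (N * q) dvd_rfl P) :=
      fun P => RingHom.liftOfRightInverse_comp_apply _ _ _ _ P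
    have : Algebra.IsIntegral ℤ (FullHecke N) := Algebra.IsIntegral.of_finite ℤ _
    obtain ⟨χ, hχ⟩ := exists_extend_algClosed φ.range.subtype Subtype.coe_injective (fun t => by
      obtain ⟨Q, hQ, hQ0⟩ := Algebra.IsIntegral.isIntegral (R := ℤ) t
      refine ⟨Q.map (Int.castRingHom φ.range), hQ.map _, ?_⟩
      rw [Polynomial.eval₂_map, ← hQ0]
      exact congrArg (fun r => Polynomial.eval₂ r t Q) (RingHom.ext_int _ _)) f₀
    obtain ⟨h, hh, hc⟩ := exists_eigenform_of_char N χ
    refine hg.2 N hNd (fun e => ?_) ⟨h, hh, fun ℓ hℓ hℓM => ?_⟩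
    · exact hq.one_lt.ne' ((Nat.mul_eq_left (NeZero.ne N)).mp e.symm)
    · rw [hc ℓ hℓ fun d => hℓM (d.trans hNd)]
      have e1 : φ (X (⟨⟨ℓ, hℓ⟩, hℓM⟩ : GoodIdx (N * q))) =
          CuspForm.heckeAlgebra.T hℓ (fun d => hℓM (d.trans hNd)) (Set.notMem_empty ℓ) :=
        eval₂Hom_X' _ _ _
      rw [← e1]
      refine Eq.trans (RingHom.congr_fun hχ (φ.rangeRestrict _)) ?_
      rw [hf₀, goodT, eval₂Hom_X']
      exact coe_eigenCharInt_T hg.1 hℓ hℓM
  -- an operator zero at level `N` of nonzero value; it commutes with both pushforwards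
  push Not at hall
  obtain ⟨P, hP0, hP⟩ := hall
  refine ⟨_, hP, fun act hT z => ?_⟩
  have hzero : ∀ w : JZero N, goodBar (N * q) N P w = 0 := fun w => by
    rw [← act_goodT (N * q) N hNd (Fermat.JAC.X0.jAct N)
      (fun ℓ hℓ hℓN y => Fermat.JAC.X0.jAct_T N hℓ hℓN y), hP0, map_zero]
    rfl
  rw [act_goodT (N * q) (N * q) dvd_rfl act hT]
  exact ⟨(goodBar_intertwine _ (fun i x => Fermat.BAD.AtP.pushAlpha_heckeOperatorBar N q i.1 i.2 x)
    P z).trans (hzero _),
    (goodBar_intertwine _ (fun i x => Fermat.BAD.AtP.pushBeta_heckeOperatorBar N q i.1 i.2 x)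
      P z).trans (hzero _)⟩

end Fermat.CAR

end
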