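import Fermat.Agent.CAR.Point
import Fermat.Agent.RED.Model.Koszul

/-!
# Invariant functions with divisor divisible by `n` on a tube

At a point with parameters `t`, `w` the local ring is factorial; a prime not dividing `q` has a
simple zero on the tube, a prime dividing `q` generates the prime ideal of a branch.  So an
invariant function of order `0` on the branches whose orders on the tube are divisible by `n` is
a unit times an `n`-th power.
-/

set_option autoImplicit false
set_option linter.unusedSectionVars false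

attribute [local instance 10000] SubalgebraClass.toAlgebra HahnSeries.powerSeriesAlgebra

noncomputable section

open ModularCurve AlgebraicCurve

namespace Fermat.CAR

open Fermat.FF Fermat.MC Fermat.RED.Model Fermat.BAD.X0 Fermat.EC.Val

local notation "Qb" => AlgebraicClosure ℚ

section Ring

variable {R : Type*} [CommRing R] [IsDomain R] [UniqueFactorizationMonoid R]

/-- In a factorial ring an element whose prime exponents are multiples of `n` is a unit times an
`n`-th power. -/
theorem exists_unit_mul_pow {n : ℕ} :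
    ∀ c : R, c ≠ 0 → (∀ (r : R) (k : ℕ) (c' : R), Prime r → c = r ^ k * c' → ¬ r ∣ c' → n ∣ k) →
      ∃ (u : R) (e : R), IsUnit u ∧ e ≠ 0 ∧ c = u * e ^ n := by
  intro c
  refine WellFounded.induction (wellFounded_dvdNotUnit (α := R)) (C := fun c => c ≠ 0 →
    (∀ (r : R) (k : ℕ) (c' : R), Prime r → c = r ^ k * c' → ¬ r ∣ c' → n ∣ k) →
      ∃ (u : R) (e : R), IsUnit u ∧ e ≠ 0 ∧ c = u * e ^ n) c fun c ih hc0 hc => ?_
  by_cases hu : IsUnit c
  · exact ⟨c, 1, hu, one_ne_zero, by rw [one_pow, mul_one]⟩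
  obtain ⟨r, hr, hrc⟩ := WfDvdMonoid.exists_irreducible_factor hu hc0
  have hrp := UniqueFactorizationMonoid.irreducible_iff_prime.mp hr
  obtain ⟨k, c', hc', rfl⟩ := WfDvdMonoid.max_power_factor hc0 hr
  have hk : k ≠ 0 := by
    rintro rfl
    rw [pow_zero, one_mul] at hrc
    exact hc' hrc
  have hc'0 : c' ≠ 0 := right_ne_zero_of_mul hc0
  obtain ⟨l, hl⟩ := hc r k c' hrp rfl hc'
  obtain ⟨u, e, hu', he, heq⟩ := ih c'
    ⟨hc'0, r ^ k, fun h1 => hr.not_isUnit ((isUnit_pow_iff hk).mp h1), mul_comm _ _⟩ hc'0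
    fun r' k' c'' hr' e' hnd => by
      rcases eq_or_ne k' 0 with rfl | hk'
      · exact dvd_zero n
      refine hc r' k' (r ^ k * c'') hr' (by rw [e']; ring) fun hd => ?_
      rcases hr'.dvd_or_dvd hd with h1 | h1
      · have hassoc := hr'.irreducible.associated_of_dvd hr (hr'.dvd_of_dvd_pow h1)
        exact hc' (hassoc.symm.dvd.trans ((dvd_pow_self r' hk').trans ⟨c'', e'⟩))
      · exact hnd h1
  exact ⟨u, r ^ l * e, hu', mul_ne_zero (pow_ne_zero _ hrp.ne_zero) he, by
    rw [heq, hl, mul_pow, ← pow_mul, mul_comm l n]; ring⟩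

end Ring

variable {M q : ℕ} [NeZero M] [NeZero q] {A : ValuationSubring (AlgebraicClosure ℚ)} {b : Bool}
variable (hq : q.Prime) (hqM : ¬ q ∣ M)
variable [Fact q.Prime] [IsAlgClosed (IsLocalRing.ResidueField A)]
variable [CharP (IsLocalRing.ResidueField A) q] (h : IsPlace A q)
variable [FF.IsFunctionField Qb (FN M Qb)] [FF.IsFunctionField Qb (FN (M * q) Qb)]
  [FF.IsFunctionField Qb (FN (M * q * q) Qb)]
variable [FF.IsFunctionField (IsLocalRing.ResidueField A) (FX (IsLocalRing.ResidueField A) M)]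

/-- An invariant function vanishing simply at a place over the chart. -/
theorem exists_rat_ord_one {P : Place Qb (FN (M * q * q) Qb)}
    (hP : OrdGE P (aM M q (xch M b)) 0) :
    ∃ f ∈ ratFld M q A, f ≠ 0 ∧ P.ord f = 1 := by
  classical
  set x := aM M q (xch M b)
  have hx : Transcendental Qb x := transcendental_aM_xch
  -- a function regular off the cusps of order one at `P`; its span is defined over the fixed field
  obtain ⟨g, hg, hg0, hgP⟩ := exists_integral_ord hx {P}
    (fun v hv => by rw [Finset.mem_singleton.mp hv]; exact hP) fun _ => 1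
  have hord : P.ord g = 1 := by exact_mod_cast hgP P (Finset.mem_singleton_self P)
  let ι : FN (M * q * q) Qb →ₗ[Qb] LaurentSeries Qb :=
    { toFun := fun f => (f : LaurentSeries Qb)
      map_add' := fun _ _ => rfl
      map_smul' := fun a f => by
        rw [Algebra.smul_def, RingHom.id_apply, Fermat.RED.laurent_smul_def]; rfl }
  set W : Submodule Qb (LaurentSeries Qb) := (Subalgebra.toSubmodule (intClosure Qb x)).map ι
  have hW : ∀ σ ∈ A.inertiaSubgroupIn ℚ, ∀ w ∈ W,
      coeffMap (σ : Qb →+* Qb) w ∈ W := by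
    rintro σ hσ _ ⟨f, hf, rfl⟩
    exact ⟨gal2 M q σ • f, smul_mem_intClosure _
      (mem_ratFld_iff.mp aM_xch_mem_ratFld σ hσ) hf, coe_gal2 M q σ f⟩
  have hspan := mem_span_fixed W hW (f := ι g) ⟨g, hg, rfl⟩ (coeff_mem_of_fixed g)
  -- so some fixed one has order one after subtracting a constant `c`
  have hex : ∃ r ∈ intClosure Qb x, r ∈ ratFld M q A ∧ ∃ c : Qb,
      r - algebraMap Qb _ c ≠ 0 ∧ P.ord (r - algebraMap Qb _ c) = 1 := by
    by_contra hno
    suffices hsuff : ∀ w ∈ Submodule.span Qb {r | r ∈ W ∧ InertiaFixed A r},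
        ∃ (f : FN (M * q * q) Qb) (c : Qb), ι f = w ∧ OrdGE P (f - algebraMap Qb _ c) 2 by
      obtain ⟨f, c, hf, hc⟩ := hsuff _ hspan
      rw [show f = g from Subtype.ext hf] at hc
      exact ord_ne_one_of_ordGE_two hg0 hc hord
    intro w hw
    induction hw using Submodule.span_induction with
    | mem w hw =>
      obtain ⟨⟨f, hf, rfl⟩, hfix⟩ := hw
      obtain ⟨c, hc⟩ := exists_ordGE_two (FF.mem_intClosure_iff.mp hf P hP) fun c hne h1 =>
        hno ⟨f, hf, hfix, c, hne, h1⟩
      exact ⟨f, c, rfl, hc⟩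
    | zero => exact ⟨0, 0, map_zero ι, by rw [map_zero, sub_zero]; exact ordGE_zero _ _⟩
    | add a b _ _ ha hb =>
      obtain ⟨fa, ca, rfl, ha⟩ := ha
      obtain ⟨fb, cb, rfl, hb⟩ := hb
      exact ⟨fa + fb, ca + cb, map_add ι fa fb, by
        rw [map_add, add_sub_add_comm]; exact ha.add hb⟩
    | smul a b _ hb =>
      obtain ⟨fb, cb, rfl, hb⟩ := hb
      exact ⟨a • fb, a * cb, map_smul ι a fb, by
        rw [map_mul, ← Algebra.smul_def, ← smul_sub]; exact hb.smul a⟩
  obtain ⟨r, hrI, hr, c, hne, hrc⟩ := hex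
  -- the product over the conjugates of `c` is fixed and still has order one
  set f : FN (M * q * q) Qb := ∏ a ∈ orbFin A c, (r - algebraMap Qb _ a)
  have hfeq : Polynomial.aeval r (orbPoly A c) = f := by
    simp only [orbPoly, map_prod, map_sub, Polynomial.aeval_X, Polynomial.aeval_C, f]
  have hrreg : ∀ a : Qb, OrdGE P (r - algebraMap Qb _ a) 0 := fun a =>
    (FF.mem_intClosure_iff.mp hrI P hP).sub (FF.ordGE_algebraMap P a)
  have hother : ∀ a ∈ orbFin A c, a ≠ c → r - algebraMap Qb _ a ≠ 0 ∧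
      P.ord (r - algebraMap Qb _ a) = 0 := fun a _ hac => by
    have e : r - algebraMap Qb _ a = (r - algebraMap Qb _ c) + algebraMap Qb _ (c - a) := by
      rw [map_sub]; ring
    have hne' : r - algebraMap Qb _ a ≠ 0 := fun h0 => by
      have := hrc
      rw [sub_eq_zero.mp h0, ← map_sub, ord_algebraMap] at this
      omega
    refine ⟨hne', le_antisymm (not_lt.mp fun hlt => hac ?_) ((hrreg a).le_ord hne')⟩
    have h1 : OrdGE P (algebraMap Qb (FN (M * q * q) Qb) (c - a)) 1 := by
      have h2 : OrdGE P (r - algebraMap Qb _ a) 1 := ordGE_iff.mpr (.inr hlt)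
      have h3 : OrdGE P (r - algebraMap Qb _ c) 1 := ordGE_iff.mpr (.inr hrc.ge)
      have := h2.sub h3
      rwa [e, add_sub_cancel_left] at this
    by_contra hca
    have := h1.le_ord ((_root_.map_ne_zero _).mpr (sub_ne_zero.mpr (Ne.symm hca)))
    rw [ord_algebraMap] at this
    omega
  have hf0 : f ≠ 0 := Finset.prod_ne_zero_iff.mpr fun a ha => by
    rcases eq_or_ne a c with rfl | hac
    · exact hne
    · exact (hother a ha hac).1
  refine ⟨f, ?_, hf0, ?_⟩
  · rw [← hfeq, Polynomial.aeval_eq_sum_range]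
    exact sum_mem fun i _ => by
      rw [Algebra.smul_def]
      exact mul_mem (algebraMap_mem_ratFld (coeff_orbPoly_mem_fixK A c i)) (pow_mem hr i)
  · rw [FF.ord_prod P _ _ (fun a ha => by
      rcases eq_or_ne a c with rfl | hac
      · exact hne
      · exact (hother a ha hac).1),
      Finset.sum_eq_single_of_mem c (self_mem_orbFin A c) fun a ha hac => (hother a ha hac).2]
    exact hrc

namespace BChar

/-- Parameters at a point: a prime with discrete quotient, and nonunits off the primes of the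
branches. -/
structure HasParam (χ : BChar M q A b) (S : Finset Br) : Prop where
  /-- Off a prime `t`, every element is a unit times a power of `w` modulo `t`. -/
  exists_param : ∃ t w : χ.loc, Prime t ∧
    ∀ f : χ.loc, ¬ t ∣ f → ∃ (k : ℕ) (u : χ.loc), IsUnit u ∧ t ∣ f - u * w ^ k
  /-- Each branch of `S` has a nonunit of order `0` on it. -/
  exists_nonunit : ∀ C ∈ S, ∃ f : χ.loc, χ.lres f = 0 ∧ (f : FN (M * q * q) Qb) ≠ 0 ∧
    gv M q hq hqM A C (f : FN (M * q * q) Qb) = 0

variable {χ : BChar M q A b} {S : Finset Br}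
  {s : Place (IsLocalRing.ResidueField A) (FX (IsLocalRing.ResidueField A) M)}
variable (hχ : χ.IsPoint hq hqM S s) (hpar : χ.HasParam hq hqM S)

/-- The prime `q` of the local ring vanishes in the residue field. -/
theorem lres_natCast : χ.lres ((q : ℕ) : χ.loc) = 0 := by
  rw [map_natCast, CharP.cast_eq_zero]

include hq hqM h hχ hpar

omit hχ in
/-- The local ring at the point is factorial. -/
theorem ufd : UniqueFactorizationMonoid χ.loc := by
  have := χ.isNoetherianRing_loc hq h
  have := χ.isLocalRing_loc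
  obtain ⟨t, w, ht, hw⟩ := hpar.exists_param
  exact ufd_of_quot ht hw

omit hχ in
/-- A prime containing a prime element is generated by it or maximal. -/
theorem eq_span_of_ne_maximal {r : χ.loc} (hr : Prime r) {P : Ideal χ.loc} (hP : P.IsPrime)
    (hrP : r ∈ P) (hne : ∃ f : χ.loc, χ.lres f = 0 ∧ f ∉ P) : P = Ideal.span {r} := by
  have := χ.isNoetherianRing_loc hq h
  have := χ.isLocalRing_loc
  obtain ⟨t, w, ht, hw⟩ := hpar.exists_param
  rcases eq_span_or_eq_maximal (hP := hP) ht hw hr hrP with e | e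
  · exact e
  · obtain ⟨f, hf, hfP⟩ := hne
    refine absurd ?_ hfP
    rw [e, IsLocalRing.mem_maximalIdeal, mem_nonunits_iff, χ.isUnit_loc_iff, not_not]
    exact hf

omit hpar in
/-- A prime not dividing `q` has a zero on the tube. -/
theorem exists_zero {r : χ.loc} (hr : Prime r) (hrq : ¬ r ∣ ((q : ℕ) : χ.loc)) :
    ∃ P ∈ χ.tube, evalAt P (r : FN (M * q * q) Qb) = 0 := by
  by_contra! hno
  have hr0 : (r : FN (M * q * q) Qb) ≠ 0 := fun h0 => hr.ne_zero (Subtype.ext h0)
  obtain ⟨N, hN⟩ := exists_nat_gt (∑ C, |gv M q hq hqM A C (r : FN (M * q * q) Qb)|)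
  have hq0 : ((q : FN (M * q * q) Qb)) ≠ 0 := by
    rw [← map_natCast (algebraMap Qb (FN (M * q * q) Qb)), _root_.map_ne_zero]
    exact Nat.cast_ne_zero.mpr hq.ne_zero
  have hmem : (q : FN (M * q * q) Qb) ^ N / (r : FN (M * q * q) Qb) ∈ χ.loc := by
    refine mem_loc_of hq hqM h hχ (div_mem (pow_mem (natCast_mem _ q) N) (χ.loc_le_ratFld r.2))
      (fun P hP => ?_) fun C _ => ?_
    · obtain ⟨hreg, -⟩ := χ.regular_of_mem_loc (f := r) hP
      have hord : P.ord (r : FN (M * q * q) Qb) = 0 := le_antisymm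
        (not_lt.mp fun hlt => hno P hP ((evalAt_eq_zero_iff hreg).mpr (ordGE_iff.mpr (.inr hlt))))
        (hreg.le_ord hr0)
      refine ordGE_iff.mpr (.inr ?_)
      have hd := div_ne_zero (pow_ne_zero N hq0) hr0
      have h1 := P.ord_mul hd hr0
      rw [div_mul_cancel₀ _ hr0, hord, add_zero, FF.ord_pow,
        ← map_natCast (algebraMap Qb (FN (M * q * q) Qb)), ord_algebraMap, mul_zero] at h1
      rw [← map_natCast (algebraMap Qb (FN (M * q * q) Qb))]
      omega
    · rw [mem_OC, brC_mem_iff M q hq hqM h C (div_ne_zero (pow_ne_zero N hq0) hr0),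
        div_eq_mul_inv, gv_mul M q hq hqM h C (pow_ne_zero N hq0) (inv_ne_zero hr0),
        gv_inv M q hq hqM h C hr0, gv_pow M q hq hqM h C hq0, gv_natCast_q M q hq hqM h C, mul_one]
      have h1 := Finset.single_le_sum (f := fun D => |gv M q hq hqM A D (r : FN (M * q * q) Qb)|)
        (fun _ _ => abs_nonneg _) (Finset.mem_univ C)
      have h2 := le_abs_self (gv M q hq hqM A C (r : FN (M * q * q) Qb))
      linarith
  refine hrq (hr.dvd_of_dvd_pow (n := N) ⟨⟨_, hmem⟩, Subtype.ext ?_⟩)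
  rw [Subring.coe_mul, SubmonoidClass.coe_pow]
  change ((q : χ.loc) : FN (M * q * q) Qb) ^ N = _
  rw [show ((q : χ.loc) : FN (M * q * q) Qb) = (q : FN (M * q * q) Qb) from
    map_natCast χ.loc.subtype q, mul_div_cancel₀ _ hr0]

omit hχ in
/-- Orders at a zero are multiplicities. -/
theorem ord_eq_multiplicity {r : χ.loc} (hr : Prime r) {P : Place Qb (FN (M * q * q) Qb)}
    (hP : P ∈ χ.tube) (hr0 : evalAt P (r : FN (M * q * q) Qb) = 0) :
    ∀ (k : ℕ) (c' : χ.loc), ¬ r ∣ c' → P.ord ((r ^ k * c' : χ.loc) : FN (M * q * q) Qb) = k := by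
  have := ufd hq hqM h hpar
  have hreg : ∀ f : χ.loc, OrdGE P (f : FN (M * q * q) Qb) 0 := fun f =>
    (χ.regular_of_mem_loc hP).1
  obtain ⟨φ, hφ⟩ := FF.IsLocalFamily.exists_evalHom (K := Qb) P
  set ev : χ.loc →+* Qb := φ.comp (χ.loc.subtype.codRestrict P.toValuationSubring.toSubring
    fun f => (FF.mem_iff_ordGE P).mpr (hreg f))
  have hev : ∀ f : χ.loc, ev f = evalAt P (f : FN (M * q * q) Qb) := fun f => hφ _
  -- evaluation at `P` has kernel `(r)`
  have hker : RingHom.ker ev = Ideal.span {r} := by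
    refine eq_span_of_ne_maximal hq hqM h hpar hr (RingHom.ker_isPrime ev)
      (RingHom.mem_ker.mpr ((hev r).trans hr0)) ⟨((q : ℕ) : χ.loc), lres_natCast, fun h1 => ?_⟩
    rw [RingHom.mem_ker, map_natCast] at h1
    exact Nat.cast_ne_zero.mpr hq.ne_zero h1
  -- elements prime to `r` have order zero at `P`
  have hunit : ∀ c' : χ.loc, ¬ r ∣ c' → P.ord (c' : FN (M * q * q) Qb) = 0 := fun c' hc' => by
    have hne : evalAt P (c' : FN (M * q * q) Qb) ≠ 0 := fun h0 => hc' (by
      rw [← Ideal.mem_span_singleton, ← hker, RingHom.mem_ker, hev]; exact h0)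
    have hc0 : (c' : FN (M * q * q) Qb) ≠ 0 := fun h0 => hne (by
      rw [h0]; exact RED.Model.evalAt_zero P)
    exact le_antisymm (not_lt.mp fun hlt =>
      hne ((evalAt_eq_zero_iff (hreg c')).mpr (ordGE_iff.mpr (.inr hlt)))) ((hreg c').le_ord hc0)
  have hrne : (r : FN (M * q * q) Qb) ≠ 0 := fun h0 => hr.ne_zero (Subtype.ext h0)
  have hgen : ∀ (k : ℕ) (c' : χ.loc), ¬ r ∣ c' →
      P.ord ((r ^ k * c' : χ.loc) : FN (M * q * q) Qb) =
        k * P.ord (r : FN (M * q * q) Qb) := fun k c' hc' => by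
    rw [Subring.coe_mul, SubmonoidClass.coe_pow, P.ord_mul (pow_ne_zero k hrne) (fun h0 =>
      hc' (by rw [show c' = 0 from Subtype.ext h0]; exact dvd_zero r)), FF.ord_pow, hunit c' hc',
      add_zero]
  -- some rational function has order one, so `r` has order one
  obtain ⟨f, hf, hf0, hford⟩ := exists_rat_ord_one (A := A) hP.1
  obtain ⟨a, c, hc, e⟩ := exists_eq_frac hq hqM h (b := b) hf
  have ha0 : (a : FN (M * q * q) Qb) ≠ 0 := e ▸ mul_ne_zero hf0 hc
  obtain ⟨ka, a', ha', hea⟩ := WfDvdMonoid.max_power_factor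
    (a₀ := (⟨_, χ.Bx_le_loc a.2⟩ : χ.loc)) (fun h0 => ha0 (congrArg Subtype.val h0)) hr.irreducible
  obtain ⟨kc, c', hc'', hec⟩ := WfDvdMonoid.max_power_factor
    (a₀ := (⟨_, χ.Bx_le_loc c.2⟩ : χ.loc)) (fun h0 => hc (congrArg Subtype.val h0)) hr.irreducible
  have h1 : P.ord (a : FN (M * q * q) Qb) = ka * P.ord (r : FN (M * q * q) Qb) := by
    rw [← hgen ka a' ha', ← hea]
  have h2 : P.ord (c : FN (M * q * q) Qb) = kc * P.ord (r : FN (M * q * q) Qb) := by
    rw [← hgen kc c' hc'', ← hec]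
  have h3 := P.ord_mul hf0 hc
  rw [e, h1, h2, hford] at h3
  have h4 : P.ord (r : FN (M * q * q) Qb) = 1 := by
    have hnn : 0 ≤ P.ord (r : FN (M * q * q) Qb) := (hreg r).le_ord hrne
    have h5 : ((ka : ℤ) - kc) * P.ord (r : FN (M * q * q) Qb) = 1 := by linarith
    rcases Int.eq_one_or_neg_one_of_mul_eq_one' h5 with h6 | h6
    · exact h6.2
    · omega
  intro k c'' hc3
  rw [hgen k c'' hc3, h4, mul_one]

/-- Primes dividing `q` generate the ideal of a branch. -/
theorem exists_branch_of_dvd_q {r : χ.loc} (hr : Prime r) (hrq : r ∣ ((q : ℕ) : χ.loc)) :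
    ∃ C ∈ S, 0 < gv M q hq hqM A C (r : FN (M * q * q) Qb) ∧ ∀ (k : ℕ) (c' : χ.loc), ¬ r ∣ c' →
      gv M q hq hqM A C ((r ^ k * c' : χ.loc) : FN (M * q * q) Qb) =
        k * gv M q hq hqM A C (r : FN (M * q * q) Qb) := by
  have hrne : (r : FN (M * q * q) Qb) ≠ 0 := fun h0 => hr.ne_zero (Subtype.ext h0)
  -- some branch has nonzero valuation at `r`
  obtain ⟨C, hCS, hC⟩ : ∃ C ∈ S, gv M q hq hqM A C (r : FN (M * q * q) Qb) ≠ 0 := by
    by_contra! hall
    obtain ⟨d, hd⟩ := hrq
    have hmem : (r : FN (M * q * q) Qb)⁻¹ ∈ χ.loc := by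
      refine mem_loc_of hq hqM h hχ (inv_mem (χ.loc_le_ratFld r.2)) (fun P hP => ?_) fun C hC => ?_
      · have hr1 := (χ.regular_of_mem_loc (f := r) hP).1
        have hd1 := (χ.regular_of_mem_loc (f := d) hP).1
        have hne : evalAt P (r : FN (M * q * q) Qb) ≠ 0 := fun h0 => by
          have h1 := congrArg (fun z : χ.loc => evalAt P (z : FN (M * q * q) Qb)) hd
          simp only [Subring.coe_mul, evalAt_mul hr1 hd1, h0, zero_mul] at h1
          rw [show ((q : χ.loc) : FN (M * q * q) Qb) = algebraMap Qb _ (q : Qb) by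
            rw [map_natCast]; exact map_natCast χ.loc.subtype q, evalAt_algebraMap] at h1
          exact Nat.cast_ne_zero.mpr hq.ne_zero h1
        refine ordGE_iff.mpr (.inr ?_)
        have h1 := P.ord_mul hrne (inv_ne_zero hrne)
        rw [mul_inv_cancel₀ hrne, show P.ord (1 : FN (M * q * q) Qb) = 0 by
          rw [← map_one (algebraMap Qb (FN (M * q * q) Qb)), ord_algebraMap]] at h1
        have h2 : P.ord (r : FN (M * q * q) Qb) = 0 := le_antisymm (not_lt.mp fun hlt =>
          hne ((evalAt_eq_zero_iff hr1).mpr (ordGE_iff.mpr (.inr hlt)))) (hr1.le_ord hrne)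
        omega
      · rw [mem_OC, brC_mem_iff M q hq hqM h C (inv_ne_zero hrne), gv_inv M q hq hqM h C hrne,
          hall C hC, neg_zero]
    exact hr.not_isUnit (IsUnit.of_mul_eq_one (⟨_, hmem⟩ : χ.loc)
      (Subtype.ext (mul_inv_cancel₀ hrne)))
  -- there it is positive
  have hpos : 0 < gv M q hq hqM A C (r : FN (M * q * q) Qb) :=
    lt_of_le_of_ne ((brC_mem_iff M q hq hqM h C hrne).mp (mem_OC_of_loc hq hqM h hχ hCS r.2))
      (Ne.symm hC)
  refine ⟨C, hCS, hpos, fun k c' hc' => ?_⟩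
  set ψ : χ.loc →+* LaurentSeries (IsLocalRing.ResidueField A) :=
    (resC M q hq hqM A C).comp (χ.loc.subtype.codRestrict _ fun f =>
      mem_OC_of_loc hq hqM h hχ hCS f.2)
  have hψ : ∀ f : χ.loc, (f : FN (M * q * q) Qb) ≠ 0 →
      (ψ f ≠ 0 ↔ gv M q hq hqM A C (f : FN (M * q * q) Qb) = 0) := fun f hf =>
    ⟨fun hne => (prim_iff M q hq hqM h C hf).mp ⟨mem_OC_of_loc hq hqM h hχ hCS f.2, hne⟩,
      fun h0 => ((prim_iff M q hq hqM h C hf).mpr h0).2⟩
  -- the kernel of reduction at that branch is `(r)`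
  have hker : RingHom.ker ψ = Ideal.span {r} := by
    refine eq_span_of_ne_maximal hq hqM h hpar hr (RingHom.ker_isPrime ψ)
      (RingHom.mem_ker.mpr (by_contra fun hne => hC ((hψ r hrne).mp hne))) ?_
    obtain ⟨f, hf, hf0, hfg⟩ := hpar.exists_nonunit C hCS
    exact ⟨f, hf, fun hm => (hψ f hf0).mpr hfg (RingHom.mem_ker.mp hm)⟩
  have hc0 : (c' : FN (M * q * q) Qb) ≠ 0 := fun h0 =>
    hc' (by rw [show c' = 0 from Subtype.ext h0]; exact dvd_zero r)
  rw [Subring.coe_mul, SubmonoidClass.coe_pow, gv_mul M q hq hqM h C (pow_ne_zero k hrne) hc0,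
    gv_pow M q hq hqM h C hrne, (hψ c' hc0).mp (fun h0 => hc' (by
      rw [← Ideal.mem_span_singleton, ← hker, RingHom.mem_ker]; exact h0)), add_zero]

/-- **Local factorisation.** An invariant function of order `0` on the branches, with orders on the
tube divisible by `n`, is locally a unit times an `n`-th power. -/
theorem exists_eq_unit_mul_pow {n : ℕ} (hn : n ≠ 0) {y : FN (M * q * q) Qb}
    (hy : y ∈ ratFld M q A) (hy0 : y ≠ 0) (hord : ∀ P ∈ χ.tube, (n : ℤ) ∣ P.ord y)
    (hgv : ∀ C ∈ S, gv M q hq hqM A C y = 0) :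
    ∃ (u : χ.loc) (e : FN (M * q * q) Qb), χ.lres u ≠ 0 ∧ e ∈ ratFld M q A ∧ e ≠ 0 ∧
      y = (u : FN (M * q * q) Qb) * e ^ n := by
  have := ufd hq hqM h hpar
  obtain ⟨m, rfl⟩ := Nat.exists_eq_succ_of_ne_zero hn
  -- clear the denominator `c` by an `n`-th power
  obtain ⟨a, c, hc, hac⟩ := exists_eq_frac hq hqM h (b := b) hy
  set cl : χ.loc := ⟨c, χ.Bx_le_loc c.2⟩
  set z : χ.loc := ⟨a, χ.Bx_le_loc a.2⟩ * cl ^ m
  have hz : (z : FN (M * q * q) Qb) = y * (c : FN (M * q * q) Qb) ^ (m + 1) := by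
    rw [Subring.coe_mul, SubmonoidClass.coe_pow]
    change (a : FN (M * q * q) Qb) * (c : FN (M * q * q) Qb) ^ m = _
    rw [← hac, pow_succ]; ring
  have hz0 : (z : FN (M * q * q) Qb) ≠ 0 := hz ▸ mul_ne_zero hy0 (pow_ne_zero _ hc)
  obtain ⟨u, e, hu, he, heq⟩ := exists_unit_mul_pow (n := m + 1) z
    (fun h0 => hz0 (congrArg Subtype.val h0)) fun r k z' hr ez hz' => by
    by_cases hrq : r ∣ ((q : ℕ) : χ.loc)
    -- a prime over `q` is counted on a branch, where `y` has order zero
    · obtain ⟨C, hCS, hpos, hval⟩ := exists_branch_of_dvd_q hq hqM h hχ hpar hr hrq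
      obtain ⟨l, c', hc', hec⟩ := WfDvdMonoid.max_power_factor
        (a₀ := cl) (fun h0 => hc (congrArg Subtype.val h0)) hr.irreducible
      refine ⟨l, ?_⟩
      have h1 := hval k z' hz'
      rw [← ez, hz, gv_mul M q hq hqM h C hy0 (pow_ne_zero _ hc), hgv C hCS, zero_add,
        gv_pow M q hq hqM h C hc, show (c : FN (M * q * q) Qb) = ((r ^ l * c' : χ.loc) :
          FN (M * q * q) Qb) from congrArg Subtype.val hec, hval l c' hc', ← mul_assoc] at h1
      have h2 := mul_right_cancel₀ hpos.ne' h1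
      exact_mod_cast h2.symm
    -- another prime is counted at a zero on the tube
    · obtain ⟨P, hP, hP0⟩ := exists_zero hq hqM h hχ hr hrq
      have h1 := ord_eq_multiplicity hq hqM h hpar hr hP hP0 k z' hz'
      rw [← ez, hz, P.ord_mul hy0 (pow_ne_zero _ hc), FF.ord_pow] at h1
      rw [← Int.natCast_dvd_natCast, ← h1]
      exact dvd_add (hord P hP) (Dvd.intro _ rfl)
  refine ⟨u, (e : FN (M * q * q) Qb) / c, χ.isUnit_loc_iff.mp hu,
    div_mem (χ.loc_le_ratFld e.2) c.2.1,
    div_ne_zero (fun h0 => he (Subtype.ext h0)) hc, ?_⟩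
  rw [div_pow, ← mul_div_assoc, eq_div_iff (pow_ne_zero _ hc), ← hz]
  have := congrArg Subtype.val heq
  rw [Subring.coe_mul, SubmonoidClass.coe_pow] at this
  exact this

end BChar

end Fermat.CAR

end
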