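import Fermat.Agent.CAR.Amalgam
import Fermat.Agent.BAD.X0.Degen

/-!
# The function field of level `M q²`

For `q ∤ M` it is generated by the two copies of the field of level `M q`; the expansions at the
cusps over `∞` on the three kinds of branches and the involution exchanging the two copies.
-/

set_option autoImplicit false

attribute [local instance 10000] SubalgebraClass.toAlgebra HahnSeries.powerSeriesAlgebra

noncomputable section

open ModularCurve AlgebraicCurve

namespace Fermat.CAR

open Fermat.FF Fermat.MC Fermat.JAC.X0 Fermat.RED Fermat.BAD.X0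

local notation "Qb" => AlgebraicClosure ℚ

/-- For a prime `ℓ ∣ N` the degeneracy map to level `N` has degree `ℓ`. -/
theorem finrankAlong_alpha_mul_dvd (N ℓ : ℕ) [NeZero N] [NeZero ℓ] (hℓ : ℓ.Prime) (hℓN : ℓ ∣ N) :
    finrankAlong Qbar (heckeAlphaBar Qbar N ℓ) = ℓ := by
  have h := CongX0.dedekindPsi_mul_eq_finrankAlong N ℓ
  rw [dedekindPsi_mul_prime N ℓ hℓ, if_pos hℓN, mul_comm] at h
  exact (Nat.eq_of_mul_eq_mul_right (by rw [← psiN_eq_dedekindPsi, psiN]; exact Nat.card_pos)
    h).symm

variable (M q : ℕ) [NeZero M] [NeZero q]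

/-- The unit `ζ ^ i` for `i : Fin q`. -/
abbrev zpw (ζ : Qbˣ) (i : Fin q) : Qbˣ := ζ ^ (i : ℕ)

/-- The two composites from level `M` to level `M q²` agree. -/
theorem alpha_beta_comm (x : FN M Qb) :
    heckeAlphaBar Qb (M * q) q (heckeBetaBar Qb M q x) =
      heckeBetaBar Qb (M * q) q (heckeAlphaBar Qb M q x) :=
  Subtype.ext (by
    rw [coe_heckeAlphaBar, coe_heckeBetaBar, coe_heckeBetaBar, coe_heckeAlphaBar])

/-- The two copies of the field of level `M q` generate the field of level `M q²`. -/
theorem closure_ranges (hq : q.Prime) :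
    Subfield.closure (Set.range (heckeAlphaBar Qb (M * q) q) ∪
      Set.range (heckeBetaBar Qb (M * q) q)) = ⊤ := by
  set S := Subfield.closure (Set.range (heckeAlphaBar Qb (M * q) q) ∪
      Set.range (heckeBetaBar Qb (M * q) q))
  refine eq_top_iff.mpr fun x _ => ?_
  obtain ⟨x, hx⟩ := x
  have hx' : x ∈ IntermediateField.adjoin Qb (Set.range fun d : DivIdx (M * q * q) =>
      (jdL Qb d : LaurentSeries Qb)) := by
    rw [← adjoin_jdL]; exact hx
  let T : IntermediateField Qb (FN (M * q * q) Qb) := S.toIntermediateField fun c =>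
    Subfield.subset_closure (Or.inl ⟨algebraMap Qb _ c, AlgHom.commutes _ c⟩)
  have hle : IntermediateField.adjoin Qb (Set.range fun d : DivIdx (M * q * q) =>
      (jdL Qb d : LaurentSeries Qb)) ≤ T.map (FN (M * q * q) Qb).val :=
    IntermediateField.adjoin_le_iff.mpr (by
      rintro _ ⟨d, rfl⟩
      refine ⟨jdL Qb d, ?_, rfl⟩
      by_cases hd : q ∣ (d : ℕ)
      · obtain ⟨e, he⟩ := hd
        have hed : e ∣ M * q := by
          have h := d.dvd
          rw [he, mul_comm (M * q) q] at h
          exact Nat.dvd_of_mul_dvd_mul_left hq.pos h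
        refine Subfield.subset_closure
          (Or.inr ⟨jdL Qb ⟨e, Nat.mem_divisors.mpr ⟨hed, NeZero.ne _⟩⟩, ?_⟩)
        rw [beta_jdL]
        exact congrArg (jdL Qb) (Subtype.ext (by change e * q = _; rw [he, mul_comm]))
      · have hdd : (d : ℕ) ∣ M * q :=
          ((hq.coprime_iff_not_dvd.mpr hd).symm).dvd_of_dvd_mul_right d.dvd
        refine Subfield.subset_closure
          (Or.inl ⟨jdL Qb ⟨d, Nat.mem_divisors.mpr ⟨hdd, NeZero.ne _⟩⟩, ?_⟩)
        rw [alpha_jdL]
        exact congrArg (jdL Qb) (Subtype.ext rfl))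
  obtain ⟨a, ha, hax⟩ := hle hx'
  rw [show (⟨x, hx⟩ : FN (M * q * q) Qb) = a from Subtype.ext hax.symm]
  exact ha

/-- A homomorphism on level `M q²` is determined on the two copies of level `M q`. -/
theorem hom_ext {R : Type*} [Field R] (hq : q.Prime) {φ ψ : FN (M * q * q) Qb →+* R}
    (ha : ∀ g, φ (heckeAlphaBar Qb (M * q) q g) = ψ (heckeAlphaBar Qb (M * q) q g))
    (hb : ∀ g, φ (heckeBetaBar Qb (M * q) q g) = ψ (heckeBetaBar Qb (M * q) q g)) : φ = ψ :=
  RingHom.eq_of_eqOn_of_field_closure_eq_top (closure_ranges M q hq)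
    (by rintro _ (⟨g, rfl⟩ | ⟨g, rfl⟩); exacts [ha g, hb g])

variable (hq : q.Prime) (hqM : ¬ q ∣ M)

include hqM in
/-- An expansion of level `M q` extends to level `M q²` with any branch other than the one
already used on the second copy. -/
theorem exists_hom_branch {φ : FN (M * q) Qb →+* LaurentSeries Qb}
    (hφ : ∀ x, φ (heckeBetaBar Qb M q x) = qExpand Qb q (x : LaurentSeries Qb))
    {ζ : Qbˣ} (hζ : IsPrimitiveRoot (ζ : Qb) q) {o0 o : Option (Fin q)}
    (h0 : branch M q hq hqM ζ o0 = φ.comp (alW M q hq hqM).toAlgHom.toRingHom) (ho : o ≠ o0) :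
    ∃ e : FN (M * q * q) Qb →+* LaurentSeries Qb, (∀ g, e (heckeAlphaBar Qb (M * q) q g) = φ g) ∧
      ∀ g, e (heckeBetaBar Qb (M * q) q g) = branch M q hq hqM ζ o g := by
  have : IsFunctionField Qb (FN M Qb) := MC.isFunctionField_FN M embC
  have : IsFunctionField Qb (FN (M * q) Qb) := MC.isFunctionField_FN (M * q) embC
  have : IsFunctionField Qb (FN (M * q * q) Qb) := MC.isFunctionField_FN (M * q * q) embC
  refine exists_hom_amalgam (heckeAlphaBar Qb M q) (heckeBetaBar Qb M q)
    (heckeAlphaBar Qb (M * q) q) (heckeBetaBar Qb (M * q) q) (alpha_beta_comm M q)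
    (closure_ranges M q hq) (alW M q hq hqM).toAlgHom.toRingHom
    ⟨heckeBetaBar Qb M q (jL M Qb), fun h => ?_⟩ φ (branch M q hq hqM ζ) (fun k x => ?_)
    (branch_injective M q hq hqM hζ) (card_branch M q hq hqM)
    (by rw [finrankAlong_alpha_mul_dvd (M * q) q hq (dvd_mul_left q M),
      CongX0.finrankAlong_alpha_bar M q hq hqM]) h0 ho
  · have h1 := congrArg (fun z : FN (M * q * q) Qb => (z : LaurentSeries Qb).coeff (-1)) h
    simp only [AlgEquiv.coe_toAlgHom, AlgHom.toRingHom_eq_coe, RingHom.coe_coe,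
      alW_beta, coe_heckeAlphaBar, coe_heckeBetaBar, coe_jL, coeff_jqModC_neg_one] at h1
    rw [qExpand_coeff_of_not_dvd q _ (by
      intro h'
      have h2 := Int.le_of_dvd one_pos (Int.dvd_neg.mp h')
      have := hq.one_lt
      omega)] at h1
    exact zero_ne_one h1
  · rw [branch_alpha M q hq hqM hζ, hφ]

/-- A fixed primitive `q`-th root of unity. -/
def zetaQ : Qbˣ := (exists_zeta q).choose

/-- `zetaQ` is primitive. -/
theorem zetaQ_spec : IsPrimitiveRoot ((zetaQ q : Qbˣ) : Qb) q := (exists_zeta q).choose_spec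

/-- `zetaQ ^ q = 1`. -/
theorem zetaQ_pow : (zetaQ q) ^ q = 1 := Units.ext (by
  rw [Units.val_pow_eq_pow_val, (zetaQ_spec q).pow_eq_one, Units.val_one])

/-- Each `zpw` is a `q`-th root of unity. -/
theorem zpw_pow (i : Fin q) : (zpw q (zetaQ q) i) ^ q = 1 := by
  rw [zpw, ← pow_mul, mul_comm, pow_mul, zetaQ_pow, one_pow]

/-- `zpw` at `i` and `-i` are inverse. -/
theorem zpw_mul_neg (i : Fin q) : zpw q (zetaQ q) i * zpw q (zetaQ q) (-i) = 1 := by
  rw [zpw, zpw, ← pow_add]
  obtain ⟨t, ht⟩ : q ∣ (i : ℕ) + ((-i : Fin q) : ℕ) := by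
    rw [Nat.dvd_iff_mod_eq_zero, ← Fin.val_add, add_neg_cancel]; rfl
  rw [ht, pow_mul, zetaQ_pow, one_pow]

include hqM in
/-- The expansions at the cusps of intermediate kind exist. -/
theorem exists_br11 {i : Fin q} (hi : i ≠ 0) :
    ∃ e : FN (M * q * q) Qb →+* LaurentSeries Qb,
      (∀ g, e (heckeAlphaBar Qb (M * q) q g) = (g : LaurentSeries Qb)) ∧
      ∀ g, e (heckeBetaBar Qb (M * q) q g) =
        twist (zpw q (zetaQ q) i) (emb M q hq hqM false g) := by
  obtain ⟨e, h1, h2⟩ := exists_hom_branch M q hq hqM (φ := (FN (M * q) Qb).val.toRingHom)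
    (coe_heckeBetaBar M q) (zetaQ_spec q) (o0 := some 0) (o := some i)
    (RingHom.ext fun g => by
      change twist (zetaQ q ^ ((0 : Fin q) : ℕ)) (emb M q hq hqM false g) = _
      rw [Fin.val_zero, pow_zero, twist_one_apply]
      rfl)
    (fun h => hi (Option.some.inj h))
  exact ⟨e, h1, h2⟩

include hqM in
/-- The expansion of level `M q²` whose restrictions to the two copies are both the expansion at
`0`, the first one at `q`-scale. -/
theorem exists_br02 :
    ∃ e : FN (M * q * q) Qb →+* LaurentSeries Qb,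
      (∀ g, e (heckeAlphaBar Qb (M * q) q g) = qExpand Qb q (emb M q hq hqM false g)) ∧
      ∀ g, e (heckeBetaBar Qb (M * q) q g) = emb M q hq hqM false g := by
  obtain ⟨e, h1, h2⟩ := exists_hom_branch M q hq hqM
    (φ := (qExpand Qb q).comp (emb M q hq hqM false))
    (fun x => by rw [RingHom.comp_apply, emb_false_beta]) (zetaQ_spec q) (o0 := none) (o := some 0)
    (RingHom.ext fun g => by
      change qExpand Qb q (emb M q hq hqM true g) =
        qExpand Qb q (emb M q hq hqM false (alW M q hq hqM g))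
      rw [emb_alW]
      rfl)
    (fun h => nomatch h)
  refine ⟨e, h1, fun g => ?_⟩
  rw [h2]
  change twist (zetaQ q ^ ((0 : Fin q) : ℕ)) (emb M q hq hqM false g) = _
  rw [Fin.val_zero, pow_zero, twist_one_apply]

/-- The expansion at a cusp of intermediate kind. -/
def br11 {i : Fin q} (hi : i ≠ 0) : FN (M * q * q) Qb →+* LaurentSeries Qb :=
  (exists_br11 M q hq hqM hi).choose

/-- An intermediate expansion on the first copy is the expansion at `∞`. -/
theorem br11_alpha {i : Fin q} (hi : i ≠ 0) (g : FN (M * q) Qb) :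
    br11 M q hq hqM hi (heckeAlphaBar Qb (M * q) q g) = (g : LaurentSeries Qb) :=
  (exists_br11 M q hq hqM hi).choose_spec.1 g

/-- An intermediate expansion on the second copy is a twist of the expansion at the opposite
cusp. -/
theorem br11_beta {i : Fin q} (hi : i ≠ 0) (g : FN (M * q) Qb) :
    br11 M q hq hqM hi (heckeBetaBar Qb (M * q) q g) =
      twist (zpw q (zetaQ q) i) (emb M q hq hqM false g) :=
  (exists_br11 M q hq hqM hi).choose_spec.2 g

/-- An intermediate expansion fixes the constants. -/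
theorem br11_algebraMap {i : Fin q} (hi : i ≠ 0) (c : Qb) :
    br11 M q hq hqM hi (algebraMap Qb (FN (M * q * q) Qb) c) =
      algebraMap Qb (LaurentSeries Qb) c := by
  rw [← (heckeAlphaBar Qb (M * q) q).commutes c, br11_alpha]
  rfl

/-- The expansion at a cusp of the kind opposite to `∞`. -/
def br02 : FN (M * q * q) Qb →+* LaurentSeries Qb :=
  (exists_br02 M q hq hqM).choose

/-- The opposite expansion on the first copy raises the variable to the power `q`. -/
theorem br02_alpha (g : FN (M * q) Qb) :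
    br02 M q hq hqM (heckeAlphaBar Qb (M * q) q g) = qExpand Qb q (emb M q hq hqM false g) :=
  (exists_br02 M q hq hqM).choose_spec.1 g

/-- The opposite expansion on the second copy is that of level `M q`. -/
theorem br02_beta (g : FN (M * q) Qb) :
    br02 M q hq hqM (heckeBetaBar Qb (M * q) q g) = emb M q hq hqM false g :=
  (exists_br02 M q hq hqM).choose_spec.2 g

/-- The opposite expansion fixes the constants. -/
theorem br02_algebraMap (c : Qb) :
    br02 M q hq hqM (algebraMap Qb (FN (M * q * q) Qb) c) = algebraMap Qb (LaurentSeries Qb) c := by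
  rw [← (heckeBetaBar Qb (M * q) q).commutes c, br02_beta, emb_algebraMap]

/-- The opposite expansion takes values in the field of level `M q²`. -/
theorem br02_mem (f : FN (M * q * q) Qb) : br02 M q hq hqM f ∈ FN (M * q * q) Qb := by
  have hle : Subfield.closure (Set.range (heckeAlphaBar Qb (M * q) q) ∪
      Set.range (heckeBetaBar Qb (M * q) q)) ≤
      (FN (M * q * q) Qb).toSubfield.comap (br02 M q hq hqM) := Subfield.closure_le.mpr (by
    rintro _ (⟨g, rfl⟩ | ⟨g, rfl⟩)
    · change br02 M q hq hqM _ ∈ FN (M * q * q) Qb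
      rw [br02_alpha, emb_false, ← coe_heckeBetaBar (M * q) q]
      exact SetLike.coe_mem _
    · change br02 M q hq hqM _ ∈ FN (M * q * q) Qb
      rw [br02_beta, emb_false, ← coe_heckeAlphaBar (M * q) q]
      exact SetLike.coe_mem _)
  rw [closure_ranges M q hq] at hle
  exact hle (Subfield.mem_top f)

/-- The involution as a homomorphism. -/
def w2Hom : FN (M * q * q) Qb →ₐ[Qb] FN (M * q * q) Qb where
  toFun f := ⟨br02 M q hq hqM f, br02_mem M q hq hqM f⟩
  map_one' := Subtype.ext (map_one _)
  map_mul' x y := Subtype.ext (map_mul _ x y)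
  map_zero' := Subtype.ext (map_zero _)
  map_add' x y := Subtype.ext (map_add _ x y)
  commutes' c := Subtype.ext (br02_algebraMap M q hq hqM c)

/-- `w2Hom` on the first copy. -/
theorem w2Hom_alpha (g : FN (M * q) Qb) :
    w2Hom M q hq hqM (heckeAlphaBar Qb (M * q) q g) =
      heckeBetaBar Qb (M * q) q (alW M q hq hqM g) :=
  Subtype.ext (by rw [coe_heckeBetaBar]; exact br02_alpha M q hq hqM g)

/-- `w2Hom` on the second copy. -/
theorem w2Hom_beta (g : FN (M * q) Qb) :
    w2Hom M q hq hqM (heckeBetaBar Qb (M * q) q g) =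
      heckeAlphaBar Qb (M * q) q (alW M q hq hqM g) :=
  Subtype.ext (by rw [coe_heckeAlphaBar]; exact br02_beta M q hq hqM g)

/-- `w2Hom` is an involution. -/
theorem w2Hom_w2Hom (f : FN (M * q * q) Qb) : w2Hom M q hq hqM (w2Hom M q hq hqM f) = f :=
  DFunLike.congr_fun (hom_ext M q hq
    (φ := (w2Hom M q hq hqM).toRingHom.comp (w2Hom M q hq hqM).toRingHom) (ψ := RingHom.id _)
    (fun g => by
      change w2Hom M q hq hqM (w2Hom M q hq hqM _) = heckeAlphaBar Qb (M * q) q g
      rw [w2Hom_alpha, w2Hom_beta, alW_alW])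
    fun g => by
      change w2Hom M q hq hqM (w2Hom M q hq hqM _) = heckeBetaBar Qb (M * q) q g
      rw [w2Hom_beta, w2Hom_alpha, alW_alW]) f

/-- The involution exchanging the two copies of the field of level `M q`. -/
def alW2 : FN (M * q * q) Qb ≃ₐ[Qb] FN (M * q * q) Qb :=
  AlgEquiv.ofAlgHom (w2Hom M q hq hqM) (w2Hom M q hq hqM) (AlgHom.ext (w2Hom_w2Hom M q hq hqM))
    (AlgHom.ext (w2Hom_w2Hom M q hq hqM))

/-- The involution maps the first copy to the second through the Atkin-Lehner operator. -/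
theorem alW2_alpha (g : FN (M * q) Qb) :
    alW2 M q hq hqM (heckeAlphaBar Qb (M * q) q g) =
      heckeBetaBar Qb (M * q) q (alW M q hq hqM g) :=
  w2Hom_alpha M q hq hqM g

/-- The involution maps the second copy to the first through the Atkin-Lehner operator. -/
theorem alW2_beta (g : FN (M * q) Qb) :
    alW2 M q hq hqM (heckeBetaBar Qb (M * q) q g) =
      heckeAlphaBar Qb (M * q) q (alW M q hq hqM g) :=
  w2Hom_beta M q hq hqM g

/-- `alW2` is an involution. -/
theorem alW2_alW2 (f : FN (M * q * q) Qb) : alW2 M q hq hqM (alW2 M q hq hqM f) = f :=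
  w2Hom_w2Hom M q hq hqM f

/-- The expansion of the image is the opposite expansion. -/
theorem coe_alW2 (f : FN (M * q * q) Qb) :
    (alW2 M q hq hqM f : LaurentSeries Qb) = br02 M q hq hqM f := rfl

/-- The opposite expansion of the image is the expansion at `∞`. -/
theorem br02_alW2 (f : FN (M * q * q) Qb) :
    br02 M q hq hqM (alW2 M q hq hqM f) = (f : LaurentSeries Qb) := by
  rw [← coe_alW2, alW2_alW2]

end Fermat.CAR

end
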