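import Fermat.Agent.GR.ES.Point

/-!
# A unipotent subgroup gives fixed torsion classes at a point of the Hecke ring

If a group of Galois elements acts unipotently in the representation at a point `f`, the classes it
fixes are not killed by a fixed multiple of any operator `t` with `f t ≠ 0`: a common fixed vector
over the values of `f` is multiplied into the lattice by an element annihilated by the kernel of
`f`, and cut at every level.
-/

set_option autoImplicit false
set_option linter.unusedSectionVars false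

noncomputable section

open Polynomial

namespace Fermat.CAR

open Fermat.GR Fermat.GR.ESData

local notation "ℚbar" => AlgebraicClosure ℚ
local notation "Γℚ" => (AlgebraicClosure ℚ ≃ₐ[ℚ] AlgebraicClosure ℚ)
local notation "M2" O => Matrix (Fin 2) (Fin 2) O

/-- Nilpotent two by two matrices with a traceless product multiply to zero. -/
theorem mul_eq_zero_of_nilpotent {O : Type*} [CommRing O] [IsDomain O] (A B : M2 O)
    (hA : A.trace = 0 ∧ A.det = 0) (hB : B.trace = 0 ∧ B.det = 0) (h : (B * A).trace = 0) :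
    B * A = 0 := by
  simp only [Matrix.trace_fin_two, Matrix.det_fin_two, Matrix.mul_apply,
    Fin.sum_univ_two] at hA hB h
  have ha : A 1 1 = -A 0 0 := by linear_combination hA.1
  have hb : B 1 1 = -B 0 0 := by linear_combination hB.1
  rw [ha] at hA h; rw [hb] at hB h
  have sq : ∀ z : O, z ^ 2 = 0 → z = 0 := fun z hz => (pow_eq_zero_iff two_ne_zero).mp hz
  ext i j
  fin_cases i <;> fin_cases j <;>
    simp only [Matrix.mul_apply, Fin.sum_univ_two, Fin.zero_eta, Fin.mk_one, Matrix.zero_apply,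
      ha, hb] <;> refine sq _ ?_
  · linear_combination (B 0 1 * A 1 0) * h - B 0 0 ^ 2 * hA.2 + (A 0 1 * A 1 0) * hB.2
  · linear_combination (-(B 0 1) * A 0 1) * h - A 0 1 ^ 2 * hB.2 - B 0 1 ^ 2 * hA.2
  · linear_combination (-(B 1 0) * A 1 0) * h - A 1 0 ^ 2 * hB.2 - B 1 0 ^ 2 * hA.2
  · linear_combination (B 1 0 * A 0 1) * h - B 0 0 ^ 2 * hA.2 + (A 0 1 * A 1 0) * hB.2

/-- A nilpotent matrix has trace and determinant zero. -/
theorem trace_det_of_sq_eq_zero {O : Type*} [CommRing O] [IsDomain O] {A : M2 O} (h : A * A = 0) :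
    A.trace = 0 ∧ A.det = 0 := by
  have hd : A.det = 0 := by
    have := congrArg Matrix.det h
    rw [Matrix.det_mul, Matrix.det_zero] at this
    exact mul_self_eq_zero.mp this
  have h' : A.trace • A = 0 := by
    rw [← h, Fermat.DS.mul_self_eq, hd, zero_smul, sub_zero]
  have ht := congrArg Matrix.trace h'
  rw [Matrix.trace_smul, Matrix.trace_zero, smul_eq_mul] at ht
  exact ⟨mul_self_eq_zero.mp ht, hd⟩

section PComp

variable {p : ℕ} [Fact p.Prime] {R : Type} [CommRing R] [Module.Free ℤ R] [Module.Finite ℤ R]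

/-- Elements of the completion are congruent to elements of `R` modulo every power of `p`. -/
theorem exists_approx (n : ℕ) (y : PComp p R) :
    ∃ r : R, (p : PComp p R) ^ n ∣ y - toPComp p R r := by
  refine ⟨∑ i, (((pCompBasis p R).repr y i).appr n : ℤ) • Module.Free.chooseBasis ℤ R i,
    (pow_dvd_iff_repr n _).mpr fun i => ?_⟩
  rw [map_sub, Finsupp.sub_apply, pCompBasis_repr_toPComp, Module.Basis.repr_sum_self,
    Int.cast_natCast, ← Ideal.mem_span_singleton]
  exact PadicInt.appr_spec n _

/-- The completion is finite over `ℤ_p`. -/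
instance : Module.Finite ℤ_[p] (PComp p R) := Module.Finite.of_basis (pCompBasis p R)

/-- The completion is noetherian. -/
instance : IsNoetherianRing (PComp p R) := isNoetherian_of_tower ℤ_[p] inferInstance

/-- The kernel of a point is the annihilator of an element. -/
theorem exists_ann_eq_ker {O : Type} [CommRing O] [IsDomain O]
    (F : PComp p R →+* O) (hF : Function.Injective (F.comp (algebraMap ℤ_[p] (PComp p R)))) :
    ∃ e : PComp p R, ∀ c, c * e = 0 ↔ F c = 0 := by
  have := RingHom.ker_isPrime F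
  have hmin : RingHom.ker F ∈ (Module.annihilator (PComp p R) (PComp p R)).minimalPrimes := by
    have hann : Module.annihilator (PComp p R) (PComp p R) = ⊥ := eq_bot_iff.mpr fun a ha => by
      simpa using Module.mem_annihilator.mp ha 1
    rw [hann]
    refine ⟨⟨inferInstance, bot_le⟩, fun J hJ hJP => ?_⟩
    by_contra hne
    have := hJ.1
    obtain ⟨z, hz1, hz2⟩ := SetLike.not_le_iff_exists.mp hne
    have := Ideal.comap_lt_comap_of_integral_mem_sdiff (R := ℤ_[p]) hJP (x := z) ⟨hz1, hz2⟩
      (Algebra.IsIntegral.isIntegral z)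
    rw [RingHom.comap_ker, (RingHom.injective_iff_ker_eq_bot _).mp hF] at this
    exact not_lt_bot this
  obtain ⟨-, e, he⟩ := isAssociatedPrime_iff.mp
    (Module.associatedPrimes.minimalPrimes_annihilator_subset_associatedPrimes _ _ hmin)
  refine ⟨e, fun c => ?_⟩
  rw [← RingHom.mem_ker, he, Submodule.mem_colon_singleton, Submodule.mem_bot, smul_eq_mul]

end PComp

variable {R J : Type} [CommRing R] [Module.Free ℤ R] [Module.Finite ℤ R] [AddCommGroup J]
  [DistribMulAction (AlgebraicClosure ℚ ≃ₐ[ℚ] AlgebraicClosure ℚ) J]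
  {M p : ℕ} [Fact p.Prime] {T ε : ℕ → R} (D : ESData R J M p T ε)

/-- The lattice vector of coordinates `w`. -/
def comb (w : Fin 2 → R) : D.Λ := ∑ i, w i • D.e i

/-- The torsion point depends on the coordinates modulo `p ^ n`. -/
theorem π_congr {n : ℕ} {w w' : Fin 2 → R} (h : ∀ i, (p : R) ^ n ∣ w i - w' i) :
    D.π n (comb D w) = D.π n (comb D w') := by
  choose c hc using h
  rw [← sub_eq_zero, ← map_sub, D.π_eq_zero_iff]
  refine ⟨comb D c, ?_⟩
  rw [comb, comb, comb, ← Finset.sum_sub_distrib, Finset.smul_sum]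
  refine Finset.sum_congr rfl fun i _ => ?_
  rw [← Nat.cast_smul_eq_nsmul R, smul_smul, ← sub_smul, hc i]
  push_cast
  rfl

/-- The Galois action on a lattice vector, up to the index. -/
theorem k_smul_gal (n : ℕ) (σ : Γℚ) (w : Fin 2 → R) :
    D.k • σ • D.π n (comb D w) = D.π n (comb D fun i => ∑ l, D.aMat n σ i l * w l) := by
  rw [comb, ← gal_apply, D.gal_π_sum, ← map_nsmul, comb, Finset.smul_sum]
  refine congrArg (D.π n) ?_
  simp only [smul_comm D.k, D.coeff_spec (D.img n σ _), Finset.smul_sum, Finset.sum_smul, smul_smul,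
    aMat_apply]
  rw [Finset.sum_comm]
  exact Finset.sum_congr rfl fun a _ => Finset.sum_congr rfl fun b _ => by rw [mul_comm]

/-- **A vector fixed over the values of a point gives fixed classes**, so a bound on the order of
the fixed classes is contradictory. -/
theorem false_of_fixed_vector {O : Type} [CommRing O] [IsDomain O] [CharZero O]
    (F : PComp p R →+* O) (hF : Function.Injective (F.comp (algebraMap ℤ_[p] (PComp p R))))
    (G : Subgroup Γℚ) (v : Fin 2 → PComp p R) {i₀ : Fin 2} (hv0 : F (v i₀) ≠ 0)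
    (hv : ∀ σ ∈ G, ∀ i, F (∑ l, D.bMat σ i l * v l) = F ((D.k : PComp p R) * v i))
    {t : R} (ht : F (toPComp p R t) ≠ 0) {d : ℕ} (hd : d ≠ 0)
    (h : ∀ (n : ℕ) (z : J), p ^ n • z = 0 → (∀ σ ∈ G, σ • D.act t z = D.act t z) →
      d • D.act t z = 0) : False := by
  classical
  obtain ⟨e, he⟩ := exists_ann_eq_ker F hF
  set ι := toPComp p R with hι
  -- enough that every power of `p` divides `d k² t v i₀ e`
  suffices hmain : ∀ n, (p : PComp p R) ^ n ∣
      ((d * D.k * D.k : ℕ) : PComp p R) * (ι t * (v i₀ * e)) by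
    have h0 := eq_zero_of_natCast_mul_eq_zero (R := R)
      (Nat.mul_ne_zero (Nat.mul_ne_zero hd D.k_ne_zero) D.k_ne_zero)
      (eq_zero_of_forall_pow_dvd hmain)
    rw [← mul_assoc, he, map_mul] at h0
    exact mul_ne_zero ht hv0 h0
  intro n
  -- approximate `v e` modulo `p ^ n`; the point `k π n (comb w)` is then fixed
  choose w hw using fun i => exists_approx n (v i * e)
  have hcong : ∀ σ ∈ G, ∀ i, (p : R) ^ n ∣ (∑ l, D.aMat n σ i l * w l) - (D.k : R) * w i := by
    intro σ hσ i
    refine dvd_of_toPComp_dvd ?_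
    rw [map_sub, ← modPow_eq_iff n, map_sum, map_mul, map_natCast]
    have hw' : ∀ j, modPow n (ι (w j)) = modPow n (v j * e) := fun j =>
      ((modPow_eq_iff n _ _).mpr (hw j)).symm
    have ha : ∀ l, modPow n (ι (D.aMat n σ i l)) = modPow n (D.bMat σ i l) := fun l =>
      (congrFun (congrFun (D.modPow_bMat n σ) i) l).symm
    have hz : (∑ l, D.bMat σ i l * v l - (D.k : PComp p R) * v i) * e = 0 := by
      rw [he, map_sub, hv σ hσ i, sub_self]
    rw [sub_mul, Finset.sum_mul, sub_eq_zero] at hz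
    simp only [map_sum, map_mul, ← hι, ha, hw']
    have hzn := congrArg (modPow n) hz
    simp only [map_sum, map_mul, mul_assoc] at hzn
    exact hzn
  set z := D.k • D.π n (comb D w) with hz
  have hfix : ∀ σ ∈ G, σ • D.act t z = D.act t z := fun σ hσ => by
    rw [D.galois_act, hz, ← gal_apply, map_nsmul, gal_apply, k_smul_gal,
      π_congr D (hcong σ hσ), ← map_nsmul]
    refine congrArg (fun u => D.act t (D.π n u)) ?_
    rw [comb, comb, Finset.smul_sum]
    exact Finset.sum_congr rfl fun l _ => by rw [mul_smul, Nat.cast_smul_eq_nsmul]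
  have hkill := h n z (by rw [hz, smul_comm, D.torsion_π, smul_zero]) hfix
  have hl : D.π n (((d * D.k : ℕ) : R) • t • comb D w) = D.π n 0 := by
    rw [map_zero, Nat.cast_smul_eq_nsmul, map_nsmul, D.π_smul,
      mul_smul, ← map_nsmul (D.act t), ← hz]
    exact hkill
  -- so `h` kills it, and the coefficient at `i₀` is divisible by `p ^ n`
  have hc := D.coeff_cong hl i₀
  have hz0 : D.coeff (0 : D.Λ) i₀ = 0 := by rw [← sub_self (0 : D.Λ), D.coeff_sub, sub_self]
  have hcomb : D.coeff (comb D w) i₀ = (D.k : R) * w i₀ := by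
    rw [D.coeff_eq_of (c := fun i => (D.k : R) * w i) ?_]
    rw [comb, Finset.smul_sum]
    exact Finset.sum_congr rfl fun i _ => by rw [mul_smul, Nat.cast_smul_eq_nsmul]
  rw [hz0, sub_zero, D.coeff_smul, D.coeff_smul, hcomb] at hc
  have h2 := map_dvd ι hc
  rw [map_pow, map_natCast] at h2
  have h3 : (p : PComp p R) ^ n ∣ ((d * D.k * D.k : ℕ) : PComp p R) * ι t * (v i₀ * e - ι (w i₀)) :=
    (hw i₀).mul_left _
  have h4 := dvd_add h3 h2
  convert h4 using 1
  simp only [map_mul, map_natCast]
  push_cast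
  ring

/-- A point of the completed ring is injective on `ℤ_p`. -/
private theorem pCompLift_comp_algebraMap_injective {O : Type} [CommRing O] [IsDomain O]
    [IsDiscreteValuationRing O] [IsAdicComplete (IsLocalRing.maximalIdeal O) O] [CharZero O]
    (hp : (p : O) ∈ IsLocalRing.maximalIdeal O) (f : R →+* O) :
    Function.Injective ((pCompLift (padicToAdic O hp) f).comp (algebraMap ℤ_[p] (PComp p R))) := by
  set F : PComp p R →+* O := pCompLift (padicToAdic O hp) f
  rw [show F.comp (algebraMap ℤ_[p] (PComp p R)) = padicToAdic O hp from RingHom.ext fun a => ?_]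
  · exact padicToAdic_injective O hp
  · change pCompLift (padicToAdic O hp) f (a ⊗ₜ[ℤ] (1 : R)) = _
    exact (Algebra.TensorProduct.lift_tmul _ _ _ a (1 : R)).trans (by simp)

/-- Elements acting unipotently have nilpotent matrices, any two of which multiply to zero. -/
private theorem mul_sub_smul_eq_zero_of_charpoly {O : Type} [CommRing O] [IsDomain O]
    [IsPrincipalIdealRing O] (b : Γℚ → M2 O) (k : O) (hmul : ∀ σ τ, b σ * b τ = k • b (σ * τ))
    (hk0 : k ≠ 0) (hone : b 1 = k • (1 : M2 O)) (G : Subgroup Γℚ)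
    (hG : ∀ σ ∈ G, LinearMap.charpoly (scaledRep b k hmul hk0 hone σ) = (X - 1) ^ 2) :
    ∀ σ ∈ G, ∀ τ ∈ G, (b τ - k • 1) * (b σ - k • 1) = 0 := by
  set ρ := scaledRep b k hmul hk0 hone
  set N : Γℚ → M2 O := fun σ => b σ - k • 1 with hN
  -- each `N σ = b σ - k` squares to zero, by Cayley and Hamilton
  have hsq : ∀ σ ∈ G, N σ * N σ = 0 := by
    intro σ hσ
    have hcay : (ρ σ - 1) * (ρ σ - 1) = 0 := by
      have e := LinearMap.aeval_self_charpoly (ρ σ)
      rw [hG σ hσ, map_pow, map_sub, aeval_X, map_one, pow_two] at e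
      exact e
    refine Matrix.ext_of_mulVec_single fun j => ?_
    set u : Fin 2 → O := Pi.single j 1
    let x : scaledLattice b := ⟨k • u, smul_mem_scaledLattice b k hone u⟩
    have hact : ∀ y : scaledLattice b,
        k • (((ρ σ - 1) y : scaledLattice b) : Fin 2 → O) = (N σ).mulVec (y : Fin 2 → O) := by
      intro y
      change k • ((((scaledEnd b k hmul hk0 σ) y - y : scaledLattice b)) : Fin 2 → O) = _
      rw [Submodule.coe_sub, smul_sub, smul_scaledEnd, hN, Matrix.sub_mulVec, Matrix.smul_mulVec,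
        Matrix.one_mulVec]
    have e0 : (((ρ σ - 1) ((ρ σ - 1) x) : scaledLattice b) : Fin 2 → O) = 0 := by
      rw [← Module.End.mul_apply, hcay]
      rfl
    have e1 := congrArg (fun y : Fin 2 → O => k • k • y) e0
    simp only [smul_zero, hact] at e1
    rw [← Matrix.mulVec_smul, hact, show ((x : scaledLattice b) : Fin 2 → O) = k • u from rfl,
      Matrix.mulVec_mulVec, Matrix.mulVec_smul] at e1
    rw [Matrix.zero_mulVec]
    exact (smul_eq_zero.mp e1).resolve_left hk0
  have hbN : ∀ σ, b σ = k • 1 + N σ := fun σ => by simp [hN]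
  -- comparing traces in `b τ * b σ = k • b (τ σ)` gives the products
  have hNN : ∀ σ ∈ G, ∀ τ ∈ G, N τ * N σ = 0 := by
    intro σ hσ τ hτ
    have hσ' := trace_det_of_sq_eq_zero (hsq σ hσ)
    have hτ' := trace_det_of_sq_eq_zero (hsq τ hτ)
    refine mul_eq_zero_of_nilpotent _ _ hσ' hτ' ?_
    have hm := hmul τ σ
    rw [hbN, hbN σ, hbN (τ * σ)] at hm
    simp only [add_mul, mul_add, smul_mul_assoc, mul_smul_comm, one_mul, mul_one, smul_add] at hm
    have ht := congrArg Matrix.trace hm
    simp only [Matrix.trace_add, Matrix.trace_smul, hσ'.1, hτ'.1,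
      (trace_det_of_sq_eq_zero (hsq _ (G.mul_mem hτ hσ))).1, smul_zero, add_zero, zero_add] at ht
    simpa using ht
  exact hNN

/-- **The representation at a point, and a group acting unipotently in it.** -/
theorem exists_rep_fixed {O : Type} [CommRing O] [IsDomain O] [IsDiscreteValuationRing O]
    [IsAdicComplete (IsLocalRing.maximalIdeal O) O] [CharZero O]
    (hp : (p : O) ∈ IsLocalRing.maximalIdeal O) (f : R →+* O) :
    ∃ ρ : GaloisRepAdic O,
      (∀ ℓ : ℕ, ℓ.Prime → ¬ ℓ ∣ M * p → ∀ A : ValuationSubring ℚbar, A.LiesOverPrime ℓ →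
        ∀ σ : Γℚ, A.IsFrobeniusAt σ ℓ →
          LinearMap.charpoly (ρ.ρ σ) = X ^ 2 - C (f (T ℓ)) * X + C ((ℓ : O) * f (ε ℓ))) ∧
      ∀ G : Subgroup Γℚ, (∀ σ ∈ G, LinearMap.charpoly (ρ.ρ σ) = (X - 1) ^ 2) →
        ∀ (t : R) (d : ℕ), f t ≠ 0 → d ≠ 0 →
          ¬ ∀ (n : ℕ) (z : J), p ^ n • z = 0 → (∀ σ ∈ G, σ • D.act t z = D.act t z) →
            d • D.act t z = 0 := by
  classical
  -- the matrices scaled by `k` give a representation on the lattice they span
  set F : PComp p R →+* O := pCompLift (padicToAdic O hp) f with hF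
  set b : Γℚ → M2 O := fun σ => F.mapMatrix (D.bMat σ) with hb
  set k : O := (D.k : O) with hk
  have hk0 : k ≠ 0 := Nat.cast_ne_zero.mpr D.k_ne_zero
  have hnat : (D.k : M2 O) = k • 1 := natCast_eq_smul_one D.k
  have hsmul : ∀ σ, F.mapMatrix ((D.k : PComp p R) • D.bMat σ) = k • b σ := fun σ => by
    ext i j
    simp [hb, hk]
  have hmul : ∀ σ τ, b σ * b τ = k • b (σ * τ) := fun σ τ => by
    rw [← hsmul, ← D.bMat_mul, map_mul]
  have hone : b 1 = k • (1 : M2 O) := by
    rw [← hnat, hb]
    change F.mapMatrix (D.bMat 1) = _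
    rw [D.bMat_one, map_natCast]
  let ρ : GaloisRepAdic O :=
    { V := scaledLattice b
      finrank_eq := finrank_scaledLattice b k hk0 hone
      ρ := scaledRep b k hmul hk0 hone
      isAdicContinuous := isAdicContinuous_scaledRep b k hmul hk0 hone
        (exists_field_mapMatrix_sub_mem D hp f) }
  refine ⟨ρ, fun ℓ hℓ hℓp A hA σ hσ => ?_, fun G hG t d ht hd h => ?_⟩
  · refine charpoly_scaledRep b k hmul hk0 hone ?_ ?_
    · change (F.mapMatrix (D.bMat σ)).trace = _
      rw [show (F.mapMatrix (D.bMat σ)).trace = F (D.bMat σ).trace by simp [Matrix.trace_fin_two],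
        D.bMat_trace_frobenius hℓ hℓp hA hσ]
      simp [hk, hF]
    · change (F.mapMatrix (D.bMat σ)).det = _
      rw [← RingHom.map_det, D.bMat_det_frobenius hℓ hℓp hA hσ]
      simp [hk, hF]
      ring
  -- on a unipotent `G` the products of the `N σ` vanish
  set N : Γℚ → M2 O := fun σ => b σ - k • 1 with hN
  have hNN : ∀ σ ∈ G, ∀ τ ∈ G, N τ * N σ = 0 :=
    mul_sub_smul_eq_zero_of_charpoly b k hmul hk0 hone G hG
  have hN' : ∀ σ i j, N σ i j = F (D.bMat σ i j - (D.k : M2 (PComp p R)) i j) := fun σ i j => by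
    rw [map_sub, ← Matrix.diagonal_natCast, Matrix.diagonal_apply]
    simp [hN, hb, hk, Matrix.one_apply]
    split_ifs <;> simp
  have hinj := pCompLift_comp_algebraMap_injective (R := R) hp f
  have hft : F (toPComp p R t) ≠ 0 := by rwa [hF, pCompLift_toPComp]
  have happ : ∀ (σ : Γℚ) (v : Fin 2 → PComp p R) (i : Fin 2),
      F (∑ l, D.bMat σ i l * v l) - F ((D.k : PComp p R) * v i) =
        ∑ l, N σ i l * F (v l) := fun σ v i => by
    simp only [hN', ← Matrix.diagonal_natCast, Matrix.diagonal_apply, map_sum, map_mul, map_sub,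
      sub_mul, Finset.sum_sub_distrib]
    simp [apply_ite, ite_mul]
  -- so a nonzero column of one `N σ₀`, or any vector if all vanish, is fixed
  by_cases hall : ∀ σ ∈ G, N σ = 0
  · refine false_of_fixed_vector D F hinj G (Pi.single 0 1) (i₀ := 0) (by simp) (fun σ hσ i => ?_)
      hft hd h
    rw [← sub_eq_zero, happ, hall σ hσ]
    simp
  push Not at hall
  obtain ⟨σ₀, hσ₀, hne⟩ := hall
  obtain ⟨i₀, j, hij⟩ : ∃ i j, N σ₀ i j ≠ 0 := by
    by_contra! hz
    exact hne (Matrix.ext hz)
  refine false_of_fixed_vector D F hinj G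
    (fun l => D.bMat σ₀ l j - (D.k : M2 (PComp p R)) l j) (i₀ := i₀)
    (by rw [← hN']; exact hij) (fun σ hσ i => ?_) hft hd h
  rw [← sub_eq_zero, happ]
  simp only [← hN']
  rw [← Matrix.mul_apply, hNN σ₀ hσ₀ σ hσ]
  rfl

end Fermat.CAR

end
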