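import Fermat.Agent.CAR.PtChar

/-!
# Invariant functions with consistent roots of their reductions

`IsRooted y n H` says that the invariant function `y` has order `0` on the three kinds of
branches, that `H C` is an `n`-th root of its reduction on `C`, and that at every glued point the
three roots take the same value once divided by the local `n`-th root of the divisor of `y`.
-/

set_option autoImplicit false

noncomputable section

open AlgebraicCurve

namespace Fermat.CAR

attribute [local instance 10000] algFN smulFN algFX smulFX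

open Fermat.FF Fermat.MC Fermat.RED.Model Fermat.BAD.X0 Fermat.EC.Val

local notation "Qb" => AlgebraicClosure ℚ

variable {M q : ℕ} [NeZero M] [NeZero q] {A : ValuationSubring (AlgebraicClosure ℚ)}
variable (hq : q.Prime) (hqM : ¬ q ∣ M)
variable [Fact q.Prime] [IsAlgClosed (IsLocalRing.ResidueField A)]
variable [CharP (IsLocalRing.ResidueField A) q]
variable [FF.IsFunctionField Qb (FN M Qb)] [FF.IsFunctionField Qb (FN (M * q) Qb)]
  [FF.IsFunctionField Qb (FN (M * q * q) Qb)]
variable [FF.IsFunctionField (IsLocalRing.ResidueField A) (FX (IsLocalRing.ResidueField A) M)]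

local notation "kA" => IsLocalRing.ResidueField A

/-- The invariant function `y` has order `0` on the branches, `H C` is an `n`-th root of its
reduction on `C`, and these roots agree at the glued points after dividing by a local root. -/
structure IsRooted (h : IsPlace A q) (y : FN (M * q * q) Qb) (n : ℕ) (H : Br → FX kA M) : Prop where
  /-- `y` is invariant under inertia. -/
  mem_ratFld : y ∈ ratFld M q A
  /-- `y` is nonzero. -/
  ne_zero : y ≠ 0
  /-- `y` has order `0` on every branch. -/
  gv_eq : ∀ C, gv M q hq hqM A C y = 0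
  /-- `H C` is an `n`-th root of the reduction of `y` on `C`. -/
  res_eq : ∀ C (hy : y ∈ OC M q hq hqM A C),
    (H C : LaurentSeries kA) ^ n = resC M q hq hqM A C ⟨y, hy⟩
  /-- The roots agree at glued points once divided by the reduction of a local `n`-th root `e` of
  `y` up to a unit `u`. -/
  consistent : ∀ s ∈ SS M q hq hqM h.2, ∀ χ : BChar M q A true, χ.IsPoint hq hqM Finset.univ s →
    ∀ (u : χ.loc) (e : FN (M * q * q) Qb), χ.lres u ≠ 0 → e ∈ ratFld M q A → e ≠ 0 →
      y = (u : FN (M * q * q) Qb) * e ^ n →
        ∃ γ : kA, ∀ (C : Br) (z : FX kA M) (he : e ∈ OC M q hq hqM A C),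
          (z : LaurentSeries kA) = resC M q hq hqM A C ⟨e, he⟩ → evalAt s (H C / z) = γ

/-- In a decomposition `y = u e ^ n` at a point, `e` has order `0` on the branches of the point. -/
theorem gv_eq_zero_of_decomp (h : IsPlace A q) {b : Bool} {χ : BChar M q A b} {S : Finset Br}
    {s : Place kA (FX kA M)} (hχ : χ.IsPoint hq hqM S s) {y : FN (M * q * q) Qb} {n : ℕ}
    (hn : n ≠ 0) (u : χ.loc)
    {e : FN (M * q * q) Qb} (hu : χ.lres u ≠ 0) (he : e ≠ 0)
    (heq : y = (u : FN (M * q * q) Qb) * e ^ n) {C : Br} (hC : C ∈ S)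
    (hy : gv M q hq hqM A C y = 0) : gv M q hq hqM A C e = 0 := by
  obtain ⟨z, hz, -, hzv⟩ := BChar.exists_red hq hqM h hχ hC u
  have hu0 : (u : FN (M * q * q) Qb) ≠ 0 := fun h0 => hu (by
    rw [show u = 0 from Subtype.ext h0, map_zero])
  have hgu : gv M q hq hqM A C (u : FN (M * q * q) Qb) = 0 := by
    refine (prim_iff M q hq hqM h C hu0).mp
      ⟨BChar.mem_OC_of_loc hq hqM h hχ hC u.2, fun h0 => hu ?_⟩
    have hz0 : z = 0 := Subtype.ext (hz.trans h0)
    rw [← hzv, hz0]
    exact RED.Model.evalAt_zero s
  rw [heq, gv_mul M q hq hqM h C hu0 (pow_ne_zero n he), gv_pow M q hq hqM h C he, hgu, zero_add,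
    mul_eq_zero] at hy
  exact hy.resolve_left (Nat.cast_ne_zero.mpr hn)

end Fermat.CAR

end
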