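import Fermat.Agent.CAR.Statement
import Fermat.Agent.FLAT.Red
import Fermat.Agent.GR.RT.Inertia
import Mathlib.FieldTheory.Galois.Infinite

/-!
# The field fixed by inertia

`fixK A` is the field fixed by the inertia group of `A`; its orders are integers, its residue
field is that of `A`, and roots of its units of order prime to `q` lie in it.  A space of series
stable under inertia is spanned by its members with coefficients in `fixK A`.
-/

set_option autoImplicit false

noncomputable section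

open ModularCurve Fermat.EC.Val IsLocalRing

namespace Fermat.CAR

local notation "Qb" => AlgebraicClosure ℚ
local notation "Γℚ" => (AlgebraicClosure ℚ ≃ₐ[ℚ] AlgebraicClosure ℚ)

variable (A : ValuationSubring (AlgebraicClosure ℚ))

/-- The field fixed by inertia. -/
def fixK : IntermediateField ℚ (AlgebraicClosure ℚ) :=
  IntermediateField.fixedField (A.inertiaSubgroupIn ℚ)

variable {A}

/-- Membership in the fixed field. -/
theorem mem_fixK {x : Qb} : x ∈ fixK A ↔ ∀ σ ∈ A.inertiaSubgroupIn ℚ, σ x = x :=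
  IntermediateField.mem_fixedField_iff _ _

/-- A series is fixed by inertia exactly when its coefficients are. -/
theorem inertiaFixed_iff {z : LaurentSeries Qb} :
    InertiaFixed A z ↔ ∀ n, z.coeff n ∈ fixK A := by
  simp only [mem_fixK]
  refine ⟨fun h n σ hσ => ?_, fun h σ hσ => HahnSeries.ext (funext fun n => ?_)⟩
  · conv_rhs => rw [← h σ hσ, coeffMap_coeff]
    rfl
  · rw [coeffMap_coeff]; exact h n σ hσ

variable {q : ℕ} (h : IsPlace A q)
include h

/-- On the fixed field the order takes integral values. -/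
theorem exists_int_ord_fixK {x : Qb} (hx0 : x ≠ 0) (hx : x ∈ fixK A) :
    ∃ k : ℤ, ord A q x = k :=
  Fermat.FLAT.exists_int_ord h hx0 (mem_fixK.mp hx)

/-- Every residue of `A` is the residue of an element fixed by inertia. -/
theorem exists_fixK_residue (c : IsLocalRing.ResidueField A) :
    ∃ a : A, (a : Qb) ∈ fixK A ∧ residue A a = c := by
  obtain ⟨x, rfl⟩ := IsLocalRing.residue_surjective c
  by_cases hx : residue A x = 0
  · exact ⟨0, (fixK A).zero_mem, by rw [hx, map_zero]⟩
  have hI : Is A q (x : Qb) 0 := by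
    refine ((mem_iff_ge h _).mp x.2).is_of_not_gt fun hg => hx ?_
    have := (Fermat.FLAT.red_eq_zero_iff h hg.ge).mpr hg
    rwa [Fermat.FLAT.red_of_mem x.2] at this
  obtain ⟨n, hn, z, hz, hxz⟩ := Fermat.FLAT.exists_root_near h hI
  have hn0 : n ≠ 0 := fun e => hn (e ▸ dvd_zero q)
  have hzI : Is A q z 0 := by
    refine ⟨fun e => by rw [e, zero_pow hn0] at hz; exact zero_ne_one hz, ?_⟩
    have := ord_pow h z n
    rw [hz, ord_one h, eq_comm, mul_eq_zero] at this
    exact this.resolve_left (Nat.cast_ne_zero.mpr hn0)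
  refine ⟨⟨z, (mem_iff_ge h z).mpr hzI.ge⟩, mem_fixK.mpr fun τ hτ =>
    Fermat.FLAT.apply_root_eq h hn hz (isInert_of_mem_inertia hτ), ?_⟩
  have := (Fermat.FLAT.red_eq_iff h hI.ge hzI.ge).mpr hxz
  rw [Fermat.FLAT.red_of_mem x.2,
    Fermat.FLAT.red_of_mem ((mem_iff_ge h z).mpr hzI.ge)] at this
  exact this.symm

/-- Roots of order prime to `q` of units of the fixed field lie in it. -/
theorem root_mem_fixK {n : ℕ} (hn : ¬ q ∣ n) {z : Qb} (hz : Is A q z 0) (hzn : z ^ n ∈ fixK A) :
    z ∈ fixK A := by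
  refine mem_fixK.mpr fun σ hσ' => (div_eq_one_iff_eq hz.1).mp (FLAT.root_eq_one h hn ?_ ?_)
  · rw [div_pow, ← map_pow, mem_fixK.mp hzn σ hσ', div_self (pow_ne_zero _ hz.1)]
  · rw [show σ z / z - 1 = (σ z - z) / z by rw [sub_div, div_self hz.1]]
    simpa using ((isInert_of_mem_inertia hσ').gt_sub h hz.ge).div h hz

omit h in
/-- **Descent.** A space of series stable under inertia is spanned by its fixed members. -/
theorem mem_span_fixed (V : Submodule Qb (LaurentSeries Qb))
    (hV : ∀ σ ∈ A.inertiaSubgroupIn ℚ, ∀ f ∈ V, coeffMap (σ : Qb →+* Qb) f ∈ V)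
    {f : LaurentSeries Qb} (hf : f ∈ V)
    (hco : ∃ L₀ : IntermediateField ℚ Qb, FiniteDimensional ℚ L₀ ∧ ∀ n, f.coeff n ∈ L₀) :
    f ∈ Submodule.span Qb {r | r ∈ V ∧ InertiaFixed A r} := by
  classical
  obtain ⟨L₀, hfin, hL₀⟩ := hco
  have := hfin
  -- work in a finite Galois extension containing the coefficients
  set K : IntermediateField ℚ Qb := IntermediateField.normalClosure ℚ L₀ Qb
  have : FiniteDimensional ℚ K := normalClosure.is_finiteDimensional ℚ L₀ Qb
  have : Normal ℚ K := normalClosure.normal ℚ L₀ Qb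
  have hfK : ∀ n, f.coeff n ∈ K := fun n => IntermediateField.le_normalClosure L₀ (hL₀ n)
  set R := AlgEquiv.restrictNormalHom (F := ℚ) (K₁ := Qb) K
  set H : Subgroup (K ≃ₐ[ℚ] K) := (A.inertiaSubgroupIn ℚ).map R
  have hlift : ∀ g : H, ∃ σ ∈ A.inertiaSubgroupIn ℚ, R σ = (g : K ≃ₐ[ℚ] K) := fun g => g.2
  choose s hsI hsR using hlift
  have hR : ∀ (σ : Γℚ) (x : K), σ (x : Qb) = ((R σ x : K) : Qb) := fun σ x =>
    (AlgEquiv.restrictNormal_commutes σ K x).symm
  have hcm : ∀ σ τ : Γℚ, R σ = R τ → coeffMap (σ : Qb →+* Qb) f = coeffMap (τ : Qb →+* Qb) f := by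
    intro σ τ e
    refine HahnSeries.ext (funext fun n => ?_)
    rw [coeffMap_coeff, coeffMap_coeff]
    change σ (f.coeff n) = τ (f.coeff n)
    rw [show f.coeff n = ((⟨_, hfK n⟩ : K) : Qb) from rfl, hR, hR, e]
  -- the averages over the image of inertia, weighted by `d`, are fixed
  set r : K → LaurentSeries Qb := fun d =>
    ∑ g : H, (((g : K ≃ₐ[ℚ] K) d : K) : Qb) • coeffMap (s g : Qb →+* Qb) f
  have hr : ∀ d, r d ∈ {r | r ∈ V ∧ InertiaFixed A r} := fun d => by
    refine ⟨sum_mem fun g _ => V.smul_mem _ (hV _ (hsI g) f hf), fun τ hτ => ?_⟩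
    let t : H := ⟨R τ, ⟨τ, hτ, rfl⟩⟩
    have hterm : ∀ g : H, coeffMap (τ : Qb →+* Qb)
        ((((g : K ≃ₐ[ℚ] K) d : K) : Qb) • coeffMap (s g : Qb →+* Qb) f) =
        ((((t * g : H) : K ≃ₐ[ℚ] K) d : K) : Qb) • coeffMap (s (t * g) : Qb →+* Qb) f := fun g => by
      rw [hcm (s (t * g)) (τ * s g) (by rw [map_mul, hsR, hsR]; rfl)]
      refine HahnSeries.ext (funext fun n => ?_)
      rw [coeffMap_coeff, HahnSeries.coeff_smul, HahnSeries.coeff_smul, smul_eq_mul, smul_eq_mul,
        map_mul, coeffMap_coeff, coeffMap_coeff]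
      change τ (((g : K ≃ₐ[ℚ] K) d : K) : Qb) * τ (s g (f.coeff n)) = _
      rw [hR]
      rfl
    simp only [r, map_sum, hterm]
    exact Fintype.sum_equiv (Equiv.mulLeft t) _ _ fun g => rfl
  -- a functional killing them all kills `f`, by linear independence of characters
  by_contra hnot
  obtain ⟨φ, hφf, hφ⟩ := Submodule.exists_le_ker_of_notMem hnot
  have hzero : ∀ d, ∑ g : H, φ (coeffMap (s g : Qb →+* Qb) f) *
      (((g : K ≃ₐ[ℚ] K) d : K) : Qb) = 0 := fun d => by
    have h1 : φ (r d) = 0 := hφ (Submodule.subset_span (hr d))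
    rw [map_sum] at h1
    rw [← h1]
    exact Finset.sum_congr rfl fun g _ => by rw [map_smul, smul_eq_mul, mul_comm]
  have hinj : Function.Injective fun g : H =>
      (K.val.comp (g : K ≃ₐ[ℚ] K).toAlgHom : K →ₐ[ℚ] Qb).toRingHom.toMonoidHom := fun g g' e =>
    Subtype.ext (AlgEquiv.ext fun x => Subtype.ext (DFunLike.congr_fun e x))
  have hli := (linearIndependent_monoidHom K Qb).comp _ hinj
  have hcoef := Fintype.linearIndependent_iff.mp hli
    (fun g => φ (coeffMap (s g : Qb →+* Qb) f)) (funext fun d => by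
      simp only [Finset.sum_apply, Pi.smul_apply, smul_eq_mul, Pi.zero_apply, Function.comp_apply]
      exact hzero d) 1
  refine hφf ?_
  have h1 : coeffMap (s 1 : Qb →+* Qb) f = f := by
    rw [hcm (s 1) 1 (by rw [hsR, map_one]; rfl)]
    exact (coeffMap_congr (RingHom.ext fun _ => rfl) f).trans (coeffMap_id f)
  rwa [h1] at hcoef

end Fermat.CAR

end
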