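import Fermat.Agent.CAR.Chart

/-!
# Shortcuts for the scalar actions on the function fields

Synthesising the algebra structures of `FN N` and `FX k M` unfolds the algebra structure of
Laurent series; files working with both install these equal definitions as local instances.
-/

set_option autoImplicit false

noncomputable section

namespace Fermat.CAR

open Fermat.MC Fermat.RED.Model

local notation "Qb" => AlgebraicClosure ℚ

/-- The algebra structure of `FN N`. -/
@[reducible] def algFN (N : ℕ) : Algebra Qb (FN N Qb) := inferInstance

/-- The scalar action on `FN N`. -/
@[reducible] def smulFN (N : ℕ) : SMul Qb (FN N Qb) := (algFN N).toSMul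

/-- The algebra structure of `FX k M`. -/
@[reducible] def algFX (k : Type*) [Field k] (M : ℕ) : Algebra k (FX k M) := inferInstance

/-- The scalar action on `FX k M`. -/
@[reducible] def smulFX (k : Type*) [Field k] (M : ℕ) : SMul k (FX k M) := (algFX k M).toSMul

end Fermat.CAR

end
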