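import Fermat.Agent.CAR.Base
import Fermat.Agent.BAD.X0.Uniformizer

/-!
# Lifting regular functions of the reduced curve

Every function regular where the reduced coordinate is, is the reduction of an invariant integral
function of level `M`; a function regular at a place is a fraction of such functions.
-/

set_option autoImplicit false
set_option linter.unusedSectionVars false

attribute [local instance 10000] SubalgebraClass.toAlgebra HahnSeries.powerSeriesAlgebra

noncomputable section

open ModularCurve AlgebraicCurve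

namespace Fermat.CAR

open Fermat.FF Fermat.MC Fermat.JAC.X0 Fermat.RED.Model Fermat.BAD.X0 Fermat.EC.Val

local notation "Qb" => AlgebraicClosure ℚ

section Frac

variable {K F : Type*} [Field K] [IsAlgClosed K] [Field F] [Algebra K F] [FF.IsFunctionField K F]

/-- A function regular at `v` is a fraction of integral functions with denominator a unit at `v`. -/
theorem exists_frac_at {x : F} (hx : Transcendental K x) {v : Place K F} (hv : OrdGE v x 0)
    {f : F} (hf : OrdGE v f 0) :
    ∃ a ∈ intClosure K x, ∃ c ∈ intClosure K x, evalAt v c ≠ 0 ∧ f * c = a := by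
  classical
  -- separating integral functions at the poles of `f` over finite values of `x`
  set T : Finset (Place K F) :=
    (finite_setOf_ord_ne_zero (K := K) f).toFinset.filter fun P => OrdGE P x 0 ∧ ¬ OrdGE P f 0
  have hT : ∀ P ∈ T, ∃ r ∈ intClosure K x, evalAt v r = 1 ∧ evalAt P r = 0 := fun P hP => by
    obtain ⟨h1, h2⟩ := (Finset.mem_filter.mp hP).2
    exact exists_separating_integral hx hv h1 fun e => h2 (e ▸ hf)
  choose r hr hr1 hr0 using hT
  set N : Place K F → ℕ := fun P => (P.ord f).natAbs
  set c : F := ∏ P ∈ T.attach, r P.1 P.2 ^ N P.1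
  have hc : c ∈ intClosure K x := prod_mem fun P _ => pow_mem (hr _ _) _
  have hreg : ∀ {g : F}, g ∈ intClosure K x → ∀ w, OrdGE w x 0 → OrdGE w g 0 := fun hg =>
    mem_intClosure_iff.mp hg
  refine ⟨f * c, mem_intClosure_iff.mpr fun P hP => ?_, c, hc, ?_, rfl⟩
  -- their product, to the orders of the poles, clears the poles
  · by_cases hPf : OrdGE P f 0
    · exact (hPf.mul (hreg hc P hP)).mono (add_zero (0 : ℤ)).ge
    have hf0 : f ≠ 0 := fun h0 => hPf (h0 ▸ ordGE_zero _ _)
    have hneg : P.ord f < 0 := not_le.mp fun h0 => hPf ((ordGE_iff_of_ne hf0).mpr h0)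
    have hPT : P ∈ T := Finset.mem_filter.mpr
      ⟨(finite_setOf_ord_ne_zero (K := K) f).mem_toFinset.mpr hneg.ne, hP, hPf⟩
    rw [show c = r P hPT ^ N P * ∏ Q ∈ T.attach.erase ⟨P, hPT⟩, r Q.1 Q.2 ^ N Q.1 from
      (Finset.mul_prod_erase T.attach (fun Q => r Q.1 Q.2 ^ N Q.1)
        (Finset.mem_attach T ⟨P, hPT⟩)).symm,
      ← mul_assoc]
    have h1 : OrdGE P (r P hPT) 1 := by
      have := FF.evalAt_spec (hreg (hr P hPT) P hP)
      rwa [hr0 P hPT, map_zero, sub_zero] at this
    have h2 : OrdGE P (f * r P hPT ^ N P) 0 := by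
      refine ((show OrdGE P f (P.ord f) from ordGE_iff.mpr (.inr le_rfl)).mul
        (h1.pow (N P))).mono ?_
      simp only [N, mul_one]
      omega
    exact (h2.mul (hreg (prod_mem fun Q _ => pow_mem (hr _ _) _) P hP)).mono (add_zero (0 : ℤ)).ge
  -- and is a unit at `v`
  · have hr' : ∀ P : T, r P.1 P.2 ≠ 0 ∧ v.ord (r P.1 P.2) = 0 := fun P => by
      have hne : r P.1 P.2 ≠ 0 := fun h0 => one_ne_zero
        ((hr1 P.1 P.2).symm.trans ((congrArg (evalAt v) h0).trans (RED.Model.evalAt_zero v)))
      refine ⟨hne, le_antisymm (not_lt.mp fun hlt => one_ne_zero ((hr1 P.1 P.2).symm.trans ?_))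
        ((hreg (hr P.1 P.2) v hv).le_ord hne)⟩
      exact (evalAt_eq_zero_iff (hreg (hr P.1 P.2) v hv)).mpr (ordGE_iff.mpr (.inr hlt))
    have hne : ∀ P ∈ T.attach, r P.1 P.2 ^ N P.1 ≠ 0 := fun P _ => pow_ne_zero _ (hr' P).1
    have hc0 : c ≠ 0 := Finset.prod_ne_zero_iff.mpr hne
    intro h0
    have h1 := ((evalAt_eq_zero_iff (hreg hc v hv)).mp h0).le_ord hc0
    have h2 : v.ord c = 0 := (FF.ord_prod v T.attach _ hne).trans (Finset.sum_eq_zero fun P _ => by
      rw [FF.ord_pow, (hr' P).2, mul_zero])
    omega

end Frac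

variable {M q : ℕ} [NeZero M] [NeZero q] {A : ValuationSubring (AlgebraicClosure ℚ)}
variable (hq : q.Prime) (hqM : ¬ q ∣ M)
variable [Fact q.Prime] [IsAlgClosed (IsLocalRing.ResidueField A)]
variable [CharP (IsLocalRing.ResidueField A) q] (h : IsPlace A q)
variable [FF.IsFunctionField Qb (FN M Qb)] [FF.IsFunctionField Qb (FN (M * q) Qb)]
  [FF.IsFunctionField Qb (FN (M * q * q) Qb)]
variable [FF.IsFunctionField (IsLocalRing.ResidueField A) (FX (IsLocalRing.ResidueField A) M)]

/-- The coordinates are transcendental. -/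
theorem transcendental_xch (b : Bool) : Transcendental Qb (xch M b) := by
  cases b
  · exact fun h0 => transcendental_jL M (by simpa [xch] using h0.inv)
  · exact transcendental_jL M

/-- The reduced coordinates are transcendental. -/
theorem transcendental_xbar (b : Bool) :
    Transcendental (IsLocalRing.ResidueField A) (xbar M (IsLocalRing.ResidueField A) b) := by
  cases b
  · exact fun h0 => transcendental_jk M (by simpa [xbar] using h0.inv)
  · exact transcendental_jk M

include hq hqM h

/-- The coordinate reduces to the coordinate of the reduced curve. -/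
private theorem redS_xbar (b : Bool) : ((redS (IsLocalRing.residue A) (expX Qb M) (xbar M Qb b) :
      specField (IsLocalRing.residue A) (expX Qb M)) : LaurentSeries (IsLocalRing.ResidueField A)) =
      (xbar M (IsLocalRing.ResidueField A) b : LaurentSeries (IsLocalRing.ResidueField A)) := by
  have hA := h.2
  cases b
  · change _ = (((jX (IsLocalRing.ResidueField A) M)⁻¹ : FX (IsLocalRing.ResidueField A) M) :
      LaurentSeries (IsLocalRing.ResidueField A))
    rw [show xbar M Qb false = (jX Qb M)⁻¹ from rfl,
      GoodModel.redS_inv (goodModel_level (M := M) hq hqM hA)]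
    refine Eq.trans (IntermediateField.coe_inv _ _)
      (Eq.trans ?_ (IntermediateField.coe_inv _ _).symm)
    exact congrArg _ redF_jX
  · exact redF_jX

omit hq hqM h in
/-- The two forms of the coordinate have the same expansion. -/
private theorem coe_xch_eq (b : Bool) :
    ((xch M b : FN M Qb) : LaurentSeries Qb) = (xbar M Qb b : FX Qb M) := by
  cases b
  · exact (coe_inv_jL M).trans (IntermediateField.coe_inv _ (jX Qb M)).symm
  · exact coe_jL M

/-- The model of level `M` along the coordinate `x`. -/
private theorem goodModel_xbar (b : Bool) :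
    GoodModel (IsLocalRing.residue A) (expX Qb M) (xbar M Qb b) (dedekindPsi M) := by
  cases b
  · exact (goodModel_level (M := M) hq hqM h.2).inv
  · exact goodModel_level (M := M) hq hqM h.2

/-- Functions of the reduced curve regular where `x` is lift to integral functions of level `M`. -/
private theorem exists_lift_xch (b : Bool) (z : FX (IsLocalRing.ResidueField A) M)
    (hz : z ∈ intClosure (IsLocalRing.ResidueField A) (xbar M (IsLocalRing.ResidueField A) b)) :
    ∃ g : FN M Qb, g ∈ intClosure Qb (xch M b) ∧ ∃ y : LaurentSeries A,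
      (g : LaurentSeries Qb) = coeffMap A.subtype y ∧
      coeffMap (IsLocalRing.residue A) y =
        (z : LaurentSeries (IsLocalRing.ResidueField A)) := by
  obtain ⟨hn, hn'⟩ := normal_X0 (L := Qb) (A := A) embC IsLocalRing.residue_surjective
    (natCast_ne_zero_residue A hq h.2 hqM)
  have hnorm : Normal A (IsLocalRing.residue A) (expX Qb M) (xbar M Qb b) := by
    cases b
    · exact hn'
    · exact hn
  exact exists_lift_of_normal hq hqM h.2 (goodModel_xbar hq hqM h b) hnorm
    (redS_xbar hq hqM h b) (coe_xch_eq b) z hz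

omit hq hqM h in
/-- The arithmetic Galois action fixes the coordinates. -/
private theorem arithmeticGalois_smul_xch (σ : Qb ≃ₐ[ℚ] Qb) (b : Bool) :
    arithmeticGalois (modularFunctionFieldFull M) σ • xch M b = xch M b := by
  cases b
  · change _ • (jL M Qb)⁻¹ = (jL M Qb)⁻¹
    rw [smul_inv₀', arithmeticGalois_smul_jL]
  · exact arithmeticGalois_smul_jL σ

/-- **Lifts.** A regular function of the reduced curve is the reduction of an invariant integral
function of level `M`. -/
theorem exists_rat_lift (b : Bool) (z : FX (IsLocalRing.ResidueField A) M)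
    (hz : z ∈ intClosure (IsLocalRing.ResidueField A) (xbar M (IsLocalRing.ResidueField A) b)) :
    ∃ g : FN M Qb, aM M q g ∈ Bx M q A b ∧ ∃ y : LaurentSeries A,
      (g : LaurentSeries Qb) = coeffMap A.subtype y ∧
      (z : LaurentSeries (IsLocalRing.ResidueField A)) = coeffMap (IsLocalRing.residue A) y := by
  obtain ⟨g, hg, y, hy, hze⟩ := exists_lift_xch hq hqM h b z hz
  have hgm := goodModel_xbar hq hqM h b
  -- the reduction is spanned by rational series
  have hspan := red_mem_span_rat_intClosure hq h.2 (transcendental_xch b)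
    (arithmeticGalois (modularFunctionFieldFull M)) (fun σ t => coe_arithmeticGalois_smul _ σ t)
    (fun σ => arithmeticGalois_smul_xch σ b) (fun t => coeff_mem_of_fixed t)
    (fun t ht => exists_smul_int hgm (g := ⟨t, by rw [← fullC_eq_baseChange]; exact t.2⟩)
      (intClosure_congr (fullC_eq_baseChange Qb M) rfl (coe_xch_eq b) ht)) hg hy
  rw [hze] at hspan
  -- it is enough to lift each element of the span
  suffices hP : ∀ w ∈ Submodule.span (IsLocalRing.ResidueField A)
      {w | ∃ (t : FN M Qb) (r : LaurentSeries A), t ∈ intClosure Qb (xch M b) ∧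
        (t : LaurentSeries Qb) = coeffMap A.subtype r ∧ RatSeries (t : LaurentSeries Qb) ∧
        w = coeffMap (IsLocalRing.residue A) r},
      ∃ g : FN M Qb, aM M q g ∈ Bx M q A b ∧ ∃ y : LaurentSeries A,
        (g : LaurentSeries Qb) = coeffMap A.subtype y ∧ w = coeffMap (IsLocalRing.residue A) y from
    hP _ hspan
  intro w hw
  induction hw using Submodule.span_induction with
  | mem w hw =>
    obtain ⟨t, r, ht, hte, hrQ, rfl⟩ := hw
    refine ⟨t, ⟨?_, map_mem_chart (aM M q) (mem_chart_level M q hq hqM h b t ht ?_)⟩, r, hte, rfl⟩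
    · intro σ _
      rw [coe_aM]
      refine HahnSeries.ext (funext fun m => ?_)
      rw [coeffMap_coeff (σ : Qb →+* Qb)]
      obtain ⟨c, hc⟩ := hrQ m
      rw [← hc]
      exact σ.commutes c
    · rw [show (t : LaurentSeries Qb) = coeffMap A.subtype r from hte]
      exact coeffMap_mem_gS r
  | zero => exact ⟨0, by rw [map_zero]; exact zero_mem _, 0, by simp, by simp⟩
  | add w w' _ _ hw hw' =>
    obtain ⟨g₁, hg₁, y₁, e₁, rfl⟩ := hw
    obtain ⟨g₂, hg₂, y₂, e₂, rfl⟩ := hw'
    exact ⟨g₁ + g₂, by rw [map_add]; exact add_mem hg₁ hg₂, y₁ + y₂, by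
      rw [map_add, ← e₁, ← e₂]; rfl, by rw [map_add]⟩
  | smul a w _ hw =>
    obtain ⟨g₁, hg₁, y₁, e₁, rfl⟩ := hw
    obtain ⟨c, hc, rfl⟩ := exists_fixK_residue h a
    -- scalars lift to the fixed field
    refine ⟨algebraMap Qb (FN M Qb) c * g₁, ?_, HahnSeries.C c * y₁, ?_, ?_⟩
    · rw [map_mul, AlgHom.commutes]
      exact mul_mem (algebraMap_mem_Bx ⟨hc, c.2⟩) hg₁
    · rw [map_mul, ← e₁, HahnSeries.C_apply, coeffMap_single,
        show ((algebraMap Qb (FN M Qb) c * g₁ : FN M Qb) : LaurentSeries Qb) =
          algebraMap Qb (LaurentSeries Qb) c * (g₁ : LaurentSeries Qb) from rfl,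
        algebraMap_laurentSeries_eq_single]
      rfl
    · rw [map_mul, HahnSeries.C_apply, coeffMap_single, ← algebraMap_laurentSeries_eq_single,
        Fermat.RED.laurent_smul_def]

end Fermat.CAR

end
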