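import Mathlib.RingTheory.UniqueFactorizationDomain.Kaplansky
import Mathlib.RingTheory.LocalRing.MaximalIdeal.Basic
import Mathlib.Tactic.LinearCombination
import Mathlib.Tactic.Ring
import Mathlib.RingTheory.Nakayama
import Mathlib.RingTheory.Noetherian.Basic

/-!
# A noetherian local domain with a prime element whose quotient has a uniformiser is factorial

If modulo the prime `t` every element not divisible by `t` is a unit times a power of `w`, then
every prime not containing `t` is principal, so every nonzero prime contains a prime element.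
-/

set_option autoImplicit false

noncomputable section

namespace Fermat.CAR

variable {R : Type*} [CommRing R] [IsDomain R] [IsNoetherianRing R] [IsLocalRing R] {t w : R}

omit [IsDomain R] in
/-- A prime not containing `t` is principal. -/
theorem isPrincipal_of_not_mem (ht : Prime t)
    (hw : ∀ f, ¬ t ∣ f → ∃ (k : ℕ) (u : R), IsUnit u ∧ t ∣ f - u * w ^ k)
    {P : Ideal R} [hP : P.IsPrime] (htP : t ∉ P) : ∃ r, P = Ideal.span {r} := by
  classical
  -- if `t` divides all of `P` then `P = t P` is zero by Nakayama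
  by_cases hall : ∀ f ∈ P, t ∣ f
  · refine ⟨0, le_antisymm ?_ (by simp)⟩
    have hle : P ≤ Ideal.span {t} • P := fun f hf => by
      obtain ⟨g, rfl⟩ := hall f hf
      exact Submodule.smul_mem_smul (Ideal.mem_span_singleton_self t)
        ((hP.mem_or_mem hf).resolve_left htP)
    have := Submodule.eq_bot_of_le_smul_of_le_jacobson_bot (Ideal.span {t}) P
      (IsNoetherian.noetherian P) hle
      (le_trans (IsLocalRing.le_maximalIdeal (Ideal.span_singleton_ne_top ht.not_isUnit))
        (IsLocalRing.maximalIdeal_le_jacobson _))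
    rw [this]
    exact bot_le
  push Not at hall
  -- an element of `P` congruent to `u w ^ k` modulo `t` with `k` least generates
  have hex : ∃ k : ℕ, ∃ r ∈ P, ∃ u : R, IsUnit u ∧ t ∣ r - u * w ^ k := by
    obtain ⟨f, hf, hft⟩ := hall
    obtain ⟨k, u, hu, hd⟩ := hw f hft
    exact ⟨k, f, hf, u, hu, hd⟩
  obtain ⟨r, hr, u, hu, hru⟩ := Nat.find_spec hex
  refine ⟨r, le_antisymm ?_ ((Ideal.span_singleton_le_iff_mem _).mpr hr)⟩
  refine Submodule.le_of_le_smul_of_le_jacobson_bot (I := Ideal.span {t})
    (IsNoetherian.noetherian P)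
    (le_trans (IsLocalRing.le_maximalIdeal (Ideal.span_singleton_ne_top ht.not_isUnit))
      (IsLocalRing.maximalIdeal_le_jacobson _)) fun f hf => ?_
  -- modulo `t P` every element of `P` is a multiple of it
  rw [Submodule.mem_sup]
  by_cases hft : t ∣ f
  · obtain ⟨g, rfl⟩ := hft
    exact ⟨0, zero_mem _, t * g, Submodule.smul_mem_smul (Ideal.mem_span_singleton_self t)
      ((hP.mem_or_mem hf).resolve_left htP), zero_add _⟩
  obtain ⟨k, v, hv, hd⟩ := hw f hft
  have hk : Nat.find hex ≤ k := Nat.find_min' hex ⟨f, hf, v, hv, hd⟩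
  obtain ⟨c, hc⟩ := hu.exists_left_inv
  set a := c * v * w ^ (k - Nat.find hex)
  obtain ⟨g, hg⟩ : t ∣ f - a * r := by
    have e : f - a * r = (f - v * w ^ k) - a * (r - u * w ^ Nat.find hex) := by
      have h1 : w ^ (k - Nat.find hex) * w ^ Nat.find hex = w ^ k := by
        rw [← pow_add, Nat.sub_add_cancel hk]
      linear_combination (v * w ^ (k - Nat.find hex) * w ^ Nat.find hex) * (-hc) +
        (-v) * h1
    rw [e]
    exact dvd_sub hd (hru.mul_left a)
  have hgP : g ∈ P := by
    have h1 : t * g ∈ P := hg ▸ sub_mem hf (P.mul_mem_left a hr)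
    exact (hP.mem_or_mem h1).resolve_left htP
  exact ⟨a * r, Ideal.mem_span_singleton'.mpr ⟨a, rfl⟩, t * g,
    Submodule.smul_mem_smul (Ideal.mem_span_singleton_self t) hgP, by rw [← hg]; ring⟩

/-- **Factoriality.** The ring is factorial if, modulo the prime `t`, every element not divisible by
`t` is a unit times a power of `w`. -/
theorem ufd_of_quot (ht : Prime t)
    (hw : ∀ f, ¬ t ∣ f → ∃ (k : ℕ) (u : R), IsUnit u ∧ t ∣ f - u * w ^ k) :
    UniqueFactorizationMonoid R := by
  refine UniqueFactorizationMonoid.iff_exists_prime_mem_of_isPrime.mpr fun P hP0 hP => ?_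
  by_cases htP : t ∈ P
  · exact ⟨t, htP, ht⟩
  obtain ⟨r, rfl⟩ := isPrincipal_of_not_mem (w := w) ht hw (hP := hP) htP
  have hr0 : r ≠ 0 := by rintro rfl; exact hP0 (by simp)
  exact ⟨r, Ideal.mem_span_singleton_self r, (Ideal.span_singleton_prime hr0).mp hP⟩

end Fermat.CAR

end
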