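import Fermat.Agent.CAR.Transfer
import Fermat.Agent.CAR.Eigen
import Fermat.Agent.CAR.Fixed
import Fermat.Agent.GR.ES.PointRep
import Fermat.Agent.GR.ES.HasInput
import Fermat.Agent.GR.ES.IntC

/-!
# The representation of a newform is ramified beyond unipotence where `q` divides the level twice

From the geometric input (`CoreHyp`): an operator of nonzero value kills both pushforwards to
level `M / q` (`CAR/Eigen`), so its image has only boundedly many classes fixed by inertia
(`CAR/Transfer` allows elliptic points), while a unipotent action of inertia at the point would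
give unboundedly many (`CAR/Fixed`).

Glossary for `CAR/*`: at level `M q²` a branch is an expansion of functions in series (`brC`), and a
sheet is the Gauss valuation read on a kind of branch, with residue field the function field of
level `M` over the residue field.  `low` is the expansion at `∞`, `top` the one at `∞` of the
image under the involution at `q²`, `mid` one of the `q - 1` intermediate expansions (`br11`).

`result_of_core` gives S36 from `coreHyp` of `CAR/Core`.
-/

set_option autoImplicit false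

noncomputable section

open ModularCurve CongruenceSubgroup IsLocalRing Polynomial

namespace Fermat.CAR

open Fermat.GR

local notation "ℚbar" => AlgebraicClosure ℚ

/-- For a newform with `q² ∥ M` some Hecke element of nonzero value carries torsion into classes
whose inertia-fixed part is killed by a fixed integer. -/
theorem exists_fullHecke_bound (hcore : CoreHyp) {M : ℕ} [NeZero M]
    {g : CuspForm (Gamma0 M) 2} (hg : g.IsNewform) {q : ℕ} (hq : q.Prime)
    (hq2 : M.factorization q = 2) :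
    ∃ (t : FullHecke M) (d : ℕ), eigenChar hg.1 t ≠ 0 ∧ d ≠ 0 ∧
      ∀ (act : FullHecke M →+* AddMonoid.End (JZero M)),
        (∀ (ℓ : ℕ) (hℓ : ℓ.Prime) (hℓM : ¬ ℓ ∣ M) (x : JZero M),
          act (CuspForm.heckeAlgebra.T hℓ hℓM (Set.notMem_empty ℓ)) x =
            heckeOperatorBar M ⟨ℓ, hℓ⟩ x) →
        ∀ A : ValuationSubring ℚbar, A.LiesOverPrime q → ∀ p : ℕ, p.Prime → p ≠ q →
          ∀ (n : ℕ) (z : JZero M), p ^ n • z = 0 →
            (∀ σ ∈ A.inertiaSubgroupIn ℚ, σ • act t z = act t z) → d • act t z = 0 := by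
  obtain ⟨N, hqN, hN⟩ : ∃ N, ¬ q ∣ N ∧ M = N * q * q := by
    have e := Nat.ordProj_mul_ordCompl_eq_self M q
    have e' := Nat.not_dvd_ordCompl hq (NeZero.ne M)
    rw [hq2] at e e'
    refine ⟨M / q ^ 2, e', ?_⟩
    conv_lhs => rw [← e]
    ring
  subst hN
  have : NeZero q := ⟨hq.ne_zero⟩
  have : NeZero N := ⟨fun h => NeZero.ne (N * q * q) (by simp [h])⟩
  obtain ⟨d, hd, hall⟩ := exists_bound_of_core hcore N q hq hqN
  obtain ⟨t, ht, hkill⟩ := exists_killer (N := N * q) hq hg
  refine ⟨t, d, ht, hd, fun act hT A hA p hp hpq n z hz hfix => ?_⟩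
  have htz : p ^ n • act t z = 0 := by rw [← map_nsmul, hz, map_zero]
  rcases Nat.eq_zero_or_pos n with rfl | hn
  · rw [pow_zero, one_smul] at htz
    rw [htz, smul_zero]
  · exact hall A hA (p ^ n) (hp.isPrimePow.pow hn.ne')
      (((Nat.coprime_primes hp hq).mpr hpq).pow_left n) _ hfix htz (hkill act hT z).1
      (hkill act hT z).2

/-- A character of a partial Hecke algebra given by the coefficients of a normalised eigenform
is the restriction of the integral eigen character. -/
theorem coe_eigenCharInt_of_eq_qCoeff {M : ℕ} [NeZero M]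
    {g : CuspForm (CongruenceSubgroup.Gamma0 M) 2} (hg : g.IsNormalizedEigenform) {S : Finset ℕ}
    (chig : CuspForm.heckeAlgebra M 2 (↑S : Set ℕ) →+* ℂ)
    (hchig : ∀ (ℓ : ℕ) (hℓ : ℓ.Prime) (hℓM : ¬ ℓ ∣ M) (hℓS : ℓ ∉ (↑S : Set ℕ)),
      chig (CuspForm.heckeAlgebra.T hℓ hℓM hℓS) = ModularFormClass.qCoeff g ℓ)
    (hMS : ∀ q : ℕ, q.Prime → q ∣ M → q ∈ S) (t : CuspForm.heckeAlgebra M 2 (↑S : Set ℕ)) :
    chig t = (eigenCharInt hg ((Subalgebra.inclusion
      (CuspForm.heckeAlgebra_mono (Set.empty_subset (↑S : Set ℕ)))).toRingHom t) : ℂ) := by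
  set χ := eigenCharInt hg
  let j₀ : ↥(CuspForm.heckeAlgebra M 2 (↑S : Set ℕ)) →+* FullHecke M :=
    (Subalgebra.inclusion (CuspForm.heckeAlgebra_mono (Set.empty_subset (↑S : Set ℕ)))).toRingHom
  change chig t = (χ (j₀ t) : ℂ)
  obtain ⟨t, ht⟩ := t
  induction ht using Algebra.adjoin_induction with
  | mem x hx =>
    rcases hx with ⟨ℓ, hℓ, hℓM, hℓS, rfl⟩ | ⟨q, hqM, hq, hqS, rfl⟩
    · exact (hchig ℓ hℓ hℓM hℓS).trans (coe_eigenCharInt_T hg hℓ hℓM).symm
    · exact absurd (hMS q hq hqM) hqS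
  | algebraMap n =>
    change chig (algebraMap ℤ (CuspForm.heckeAlgebra M 2 (↑S : Set ℕ)) n) =
      (χ (j₀ (algebraMap ℤ (CuspForm.heckeAlgebra M 2 (↑S : Set ℕ)) n)) : ℂ)
    simp [eq_intCast]
  | add x y hx hy ex ey =>
    change chig (⟨x, hx⟩ + ⟨y, hy⟩) = (χ (j₀ (⟨x, hx⟩ + ⟨y, hy⟩)) : ℂ)
    rw [map_add, map_add, map_add, ex, ey]
    rfl
  | mul x y hx hy ex ey =>
    change chig (⟨x, hx⟩ * ⟨y, hy⟩) = (χ (j₀ (⟨x, hx⟩ * ⟨y, hy⟩)) : ℂ)
    rw [map_mul, map_mul, map_mul, ex, ey]
    rfl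

/-- **S36 from the geometric input** `CoreHyp`: over an extension of the coefficient ring of `g`
there is a `lam`-adic representation with the Hecke characteristic polynomials at the good primes
whose inertia at a prime `q ≠ lam` with `M.factorization q = 2` is not unipotent. -/
theorem result_of_core (hcore : CoreHyp)
    {M : ℕ} [NeZero M] {g : CuspForm (CongruenceSubgroup.Gamma0 M) 2} (hg : g.IsNewform)
    (lam : ℕ) [Fact lam.Prime]
    (S : Finset ℕ)
    (O' : Type) [CommRing O'] [IsDomain O'] [IsDiscreteValuationRing O']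
    [IsAdicComplete (IsLocalRing.maximalIdeal O') O'] [Finite (IsLocalRing.ResidueField O')]
    [CharZero O'] (hlamO' : (lam : O') ∈ IsLocalRing.maximalIdeal O')
    (chig : CuspForm.heckeAlgebra M 2 (↑S : Set ℕ) →+* ℂ)
    (hchig : ∀ (ℓ : ℕ) (hℓ : ℓ.Prime) (hℓM : ¬ ℓ ∣ M) (hℓS : ℓ ∉ (↑S : Set ℕ)),
      chig (CuspForm.heckeAlgebra.T hℓ hℓM hℓS) = ModularFormClass.qCoeff g ℓ)
    (iota : chig.range →+* O')
    (hlamS : lam ∈ S) (hMS : ∀ q : ℕ, q.Prime → q ∣ M → q ∈ S) :
    ∃ (O'' : Type) (_ : CommRing O'') (_ : IsDomain O'') (_ : IsDiscreteValuationRing O'')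
      (_ : IsAdicComplete (IsLocalRing.maximalIdeal O'') O'')
      (_ : Finite (IsLocalRing.ResidueField O''))
      (_ : CharZero O'') (_ : Algebra O' O'') (_ : Module.Finite O' O'')
        (_ : IsLocalHom (algebraMap O' O'')),
      Function.Injective (algebraMap O' O'') ∧
      ∃ ρ : GaloisRepAdic O'',
        (∀ (ℓ : ℕ) (hℓ : ℓ.Prime) (hℓM : ¬ ℓ ∣ M) (hℓS : ℓ ∉ (↑S : Set ℕ)),
          ∀ A : ValuationSubring (AlgebraicClosure ℚ), A.LiesOverPrime ℓ →
            ∀ σ : AlgebraicClosure ℚ ≃ₐ[ℚ] AlgebraicClosure ℚ, A.IsFrobeniusAt σ ℓ →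
              LinearMap.charpoly (ρ.ρ σ) =
                X ^ 2 - C (algebraMap O' O'' ((iota.comp chig.rangeRestrict)
                  (CuspForm.heckeAlgebra.T hℓ hℓM hℓS))) * X + C ((ℓ : O''))) ∧
        (∀ q : ℕ, q.Prime → q ≠ lam → M.factorization q = 2 → ¬ ρ.IsUnipotentOnInertiaAt q) := by
  classical
  -- the values of `chig` are algebraic integers
  set χ := eigenCharInt hg.1 with hχ
  let j₀ : ↥(CuspForm.heckeAlgebra M 2 (↑S : Set ℕ)) →+* FullHecke M :=
    (Subalgebra.inclusion (CuspForm.heckeAlgebra_mono (Set.empty_subset (↑S : Set ℕ)))).toRingHom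
  have hagree : ∀ t, chig t = (χ (j₀ t) : ℂ) :=
    coe_eigenCharInt_of_eq_qCoeff hg.1 chig hchig hMS
  let i₀ : chig.range →+* IntC :=
    chig.range.subtype.codRestrict (integralClosure ℤ ℂ).toSubring
      (by rintro ⟨z, t, rfl⟩; exact (hagree t).symm ▸ (χ (j₀ t)).2)
  -- a point of the full Hecke ring over `O'`, with values in a finite extension `O''`
  obtain ⟨G, hG⟩ := exists_extend_algClosed (Ω := AlgebraicClosure (FractionRing O')) i₀
    (fun a b h => by
      have h' := congrArg (fun z : IntC => (z : ℂ)) h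
      exact Subtype.ext h') (intC_isIntegral i₀)
    ((algebraMap O' (AlgebraicClosure (FractionRing O'))).comp iota)
  have hGinj : Function.Injective G := injective_of_intC G
  let xg : FullHecke M →+* AlgebraicClosure (FractionRing O') := G.comp χ
  let A₀ := TensorProduct ℤ O' (FullHecke M)
  let gA : A₀ →ₐ[O'] AlgebraicClosure (FractionRing O') :=
    Algebra.TensorProduct.lift (Algebra.ofId O' _)
      ({ xg with commutes' := fun n => by simp } :
        FullHecke M →ₐ[ℤ] AlgebraicClosure (FractionRing O')) fun _ _ => Commute.all _ _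
  obtain ⟨@⟨O'', j1, j2, j3, j4, j5, j6, j7, j8, j9, hinj⟩, fA, j, hj, hjf⟩ :=
    exists_dvr_of_algHom A₀ gA
  let f : FullHecke M →+* O'' := fA.toRingHom.comp
    (Algebra.TensorProduct.includeRight :
      FullHecke M →ₐ[ℤ] TensorProduct ℤ O' (FullHecke M)).toRingHom
  have hjf' : ∀ t, j (f t) = G (χ t) := fun t => by
    change j (fA _) = _
    rw [← AlgHom.comp_apply, hjf]
    exact (Algebra.TensorProduct.lift_tmul _ _ _ (1 : O') t).trans
      ((by rw [map_one, one_mul]; rfl : _ = xg t))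
  have hlam : (lam : O'') ∈ maximalIdeal O'' := by
    rw [← map_natCast (algebraMap O' O'')]
    exact map_nonunit (algebraMap O' O'') _ hlamO'
  -- its representation; unipotent inertia at `q` would contradict the bound
  obtain ⟨D⟩ := hasESInput M lam
  obtain ⟨ρ, hcp, hfix⟩ := exists_rep_fixed D.toData hlam f
  refine ⟨O'', j1, j2, j3, j4, j5, j6, j7, j8, j9, hinj, ρ, fun ℓ hℓ hℓM hℓS A hA σ hσ => ?_,
    fun q hq hql hq2 hunip => ?_⟩
  · have hne : ℓ ≠ lam := fun e => hℓS (e ▸ hlamS)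
    rw [hcp ℓ hℓ (fun e => (hℓ.dvd_mul.mp e).elim hℓM fun e' =>
      hne ((Nat.prime_dvd_prime_iff_eq hℓ Fact.out).mp e')) A hA σ hσ, map_one, mul_one,
      heckeT0_eq hℓ hℓM]
    suffices h : f (CuspForm.heckeAlgebra.T hℓ hℓM (Set.notMem_empty ℓ)) =
        algebraMap O' O'' ((iota.comp chig.rangeRestrict) (CuspForm.heckeAlgebra.T hℓ hℓM hℓS)) by
      rw [h]
    refine hj ?_
    rw [hjf', AlgHom.commutes]
    refine Eq.trans ?_
      (RingHom.congr_fun hG (chig.rangeRestrict (CuspForm.heckeAlgebra.T hℓ hℓM hℓS)))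
    refine congrArg G (Subtype.ext ?_)
    exact (coe_eigenCharInt_T hg.1 hℓ hℓM).trans (hchig ℓ hℓ hℓM hℓS).symm
  · obtain ⟨t, d, ht, hd, hbd⟩ := exists_fullHecke_bound hcore hg hq hq2
    obtain ⟨A, hA⟩ := Fermat.CFT.exists_place hq
    refine hfix (A.inertiaSubgroupIn ℚ) (fun σ hσ => hunip A hA σ hσ) t d (fun h0 => ht ?_) hd
      fun n z hz hz' => hbd D.act D.act_T A hA lam Fact.out (Ne.symm hql) n z hz hz'
    have h1 : G (χ t) = 0 := by rw [← hjf', h0, map_zero]
    exact congrArg Subtype.val ((map_eq_zero_iff G hGinj).mp h1)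

end Fermat.CAR

end
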