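import Fermat.Agent.CAR.Series

/-!
# Orbit polynomials under inertia and the integers of the fixed field

`orbPoly A a` is the product of `X - b` over the conjugates `b` of `a` under inertia.  The integers
`O0 A` of `fixK A` form a principal ideal domain over which `A` is integral.
-/

set_option autoImplicit false

noncomputable section

open Polynomial Fermat.EC.Val

namespace Fermat.CAR

local notation "Qb" => AlgebraicClosure ℚ
local notation "Γℚ" => (AlgebraicClosure ℚ ≃ₐ[ℚ] AlgebraicClosure ℚ)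

variable (A : ValuationSubring (AlgebraicClosure ℚ))

/-- The conjugates under inertia. -/
def orbSet (a : Qb) : Set Qb := {b | ∃ σ ∈ A.inertiaSubgroupIn ℚ, σ a = b}

/-- An algebraic number has finitely many conjugates under inertia. -/
theorem orbSet_finite (a : Qb) : (orbSet A a).Finite := by
  have hP : minpoly ℚ a ≠ 0 := minpoly.ne_zero (Algebra.IsIntegral.isIntegral a)
  refine ((minpoly ℚ a).rootSet Qb).toFinite.subset ?_
  rintro _ ⟨σ, -, rfl⟩
  rw [mem_rootSet]
  refine ⟨hP, ?_⟩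
  change (aeval (σ.toAlgHom a)) (minpoly ℚ a) = 0
  rw [aeval_algHom_apply, minpoly.aeval, map_zero]

/-- The conjugates under inertia, as a finset. -/
def orbFin (a : Qb) : Finset Qb := (orbSet_finite A a).toFinset

/-- Membership in the finset of conjugates. -/
theorem mem_orbFin {a b : Qb} : b ∈ orbFin A a ↔ ∃ σ ∈ A.inertiaSubgroupIn ℚ, σ a = b :=
  (orbSet_finite A a).mem_toFinset

/-- A number is one of its conjugates. -/
theorem self_mem_orbFin (a : Qb) : a ∈ orbFin A a :=
  (mem_orbFin A).mpr ⟨1, one_mem _, rfl⟩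

/-- There is at least one conjugate. -/
theorem card_orbFin_pos (a : Qb) : 0 < (orbFin A a).card :=
  Finset.card_pos.mpr ⟨a, self_mem_orbFin A a⟩

/-- Inertia permutes the conjugates. -/
theorem apply_mem_orbFin {a b : Qb} {τ : Γℚ} (hτ : τ ∈ A.inertiaSubgroupIn ℚ)
    (hb : b ∈ orbFin A a) : τ b ∈ orbFin A a := by
  obtain ⟨σ, hσ, rfl⟩ := (mem_orbFin A).mp hb
  exact (mem_orbFin A).mpr ⟨τ * σ, mul_mem hτ hσ, rfl⟩

/-- The product of `X - b` over the conjugates. -/
def orbPoly (a : Qb) : Qb[X] := ∏ b ∈ orbFin A a, (X - C b)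

/-- The orbit polynomial is monic. -/
theorem orbPoly_monic (a : Qb) : (orbPoly A a).Monic :=
  monic_prod_of_monic _ _ fun b _ => monic_X_sub_C b

/-- Its degree is the number of conjugates. -/
theorem natDegree_orbPoly (a : Qb) : (orbPoly A a).natDegree = (orbFin A a).card := by
  rw [orbPoly, natDegree_prod_of_monic _ _ fun b _ => monic_X_sub_C b,
    Finset.sum_congr rfl fun b _ => natDegree_X_sub_C b, Finset.sum_const, smul_eq_mul, mul_one]

/-- It vanishes at the number. -/
theorem eval_orbPoly (a : Qb) : (orbPoly A a).eval a = 0 := by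
  rw [orbPoly, eval_prod]
  exact Finset.prod_eq_zero (self_mem_orbFin A a) (by simp)

/-- Inertia fixes the orbit polynomial. -/
theorem map_orbPoly (a : Qb) {τ : Γℚ} (hτ : τ ∈ A.inertiaSubgroupIn ℚ) :
    (orbPoly A a).map (τ : Qb →+* Qb) = orbPoly A a := by
  rw [orbPoly, Polynomial.map_prod]
  simp only [Polynomial.map_sub, Polynomial.map_X, Polynomial.map_C]
  refine Finset.prod_bij (fun b _ => τ b) (fun b hb => apply_mem_orbFin A hτ hb)
    (fun b _ b' _ e => τ.injective e) (fun b hb => ⟨τ⁻¹ b, apply_mem_orbFin A (inv_mem hτ) hb, ?_⟩)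
    (fun b _ => rfl)
  exact τ.apply_symm_apply b

/-- Its coefficients lie in the fixed field. -/
theorem coeff_orbPoly_mem_fixK (a : Qb) (n : ℕ) : (orbPoly A a).coeff n ∈ fixK A :=
  mem_fixK.mpr fun τ hτ => by
    conv_rhs => rw [← map_orbPoly A a hτ, coeff_map]
    rfl

/-- Conjugates of an integral number are integral with the same residue. -/
theorem orbFin_mem {a b : Qb} (ha : a ∈ A) (hb : b ∈ orbFin A a) :
    ∃ h : b ∈ A, IsLocalRing.residue A ⟨b, h⟩ = IsLocalRing.residue A ⟨a, ha⟩ := by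
  obtain ⟨σ, hσ, rfl⟩ := (mem_orbFin A).mp hb
  exact Fermat.RED.apply_mem_of_inertia hσ ha

/-- The elements of the fixed field integral at `A`. -/
def O0 : Subring Qb := (fixK A).toSubfield.toSubring ⊓ A.toSubring

variable {A}

/-- Membership in `O0`. -/
theorem mem_O0 {c : Qb} : c ∈ O0 A ↔ c ∈ fixK A ∧ c ∈ A := Iff.rfl

/-- The inclusion of `O0` in `A`. -/
def O0ToA : O0 A →+* A := (O0 A).subtype.codRestrict A.toSubring fun c => c.2.2

/-- Over an element of `A`, an orbit polynomial with coefficients in `O0`. -/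
theorem exists_orbPoly_O0 {a : Qb} (ha : a ∈ A) :
    ∃ P : (O0 A)[X], P.Monic ∧ 0 < P.natDegree ∧ P.eval₂ (O0 A).subtype a = 0 ∧
      P.map ((IsLocalRing.residue A).comp O0ToA) =
        (X - C (IsLocalRing.residue A ⟨a, ha⟩)) ^ P.natDegree := by
  classical
  let Q : A[X] := ∏ b ∈ (orbFin A a).attach, (X - C (⟨b.1, (orbFin_mem A ha b.2).choose⟩ : A))
  have hQ : Q.map A.subtype = orbPoly A a := by
    rw [orbPoly, ← Finset.prod_attach, Polynomial.map_prod]
    refine Finset.prod_congr rfl fun b _ => ?_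
    rw [Polynomial.map_sub, Polynomial.map_X, Polynomial.map_C]
    rfl
  have hmem : orbPoly A a ∈ Polynomial.lifts (O0 A).subtype :=
    (lifts_iff_coeff_lifts _).mpr fun n => ⟨⟨(orbPoly A a).coeff n, coeff_orbPoly_mem_fixK A a n, by
      rw [← hQ, coeff_map]; exact (Q.coeff n).2⟩, rfl⟩
  obtain ⟨P, hP, hdeg, hPm⟩ := lifts_and_natDegree_eq_and_monic hmem (orbPoly_monic A a)
  refine ⟨P, hPm, by rw [hdeg, natDegree_orbPoly]; exact card_orbFin_pos A a, ?_, ?_⟩
  · rw [← eval_map, hP, eval_orbPoly]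
  · have hPQ : P.map O0ToA = Q := by
      refine Polynomial.map_injective A.subtype Subtype.val_injective ?_
      rw [Polynomial.map_map, hQ, ← hP]
      rfl
    rw [← Polynomial.map_map, hPQ, Polynomial.map_prod, hdeg, natDegree_orbPoly,
      ← Finset.card_attach, ← Finset.prod_const]
    refine Finset.prod_congr rfl fun b _ => ?_
    rw [Polynomial.map_sub, Polynomial.map_X, Polynomial.map_C, (orbFin_mem A ha b.2).choose_spec]

/-- `A` is integral over `O0`. -/
theorem isIntegralElem_O0 {a : Qb} (ha : a ∈ A) : (O0 A).subtype.IsIntegralElem a := by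
  obtain ⟨P, hP, -, h, -⟩ := exists_orbPoly_O0 ha
  exact ⟨P, hP, h⟩

variable {q : ℕ} (h : IsPlace A q)
include h

/-- The integers of the field fixed by inertia form a principal ideal domain. -/
theorem isPrincipalIdealRing_O0 : IsPrincipalIdealRing (O0 A) := by
  classical
  refine ⟨fun I => ?_⟩
  by_cases hI : I = ⊥
  · subst hI
    exact ⟨⟨0, by simp⟩⟩
  obtain ⟨c, hcI, hc0⟩ := Submodule.exists_mem_ne_zero_of_ne_bot hI
  have hex : ∃ k : ℕ, ∃ c ∈ I, (c : Qb) ≠ 0 ∧ ord A q (c : Qb) = k := by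
    obtain ⟨k, hk⟩ := exists_int_ord_fixK h (fun e => hc0 (Subtype.ext e)) c.2.1
    have h0 := (mem_iff_ord h (x := (c : Qb)) (fun e => hc0 (Subtype.ext e))).mp c.2.2
    rw [hk] at h0
    have h0' : 0 ≤ k := by exact_mod_cast h0
    refine ⟨k.toNat, c, hcI, fun e => hc0 (Subtype.ext e), ?_⟩
    rw [hk]
    exact_mod_cast (Int.toNat_of_nonneg h0').symm
  obtain ⟨g, hgI, hg0, hgk⟩ := Nat.find_spec hex
  refine ⟨⟨g, le_antisymm (fun f hf => ?_) ((Ideal.span_singleton_le_iff_mem I).mpr hgI)⟩⟩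
  rw [Ideal.submodule_span_eq, Ideal.mem_span_singleton]
  rcases eq_or_ne (f : Qb) 0 with hf0 | hf0
  · exact ⟨0, Subtype.ext (by simpa using hf0)⟩
  obtain ⟨k, hk⟩ := exists_int_ord_fixK h hf0 f.2.1
  have hle : (Nat.find hex : ℤ) ≤ k := by
    have h0 := (mem_iff_ord h hf0).mp f.2.2
    rw [hk] at h0
    have h0' : 0 ≤ k := by exact_mod_cast h0
    have := Nat.find_min' hex (m := k.toNat) ⟨f, hf, hf0, by
      rw [hk]; exact_mod_cast (Int.toNat_of_nonneg h0').symm⟩
    omega
  refine ⟨⟨(f : Qb) / g, (fixK A).div_mem f.2.1 g.2.1,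
    (mem_iff_ord h (div_ne_zero hf0 hg0)).mpr ?_⟩, Subtype.ext ?_⟩
  · rw [div_eq_mul_inv, ord_mul h hf0 (inv_ne_zero hg0), ord_inv h, ← sub_eq_add_neg, hk, hgk,
      sub_nonneg]
    exact_mod_cast hle
  · change (f : Qb) = g * (f / g)
    field_simp

end Fermat.CAR

end
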