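import Fermat.Agent.CAR.PtChar
import Fermat.Agent.BAD.Inst.Norm

/-!
# Orders on the branches of a function with both norms powers

For an invariant function of level `M q²` each norm to level `M q` has on one expansion the order
of one outer branch plus those of the middle ones and on the other the multiple by `q` of the order
of the other outer branch.  If both norms are constants times `n`-th powers, a fixed power of the
function becomes of order zero on all branches after multiplication by a constant and an `n`-th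
power.
-/

set_option autoImplicit false
set_option linter.unusedSectionVars false

noncomputable section

open ModularCurve AlgebraicCurve

namespace Fermat.CAR

attribute [local instance 10000] algFN smulFN algFX smulFX

open Fermat.FF Fermat.MC Fermat.JAC Fermat.JAC.X0 Fermat.RED Fermat.BAD.X0 Fermat.EC.Val

local notation "Qb" => AlgebraicClosure ℚ
local notation "Γℚ" => (AlgebraicClosure ℚ ≃ₐ[ℚ] AlgebraicClosure ℚ)

section General

variable {K F F' : Type*} [Field K] [Field F] [Field F'] [Algebra K F] [Algebra K F']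

/-- The norm commutes with compatible automorphisms. -/
theorem normAlong_equivariant (φ : F →ₐ[K] F') (e : F ≃+* F) (e' : F' ≃+* F')
    (h : ∀ x, e' (φ x) = φ (e x)) (f : F') : normAlong φ (e' f) = e (normAlong φ f) := by
  let := algebraAlong φ
  change Algebra.norm F (e' f) = e (Algebra.norm F f)
  rw [Algebra.norm_eq_of_equiv_equiv e e' (RingHom.ext fun x => (h x).symm) f,
    RingEquiv.apply_symm_apply]

/-- The norm of a constant is a power of the constant. -/
theorem exists_normAlong_const (φ : F →ₐ[K] F') (c : K) :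
    ∃ d : ℕ, normAlong φ (algebraMap K F' c) = algebraMap K F (c ^ d) := by
  let := algebraAlong φ
  refine ⟨Module.finrank F F', ?_⟩
  change Algebra.norm F (algebraMap K F' c) = _
  rw [show algebraMap K F' c = algebraMap F F' (algebraMap K F c) from (φ.commutes c).symm,
    Algebra.norm_algebraMap, map_pow]

/-- A root of a constant is a constant. -/
theorem exists_const_of_pow_eq [IsAlgClosed K] {ξ : F} {n : ℕ} (hn : n ≠ 0) {d : K}
    (h : ξ ^ n = algebraMap K F d) : ∃ e : K, ξ = algebraMap K F e := by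
  have hint : IsIntegral K ξ :=
    IsIntegral.of_pow (Nat.pos_of_ne_zero hn) (h ▸ isIntegral_algebraMap)
  obtain ⟨e, he⟩ := minpoly.mem_range_of_degree_eq_one K ξ
    (IsAlgClosed.degree_eq_one_of_irreducible K (minpoly.irreducible hint))
  exact ⟨e, he.symm⟩

end General

variable (M q : ℕ) [NeZero M] [NeZero q] (hq : q.Prime) (hqM : ¬ q ∣ M)

/-- The two norms to level `M q`. -/
def nB : Bool → (FN (M * q * q) Qb →* FN (M * q) Qb)
  | true => normAlong (heckeAlphaBar Qb (M * q) q)
  | false => normAlong (heckeBetaBar Qb (M * q) q)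

/-- The outer branch over an expansion of level `M q`. -/
def sB : Bool → Br
  | true => .low
  | false => .top

/-- The expansions over an expansion of level `M q` that does not ramify. -/
def brP : Bool → Fin q → FN (M * q * q) Qb →+* LaurentSeries Qb
  | true => brAlpha M q hq hqM
  | false => brBeta M q hq hqM

/-- The norm expanded at a cusp is the product of the expansions over it. -/
theorem emb_nB (b : Bool) (f : FN (M * q * q) Qb) :
    emb M q hq hqM b (nB M q b f) = ∏ i, brP M q hq hqM b i f := by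
  cases b
  · exact emb_false_normBeta M q hq hqM f
  · rw [emb_true]; exact coe_normAlpha M q hq hqM f

/-- The norm expanded at the other cusp, with the variable raised to the power `q`. -/
theorem qExpand_emb_nB (b : Bool) (f : FN (M * q * q) Qb) :
    qExpand Qb q (emb M q hq hqM (!b) (nB M q b f)) =
      ∏ i, twist (zpw q (zetaQ q) i) (brC M q hq hqM (sB (!b)) f) := by
  cases b
  · rw [Bool.not_false, emb_true]
    exact qExpand_normBeta M q hq hqM f
  · exact qExpand_emb_false_normAlpha M q hq hqM f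

/-- The norms of a nonzero function are nonzero. -/
theorem nB_ne_zero (b : Bool) {f : FN (M * q * q) Qb} (hf : f ≠ 0) : nB M q b f ≠ 0 := by
  have : IsFunctionField Qb (FN (M * q) Qb) := MC.isFunctionField_FN (M * q) embC
  have : IsFunctionField Qb (FN (M * q * q) Qb) := MC.isFunctionField_FN (M * q * q) embC
  cases b <;> exact normAlong_ne_zero _ hf

/-- The norms commute with the Galois action. -/
theorem nB_gal (σ : Γℚ) (b : Bool) (f : FN (M * q * q) Qb) :
    nB M q b (gal2 M q σ • f) = galAut M q σ • nB M q b f := by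
  cases b
  · exact normAlong_equivariant _ (SemilinearAut.toRingAut (galAut M q σ))
      (SemilinearAut.toRingAut (gal2 M q σ)) (fun x => gal2_beta M q σ x) f
  · exact normAlong_equivariant _ (SemilinearAut.toRingAut (galAut M q σ))
      (SemilinearAut.toRingAut (gal2 M q σ)) (fun x => gal2_alpha M q σ x) f

/-- The norm is a constant times an `n`-th power. -/
def NormPow (b : Bool) (n : ℕ) (f : FN (M * q * q) Qb) : Prop :=
  ∃ (c : Qb) (g : FN (M * q) Qb), c ≠ 0 ∧ g ≠ 0 ∧
    nB M q b f = algebraMap Qb _ c * g ^ n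

namespace NormPow

variable {M q} {b : Bool} {n : ℕ}

/-- `NormPow` is stable under products. -/
theorem mul {f f' : FN (M * q * q) Qb} (h : NormPow M q b n f) (h' : NormPow M q b n f') :
    NormPow M q b n (f * f') := by
  obtain ⟨c, g, hc, hg, e⟩ := h
  obtain ⟨c', g', hc', hg', e'⟩ := h'
  exact ⟨c * c', g * g', mul_ne_zero hc hc', mul_ne_zero hg hg', by
    rw [map_mul (nB M q b), e, e', map_mul, mul_pow]; ring⟩

/-- `NormPow` is stable under powers. -/
theorem pow {f : FN (M * q * q) Qb} (h : NormPow M q b n f) (m : ℕ) :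
    NormPow M q b n (f ^ m) := by
  obtain ⟨c, g, hc, hg, e⟩ := h
  exact ⟨c ^ m, g ^ m, pow_ne_zero _ hc, pow_ne_zero _ hg, by
    rw [map_pow (nB M q b), e, map_pow, mul_pow, ← pow_mul, ← pow_mul, mul_comm n m]⟩

/-- Constants satisfy `NormPow`. -/
theorem const {c : Qb} (hc : c ≠ 0) :
    NormPow M q b n (algebraMap Qb (FN (M * q * q) Qb) c) := by
  cases b
  · obtain ⟨d, hd⟩ := exists_normAlong_const (heckeBetaBar Qb (M * q) q) c
    exact ⟨c ^ d, 1, pow_ne_zero _ hc, one_ne_zero, by rw [one_pow, mul_one]; exact hd⟩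
  · obtain ⟨d, hd⟩ := exists_normAlong_const (heckeAlphaBar Qb (M * q) q) c
    exact ⟨c ^ d, 1, pow_ne_zero _ hc, one_ne_zero, by rw [one_pow, mul_one]; exact hd⟩

/-- `n`-th powers satisfy `NormPow`. -/
theorem power {s : FN (M * q * q) Qb} (hs : s ≠ 0) : NormPow M q b n (s ^ n) :=
  ⟨1, nB M q b s, one_ne_zero, nB_ne_zero M q b hs, by
    rw [map_one, one_mul, map_pow]⟩

end NormPow

section Branches

variable {A : ValuationSubring (AlgebraicClosure ℚ)}
variable [Fact q.Prime] [CharP (IsLocalRing.ResidueField A) q] (h : IsPlace A q)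

include h

/-- On each branch of the norm map an invariant function has the Gauss order of the outer branch
at index `0` and of the middle one otherwise. -/
theorem brP_gIs (b : Bool) (i : Fin q) {f : FN (M * q * q) Qb} (hf : f ≠ 0)
    (hr : f ∈ ratFld M q A) :
    GIs A q (brP M q hq hqM b i f)
      (if i = 0 then gv M q hq hqM A (sB b) f else gv M q hq hqM A .mid f) := by
  rcases eq_or_ne i 0 with rfl | hi
  · rw [if_pos rfl]
    cases b
    · change GIs A q (brBeta M q hq hqM 0 f) _
      rw [brBeta_zero]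
      exact gIs_gv M q hq hqM h .top hf
    · change GIs A q (brAlpha M q hq hqM 0 f) _
      rw [brAlpha_zero]
      exact gIs_gv M q hq hqM h .low hf
  · rw [if_neg hi]
    cases b
    · change GIs A q (brBeta M q hq hqM i f) _
      rw [brBeta_of_ne M q hq hqM hi]
      exact gIs_twist (zpw_pow q _) (gIs_br11 M q hq hqM h hi hf hr)
    · change GIs A q (brAlpha M q hq hqM i f) _
      rw [brAlpha_of_ne M q hq hqM hi]
      exact gIs_br11 M q hq hqM h hi hf hr

/-- The valuations add on finite products. -/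
theorem gIs_prod {α : Type*} (s : Finset α) (z : α → LaurentSeries Qb) (r : α → ℚ)
    (hz : ∀ i ∈ s, GIs A q (z i) (r i)) : GIs A q (∏ i ∈ s, z i) (∑ i ∈ s, r i) := by
  classical
  induction s using Finset.induction_on with
  | empty => simpa using (prim_one (A := A)).gIs h
  | insert a s ha ih =>
    rw [Finset.prod_insert ha, Finset.sum_insert ha]
    exact (hz a (Finset.mem_insert_self a s)).mul h
      (ih fun i hi => hz i (Finset.mem_insert_of_mem hi))

/-- The valuation of a norm, from the outer branch and the `q - 1` middle ones. -/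
theorem gIs_nB_prod (b : Bool) {f : FN (M * q * q) Qb} (hf : f ≠ 0) (hr : f ∈ ratFld M q A) :
    GIs A q (emb M q hq hqM b (nB M q b f))
      (gv M q hq hqM A (sB b) f + ((q : ℚ) - 1) * gv M q hq hqM A .mid f) := by
  have h1 := gIs_prod q h Finset.univ _ _ fun i _ => brP_gIs M q hq hqM h b i hf hr
  rw [← emb_nB] at h1
  rw [← Finset.add_sum_erase _ _ (Finset.mem_univ (0 : Fin q)), if_pos rfl,
    Finset.sum_congr rfl fun i hi => if_neg (Finset.mem_erase.mp hi).1, Finset.sum_const,
    Finset.card_erase_of_mem (Finset.mem_univ _), Finset.card_univ, Fintype.card_fin, nsmul_eq_mul,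
    Nat.cast_sub hq.one_le, Nat.cast_one] at h1
  exact h1

/-- The valuation of a norm at the other cusp, from the outer branch alone. -/
theorem gIs_nB_single (b : Bool) {f : FN (M * q * q) Qb} (hf : f ≠ 0) :
    GIs A q (qExpand Qb q (emb M q hq hqM (!b) (nB M q b f)))
      (q * gv M q hq hqM A (sB (!b)) f) := by
  have h1 := gIs_prod q h Finset.univ (fun i => twist (zpw q (zetaQ q) i)
    (brC M q hq hqM (sB (!b)) f)) (fun _ => gv M q hq hqM A (sB (!b)) f)
    fun i _ => gIs_twist (zpw_pow q i) (gIs_gv M q hq hqM h _ hf)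
  rw [← qExpand_emb_nB] at h1
  rw [Finset.sum_const, Finset.card_univ, Fintype.card_fin, nsmul_eq_mul] at h1
  exact h1

variable [IsAlgClosed (IsLocalRing.ResidueField A)]

/-- A nonzero function of level `M q` has a valuation at both cusps. -/
theorem exists_gIs_emb (b : Bool) {G : FN (M * q) Qb} (hG : G ≠ 0) :
    ∃ r, GIs A q (emb M q hq hqM b G) r := by
  cases b
  · obtain ⟨r, hr⟩ := exists_gIs_coe M q hq hqM h (alW M q hq hqM G) ((map_ne_zero _).mpr hG)
    exact ⟨r, by rw [emb_false]; exact hr⟩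
  · obtain ⟨r, hr⟩ := exists_gIs_coe M q hq hqM h G hG
    exact ⟨r, by rw [emb_true]; exact hr⟩

/-- The orders of rational functions of level `M q` are integers. -/
theorem exists_int_gIs_emb (b : Bool) {G : FN (M * q) Qb} (hG : G ≠ 0)
    (hr : ∀ σ ∈ A.inertiaSubgroupIn ℚ, galAut M q σ • G = G) :
    ∃ k : ℤ, GIs A q (emb M q hq hqM b G) k := by
  have key : ∀ G : FN (M * q) Qb, G ≠ 0 →
      (∀ σ ∈ A.inertiaSubgroupIn ℚ, galAut M q σ • G = G) →
      ∃ k : ℤ, GIs A q (G : LaurentSeries Qb) k := fun G hG hr => by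
    have hG2 : heckeAlphaBar Qb (M * q) q G ≠ 0 := (map_ne_zero _).mpr hG
    obtain ⟨k, hk⟩ := exists_int_gv_low M q hq hqM h hG2
      (mem_ratFld_iff.mpr fun σ hσ => by rw [gal2_alpha, hr σ hσ])
    have h1 := gIs_gv M q hq hqM h .low hG2
    rw [hk, brC_low, coe_heckeAlphaBar] at h1
    exact ⟨k, h1⟩
  cases b
  · obtain ⟨k, hk⟩ := key (alW M q hq hqM G) ((map_ne_zero _).mpr hG) fun σ hσ => by
      rw [galAut_alW, hr σ hσ]
    exact ⟨k, by rw [emb_false]; exact hk⟩
  · obtain ⟨k, hk⟩ := key G hG hr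
    exact ⟨k, by rw [emb_true]; exact hk⟩

omit hq hqM h in
/-- The data of a norm of an invariant function may be taken invariant. -/
theorem exists_rat_normPow {b : Bool} {n : ℕ} (hn : n ≠ 0) {f : FN (M * q * q) Qb}
    (hr : f ∈ ratFld M q A) (hN : NormPow M q b n f) :
    ∃ (c : Qb) (g : FN (M * q) Qb), c ≠ 0 ∧ c ∈ fixK A ∧ g ≠ 0 ∧
      (∀ σ ∈ A.inertiaSubgroupIn ℚ, galAut M q σ • g = g) ∧
      nB M q b f = algebraMap Qb _ c * g ^ n := by
  obtain ⟨c₀, g₀, hc₀, hg₀, e₀⟩ := hN
  have hs0 : (g₀ : LaurentSeries Qb) ≠ 0 := fun e => hg₀ (Subtype.ext e)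
  -- scale `g` to leading coefficient one
  set m := (g₀ : LaurentSeries Qb).order
  set a := (g₀ : LaurentSeries Qb).coeff m with ha_def
  have ha : a ≠ 0 := HahnSeries.coeff_order_eq_zero.not.mpr hs0
  set c := c₀ * a ^ n
  set g := algebraMap Qb (FN (M * q) Qb) a⁻¹ * g₀ with hg_def
  have hc : c ≠ 0 := mul_ne_zero hc₀ (pow_ne_zero _ ha)
  have hg : g ≠ 0 := mul_ne_zero ((map_ne_zero _).mpr (inv_ne_zero ha)) hg₀
  have e : nB M q b f = algebraMap Qb _ c * g ^ n := by
    rw [e₀, mul_pow, ← mul_assoc, ← map_pow, ← map_mul]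
    congr 2
    rw [inv_pow, mul_assoc, mul_inv_cancel₀ (pow_ne_zero _ ha), mul_one]
  have hco : (g : LaurentSeries Qb).coeff m = 1 := by
    rw [show (g : LaurentSeries Qb) =
      algebraMap Qb (LaurentSeries Qb) a⁻¹ * (g₀ : LaurentSeries Qb) from rfl,
      RED.coeff_algebraMap_mul, ← ha_def, inv_mul_cancel₀ ha]
  -- inertia moves it by a constant, which is then one
  have hall : ∀ σ ∈ A.inertiaSubgroupIn ℚ, galAut M q σ • g = g ∧ σ c = c := by
    intro σ hσ
    have h1 : algebraMap Qb _ (σ c) * (galAut M q σ • g) ^ n =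
        algebraMap Qb _ c * g ^ n := by
      rw [← galAut_algebraMap, ← smul_pow', ← smul_mul', ← e, ← nB_gal,
        mem_ratFld_iff.mp hr σ hσ]
    have hσc : σ c ≠ 0 := (map_ne_zero σ).mpr hc
    obtain ⟨ε, hε⟩ := exists_const_of_pow_eq (K := Qb) (ξ := (galAut M q σ • g) / g)
      hn (d := c / σ c) (by
        rw [div_pow, map_div₀, div_eq_div_iff (pow_ne_zero _ hg) ((map_ne_zero _).mpr hσc),
          mul_comm _ (algebraMap Qb _ (σ c)), h1])
    rw [div_eq_iff hg] at hε
    have h2 := congrArg (fun z : FN (M * q) Qb => (z : LaurentSeries Qb).coeff m) hε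
    have hc1 : (((galAut M q σ • g : FN (M * q) Qb)) : LaurentSeries Qb) =
        coeffMap (σ : Qb →+* Qb) (g : LaurentSeries Qb) :=
      coe_arithmeticGalois_smul _ σ g
    have hc2 : ((algebraMap Qb (FN (M * q) Qb) ε * g : FN (M * q) Qb) : LaurentSeries Qb) =
        algebraMap Qb (LaurentSeries Qb) ε * (g : LaurentSeries Qb) := rfl
    simp only [hc1, hc2, coeffMap_coeff, RED.coeff_algebraMap_mul, hco, map_one, mul_one] at h2
    rw [← h2, map_one, one_mul] at hε
    rw [hε] at h1
    exact ⟨hε, (algebraMap Qb (FN (M * q) Qb)).injective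
      (mul_right_cancel₀ (pow_ne_zero n hg) h1)⟩
  exact ⟨c, g, hc, mem_fixK.mpr fun σ hσ => (hall σ hσ).2, hg, fun σ hσ => (hall σ hσ).1, e⟩

/-- The congruence between the orders given by one norm. -/
theorem exists_order_relation {b : Bool} {n : ℕ} (hn : n ≠ 0) {f : FN (M * q * q) Qb} (hf : f ≠ 0)
    (hr : f ∈ ratFld M q A) (hN : NormPow M q b n f) :
    ∃ k : ℤ, gv M q hq hqM A (sB b) f + ((q : ℚ) - 1) * gv M q hq hqM A .mid f -
      q * gv M q hq hqM A (sB (!b)) f = n * k := by
  obtain ⟨c, g, hc, hcf, hg, hgr, e⟩ := exists_rat_normPow M q hn hr hN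
  have hfac : ∀ (t : Bool) (r : ℚ), GIs A q (emb M q hq hqM t g) r →
      GIs A q (emb M q hq hqM t (nB M q b f)) (ord A q c + n * r) := fun t r hgr' => by
    rw [e, map_mul, map_pow, emb_algebraMap]
    exact (gIs_const hc).mul h (hgr'.pow h n)
  obtain ⟨k₁, hk₁⟩ := exists_int_gIs_emb M q hq hqM h b hg hgr
  obtain ⟨k₂, hk₂⟩ := exists_int_gIs_emb M q hq hqM h (!b) hg hgr
  refine ⟨k₁ - k₂, ?_⟩
  rw [(gIs_nB_prod M q hq hqM h b hf hr).unique h (hfac b _ hk₁),
    (gIs_nB_single M q hq hqM h b hf).unique h (gIs_qExpand q (hfac (!b) _ hk₂))]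
  push_cast
  ring

/-- `gv` of an integral power is the multiple. -/
theorem gv_zpow (C : Br) {f : FN (M * q * q) Qb} (hf : f ≠ 0) (k : ℤ) :
    gv M q hq hqM A C (f ^ k) = k * gv M q hq hqM A C f := by
  obtain ⟨m, rfl | rfl⟩ := k.eq_nat_or_neg
  · rw [zpow_natCast, gv_pow M q hq hqM h C hf]; rfl
  · rw [zpow_neg, zpow_natCast, gv_inv M q hq hqM h C (pow_ne_zero _ hf),
      gv_pow M q hq hqM h C hf]
    push_cast
    ring

/-- The exponent that clears the orders. -/
theorem exists_orders_zero [FF.IsFunctionField Qb (FN (M * q * q) Qb)] {n : ℕ} (hn : n ≠ 0)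
    {D : Divisor Qb (FN (M * q * q) Qb)} {y : FN (M * q * q) Qb} (hy : y ≠ 0)
    (hr : y ∈ ratFld M q A) (hdiv : divOf Qb y = n • D) (hN : ∀ b, NormPow M q b n y) :
    ∃ (D' : Divisor Qb (FN (M * q * q) Qb)) (y' : FN (M * q * q) Qb), y' ≠ 0 ∧
      y' ∈ ratFld M q A ∧ (∀ C, gv M q hq hqM A C y' = 0) ∧ divOf Qb y' = n • D' ∧
      (∀ b, NormPow M q b n y') ∧
      ∀ x, Fermat.BAD.IsCls D x → Fermat.BAD.IsCls D' ((24 * (q - 1) * (q + 1)) • x) := by
  -- the orders on the sheets are integers tied by the two norm relations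
  obtain ⟨k₀, hk₀⟩ := exists_int_gv_low M q hq hqM h hy hr
  obtain ⟨k₂, hk₂⟩ := exists_int_gv_top M q hq hqM h hy hr
  obtain ⟨l₁, h1⟩ := exists_order_relation M q hq hqM h hn hy hr (hN true)
  obtain ⟨l₂, h2⟩ := exists_order_relation M q hq hqM h hn hy hr (hN false)
  simp only [Bool.not_true, Bool.not_false, sB, hk₀, hk₂] at h1 h2
  set a : ℤ := l₁ - l₂
  set b : ℤ := l₁ + l₂
  set m₁ : ℕ := 24 * (q - 1) * (q + 1) with hm₁
  have hq0 : ((q : FN (M * q * q) Qb)) ≠ 0 := by
    rw [← map_natCast (algebraMap Qb (FN (M * q * q) Qb)), map_ne_zero]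
    exact Nat.cast_ne_zero.mpr hq.ne_zero
  -- correct by powers of `q ^ 12 / φ` for the two discriminant quotients, and a constant
  set ψL : FN (M * q * q) Qb := (q : FN (M * q * q) Qb) ^ 12 / phiLow M q hq hqM
  set ψM : FN (M * q * q) Qb := (q : FN (M * q * q) Qb) ^ 12 / phiMid M q hq hqM
  have hφL := phiLow_ne_zero M q hq hqM
  have hφM := phiMid_ne_zero M q hq hqM h
  have hψL : ψL ≠ 0 := div_ne_zero (pow_ne_zero _ hq0) hφL
  have hψM : ψM ≠ 0 := div_ne_zero (pow_ne_zero _ hq0) hφM
  have hg12 : ∀ C (φ : FN (M * q * q) Qb), φ ≠ 0 →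
      gv M q hq hqM A C ((q : FN (M * q * q) Qb) ^ 12 / φ) = 12 - gv M q hq hqM A C φ :=
    fun C φ hφ => by
      rw [div_eq_mul_inv, gv_mul M q hq hqM h C (pow_ne_zero _ hq0) (inv_ne_zero hφ),
        gv_inv M q hq hqM h C hφ, gv_pow M q hq hqM h C hq0, gv_natCast_q M q hq hqM h C]
      push_cast
      ring
  set s : FN (M * q * q) Qb :=
    ψL ^ (-(2 * ((q : ℤ) - 1) * a)) * ψM ^ (-(((q : ℤ) + 1) * b + ((q : ℤ) - 1) * a))
  set e₀ : ℤ := -((m₁ : ℤ) * k₂)
  set cst : Qb := (q : Qb) ^ e₀
  have hcst : cst ≠ 0 := zpow_ne_zero _ (Nat.cast_ne_zero.mpr hq.ne_zero)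
  have hs : s ≠ 0 := mul_ne_zero (zpow_ne_zero _ hψL) (zpow_ne_zero _ hψM)
  have hqr : (q : FN (M * q * q) Qb) ∈ ratFld M q A := natCast_mem _ q
  have hsr : s ∈ ratFld M q A := mul_mem
    (zpow_mem (div_mem (pow_mem hqr 12) (phiLow_mem_ratFld M q hq hqM)) _)
    (zpow_mem (div_mem (pow_mem hqr 12) (phiMid_mem_ratFld M q hq hqM)) _)
  have hC : algebraMap Qb (FN (M * q * q) Qb) cst ∈ ratFld M q A :=
    algebraMap_mem_ratFld (zpow_mem (natCast_mem_fixK q) _)
  have hC0 : algebraMap Qb (FN (M * q * q) Qb) cst ≠ 0 := (map_ne_zero _).mpr hcst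
  refine ⟨m₁ • D + divOf Qb s, y ^ m₁ * (algebraMap Qb _ cst * s ^ n),
    mul_ne_zero (pow_ne_zero _ hy) (mul_ne_zero hC0 (pow_ne_zero _ hs)),
    mul_mem (pow_mem hr _) (mul_mem hC (pow_mem hsr n)), fun C => ?_, ?_,
    fun t => ((hN t).pow m₁).mul ((NormPow.const hcst).mul (NormPow.power hs)),
    fun x hx => (hx.nsmul m₁).add_divOf hs⟩
  -- then the valuation on every sheet is zero
  · rw [gv_mul M q hq hqM h C (pow_ne_zero _ hy) (mul_ne_zero hC0 (pow_ne_zero _ hs)),
      gv_mul M q hq hqM h C hC0 (pow_ne_zero _ hs), gv_pow M q hq hqM h C hy,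
      gv_pow M q hq hqM h C hs, gv_algebraMap M q hq hqM h C hcst,
      gv_mul M q hq hqM h C (zpow_ne_zero _ hψL) (zpow_ne_zero _ hψM), gv_zpow M q hq hqM h C hψL,
      gv_zpow M q hq hqM h C hψM, hg12 C _ hφL, hg12 C _ hφM,
      show ord A q cst = (e₀ : ℚ) by
        rw [show cst = (q : Qb) ^ e₀ from rfl]
        obtain ⟨m, hm | hm⟩ := e₀.eq_nat_or_neg <;> rw [hm]
        · rw [zpow_natCast, ord_pow h, ord_q h, mul_one]; rfl
        · rw [zpow_neg, zpow_natCast, ord_inv h, ord_pow h, ord_q h, mul_one]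
          push_cast
          ring]
    obtain ⟨g1, g2, g3⟩ := gv_phiLow M q hq hqM h
    obtain ⟨g4, g5, g6⟩ := gv_phiMid M q hq hqM h
    simp only [a, b, e₀, hm₁]
    push_cast [Nat.cast_sub hq.one_le]
    cases C
    · rw [g1, g4, hk₀]
      linear_combination (24 * ((q : ℚ) - 1)) * h1 - (24 * ((q : ℚ) - 1)) * h2
    · rw [g2, g5]
      linear_combination (24 * (q : ℚ)) * h1 + 24 * h2
    · rw [g3, g6, hk₂]
      ring
  · rw [divOf_mul (pow_ne_zero _ hy) (mul_ne_zero hC0 (pow_ne_zero _ hs)),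
      divOf_mul hC0 (pow_ne_zero _ hs)]
    ext v
    have hd := DFunLike.congr_fun hdiv v
    simp only [divOf_apply, Finsupp.smul_apply] at hd
    simp only [Finsupp.add_apply, Finsupp.smul_apply, divOf_apply, FF.ord_pow, ord_algebraMap,
      nsmul_eq_mul, smul_add] at hd ⊢
    rw [hd]
    ring

/-- For order zero on the branches, the norms are units times powers of units. -/
theorem exists_unit_normPow {b : Bool} {n : ℕ} (hn : n ≠ 0) {f : FN (M * q * q) Qb} (hf : f ≠ 0)
    (hr : f ∈ ratFld M q A) (hgv : ∀ C, gv M q hq hqM A C f = 0) (hN : NormPow M q b n f) :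
    ∃ (c : Qb) (g : FN (M * q) Qb), c ≠ 0 ∧ ord A q c = 0 ∧ g ≠ 0 ∧
      (∀ t, Prim A (emb M q hq hqM t g)) ∧ nB M q b f = algebraMap Qb _ c * g ^ n := by
  obtain ⟨c, g, hc, hcf, hg, hgr, e⟩ := exists_rat_normPow M q hn hr hN
  -- on a branch the order of the norm is that of `c` plus `n` times that of `g`
  have hfac : ∀ (t : Bool) (r : ℚ), GIs A q (emb M q hq hqM t g) r →
      GIs A q (emb M q hq hqM t (nB M q b f)) (ord A q c + n * r) := fun t r hgr' => by
    rw [e, map_mul, map_pow, emb_algebraMap]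
    exact (gIs_const hc).mul h (hgr'.pow h n)
  obtain ⟨k₁, hk₁⟩ := exists_int_gIs_emb M q hq hqM h b hg hgr
  obtain ⟨k₂, hk₂⟩ := exists_int_gIs_emb M q hq hqM h (!b) hg hgr
  -- so `g` has the same order on the two branches
  have e1 := (gIs_nB_prod M q hq hqM h b hf hr).unique h (hfac b _ hk₁)
  have e2 := (gIs_nB_single M q hq hqM h b hf).unique h (gIs_qExpand q (hfac (!b) _ hk₂))
  simp only [hgv, mul_zero, add_zero] at e1 e2
  have hn' : (n : ℚ) ≠ 0 := Nat.cast_ne_zero.mpr hn
  have hk : k₂ = k₁ := by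
    have : (k₂ : ℚ) = k₁ := mul_left_cancel₀ hn' (by linarith)
    exact_mod_cast this
  have hqQ : (q : Qb) ≠ 0 := Nat.cast_ne_zero.mpr hq.ne_zero
  -- move that order into the constant by a power of `q`
  set d : Qb := (q : Qb) ^ (-k₁)
  have hd : d ≠ 0 := zpow_ne_zero _ hqQ
  have hdo : ord A q d = -(k₁ : ℚ) := by
    rw [show d = (q : Qb) ^ (-k₁) from rfl]
    obtain ⟨m, rfl | rfl⟩ := k₁.eq_nat_or_neg
    · rw [zpow_neg, zpow_natCast, ord_inv h, ord_pow h, ord_q h, mul_one]; rfl
    · rw [neg_neg, zpow_natCast, ord_pow h, ord_q h, mul_one]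
      push_cast
      ring
  refine ⟨c * (d⁻¹) ^ n, algebraMap Qb _ d * g, mul_ne_zero hc (pow_ne_zero _ (inv_ne_zero hd)),
    ?_, mul_ne_zero ((map_ne_zero _).mpr hd) hg, fun t => ?_, ?_⟩
  · rw [ord_mul h hc (pow_ne_zero _ (inv_ne_zero hd)), ord_pow h, ord_inv h, hdo]
    linarith
  · have ht : GIs A q (emb M q hq hqM t g) k₁ := by
      cases b <;> cases t
      · exact hk₁
      · rw [← hk]; exact hk₂
      · rw [← hk]; exact hk₂
      · exact hk₁
    rw [map_mul, emb_algebraMap]
    exact (((gIs_const hd).mul h ht).prim_iff h).mpr (by rw [hdo, neg_add_cancel])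
  · have hd' : algebraMap Qb (FN (M * q) Qb) d ≠ 0 := (map_ne_zero _).mpr hd
    rw [e]
    simp only [map_mul, map_pow, map_inv₀, mul_pow, inv_pow]
    field_simp

end Branches

end Fermat.CAR

end
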