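import Fermat.Agent.CAR.Char
import Fermat.Agent.CAR.Local

/-!
# Local rings at points of the special fibre

`χ.IsPoint S s` says that the character `χ` is evaluation at `s` of the reductions on the branches
in `S`, with a member of `Bx` nonzero at `χ` killing the other branches.  Its local ring `χ.loc`
is local and noetherian; it consists of the invariant functions regular on the tube and integral
on the branches of `S`.
-/

set_option autoImplicit false

attribute [local instance 10000] SubalgebraClass.toAlgebra HahnSeries.powerSeriesAlgebra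

noncomputable section

open ModularCurve AlgebraicCurve

namespace Fermat.CAR

open Fermat.FF Fermat.MC Fermat.RED.Model Fermat.BAD.X0 Fermat.EC.Val

local notation "Qb" => AlgebraicClosure ℚ

section Ring

variable {R : Type*} [CommRing R] [IsDomain R] [IsNoetherianRing R] [IsLocalRing R] {t w : R}

omit [IsDomain R] [IsNoetherianRing R] in
/-- A unit plus a multiple of a prime is a unit. -/
theorem isUnit_add_mul (ht : Prime t) {u : R} (hu : IsUnit u) (g : R) : IsUnit (u + t * g) := by
  by_contra hn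
  refine (IsLocalRing.mem_maximalIdeal _).mp ?_ hu
  have h1 : t * g ∈ IsLocalRing.maximalIdeal R :=
    Ideal.mul_mem_right g _ ((IsLocalRing.mem_maximalIdeal _).mpr ht.not_isUnit)
  simpa using Ideal.sub_mem _ ((IsLocalRing.mem_maximalIdeal _).mpr hn) h1

/-- A prime containing a prime element is generated by it or maximal. -/
theorem eq_span_or_eq_maximal (ht : Prime t)
    (hw : ∀ f, ¬ t ∣ f → ∃ (k : ℕ) (u : R), IsUnit u ∧ t ∣ f - u * w ^ k)
    {r : R} (hr : Prime r) {P : Ideal R} [hP : P.IsPrime] (hrP : r ∈ P) :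
    P = Ideal.span {r} ∨ P = IsLocalRing.maximalIdeal R := by
  by_cases htP : t ∈ P
  -- with `t` in `P`: it is generated by `t`, or contains `w`
  · by_cases hall : ∀ f ∈ P, t ∣ f
    · left
      have hassoc := ht.irreducible.associated_of_dvd hr.irreducible (hall r hrP)
      refine le_antisymm (fun f hf => Ideal.mem_span_singleton.mpr ?_)
        ((Ideal.span_singleton_le_iff_mem _).mpr hrP)
      exact hassoc.symm.dvd.trans (hall f hf)
    · right
      push Not at hall
      obtain ⟨f, hf, hft⟩ := hall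
      obtain ⟨k, u, hu, hd⟩ := hw f hft
      obtain ⟨g, hg⟩ := hd
      have h1 : u * w ^ k ∈ P := by
        rw [show u * w ^ k = f - t * g by rw [← hg]; ring]
        exact Ideal.sub_mem _ hf (Ideal.mul_mem_right g _ htP)
      have hwk : w ^ k ∈ P := (hP.mem_or_mem h1).resolve_left fun hu' =>
        hP.ne_top (Ideal.eq_top_of_isUnit_mem _ hu' hu)
      have hwP : w ∈ P := hP.mem_of_pow_mem k hwk
      refine le_antisymm (IsLocalRing.le_maximalIdeal hP.ne_top) fun z hz => ?_
      -- then it contains every nonunit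
      by_cases hzt : t ∣ z
      · obtain ⟨g', rfl⟩ := hzt
        exact Ideal.mul_mem_right g' _ htP
      obtain ⟨k', u', hu', g', hg'⟩ := hw z hzt
      rcases k' with _ | k'
      · refine absurd ?_ ((IsLocalRing.mem_maximalIdeal _).mp hz)
        rw [show z = u' + t * g' by rw [← hg']; ring]
        exact isUnit_add_mul ht hu' g'
      · rw [show z = u' * w ^ (k' + 1) + t * g' by rw [← hg']; ring]
        exact Ideal.add_mem _ (Ideal.mul_mem_left _ _ (Ideal.pow_mem_of_mem _ hwP _ k'.succ_pos))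
          (Ideal.mul_mem_right g' _ htP)
  · left
    -- without `t` it is principal, generated by the prime `r`
    obtain ⟨r', rfl⟩ := isPrincipal_of_not_mem (w := w) ht hw (hP := hP) htP
    have hd := Ideal.mem_span_singleton.mp hrP
    have hr' : ¬ IsUnit r' := fun hu => hP.ne_top (Ideal.span_singleton_eq_top.mpr hu)
    obtain ⟨c, hc⟩ := hd
    rcases hr.irreducible.isUnit_or_isUnit hc with h1 | h1
    · exact absurd h1 hr'
    · rw [hc, Ideal.span_singleton_mul_right_unit h1]

end Ring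

variable {M q : ℕ} [NeZero M] [NeZero q] {A : ValuationSubring (AlgebraicClosure ℚ)} {b : Bool}
variable (hq : q.Prime) (hqM : ¬ q ∣ M)

namespace BChar

variable (χ : BChar M q A b)

/-- The local ring of a character. -/
def loc : Subring (FN (M * q * q) Qb) where
  carrier := {f | ∃ a c : Bx M q A b, χ.res c ≠ 0 ∧ f * c = a}
  one_mem' := ⟨1, 1, by rw [map_one]; exact one_ne_zero, one_mul _⟩
  zero_mem' := ⟨0, 1, by rw [map_one]; exact one_ne_zero,
    (zero_mul _).trans (ZeroMemClass.coe_zero (Bx M q A b)).symm⟩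
  mul_mem' := by
    rintro f g ⟨a, c, hc, e⟩ ⟨a', c', hc', e'⟩
    refine ⟨a * a', c * c', by rw [map_mul]; exact mul_ne_zero hc hc', ?_⟩
    rw [Subring.coe_mul, Subring.coe_mul, ← e, ← e']
    ring
  add_mem' := by
    rintro f g ⟨a, c, hc, e⟩ ⟨a', c', hc', e'⟩
    refine ⟨a * c' + a' * c, c * c', by rw [map_mul]; exact mul_ne_zero hc hc', ?_⟩
    rw [Subring.coe_add, Subring.coe_mul, Subring.coe_mul, Subring.coe_mul, ← e, ← e']
    ring
  neg_mem' := by
    rintro f ⟨a, c, hc, e⟩
    refine ⟨-a, c, hc, ?_⟩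
    rw [NegMemClass.coe_neg, ← e]
    ring

/-- An element of nonzero value is nonzero. -/
theorem coe_ne_zero {c : Bx M q A b} (hc : χ.res c ≠ 0) : (c : FN (M * q * q) Qb) ≠ 0 :=
  fun h0 => hc (by
    rw [show c = 0 from Subtype.ext (h0.trans (ZeroMemClass.coe_zero _).symm), map_zero])

/-- `Bx` maps into the local ring. -/
theorem Bx_le_loc {f : FN (M * q * q) Qb} (hf : f ∈ Bx M q A b) : f ∈ χ.loc :=
  ⟨⟨f, hf⟩, 1, by rw [map_one]; exact one_ne_zero, mul_one f⟩

/-- The local ring consists of invariant functions. -/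
theorem loc_le_ratFld {f : FN (M * q * q) Qb} (hf : f ∈ χ.loc) : f ∈ ratFld M q A := by
  obtain ⟨a, c, hc, e⟩ := hf
  rw [eq_div_iff_mul_eq (χ.coe_ne_zero hc) |>.mpr e]
  exact div_mem a.2.1 c.2.1

/-- The residue at the character. -/
def lres : χ.loc →+* IsLocalRing.ResidueField A :=
  have key : ∀ (f : χ.loc) (a c : Bx M q A b), χ.res c ≠ 0 →
      (f : FN (M * q * q) Qb) * c = a →
      χ.res f.2.choose / χ.res f.2.choose_spec.choose = χ.res a / χ.res c := fun f a c hc e => by
    obtain ⟨hc', e'⟩ := f.2.choose_spec.choose_spec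
    rw [div_eq_div_iff hc' hc, ← map_mul, ← map_mul]
    refine congrArg χ.res (Subtype.ext ?_)
    rw [Subring.coe_mul, Subring.coe_mul]
    linear_combination (f.2.choose_spec.choose : FN (M * q * q) Qb) * e -
      (c : FN (M * q * q) Qb) * e'
  { toFun := fun f => χ.res f.2.choose / χ.res f.2.choose_spec.choose
    map_one' := by
      rw [key 1 1 1 (by rw [map_one]; exact one_ne_zero) (one_mul _), map_one, div_one]
    map_zero' := by
      rw [key 0 0 1 (by rw [map_one]; exact one_ne_zero)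
        ((zero_mul _).trans (ZeroMemClass.coe_zero (Bx M q A b)).symm), map_zero, zero_div]
    map_mul' := fun f g => by
      obtain ⟨a, c, hc, e⟩ := f.2
      obtain ⟨a', c', hc', e'⟩ := g.2
      rw [key f a c hc e, key g a' c' hc' e', key (f * g) (a * a') (c * c')
        (by rw [map_mul]; exact mul_ne_zero hc hc')
        (by rw [Subring.coe_mul, Subring.coe_mul, Subring.coe_mul, ← e, ← e']; ring),
        map_mul, map_mul, div_mul_div_comm]
    map_add' := fun f g => by
      obtain ⟨a, c, hc, e⟩ := f.2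
      obtain ⟨a', c', hc', e'⟩ := g.2
      rw [key f a c hc e, key g a' c' hc' e', key (f + g) (a * c' + a' * c) (c * c')
        (by rw [map_mul]; exact mul_ne_zero hc hc')
        (by rw [Subring.coe_add, Subring.coe_add, Subring.coe_mul, Subring.coe_mul, Subring.coe_mul,
              ← e, ← e']; ring),
        map_add, map_mul, map_mul, map_mul, div_add_div _ _ hc hc']
      ring }

/-- The residue of a fraction. -/
theorem lres_eq (f : χ.loc) {a c : Bx M q A b} (e : (f : FN (M * q * q) Qb) * c = a) :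
    χ.lres f * χ.res c = χ.res a := by
  obtain ⟨hc', e'⟩ := f.2.choose_spec.choose_spec
  change χ.res f.2.choose / χ.res f.2.choose_spec.choose * χ.res c = χ.res a
  rw [div_mul_eq_mul_div, div_eq_iff hc', ← map_mul, ← map_mul]
  refine congrArg χ.res (Subtype.ext ?_)
  rw [Subring.coe_mul, Subring.coe_mul]
  linear_combination (f.2.choose_spec.choose : FN (M * q * q) Qb) * e -
    (c : FN (M * q * q) Qb) * e'

/-- On `Bx` the residue is the character. -/
theorem lres_of_mem {f : FN (M * q * q) Qb} (hf : f ∈ Bx M q A b) :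
    χ.lres ⟨f, χ.Bx_le_loc hf⟩ = χ.res ⟨f, hf⟩ := by
  have := χ.lres_eq ⟨f, χ.Bx_le_loc hf⟩ (a := ⟨f, hf⟩) (c := 1) (mul_one f)
  rwa [map_one, mul_one] at this

/-- The units are the elements of nonzero residue. -/
theorem isUnit_loc_iff {f : χ.loc} : IsUnit f ↔ χ.lres f ≠ 0 := by
  refine ⟨fun hu => (hu.map χ.lres).ne_zero, fun hne => ?_⟩
  obtain ⟨a, c, hc, e⟩ := f.2
  have ha : χ.res a ≠ 0 := by
    rw [← χ.lres_eq f e]; exact mul_ne_zero hne hc
  have hf0 : (f : FN (M * q * q) Qb) ≠ 0 := fun h0 => χ.coe_ne_zero ha (by rw [← e, h0, zero_mul])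
  refine ⟨⟨f, ⟨(f : FN (M * q * q) Qb)⁻¹, c, a, ha, ?_⟩, Subtype.ext ?_, Subtype.ext ?_⟩, rfl⟩
  · rw [← e, inv_mul_cancel_left₀ hf0]
  · exact mul_inv_cancel₀ hf0
  · exact inv_mul_cancel₀ hf0

/-- The local ring is local. -/
theorem isLocalRing_loc : IsLocalRing χ.loc := by
  have : Nontrivial χ.loc := inferInstance
  refine IsLocalRing.of_nonunits_add fun f g hf hg => ?_
  rw [mem_nonunits_iff, isUnit_loc_iff, not_not] at hf hg ⊢
  rw [map_add, hf, hg, add_zero]

/-- Regularity on the tube. -/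
theorem regular_of_mem_loc {f : χ.loc}
    {P : Place Qb (FN (M * q * q) Qb)} [FF.IsFunctionField Qb (FN (M * q * q) Qb)]
    (hP : P ∈ χ.tube) :
    OrdGE P (f : FN (M * q * q) Qb) 0 ∧ ∃ hm : evalAt P (f : FN (M * q * q) Qb) ∈ A,
      IsLocalRing.residue A ⟨_, hm⟩ = χ.lres f := by
  obtain ⟨a, c, hc, e⟩ := f.2
  obtain ⟨hma, hra⟩ := hP.2 a
  obtain ⟨hmc, hrc⟩ := hP.2 c
  have hca : evalAt P (c : FN (M * q * q) Qb) ≠ 0 := fun h0 => hc (by
    rw [← hrc, show (⟨_, hmc⟩ : A) = 0 from Subtype.ext h0, map_zero])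
  have hcne := χ.coe_ne_zero hc
  have hrega := χ.ordGE_of_mem_tube hP a.2
  have hregc := χ.ordGE_of_mem_tube hP c.2
  have hordc : P.ord (c : FN (M * q * q) Qb) = 0 := by
    refine le_antisymm (not_lt.mp fun hlt => hca ?_) (hregc.le_ord hcne)
    exact (evalAt_eq_zero_iff hregc).mpr (ordGE_iff.mpr (.inr hlt))
  have hf : OrdGE P (f : FN (M * q * q) Qb) 0 := by
    rcases eq_or_ne (f : FN (M * q * q) Qb) 0 with h0 | h0
    · rw [h0]; exact ordGE_zero _ _
    refine (ordGE_iff_of_ne h0).mpr ?_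
    have h1 := hrega.le_ord (e ▸ mul_ne_zero h0 hcne)
    rw [← e, P.ord_mul h0 hcne, hordc, add_zero] at h1
    exact h1
  have he : evalAt P (f : FN (M * q * q) Qb) * evalAt P (c : FN (M * q * q) Qb) =
      evalAt P (a : FN (M * q * q) Qb) := by rw [← evalAt_mul hf hregc, e]
  have hinv : (evalAt P (c : FN (M * q * q) Qb))⁻¹ ∈ A :=
    inv_mem_of_map_ne_zero (π := IsLocalRing.residue A) IsLocalRing.residue_surjective
      (a := ⟨_, hmc⟩) (by rw [hrc]; exact hc)
  have hm : evalAt P (f : FN (M * q * q) Qb) ∈ A := by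
    rw [eq_div_iff_mul_eq hca |>.mpr he]
    exact mul_mem hma hinv
  refine ⟨hf, hm, mul_right_cancel₀ hc ?_⟩
  rw [χ.lres_eq f e, ← hra, ← hrc, ← map_mul]
  exact congrArg _ (Subtype.ext he)

end BChar

variable [Fact q.Prime] [IsAlgClosed (IsLocalRing.ResidueField A)]
variable [CharP (IsLocalRing.ResidueField A) q] (h : IsPlace A q)
variable [FF.IsFunctionField Qb (FN M Qb)] [FF.IsFunctionField Qb (FN (M * q) Qb)]
  [FF.IsFunctionField Qb (FN (M * q * q) Qb)]
variable [FF.IsFunctionField (IsLocalRing.ResidueField A) (FX (IsLocalRing.ResidueField A) M)]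

namespace BChar

include hq h in
omit [IsFunctionField (IsLocalRing.ResidueField ↥A) (FX (IsLocalRing.ResidueField ↥A) M)] in
/-- The local ring at a character is noetherian. -/
theorem isNoetherianRing_loc (χ : BChar M q A b) : IsNoetherianRing χ.loc := by
  have := isNoetherianRing_Bx M q A b hq h
  let : Algebra (Bx M q A b) χ.loc :=
    ((Bx M q A b).subtype.codRestrict χ.loc fun f => χ.Bx_le_loc f.2).toAlgebra
  have hprime : (RingHom.ker χ.res).IsPrime := RingHom.ker_isPrime _
  have : IsLocalization (RingHom.ker χ.res).primeCompl χ.loc := by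
    refine ⟨fun c => ?_, fun f => ?_, fun {x y} e => ⟨1, ?_⟩⟩
    · refine χ.isUnit_loc_iff.mpr ?_
      rw [show algebraMap (Bx M q A b) χ.loc c = ⟨_, χ.Bx_le_loc c.1.2⟩ from rfl,
        χ.lres_of_mem c.1.2]
      exact c.2
    · obtain ⟨a, c, hc, e⟩ := f.2
      exact ⟨⟨a, c, hc⟩, Subtype.ext e⟩
    · have := congrArg Subtype.val e
      simp only [OneMemClass.coe_one, one_mul]
      exact Subtype.ext this
  exact IsLocalization.isNoetherianRing (RingHom.ker χ.res).primeCompl χ.loc inferInstance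

/-- The character is evaluation at `s` on the branches of `S`, killing the others. -/
structure IsPoint (χ : BChar M q A b) (S : Finset Br)
    (s : Place (IsLocalRing.ResidueField A) (FX (IsLocalRing.ResidueField A) M)) : Prop where
  /-- On the branches of `S` the value of `χ` is the value at `s` of the reduction. -/
  res_eq : ∀ C ∈ S, ∀ (f : Bx M q A b) (hf : (f : FN (M * q * q) Qb) ∈ OC M q hq hqM A C),
    ∃ z : FX (IsLocalRing.ResidueField A) M,
      (z : LaurentSeries (IsLocalRing.ResidueField A)) =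
        resC M q hq hqM A C ⟨(f : FN (M * q * q) Qb), hf⟩ ∧ evalAt s z = χ.res f
  /-- The coordinate of the chart is regular at `s`. -/
  regular : OrdGE s (xbar M (IsLocalRing.ResidueField A) b) 0
  /-- Some member nonzero at `χ` reduces to zero on the other branches. -/
  indicator : ∃ φ : Bx M q A b, χ.res φ ≠ 0 ∧
    ∀ C, C ∉ S → 0 < gv M q hq hqM A C (φ : FN (M * q * q) Qb)

variable {χ : BChar M q A b} {S : Finset Br}
  {s : Place (IsLocalRing.ResidueField A) (FX (IsLocalRing.ResidueField A) M)}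
variable (hχ : χ.IsPoint hq hqM S s)

include hq hqM h hχ

/-- An element of nonzero value has order zero on the branches of the point. -/
theorem gv_eq_zero {C : Br} (hC : C ∈ S) {c : Bx M q A b} (hc : χ.res c ≠ 0) :
    gv M q hq hqM A C (c : FN (M * q * q) Qb) = 0 := by
  have hm := chart_le_OC M q hq hqM h b c.2.2 C
  obtain ⟨z, hz, hev⟩ := hχ.res_eq C hC c hm
  refine (prim_iff M q hq hqM h C (χ.coe_ne_zero hc)).mp ⟨hm, fun h0 => hc ?_⟩
  have hz0 : z = 0 := Subtype.ext (hz.trans h0)
  rw [← hev, hz0, RED.Model.evalAt_zero]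

/-- The local ring is regular on the branches of the point. -/
theorem mem_OC_of_loc {C : Br} (hC : C ∈ S) {f : FN (M * q * q) Qb} (hf : f ∈ χ.loc) :
    f ∈ OC M q hq hqM A C := by
  rcases eq_or_ne f 0 with rfl | h0
  · exact zero_mem _
  obtain ⟨a, c, hc, e⟩ := hf
  have hcne := χ.coe_ne_zero hc
  rw [mem_OC, brC_mem_iff M q hq hqM h C h0]
  have ha : (a : FN (M * q * q) Qb) ≠ 0 := e ▸ mul_ne_zero h0 hcne
  have h1 := (brC_mem_iff M q hq hqM h C ha).mp (chart_le_OC M q hq hqM h b a.2.2 C)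
  rw [← e, gv_mul M q hq hqM h C h0 hcne, gv_eq_zero hq hqM h hχ hC hc, add_zero] at h1
  exact h1

/-- The reductions of a member of the local ring. -/
theorem exists_red {C : Br} (hC : C ∈ S) (f : χ.loc) :
    ∃ z : FX (IsLocalRing.ResidueField A) M,
      (z : LaurentSeries (IsLocalRing.ResidueField A)) =
        resC M q hq hqM A C ⟨(f : FN (M * q * q) Qb), mem_OC_of_loc hq hqM h hχ hC f.2⟩ ∧
      OrdGE s z 0 ∧ evalAt s z = χ.lres f := by
  obtain ⟨a, c, hc, e⟩ := f.2
  have hma := chart_le_OC M q hq hqM h b a.2.2 C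
  have hmc := chart_le_OC M q hq hqM h b c.2.2 C
  obtain ⟨za, hza, heva⟩ := hχ.res_eq C hC a hma
  obtain ⟨zc, hzc, hevc⟩ := hχ.res_eq C hC c hmc
  have hra : OrdGE s za 0 := FF.mem_intClosure_iff.mp
    (resC_mem_intClosure M q hq hqM h b C a.2.2 za hza) s hχ.regular
  have hrc : OrdGE s zc 0 := FF.mem_intClosure_iff.mp
    (resC_mem_intClosure M q hq hqM h b C c.2.2 zc hzc) s hχ.regular
  have hev : evalAt s zc ≠ 0 := hevc ▸ hc
  have hzc0 : zc ≠ 0 := fun h0 => hev (by rw [h0]; exact RED.Model.evalAt_zero s)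
  have hordc : s.ord zc = 0 := le_antisymm
    (not_lt.mp fun hlt => hev ((evalAt_eq_zero_iff hrc).mpr (ordGE_iff.mpr (.inr hlt))))
    (hrc.le_ord hzc0)
  have hz : OrdGE s (za / zc) 0 := by
    rcases eq_or_ne za 0 with h0 | h0
    · rw [h0, zero_div]; exact ordGE_zero _ _
    refine (ordGE_iff_of_ne (div_ne_zero h0 hzc0)).mpr ?_
    have h1 := s.ord_mul (div_ne_zero h0 hzc0) hzc0
    rw [div_mul_cancel₀ _ hzc0, hordc, add_zero] at h1
    exact h1 ▸ hra.le_ord h0
  have hmf := mem_OC_of_loc hq hqM h hχ hC f.2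
  refine ⟨za / zc, ?_, hz, mul_right_cancel₀ hc ?_⟩
  · have h1 : resC M q hq hqM A C ⟨_, hmf⟩ * (zc : LaurentSeries (IsLocalRing.ResidueField A)) =
        (za : LaurentSeries (IsLocalRing.ResidueField A)) := by
      rw [hzc, hza, ← map_mul]
      exact congrArg _ (Subtype.ext e)
    rw [show ((za / zc : FX (IsLocalRing.ResidueField A) M) :
        LaurentSeries (IsLocalRing.ResidueField A)) =
      (za : LaurentSeries (IsLocalRing.ResidueField A)) /
        (zc : LaurentSeries (IsLocalRing.ResidueField A)) from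
      map_div₀ (modularFunctionFieldFullC (IsLocalRing.ResidueField A) M).val za zc,
      div_eq_iff (fun h0 => hzc0 (Subtype.ext h0)), h1]
  · rw [χ.lres_eq f e, ← hevc, ← evalAt_mul hz hrc, div_mul_cancel₀ _ hzc0, heva]

/-- **The criterion.** A function of `ratFld` lies in `χ.loc` if it is regular on the tube and lies
in `OC` on every branch of `S`. -/
theorem mem_loc_of {f : FN (M * q * q) Qb} (hf : f ∈ ratFld M q A)
    (hreg : ∀ P ∈ χ.tube, OrdGE P f 0) (hS : ∀ C ∈ S, f ∈ OC M q hq hqM A C) : f ∈ χ.loc := by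
  rcases eq_or_ne f 0 with rfl | hf0
  · exact zero_mem _
  obtain ⟨g, hg, hgi⟩ := χ.exists_regular hreg
  obtain ⟨φ, hφ, hφS⟩ := hχ.indicator
  have hgne := χ.coe_ne_zero hg
  have hφne := χ.coe_ne_zero hφ
  have hne : f * (g : FN (M * q * q) Qb) ≠ 0 := mul_ne_zero hf0 hgne
  obtain ⟨N, hN⟩ : ∃ N : ℕ, ∀ C, C ∉ S →
      0 ≤ gv M q hq hqM A C (f * (g : FN (M * q * q) Qb)) +
        N * gv M q hq hqM A C (φ : FN (M * q * q) Qb) := by
    choose n hn using fun C : {C // C ∉ S} =>
      exists_nat_gt (|gv M q hq hqM A C.1 (f * (g : FN (M * q * q) Qb))| /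
        gv M q hq hqM A C.1 (φ : FN (M * q * q) Qb))
    refine ⟨∑ C, n C, fun C hC => ?_⟩
    have h1 := hn ⟨C, hC⟩
    rw [div_lt_iff₀ (hφS C hC)] at h1
    have h2 : (n ⟨C, hC⟩ : ℚ) ≤ ((∑ C, n C : ℕ) : ℚ) := by
      exact_mod_cast Finset.single_le_sum (fun D _ => Nat.zero_le (n D)) (Finset.mem_univ _)
    have h3 := neg_abs_le (gv M q hq hqM A C (f * (g : FN (M * q * q) Qb)))
    have h4 := mul_le_mul_of_nonneg_right h2 (hφS C hC).le
    linarith
  have hmem : f * (g : FN (M * q * q) Qb) * (φ : FN (M * q * q) Qb) ^ N ∈ Bx M q A b := by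
    refine (mem_Bx_iff hq hqM h).mpr ⟨mul_mem (mul_mem hf g.2.1) (pow_mem φ.2.1 N),
      mul_mem hgi (pow_mem (mem_intClosure_of_chart φ.2.2) N), fun C => ?_⟩
    by_cases hC : C ∈ S
    · exact mul_mem (mul_mem (hS C hC) (chart_le_OC M q hq hqM h b g.2.2 C))
        (pow_mem (chart_le_OC M q hq hqM h b φ.2.2 C) N)
    · rw [mem_OC, brC_mem_iff M q hq hqM h C (mul_ne_zero hne (pow_ne_zero _ hφne)),
        gv_mul M q hq hqM h C hne (pow_ne_zero _ hφne), gv_pow M q hq hqM h C hφne]
      exact hN C hC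
  refine ⟨⟨_, hmem⟩, g * φ ^ N, by
      rw [map_mul, map_pow]; exact mul_ne_zero hg (pow_ne_zero _ hφ), ?_⟩
  rw [Subring.coe_mul, SubmonoidClass.coe_pow]
  exact (mul_assoc f (g : FN (M * q * q) Qb) _).symm

end BChar

end Fermat.CAR

end
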