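import Fermat.Agent.CAR.Factor
import Fermat.Agent.CAR.Lift
import Fermat.Agent.CAR.Inst

/-!
# Evaluation at a point of one branch

Evaluation at `s` of the reductions on the branch `C` is a character; an invariant function
regular on its tube, a unit at `s` and killing the other branches makes it a point, and a function
`t` generating the prime of `C` gives parameters.
-/

set_option autoImplicit false
set_option linter.unusedSectionVars false

noncomputable section

open ModularCurve AlgebraicCurve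

namespace Fermat.CAR

attribute [local instance 10000] algFN smulFN algFX smulFX

open Fermat.FF Fermat.MC Fermat.RED.Model Fermat.BAD.X0 Fermat.EC.Val

local notation "Qb" => AlgebraicClosure ℚ

variable {M q : ℕ} [NeZero M] [NeZero q] {A : ValuationSubring (AlgebraicClosure ℚ)} {b : Bool}
variable (hq : q.Prime) (hqM : ¬ q ∣ M)
variable [Fact q.Prime] [IsAlgClosed (IsLocalRing.ResidueField A)]
variable [CharP (IsLocalRing.ResidueField A) q] (h : IsPlace A q)
variable [FF.IsFunctionField Qb (FN M Qb)] [FF.IsFunctionField Qb (FN (M * q) Qb)]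
  [FF.IsFunctionField Qb (FN (M * q * q) Qb)]
variable [FF.IsFunctionField (IsLocalRing.ResidueField A) (FX (IsLocalRing.ResidueField A) M)]

local notation "kA" => IsLocalRing.ResidueField A

include h in
/-- Reductions of invariant functions lie in the reduced field. -/
theorem resC_mem (C : Br) (f : FN (M * q * q) Qb) (hr : f ∈ ratFld M q A)
    (hf : f ∈ OC M q hq hqM A C) :
    resC M q hq hqM A C ⟨f, hf⟩ ∈ modularFunctionFieldFullC kA M := by
  cases C
  · exact resC_low_mem M q hq hqM h f hf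
  · exact resC_mid_mem M q hq hqM h f hr hf
  · exact resC_top_mem M q hq hqM h f hf

include h in
/-- Members are integral on every branch. -/
theorem mem_OC_Bx (C : Br) (f : Bx M q A b) :
    (f : FN (M * q * q) Qb) ∈ OC M q hq hqM A C := chart_le_OC M q hq hqM h b f.2.2 C

/-- The reduction of a member of `Bx` on a branch. -/
def redB (C : Br) : Bx M q A b →+* FX kA M :=
  ((resC M q hq hqM A C).comp ((Bx M q A b).subtype.codRestrict (OC M q hq hqM A C) fun f =>
    chart_le_OC M q hq hqM h b f.2.2 C)).codRestrict (modularFunctionFieldFullC kA M).toSubring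
    fun f => resC_mem hq hqM h C _ f.2.1 (chart_le_OC M q hq hqM h b f.2.2 C)

/-- `redB` is the reduction on the branch. -/
theorem coe_redB (C : Br) (f : Bx M q A b)
    (hf : (f : FN (M * q * q) Qb) ∈ OC M q hq hqM A C) :
    ((redB hq hqM h C f : FX kA M) : LaurentSeries kA) =
      resC M q hq hqM A C ⟨(f : FN (M * q * q) Qb), hf⟩ := rfl

include h in
/-- The reductions are integral over the reduced coordinate. -/
theorem redB_mem_intClosure (C : Br) (f : Bx M q A b) :
    redB hq hqM h C f ∈ intClosure kA (xbar M kA b) :=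
  resC_mem_intClosure M q hq hqM h b C f.2.2 _ (coe_redB hq hqM h C f _)

/-- Constants reduce to their residues. -/
theorem redB_algebraMap (C : Br) (c : Qb) (hc : c ∈ O0 A) :
    redB hq hqM h C ⟨algebraMap Qb (FN (M * q * q) Qb) c, algebraMap_mem_Bx (b := b) hc⟩ =
      algebraMap kA (FX kA M) (IsLocalRing.residue A ⟨c, hc.2⟩) := by
  refine Subtype.ext ((coe_redB hq hqM h C
    ⟨algebraMap Qb (FN (M * q * q) Qb) c, algebraMap_mem_Bx (b := b) hc⟩
    (mem_OC_Bx hq hqM h C ⟨algebraMap Qb (FN (M * q * q) Qb) c,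
      algebraMap_mem_Bx (b := b) hc⟩)).trans ?_)
  rw [resC_apply]
  refine Eq.trans (congrArg (sR A) (Subtype.ext (a2 := ⟨_, algebraMap_mem_gS (A := A) hc.2⟩)
    (brC_algebraMap M q hq hqM C c))) ?_
  exact sR_algebraMap hc.2

variable (b) in
/-- Evaluation at `s` on the branch `C`. -/
def ptChar (C : Br) (s : Place kA (FX kA M)) (hs : OrdGE s (xbar M kA b) 0) :
    BChar M q A b where
  res :=
    { toFun := fun f => evalAt s (redB hq hqM h C f)
      map_one' := by rw [map_one, ← map_one (algebraMap kA (FX kA M)), evalAt_algebraMap]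
      map_zero' := by rw [map_zero]; exact RED.Model.evalAt_zero s
      map_mul' := fun f g => by
        rw [map_mul]
        exact evalAt_mul
          (FF.mem_intClosure_iff.mp
            (redB_mem_intClosure hq hqM h C f) s hs)
          (FF.mem_intClosure_iff.mp
            (redB_mem_intClosure hq hqM h C g) s hs)
      map_add' := fun f g => by
        rw [map_add]
        exact evalAt_add
          (FF.mem_intClosure_iff.mp
            (redB_mem_intClosure hq hqM h C f) s hs)
          (FF.mem_intClosure_iff.mp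
            (redB_mem_intClosure hq hqM h C g) s hs) }
  const c hc := by
    change evalAt s (redB hq hqM h C _) = _
    rw [redB_algebraMap hq hqM h C c hc, evalAt_algebraMap]

/-- `ptChar` evaluates the reduction at the point. -/
theorem ptChar_res (C : Br) (s : Place kA (FX kA M)) (hs : OrdGE s (xbar M kA b) 0)
    (f : Bx M q A b) : (ptChar b hq hqM h C s hs).res f = evalAt s (redB hq hqM h C f) := rfl

/-- An indicator gives a point. -/
theorem isPoint_of_indicator (χ : BChar M q A b) (C : Br) (s : Place kA (FX kA M))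
    (hs : OrdGE s (xbar M kA b) 0) (hres : ∀ f, χ.res f = evalAt s (redB hq hqM h C f))
    {φ : FN (M * q * q) Qb} (hφ : φ ∈ ratFld M q A)
    (hreg : ∀ P ∈ χ.tube, OrdGE P φ 0)
    (hgv : ∀ D, 0 ≤ gv M q hq hqM A D φ) (hpos : ∀ D, D ≠ C → 0 < gv M q hq hqM A D φ)
    {z : FX kA M} (hφC : φ ∈ OC M q hq hqM A C)
    (hz : (z : LaurentSeries kA) = resC M q hq hqM A C ⟨φ, hφC⟩) (hzs : OrdGE s z 0)
    (hz0 : evalAt s z ≠ 0) : χ.IsPoint hq hqM {C} s := by
  refine ⟨fun D hD f hf => ?_, hs, ?_⟩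
  · obtain rfl := Finset.mem_singleton.mp hD
    exact ⟨redB hq hqM h D f, coe_redB hq hqM h D f hf, (hres f).symm⟩
  have hφ0 : φ ≠ 0 := fun h0 => hz0 (by
    have : z = 0 := Subtype.ext (by
      rw [hz, show (⟨φ, hφC⟩ : OC M q hq hqM A C) = 0 from Subtype.ext h0, map_zero]; rfl)
    rw [this]; exact RED.Model.evalAt_zero s)
  obtain ⟨g, hg, hgi⟩ := χ.exists_regular hreg
  have hgne := χ.coe_ne_zero hg
  have hgg : ∀ D, 0 ≤ gv M q hq hqM A D (g : FN (M * q * q) Qb) := fun D =>
    (brC_mem_iff M q hq hqM h D hgne).mp (chart_le_OC M q hq hqM h b g.2.2 D)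
  have hmem : φ * (g : FN (M * q * q) Qb) ∈ Bx M q A b :=
    (mem_Bx_iff hq hqM h).mpr ⟨mul_mem hφ g.2.1, hgi, fun D => by
      rw [mem_OC, brC_mem_iff M q hq hqM h D (mul_ne_zero hφ0 hgne),
        gv_mul M q hq hqM h D hφ0 hgne]
      exact add_nonneg (hgv D) (hgg D)⟩
  refine ⟨⟨_, hmem⟩, ?_, fun D hD => ?_⟩
  · rw [hres]
    have e : redB hq hqM h C ⟨_, hmem⟩ = z * redB hq hqM h C g := by
      refine Subtype.ext ?_
      rw [MulMemClass.coe_mul, hz, coe_redB hq hqM h C ⟨_, hmem⟩ (mem_OC_Bx hq hqM h C ⟨_, hmem⟩),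
        coe_redB hq hqM h C g (mem_OC_Bx hq hqM h C g), ← map_mul]
      refine congrArg (resC M q hq hqM A C) (Subtype.ext ?_)
      change φ * (g : FN (M * q * q) Qb) = _
      rw [Subring.coe_mul]
    rw [e, evalAt_mul hzs
      (FF.mem_intClosure_iff.mp (redB_mem_intClosure hq hqM h C g) s hs)]
    exact mul_ne_zero hz0 (hres g ▸ hg)
  · change 0 < gv M q hq hqM A D (φ * (g : FN (M * q * q) Qb))
    rw [gv_mul M q hq hqM h D hφ0 hgne]
    exact add_pos_of_pos_of_nonneg (hpos D (fun e => hD (Finset.mem_singleton.mpr e))) (hgg D)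

include h in
/-- Lifts to the outer branch at `∞` and to the middle branches. -/
theorem exists_redB_eq (C : Br) (hC : C ≠ .top) {z : FX kA M}
    (hz : z ∈ intClosure kA (xbar M kA b)) : ∃ g : Bx M q A b, redB hq hqM h C g = z := by
  obtain ⟨g, hg, y, hy, hzy⟩ := exists_rat_lift hq hqM h b z hz
  refine ⟨⟨_, hg⟩, Subtype.ext ?_⟩
  have e : brC M q hq hqM C (aM M q g) = coeffMap A.subtype y := by
    cases C
    · rw [brC_low_aM]; exact hy
    · rw [brC_mid_aM]; exact hy
    · exact absurd rfl hC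
  have hm : aM M q g ∈ OC M q hq hqM A C := chart_le_OC M q hq hqM h b hg.2 C
  rw [coe_redB hq hqM h C ⟨aM M q g, hg⟩ hm, resC_apply M q hq hqM A C (aM M q g) hm, hzy,
    ← sR_coeffMap y (coeffMap_mem_gS y)]
  exact congrArg (sR A) (Subtype.ext (p := fun x => x ∈ gS A) e)

include h in
/-- A generator of the prime of the branch gives parameters. -/
theorem hasParam_of_generator (χ : BChar M q A b) (C : Br) (hC : C ≠ .top) {s : Place kA (FX kA M)}
    (hs : OrdGE s (xbar M kA b) 0) (hres : ∀ f, χ.res f = evalAt s (redB hq hqM h C f))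
    (hχ : χ.IsPoint hq hqM {C} s)
    (t : χ.loc) (ht0 : (t : FN (M * q * q) Qb) ≠ 0)
    (htC : 0 < gv M q hq hqM A C (t : FN (M * q * q) Qb))
    (hdiv : ∀ f : χ.loc, (f : FN (M * q * q) Qb) ≠ 0 →
      0 < gv M q hq hqM A C (f : FN (M * q * q) Qb) →
      (f : FN (M * q * q) Qb) / (t : FN (M * q * q) Qb) ∈ χ.loc) :
    χ.HasParam hq hqM {C} := by
  have hCS : C ∈ ({C} : Finset Br) := Finset.mem_singleton_self C
  have hred : ∀ f : χ.loc, ∃ z : FX kA M, (z : LaurentSeries kA) = resC M q hq hqM A C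
      ⟨(f : FN (M * q * q) Qb), BChar.mem_OC_of_loc hq hqM h hχ hCS f.2⟩ ∧
      OrdGE s z 0 ∧ evalAt s z = χ.lres f := fun f => BChar.exists_red hq hqM h hχ hCS f
  -- the reduction on the sheet, with kernel generated by `t`
  set ψ : χ.loc →+* LaurentSeries kA :=
    (resC M q hq hqM A C).comp (χ.loc.subtype.codRestrict _ fun f =>
      BChar.mem_OC_of_loc hq hqM h hχ hCS f.2)
  have hψ : ∀ f : χ.loc, ψ f = 0 ↔ t ∣ f := fun f => by
    constructor
    · intro h0
      rcases eq_or_ne (f : FN (M * q * q) Qb) 0 with hf | hf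
      · exact ⟨0, Subtype.ext (by rw [hf, mul_zero]; rfl)⟩
      have hmem := BChar.mem_OC_of_loc hq hqM h hχ hCS f.2
      have hpos : 0 < gv M q hq hqM A C (f : FN (M * q * q) Qb) :=
        lt_of_le_of_ne ((brC_mem_iff M q hq hqM h C hf).mp hmem)
          fun e => ((prim_iff M q hq hqM h C hf).mpr e.symm).2 h0
      refine ⟨⟨_, hdiv f hf hpos⟩, Subtype.ext ?_⟩
      rw [Subring.coe_mul]
      exact (mul_div_cancel₀ _ ht0).symm
    · rintro ⟨g, rfl⟩
      have h1 : ψ t = 0 := by_contra fun hne =>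
        htC.ne' ((prim_iff M q hq hqM h C ht0).mp
          ⟨BChar.mem_OC_of_loc hq hqM h hχ hCS t.2, hne⟩)
      rw [map_mul, h1, zero_mul]
  have hker : RingHom.ker ψ = Ideal.span {t} :=
    Ideal.ext fun f => by rw [RingHom.mem_ker, hψ, Ideal.mem_span_singleton]
  have ht : Prime t := (Ideal.span_singleton_prime (fun h0 => ht0 (congrArg Subtype.val h0))).mp
    (hker ▸ RingHom.ker_isPrime ψ)
  -- lift a uniformiser of the point on the sheet
  obtain ⟨z₁, hz₁0, hz₁, hz₁o⟩ := exists_intClosure_ord_one (transcendental_xbar (M := M) b) hs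
  obtain ⟨w, hw⟩ := exists_redB_eq hq hqM h C hC hz₁
  set wl : χ.loc := ⟨(w : FN (M * q * q) Qb), χ.Bx_le_loc w.2⟩
  have hψB : ∀ g : Bx M q A b, ψ ⟨(g : FN (M * q * q) Qb), χ.Bx_le_loc g.2⟩ =
      ((redB hq hqM h C g : FX kA M) : LaurentSeries kA) := fun g => rfl
  have hwres : χ.lres wl = 0 := by
    rw [χ.lres_of_mem w.2, hres, hw]
    exact (evalAt_eq_zero_iff (FF.mem_intClosure_iff.mp hz₁ s hs)).mpr
      (ordGE_iff.mpr (.inr hz₁o.ge))
  refine ⟨⟨t, wl, ht, fun f hft => ?_⟩, fun D hD => ?_⟩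
  -- a function prime to `t` reduces to a power of the uniformiser times a unit
  · obtain ⟨z, hz, hzs, -⟩ := hred f
    have hz0 : z ≠ 0 := fun h0 => hft ((hψ f).mp (by
      refine Eq.trans hz.symm ?_
      rw [h0]; rfl))
    obtain ⟨k, hk⟩ := Int.eq_ofNat_of_zero_le (hzs.le_ord hz0)
    have hne := div_ne_zero hz0 (pow_ne_zero k hz₁0)
    have hv0 : s.ord (z / z₁ ^ k) = 0 := by
      have h1 := s.ord_mul hne (pow_ne_zero k hz₁0)
      rw [div_mul_cancel₀ _ (pow_ne_zero k hz₁0), hk, FF.ord_pow, hz₁o, mul_one] at h1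
      omega
    have hvr : OrdGE s (z / z₁ ^ k) 0 := ordGE_iff.mpr (.inr hv0.ge)
    obtain ⟨a, ha, c, hc, hcs, hac⟩ := exists_frac_at (transcendental_xbar b) hs hvr
    obtain ⟨al, hal⟩ := exists_redB_eq hq hqM h C hC ha
    obtain ⟨cl, hcl⟩ := exists_redB_eq hq hqM h C hC hc
    have hclu : χ.res cl ≠ 0 := by rw [hres, hcl]; exact hcs
    have hclne := χ.coe_ne_zero hclu
    have hum : (al : FN (M * q * q) Qb) / (cl : FN (M * q * q) Qb) ∈ χ.loc :=
      ⟨al, cl, hclu, div_mul_cancel₀ _ hclne⟩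
    set u : χ.loc := ⟨_, hum⟩
    have hev : evalAt s a ≠ 0 := by
      rw [← hac, evalAt_mul hvr (FF.mem_intClosure_iff.mp hc s hs)]
      refine mul_ne_zero (fun h0 => ?_) hcs
      have := ((evalAt_eq_zero_iff hvr).mp h0).le_ord hne
      omega
    have hu : IsUnit u := χ.isUnit_loc_iff.mpr fun h0 => by
      have h1 := χ.lres_eq u (a := al) (c := cl) (div_mul_cancel₀ _ hclne)
      rw [h0, zero_mul, hres, hal] at h1
      exact hev h1.symm
    -- lifting numerator and denominator gives the unit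
    refine ⟨k, u, hu, (hψ _).mp (mul_right_cancel₀
      (show ψ ⟨(cl : FN (M * q * q) Qb), χ.Bx_le_loc cl.2⟩ ≠ 0 from fun h0 => hcs ?_) ?_)⟩
    · have : c = 0 := Subtype.ext (by rw [← hcl, ← hψB]; exact h0)
      rw [this]; exact RED.Model.evalAt_zero s
    have e1 : u * ⟨(cl : FN (M * q * q) Qb), χ.Bx_le_loc cl.2⟩ =
        (⟨(al : FN (M * q * q) Qb), χ.Bx_le_loc al.2⟩ : χ.loc) :=
      Subtype.ext (div_mul_cancel₀ _ hclne)
    rw [zero_mul, map_sub, map_mul ψ u, sub_mul, mul_right_comm (ψ u), ← map_mul ψ u, e1, map_pow,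
      hψB, hψB, hψB, hal, hcl, hw, show ψ f = (z : LaurentSeries kA) from hz.symm, ← hac,
      div_mul_eq_mul_div, sub_eq_zero]
    rw [show ((z * c / z₁ ^ k : FX kA M) : LaurentSeries kA) =
      (z : LaurentSeries kA) * (c : LaurentSeries kA) / (z₁ : LaurentSeries kA) ^ k from by
      rw [show ((z * c / z₁ ^ k : FX kA M) : LaurentSeries kA) =
        ((z * c : FX kA M) : LaurentSeries kA) / ((z₁ ^ k : FX kA M) : LaurentSeries kA) from
        map_div₀ (modularFunctionFieldFullC kA M).val (z * c) (z₁ ^ k), SubmonoidClass.coe_pow]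
      rfl]
    exact (div_mul_cancel₀ _ (pow_ne_zero k fun h0 => hz₁0 (Subtype.ext h0))).symm
  · obtain rfl := Finset.mem_singleton.mp hD
    refine ⟨wl, hwres, ?_, ?_⟩
    · exact fun h0 => hz₁0 (hw.symm.trans (by
        rw [show w = 0 from Subtype.ext (h0.trans (ZeroMemClass.coe_zero _).symm), map_zero]))
    · refine (prim_iff M q hq hqM h _ (fun h0 => hz₁0 (hw.symm.trans (by
        rw [show w = 0 from Subtype.ext (h0.trans (ZeroMemClass.coe_zero _).symm), map_zero])))).mp
        ⟨chart_le_OC M q hq hqM h b w.2.2 _, fun h0 => hz₁0 ?_⟩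
      rw [← hw]
      exact Subtype.ext h0

end Fermat.CAR

end
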