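import Fermat.Agent.CAR.SSLevel

/-!
# Residues at the places of level `M q` over a glued point

Integral functions take the glued value of their reduction at `∞` at every place over a place
reducing to a glued point `s`; the second map carries these places to places reducing to the
conjugate point.
-/

set_option autoImplicit false
set_option linter.unusedSectionVars false

attribute [local instance 10000] SubalgebraClass.toAlgebra HahnSeries.powerSeriesAlgebra

noncomputable section

open ModularCurve AlgebraicCurve Polynomial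

namespace Fermat.CAR

open Fermat.FF Fermat.MC Fermat.JAC Fermat.RED Fermat.RED.Model Fermat.BAD.X0 Fermat.EC.Val

local notation "Qb" => AlgebraicClosure ℚ

variable {A : ValuationSubring (AlgebraicClosure ℚ)}

local notation "kA" => IsLocalRing.ResidueField A

section General

variable {K F : Type*} [Field K] [Field F] [Algebra K F] [IsAlgClosed K] [FF.IsFunctionField K F]

/-- A polynomial with coefficients regular at `v` comes from one over the valuation ring, and
evaluation at `v` is a ring homomorphism there. -/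
theorem evalAt_coeff_map {v : Place K F} {Z : F[X]}
    (hZ : Z ∈ lifts v.toValuationSubring.subtype) :
    ∃ (G : v.toValuationSubring[X]) (ev : v.toValuationSubring →+* K),
      G.map v.toValuationSubring.subtype = Z ∧ (∀ a, ev a = evalAt v (a : F)) ∧
        ∀ n, evalAt v (Z.coeff n) = (G.map ev).coeff n := by
  obtain ⟨ev, hev⟩ := FF.IsLocalFamily.exists_evalHom (K := K) v
  obtain ⟨G, hG⟩ := (mem_lifts Z).mp hZ
  exact ⟨G, ev, hG, hev, fun n => by rw [coeff_map, hev, ← hG, coeff_map]; rfl⟩

variable {F' : Type*} [Field F'] [Algebra K F'] [FF.IsFunctionField K F'] (φ : F →ₐ[K] F')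

/-- Regularity descends to the place below. -/
theorem ordGE_below {w : Place K F'} {f : F} (h : OrdGE w (φ f) 0) : OrdGE (below φ w) f 0 := by
  rcases eq_or_ne f 0 with rfl | hf
  · exact ordGE_zero _ _
  refine ordGE_iff.mpr (.inr ?_)
  have h1 := h.le_ord ((_root_.map_ne_zero φ).mpr hf)
  rw [ord_below] at h1
  exact nonneg_of_mul_nonneg_right h1 (Nat.cast_pos.mpr (ramificationIndexAlong_pos φ w))

end General

section Series

variable (M q : ℕ) [NeZero M] [NeZero q] [Fact q.Prime] (hq : q.Prime) (hqM : ¬ q ∣ M)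
variable [FF.IsFunctionField Qb (FN (M * q) Qb)] [FF.IsFunctionField Qb (FN M Qb)]
variable [IsAlgClosed (IsLocalRing.ResidueField A)] [CharP (IsLocalRing.ResidueField A) q]
variable (h : IsPlace A q)

include hq hqM h

/-- A function regular away from the cusps and integral at the generic point of a component has
an integral expansion there. -/
theorem int_of_gS (b : Bool) {g : FN (M * q) Qb} (hg : g ∈ intClosure Qb (aj M q))
    (hm : emb M q hq hqM b g ∈ gS A) : emb M q hq hqM b g ∈ intSeries A := by
  rcases eq_or_ne g 0 with rfl | hg0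
  · rw [map_zero]; exact zero_mem _
  set z := emb M q hq hqM b g
  have hz0 : z ≠ 0 := (map_ne_zero_iff _ (emb M q hq hqM b).injective).mpr hg0
  obtain ⟨a, ha, hint⟩ := exists_smul_int_of_regular M q hq hqM h.2 b hg
  obtain ⟨L₀, hfin, hL⟩ := coeff_mem M q hq hqM b g
  have := hfin
  -- a multiple of `z` is integral
  have hint' : algebraMap Qb (LaurentSeries Qb) a * z ∈ intSeries A := by
    rwa [Algebra.smul_def, map_mul, emb_algebraMap] at hint
  have ht : Tame A z := ⟨⟨L₀, hfin, hL⟩, a, ha, hint'⟩
  obtain ⟨m, hm0, hG⟩ := ht.exists_coeff h hz0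
  have : FiniteDimensional ℚ (IntermediateField.adjoin ℚ ({a} : Set Qb)) :=
    IntermediateField.adjoin.finiteDimensional (Algebra.IsIntegral.isIntegral a)
  -- some coefficient of `z` scales it to an integral series with a unit coefficient
  obtain ⟨n, hn, hscale⟩ := exists_scale_of_finite h.1 h.2
    (L₀ ⊔ IntermediateField.adjoin ℚ ({a} : Set Qb)) hint'
    (mul_ne_zero ((_root_.map_ne_zero _).mpr ha) hz0) fun n => by
      show (algebraMap Qb (LaurentSeries Qb) a * z).coeff n ∈ _
      rw [RED.coeff_algebraMap_mul]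
      exact mul_mem (SetLike.le_def.mp le_sup_right (IntermediateField.mem_adjoin_simple_self ℚ a))
        (SetLike.le_def.mp le_sup_left (hL n))
  change (algebraMap Qb (LaurentSeries Qb) a * z).coeff n ≠ 0 at hn
  change ((algebraMap Qb (LaurentSeries Qb) a * z).coeff n)⁻¹ •
    (algebraMap Qb (LaurentSeries Qb) a * z) ∈ intSeries A at hscale
  rw [RED.coeff_algebraMap_mul] at hn hscale
  have hzn : z.coeff n ≠ 0 := right_ne_zero_of_mul hn
  have hp : algebraMap Qb (LaurentSeries Qb) (z.coeff n)⁻¹ * z ∈ intSeries A := by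
    rwa [Fermat.RED.laurent_smul_def, ← mul_assoc, ← map_mul, mul_inv_rev,
      inv_mul_cancel_right₀ ha] at hscale
  by_cases hA : z.coeff n ∈ A
  · have := mul_mem (algebraMap_mem_intSeries hA) hp
    rwa [← mul_assoc, ← map_mul, mul_inv_cancel₀ hzn, map_one, one_mul] at this
  -- if that coefficient were not integral, the reduction of the scaled series would vanish
  exfalso
  have hinv : (z.coeff n)⁻¹ ∈ A := (A.mem_or_inv_mem _).resolve_left hA
  obtain ⟨y, hy⟩ := id hp
  have h1 : coeffMap (IsLocalRing.residue A) y = 0 := by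
    rw [← sR_coeffMap y (coeffMap_mem_gS y),
      show (⟨_, coeffMap_mem_gS y⟩ : gS A) = ⟨_, algebraMap_mem_gS hinv⟩ * ⟨z, hm⟩ from
        Subtype.ext hy, map_mul, sR_algebraMap hinv, (map_eq_zero _).mpr, zero_mul]
    rw [IsLocalRing.residue_eq_zero_iff, ← A.coe_mem_nonunits_iff,
      nonunit_iff_ord h (inv_ne_zero hzn), ord_inv h]
    have := mt (mem_iff_ord h hzn).mpr hA
    push Not at this
    linarith
  have h2 : y.coeff n = 1 := Subtype.ext (by
    change A.subtype (y.coeff n) = 1
    rw [← coeffMap_coeff, hy, RED.coeff_algebraMap_mul, inv_mul_cancel₀ hzn])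
  have h3 := congrArg (fun s : LaurentSeries kA => s.coeff n) h1
  simp only [coeffMap_coeff, h2, map_one, HahnSeries.coeff_zero] at h3
  exact one_ne_zero h3

omit hq hqM h in
/-- On integral expansions `sR` is the reduction of the model. -/
theorem sR_eq_redF (b : Bool) (hq : q.Prime) (hqM : ¬ q ∣ M) {g : FN (M * q) Qb}
    (hi : emb M q hq hqM b g ∈ intSeries A) :
    sR A ⟨emb M q hq hqM b g, int_mem_gS hi⟩ =
      redF (IsLocalRing.residue A) (emb M q hq hqM b) g := by
  obtain ⟨y, hy⟩ := id hi
  rw [redF_of_mem hi]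
  refine ((congrArg (sR A) (Subtype.ext hy.symm)).trans
    (sR_coeffMap y (coeffMap_mem_gS y))).trans ?_
  rw [← redHom_coeffMap (IsLocalRing.residue A) y ⟨y, rfl⟩]
  exact congrArg _ (Subtype.ext hy)

variable [FF.IsFunctionField (IsLocalRing.ResidueField A) (FX (IsLocalRing.ResidueField A) M)]

/-- A function of level `M q` defined at the generic point reduces to one on the reduced curve. -/
theorem exists_red_q (b : Bool) (g : FN (M * q) Qb) (hm : emb M q hq hqM b g ∈ gS A) :
    ∃ z : FX kA M, (z : LaurentSeries kA) = sR A ⟨_, hm⟩ :=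
  ⟨⟨_, sR_emb_mem M q hq hqM h.2 b g hm⟩, rfl⟩

/-- The reductions of a function regular away from the cusps are regular there. -/
theorem red_mem_intClosure {g : FN (M * q) Qb} (hg : g ∈ intClosure Qb (aj M q))
    (hm : ∀ b, emb M q hq hqM b g ∈ gS A) (b : Bool) (z : FX kA M)
    (hz : (z : LaurentSeries kA) = sR A ⟨_, hm b⟩) : z ∈ intClosure kA (jX kA M) := by
  have key : ∀ g : FN (M * q) Qb, g ∈ intClosure Qb (aj M q) →
      ∀ hm : ∀ b, emb M q hq hqM b g ∈ gS A,
      ∀ z : FX kA M, (z : LaurentSeries kA) = sR A ⟨_, hm true⟩ → z ∈ intClosure kA (jX kA M) :=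
    fun g hg hm z hz => redF_true_mem_intClosure M q hq hqM h.2 g
      (fun b => int_of_gS M q hq hqM h b hg (hm b)) hg z (hz.trans
        (sR_eq_redF M q true hq hqM (int_of_gS M q hq hqM h true hg (hm true))))
  cases b
  · exact key (alW M q hq hqM g) (alW_mem_intClosure M q hq hqM hg)
      (fun c => by rw [emb_alW]; exact hm _) z (hz.trans (congrArg (sR A) (Subtype.ext rfl)))
  · exact key g hg hm z hz

/-- Glued values at the generic points. -/
theorem glue_gS {g : FN (M * q) Qb} (hg : g ∈ intClosure Qb (aj M q))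
    (hm : ∀ b, emb M q hq hqM b g ∈ gS A) (z₁ z₀ : FX kA M)
    (hz₁ : (z₁ : LaurentSeries kA) = sR A ⟨_, hm true⟩)
    (hz₀ : (z₀ : LaurentSeries kA) = sR A ⟨_, hm false⟩)
    {s : Place kA (FX kA M)} (hs : s ∈ SS M q hq hqM h.2) :
    evalAt s z₁ = evalAt (Qf M q s) z₀ :=
  glue M q hq hqM h.2 g hg (fun b => int_of_gS M q hq hqM h b hg (hm b)) z₁ z₀
    (hz₁.trans (sR_eq_redF M q true hq hqM (int_of_gS M q hq hqM h true hg (hm true))))
    (hz₀.trans (sR_eq_redF M q false hq hqM (int_of_gS M q hq hqM h false hg (hm false)))) hs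

variable [FF.IsFunctionField Qb (FN (M * q * q) Qb)]

omit [FF.IsFunctionField (IsLocalRing.ResidueField A) (FX (IsLocalRing.ResidueField A) M)] in
/-- Functions in the chart of level `M q` are defined at both generic points. -/
theorem chart_q_gS {g : FN (M * q) Qb} (hg : g ∈ chart A (aj M q)) (b : Bool) :
    emb M q hq hqM b g ∈ gS A := by
  have hc : heckeAlphaBar Qb (M * q) q g ∈ chart A (aM M q (xch M true)) :=
    map_mem_chart (heckeAlphaBar Qb (M * q) q) hg
  cases b
  · have h1 := chart_le_OC M q hq hqM h true hc .top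
    rw [mem_OC] at h1
    have h2 : qExpand Qb q (emb M q hq hqM false g) ∈ gS A := by rwa [← br02_alpha M q hq hqM]
    rw [emb_false] at h2 ⊢
    exact mem_gS_of_qExpand M q hq hqM h (alW M q hq hqM g) h2
  · have h1 := chart_le_OC M q hq hqM h true hc .low
    rw [mem_OC, brC_low, coe_heckeAlphaBar] at h1
    exact h1

omit [FF.IsFunctionField (IsLocalRing.ResidueField A) (FX (IsLocalRing.ResidueField A) M)]
  [FF.IsFunctionField Qb (FN (M * q * q) Qb)] [IsAlgClosed (IsLocalRing.ResidueField A)]
  [CharP (IsLocalRing.ResidueField A) q] in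
omit hq hqM h in
/-- Functions in the chart are integral over the coordinate. -/
theorem chart_q_intClosure {g : FN (M * q) Qb} (hg : g ∈ chart A (aj M q)) :
    g ∈ intClosure Qb (aj M q) := by
  obtain ⟨P, hP, hPf⟩ := hg
  refine mem_intClosure_iff_elem.mpr ⟨P.map (mapRingHom A.subtype), hP.map _, ?_⟩
  rw [eval₂_map]
  refine Eq.trans ?_ hPf
  congr 1
  exact RingHom.ext fun D => (ax_eq A (aj M q) D).symm

omit [FF.IsFunctionField (IsLocalRing.ResidueField A) (FX (IsLocalRing.ResidueField A) M)] in
/-- Conversely, integral functions defined at both generic points lie in the chart. -/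
theorem mem_chart_of_q {g : FN (M * q) Qb} (hg : g ∈ intClosure Qb (aj M q))
    (hm : ∀ b, emb M q hq hqM b g ∈ gS A) : g ∈ chart A (aj M q) :=
  mem_chart_q M q hq hqM h true g hg hm

omit [FF.IsFunctionField (IsLocalRing.ResidueField A) (FX (IsLocalRing.ResidueField A) M)] in
/-- The second map sends the chart into the chart. -/
theorem beta_mem_chart {g : FN M Qb} (hg : g ∈ chart A (jL M Qb)) :
    heckeBetaBar Qb M q g ∈ chart A (aj M q) := by
  refine mem_chart_trans (x := bj M q) (mem_chart_of_q M q hq hqM h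
    (bj_mem_intClosure M q hq hqM) fun b => ?_) (map_mem_chart (heckeBetaBar Qb M q) hg)
  cases b
  · rw [bj, emb_false_beta, coe_jL]; exact int_mem_gS jqModC_mem_intSeries
  · rw [emb_true_bj]; exact (redCompat_qExpand q).map_mem (int_mem_gS jqModC_mem_intSeries)

/-- The coefficients of the characteristic polynomial along the first map, and their
reductions. -/
theorem charA_alpha_q {g : FN (M * q) Qb} (hg : g ∈ chart A (aj M q)) (gT gF : FX kA M)
    (hT : (gT : LaurentSeries kA) = sR A ⟨_, chart_q_gS M q hq hqM h hg true⟩)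
    (hF : (gF : LaurentSeries kA) = sR A ⟨_, chart_q_gS M q hq hqM h hg false⟩) (n : ℕ) :
    (charA (heckeAlphaBar Qb M q) g).coeff n ∈ chart A (jL M Qb) ∧
      ∃ hm : (((charA (heckeAlphaBar Qb M q) g).coeff n : FN M Qb) : LaurentSeries Qb) ∈ gS A,
        sR A ⟨_, hm⟩ = ((((X - Polynomial.C gT) *
          (X ^ q - Polynomial.C (frobAut M q (A := A) • gF))).coeff n : FX kA M) :
            LaurentSeries kA) := by
  classical
  set φ := heckeAlphaBar Qb M q
  let bb : FN M Qb →+* LaurentSeries Qb := (qExpand Qb q).comp (FN M Qb).val.toRingHom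
  let τ : Option (Fin q) → (FN (M * q) Qb →+* LaurentSeries Qb) := branch M q hq hqM (zetaQ q)
  -- the norm to level `M` is the product over the `q + 1` branches, integral over `j`
  have hN : ∀ g, bb (normAlong φ g) = ∏ i, τ i g := fun g => by
    rw [Fintype.prod_option]
    exact qExpand_norm M q hq hqM (zetaQ_spec q) g
  have hτ : ∀ i (c : Qb), τ i (algebraMap Qb _ c) = bb (algebraMap Qb (FN M Qb) c) := fun i c => by
    rw [← φ.commutes c]
    exact branch_alpha M q hq hqM (zetaQ_spec q) i _
  let ρ : Polynomial Qb →+* LaurentSeries Qb := bb.comp (aeval (jL M Qb)).toRingHom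
  have hgi := chart_q_intClosure M q hg
  have hρ : ∀ i, τ i g ∈ intOver ρ := fun i =>
    mem_intOver.mpr (isIntegralElem_branch hgi (τ i) ρ (fun c => by
      rw [hτ]
      change _ = bb (aeval _ (Polynomial.C c))
      rw [aeval_C]) (by
      change τ i (φ (jL M Qb)) = bb (aeval (jL M Qb) X)
      rw [aeval_X]
      exact branch_alpha M q hq hqM (zetaQ_spec q) i _))
  have hS : ∀ i : Option (Fin q), τ i g ∈ gS A := by
    intro i
    rcases i with _ | i
    · exact (redCompat_qExpand q).map_mem (chart_q_gS M q hq hqM h hg true)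
    · exact (redCompat_twist (A := A) (q := q) (zpw_pow q i)).map_mem
        (chart_q_gS M q hq hqM h hg false)
  -- so the coefficients are integral and reduce to those of the product
  have hbm : ∀ m, bb ((charA φ g).coeff m) ∈ gS A := coeff_charA_mem φ bb τ hN hτ g (gS A) hS
  have hm : (((charA φ g).coeff n : FN M Qb) : LaurentSeries Qb) ∈ gS A := by
    refine (fun H : FN M Qb => ?_ : ∀ H : FN M Qb, qExpand Qb q (H : LaurentSeries Qb) ∈ gS A →
      (H : LaurentSeries Qb) ∈ gS A) _ (hbm n)
    intro hH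
    have := mem_gS_of_qExpand M q hq hqM h (φ H) (by rw [coe_heckeAlphaBar]; exact hH)
    rwa [coe_heckeAlphaBar] at this
  refine ⟨mem_chart_level M q hq hqM h true _ (mem_intClosure_iff_elem.mpr
      ((RingHom.IsIntegralElem.map_iff (g := bb) (RingHom.injective _)).mp (mem_intOver.mp
        (coeff_charA_mem φ bb τ hN hτ g (intOver ρ) hρ n)))) hm, hm, ?_⟩
  refine qExpand_injective q ?_
  rw [← (redCompat_qExpand (A := A) q).sR_map hm]
  have hprod : (charA φ g).map bb = (∏ i, (X - Polynomial.C (⟨τ i g, hS i⟩ : gS A))).map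
      (gS A).subtype := by
    rw [map_charA φ bb τ hN hτ, Polynomial.map_prod]
    simp
  have hn := congrArg (fun p => p.coeff n) hprod
  simp only [coeff_map] at hn
  have hco : (⟨qExpand Qb q (((charA φ g).coeff n : FN M Qb) : LaurentSeries Qb),
      (redCompat_qExpand q).map_mem hm⟩ : gS A) =
      (∏ i : Option (Fin q), (X - Polynomial.C (⟨τ i g, hS i⟩ : gS A))).coeff n := Subtype.ext hn
  rw [hco, ← coeff_map, Polynomial.map_prod, Fintype.prod_option]
  have hn0 : (⟨τ none g, hS none⟩ : gS A) = ⟨_, (redCompat_qExpand q).map_mem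
      (chart_q_gS M q hq hqM h hg true)⟩ := rfl
  -- the `q` twisted branches share the reduction `gF`, the other one gives `gT`
  have hsome : ∀ i : Fin q, sR A ⟨τ (some i) g, hS (some i)⟩ =
      (gF : LaurentSeries kA) := fun i => by
    rw [hF]
    exact sR_twist (A := A) (zpw_pow q i) (chart_q_gS M q hq hqM h hg false)
  simp only [Polynomial.map_sub, Polynomial.map_X, Polynomial.map_C, hsome, Finset.prod_const,
    Finset.card_univ, Fintype.card_fin]
  rw [hn0, (redCompat_qExpand (A := A) q).sR_map (chart_q_gS M q hq hqM h hg true), ← hT]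
  have : CharP (LaurentSeries kA) q :=
    charP_of_injective_algebraMap (algebraMap kA (LaurentSeries kA)).injective q
  rw [sub_pow_char, ← Polynomial.C_pow, laurent_pow_char q, ← coe_frobAut_smul M q gF]
  have hvm : ((X - Polynomial.C gT) * (X ^ q - Polynomial.C (frobAut M q (A := A) • gF))).map
      ((qExpand kA q).comp (modularFunctionFieldFullC kA M).val.toRingHom) =
      (X - Polynomial.C (qExpand kA q (gT : LaurentSeries kA))) *
        (X ^ q - Polynomial.C (qExpand kA q
          ((frobAut M q (A := A) • gF : FX kA M) : LaurentSeries kA))) := by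
    simp
  rw [← hvm, coeff_map]
  rfl

/-- **Residues over a glued point.** An integral function of level `M q` takes, at every place over
one reducing to a glued point, a value reducing to that of its reduction at the point. -/
theorem residue_q {s : Place kA (FX kA M)} (hs : s ∈ SS M q hq hqM h.2)
    {P₁ : Place Qb (FN (M * q) Qb)} (hP : RedS (jL M Qb) (below (heckeAlphaBar Qb M q) P₁) s)
    {g : FN (M * q) Qb} (hg : g ∈ chart A (aj M q)) (gT : FX kA M)
    (hT : (gT : LaurentSeries kA) = sR A ⟨_, chart_q_gS M q hq hqM h hg true⟩) :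
    OrdGE P₁ g 0 ∧ evalAt P₁ g ∈ A ∧ Fermat.FLAT.red A (evalAt P₁ g) = evalAt s gT := by
  classical
  set φ := heckeAlphaBar Qb M q
  set a := below φ P₁
  obtain ⟨⟨haj, hajA⟩, hres⟩ := id hP
  -- all values of `g` above the point are integral
  obtain ⟨gF, hF⟩ := exists_red_q M q hq hqM h false g (chart_q_gS M q hq hqM h hg false)
  have hL := levelRed M q hq hqM h.2 (A := A)
  have hover : ∀ Q ∈ above φ a, OrdGE Q g 0 ∧ evalAt Q g ∈ A := fun Q hQ => by
    have hb := (mem_above φ).mp hQ
    exact evalAt_mem hg (ordGE_comp φ (hb.symm ▸ haj)) (by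
      change evalAt Q (φ (jL M Qb)) ∈ A
      rw [evalAt_comp φ (hb.symm ▸ haj), hb]
      exact hajA)
  have hP₁ : P₁ ∈ above φ a := (mem_above φ).mpr rfl
  obtain ⟨hreg, hmem⟩ := hover P₁ hP₁
  refine ⟨hreg, hmem, ?_⟩
  set Z := (X - Polynomial.C gT) * (X ^ q - Polynomial.C (frobAut M q (A := A) • gF))
  have hchart := fun n => charA_alpha_q M q hq hqM h hg gT gF hT hF n
  -- the characteristic polynomial reduces to `(X - gT) (X ^ q - frob gF)`, evaluated at `s`
  have hval : ∀ n, Fermat.FLAT.red A (evalAt a ((charA φ g).coeff n)) =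
      evalAt s (Z.coeff n) := fun n => by
    obtain ⟨hc, hm, e⟩ := hchart n
    exact (hP.residue hL hc hm (Z.coeff n) e.symm).1
  obtain ⟨-, hprod⟩ := residual_chP φ (P := a) (fun Q hQ => (hover Q hQ).1)
    (fun n => (evalAt_mem (hchart n).1 haj hajA).1) (fun n => (evalAt_mem (hchart n).1 haj hajA).2)
  have hs1 := ((mem_SS M q hq hqM h.2).mp hs).1
  have hgm : ∀ b, emb M q hq hqM b g ∈ gS A := chart_q_gS M q hq hqM h hg
  have hgi := chart_q_intClosure M q hg
  have hTs : OrdGE s gT 0 :=
    FF.mem_intClosure_iff.mp (red_mem_intClosure M q hq hqM h hgi hgm true gT hT) s hs1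
  have hFs : OrdGE (Qf M q s) gF 0 := FF.mem_intClosure_iff.mp
    (red_mem_intClosure M q hq hqM h hgi hgm false gF hF) _ (ordGE_Qf M q hs1)
  have hφs : frobAut M q (A := A) • Qf M q s = s := smul_inv_smul _ _
  have hF's : OrdGE s (frobAut M q (A := A) • gF) 0 := hφs ▸ ordGE_smul _ hFs
  set r := evalAt s gT
  have hev : evalAt s (frobAut M q (A := A) • gF) = r ^ q := by
    have h1 := evalAt_smul (frobAut M q (A := A)) hFs
    rw [hφs, ← glue_gS M q hq hqM h hgi hgm gT gF hT hF hs] at h1
    exact h1
  have hZl : Z ∈ lifts s.toValuationSubring.subtype :=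
    ⟨(X - Polynomial.C (⟨gT, (mem_iff_ordGE s).mpr hTs⟩ : s.toValuationSubring)) *
      (X ^ q - Polynomial.C (⟨_, (mem_iff_ordGE s).mpr hF's⟩ : s.toValuationSubring)), by simp [Z]⟩
  obtain ⟨G, ev, hG, hevd, hGn⟩ := evalAt_coeff_map hZl
  have hGe : G = (X - Polynomial.C (⟨gT, (mem_iff_ordGE s).mpr hTs⟩ : s.toValuationSubring)) *
      (X ^ q - Polynomial.C (⟨_, (mem_iff_ordGE s).mpr hF's⟩ : s.toValuationSubring)) :=
    Polynomial.map_injective s.toValuationSubring.subtype Subtype.val_injective (by
      rw [hG]; simp [Z])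
  have e : ∏ Q ∈ above φ a,
      (X - Polynomial.C (Fermat.FLAT.red A (evalAt Q g))) ^ Q.ramificationIndexAlong φ =
      (X - Polynomial.C r) * (X ^ q - Polynomial.C (r ^ q)) := by
    refine Polynomial.ext fun n => ?_
    rw [hprod, hval, hGn, hGe]
    rw [SemilinearAut.smul_def] at hev
    simp [hevd, hev, r]
  -- so the value at `P₁` is a root of `(X - r) (X ^ q - r ^ q)`
  have h0 := congrArg (Polynomial.eval (Fermat.FLAT.red A (evalAt P₁ g))) e
  rw [eval_prod, Finset.prod_eq_zero hP₁ (by
    simp [(ramificationIndexAlong_pos φ P₁).ne']), eval_mul, eval_sub, eval_sub, eval_pow, eval_X,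
    eval_C, eval_C, eq_comm, mul_eq_zero] at h0
  rcases h0 with h0 | h0
  · exact sub_eq_zero.mp h0
  · exact frobenius_inj kA q (sub_eq_zero.mp h0)

/-- The second map leads to the conjugate point. -/
theorem redS_below_beta {s : Place kA (FX kA M)} (hs : s ∈ SS M q hq hqM h.2)
    {P₁ : Place Qb (FN (M * q) Qb)} (hP : RedS (jL M Qb) (below (heckeAlphaBar Qb M q) P₁) s) :
    RedS (jL M Qb) (below (heckeBetaBar Qb M q) P₁) (Qf M q s) := by
  have main : ∀ g ∈ chart A (jL M Qb), OrdGE P₁ (heckeBetaBar Qb M q g) 0 ∧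
      evalAt P₁ (heckeBetaBar Qb M q g) ∈ A ∧
      ∀ (y : LaurentSeries A) (z : FX kA M), (g : LaurentSeries Qb) = coeffMap A.subtype y →
        (z : LaurentSeries kA) = coeffMap (IsLocalRing.residue A) y →
        Fermat.FLAT.red A (evalAt P₁ (heckeBetaBar Qb M q g)) = evalAt (Qf M q s) z := by
    intro g hg
    have hb := beta_mem_chart M q hq hqM h hg
    have hm := chart_q_gS M q hq hqM h hb
    obtain ⟨gT, hT⟩ := exists_red_q M q hq hqM h true _ (hm true)
    obtain ⟨h1, h2, h3⟩ := residue_q M q hq hqM h hs hP hb gT hT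
    refine ⟨h1, h2, fun y z hy hz => ?_⟩
    rw [h3]
    refine glue_gS M q hq hqM h (chart_q_intClosure M q hb) hm gT z hT ?_ hs
    rw [hz, ← sR_coeffMap y (coeffMap_mem_gS y)]
    exact congrArg (sR A) (Subtype.ext (hy.symm.trans (emb_false_beta M q hq hqM g).symm))
  obtain ⟨h1, h2, -⟩ := main _ (self_mem_chart _)
  have hj : OrdGE (below (heckeBetaBar Qb M q) P₁) (jL M Qb) 0 := ordGE_below _ h1
  refine ⟨⟨hj, by rw [← evalAt_comp _ hj]; exact h2⟩, fun g hg y z hy hz => ?_⟩
  rw [← evalAt_comp _ (ordGE_below _ (main g hg).1)]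
  exact (main g hg).2.2 y z hy hz

end Series

end Fermat.CAR

end
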