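import Fermat.Agent.CAR.PtMid
import Fermat.Agent.CAR.SSFibre

/-!
# A separating function at the cusps

`cuspS = (j - j_q ^ q) / j ^ (q²)` is regular where `j` does not vanish and reduces to
`j ^ (1 - q²) - 1` on the branch at `∞` and to zero on the other one.  Over a character at a cusp
none of the three coordinates takes an integral value.
-/

set_option autoImplicit false
set_option linter.unusedSectionVars false

noncomputable section

open ModularCurve AlgebraicCurve

namespace Fermat.CAR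

attribute [local instance 10000] algFN smulFN algFX smulFX

open Fermat.FF Fermat.MC Fermat.RED Fermat.RED.Model Fermat.BAD.X0 Fermat.EC.Val

local notation "Qb" => AlgebraicClosure ℚ

variable {M q : ℕ} [NeZero M] [NeZero q] {A : ValuationSubring (AlgebraicClosure ℚ)}

variable (M q) in
/-- The function `j ^ (1 - q²) - (j_q / j ^ q) ^ q` of level `M q` separating the cusps. -/
def cuspS : FN (M * q) Qb := (aj M q)⁻¹ ^ (q ^ 2 - 1) - ((aj M q)⁻¹ ^ q * bj M q) ^ q

variable (hq : q.Prime) (hqM : ¬ q ∣ M)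
variable [Fact q.Prime] [IsAlgClosed (IsLocalRing.ResidueField A)]
variable [CharP (IsLocalRing.ResidueField A) q]
variable [FF.IsFunctionField Qb (FN M Qb)] [FF.IsFunctionField Qb (FN (M * q) Qb)]
  [FF.IsFunctionField Qb (FN (M * q * q) Qb)]

local notation "kA" => IsLocalRing.ResidueField A

include hq hqM in
/-- The quotient `bj / aj ^ q` is integral over `1 / aj`. -/
theorem bj_div_mem_intClosure :
    (aj M q)⁻¹ ^ q * bj M q ∈ intClosure Qb (aj M q)⁻¹ := by
  refine ((mem_nsmul_poleDiv_iff (transcendental_aj M q) q).mp ?_).2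
  refine FF.mem_riemannRochSpace.mpr fun v => ?_
  have h0 : bj M q ≠ 0 := fun h0 => transcendental_bj M q (h0 ▸ isAlgebraic_zero)
  have hle := poleDiv_bj_le M q hq hqM v
  rw [poleDiv_apply, poleDiv_apply] at hle
  refine (ordGE_iff_of_ne h0).mpr ?_
  rw [Finsupp.smul_apply, nsmul_eq_mul, poleDiv_apply]
  have := le_max_left (-v.ord (bj M q)) 0
  omega

include hq hqM in
/-- The separating function is integral over `1 / aj`. -/
theorem cuspS_mem_intClosure : cuspS M q ∈ intClosure Qb (aj M q)⁻¹ :=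
  sub_mem (pow_mem (self_mem_intClosure _) _) (pow_mem (bj_div_mem_intClosure hq hqM) _)

/-- The pullback of a function integral over `1 / aj` is regular where that of `aj` has no zero. -/
theorem ordGE_map_cuspS (φ : FN (M * q) Qb →ₐ[Qb] FN (M * q * q) Qb)
    {f : FN (M * q) Qb} (hf : f ∈ intClosure Qb (aj M q)⁻¹)
    {P : Place Qb (FN (M * q * q) Qb)} (hP : P.ord (φ (aj M q)) ≤ 0) : OrdGE P (φ f) 0 := by
  have h1 := map_mem_intClosure φ hf
  rw [map_inv₀] at h1
  exact FF.mem_intClosure_iff.mp h1 P (ordGE_iff.mpr (.inr (by rw [P.ord_inv]; omega)))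

variable (h : IsPlace A q)
include hq hqM h

omit h in
/-- **The two reductions.** `cuspS` is integral and reduces to `j ^ (1 - q²) - 1` on one component
and to zero on the other. -/
theorem exists_cuspS_red (c : Bool) :
    ∃ hm : emb M q hq hqM c (cuspS M q) ∈ gS A,
      sR A ⟨_, hm⟩ = if c then (jqModC kA)⁻¹ ^ (q ^ 2 - 1) - 1 else 0 := by
  have hJ : jqModC Qb ∈ gS A := int_mem_gS jqModC_mem_intSeries
  have hI : (jqModC Qb)⁻¹ ∈ gS A := int_mem_gS
    (inv_jqModC_mem_intSeries (π := IsLocalRing.residue A) IsLocalRing.residue_surjective)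
  have hQJ := (redCompat_qExpand (A := A) q).map_mem hJ
  have hQI := (redCompat_qExpand (A := A) q).map_mem hI
  set J : gS A := ⟨_, hJ⟩
  set I : gS A := ⟨_, hI⟩
  have hJne : jqModC Qb ≠ 0 := fun h0 => transcendental_jL M
    ((show jL M Qb = 0 from Subtype.ext ((coe_jL M).trans h0)) ▸ isAlgebraic_zero)
  -- the reductions of `j` and `1 / j`, and of both expanded in the `q`-th power of the parameter
  have hj : sR A J = jqModC kA := by
    refine ((congrArg (sR A) (Subtype.ext (coeffMap_subtype_jqModC (A := A)).symm)).trans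
      (sR_coeffMap (jqModC A) (coeffMap_mem_gS _))).trans ?_
    exact coeffMap_jqModC _
  have hJI : J * I = 1 := Subtype.ext (mul_inv_cancel₀ hJne)
  have hi : sR A I = (jqModC kA)⁻¹ := by
    refine eq_inv_of_mul_eq_one_right ?_
    rw [← hj, ← map_mul, hJI, map_one]
  have hqj : sR A ⟨_, hQJ⟩ = jqModC kA ^ q := by
    rw [(redCompat_qExpand q).sR_map hJ, show sR A ⟨_, hJ⟩ = jqModC kA from hj,
      laurent_pow_char q (jqModC kA), coeffMap_jqModC]
  have hqi : sR A ⟨_, hQI⟩ = (jqModC kA)⁻¹ ^ q := by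
    rw [(redCompat_qExpand q).sR_map hI, show sR A ⟨_, hI⟩ = (jqModC kA)⁻¹ from hi, map_inv₀,
      inv_pow, laurent_pow_char q (jqModC kA), coeffMap_jqModC]
  have hjk : jqModC kA ≠ 0 := fun h0 => one_ne_zero (α := LaurentSeries kA)
    (by rw [← map_one (sR A), ← hJI, map_mul, hj, h0, zero_mul])
  have hq1 : 1 ≤ q ^ 2 := Nat.one_le_pow _ _ hq.pos
  -- on one side the two terms agree, on the other one of them is `1`
  cases c
  · refine ⟨?_, ?_⟩
    swap
    · refine Eq.trans (congrArg (sR A) (Subtype.ext (a2 :=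
        (⟨_, hQI⟩ : gS A) ^ (q ^ 2 - 1) - ((⟨_, hQI⟩ : gS A) ^ q * J) ^ q) ?_)) ?_
      · push_cast
        simp only [cuspS, map_sub, map_mul, map_pow, map_inv₀, aj, bj, emb_false_alpha,
          emb_false_beta, coe_jL]
        rfl
      · simp only [map_sub, map_mul, map_pow, hj, hqi, if_neg Bool.false_ne_true]
        rw [sub_eq_zero, ← pow_mul, ← pow_mul, mul_pow, ← pow_mul]
        refine eq_of_sub_eq_zero ?_
        rw [sub_eq_zero, inv_pow, inv_pow, eq_comm, ← div_eq_inv_mul,
          div_eq_iff (pow_ne_zero _ hjk), ← div_eq_inv_mul, eq_div_iff (pow_ne_zero _ hjk),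
          ← pow_add]
        congr 1
        obtain ⟨r, hr⟩ : ∃ r, q ^ 2 = r + 1 := ⟨q ^ 2 - 1, by omega⟩
        rw [hr, Nat.add_sub_cancel]
        have : q * q * q = q * r + q := by rw [← pow_two, hr]; ring
        rw [this, add_comm]
    · simp only [cuspS, map_sub, map_mul, map_pow, map_inv₀, aj, bj, emb_false_alpha,
        emb_false_beta, coe_jL]
      rw [← map_inv₀]
      exact sub_mem (pow_mem hQI _) (pow_mem (mul_mem (pow_mem hQI _) hJ) _)
  · refine ⟨?_, ?_⟩
    swap
    · refine Eq.trans (congrArg (sR A) (Subtype.ext (a2 :=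
        I ^ (q ^ 2 - 1) - (I ^ q * ⟨_, hQJ⟩) ^ q) ?_)) ?_
      · push_cast
        simp only [cuspS, map_sub, map_mul, map_pow, map_inv₀, emb_true_aj, emb_true_bj]
        rfl
      · simp only [map_sub, map_mul, map_pow, hi, hqj, if_pos]
        rw [← mul_pow (jqModC kA)⁻¹ (jqModC kA), inv_mul_cancel₀ hjk, one_pow, one_pow]
    · simp only [cuspS, map_sub, map_mul, map_pow, map_inv₀, emb_true_aj, emb_true_bj]
      exact sub_mem (pow_mem hI _) (pow_mem (mul_mem (pow_mem hI _) hQJ) _)

variable [FF.IsFunctionField (IsLocalRing.ResidueField A) (FX (IsLocalRing.ResidueField A) M)]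

/-- `aj` lies in the chart of `bj`. -/
theorem aj_mem_chart_bj : aj M q ∈ chart A (bj M q) := by
  have h1 := beta_mem_chart M q hq hqM h (g := jL M Qb) (self_mem_chart _)
  have h2 := map_mem_chart (A := A) (alW M q hq hqM).toAlgHom h1
  simp only [AlgEquiv.coe_toAlgHom] at h2
  rwa [alW_aj, show heckeBetaBar Qb M q (jL M Qb) = bj M q from rfl, alW_bj] at h2

omit hq hqM h in
/-- Where a member of the chart of `y` is not regular with integral value, neither is `y`. -/
theorem evalAt_not_mem {F : Type*} [Field F] [Algebra Qb F] [FF.IsFunctionField Qb F] {x y : F}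
    (hxy : x ∈ chart A y) {P : Place Qb F} (hx : ¬ (OrdGE P x 0 ∧ evalAt P x ∈ A)) :
    ¬ (OrdGE P y 0 ∧ evalAt P y ∈ A) := fun hy => hx (evalAt_mem hxy hy.1 hy.2)

omit hq hqM h in
omit [FF.IsFunctionField (IsLocalRing.ResidueField A) (FX (IsLocalRing.ResidueField A) M)] in
/-- Where a function is not regular with integral value, its order is not positive. -/
theorem ord_le_zero_of_not_mem {F : Type*} [Field F] [Algebra Qb F] [FF.IsFunctionField Qb F]
    {x : F} {P : Place Qb F} (hx : ¬ (OrdGE P x 0 ∧ evalAt P x ∈ A)) : P.ord x ≤ 0 := by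
  by_contra! hpos
  have h1 : OrdGE P x 1 := ordGE_iff.mpr (.inr hpos)
  have h0 := h1.mono zero_le_one
  exact hx ⟨h0, by rw [(evalAt_eq_zero_iff h0).mpr h1]; exact zero_mem A⟩

/-- **On the tube of a cusp** none of the three coordinates vanishes, as none has an integral
value. -/
theorem ord_le_zero_of_cusp (χ : BChar M q A false) (hx : χ.res ⟨_, self_mem_Bx⟩ = 0)
    {P : Place Qb (FN (M * q * q) Qb)} (hP : P ∈ χ.tube) :
    P.ord (aM M q (jL M Qb)) ≤ 0 ∧ P.ord (heckeBetaBar Qb (M * q) q (aj M q)) ≤ 0 ∧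
      P.ord (bM M q (jL M Qb)) ≤ 0 := by
  set x₁ := aM M q (jL M Qb)
  have hn1 : ¬ (OrdGE P x₁ 0 ∧ evalAt P x₁ ∈ A) := by
    rintro ⟨hr, hm⟩
    obtain ⟨hmi, hri⟩ := hP.2 ⟨_, self_mem_Bx⟩
    have hi : OrdGE P (aM M q (xch M false)) 0 := hP.1
    have hne : x₁ ≠ 0 := fun h0 => transcendental_map (aM M q) (transcendental_jL M)
      (show IsAlgebraic Qb x₁ by rw [h0]; exact isAlgebraic_zero)
    have e : aM M q (xch M false) = x₁⁻¹ := map_inv₀ (aM M q) (jL M Qb)
    have hprod : evalAt P x₁ * evalAt P (aM M q (xch M false)) = 1 := by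
      rw [← evalAt_mul hr hi, e, mul_inv_cancel₀ hne, ← map_one (algebraMap Qb (FN (M * q * q) Qb)),
        evalAt_algebraMap]
    have h1 : IsLocalRing.residue A (⟨_, hm⟩ * ⟨_, hmi⟩) = 1 := by
      rw [← map_one (IsLocalRing.residue A)]
      exact congrArg _ (Subtype.ext hprod)
    rw [map_mul, hri, hx, mul_zero] at h1
    exact zero_ne_one h1
  have hab : x₁ ∈ chart A (heckeBetaBar Qb (M * q) q (aj M q)) := by
    have h1 := map_mem_chart (A := A) (heckeAlphaBar Qb (M * q) q) (aj_mem_chart_bj hq hqM h)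
    rwa [show heckeAlphaBar Qb (M * q) q (bj M q) = heckeBetaBar Qb (M * q) q (aj M q) from
      alpha_beta_comm M q (jL M Qb)] at h1
  have hn2 := evalAt_not_mem hab hn1
  have hn3 := evalAt_not_mem
    (map_mem_chart (A := A) (heckeBetaBar Qb (M * q) q) (aj_mem_chart_bj hq hqM h)) hn2
  exact ⟨ord_le_zero_of_not_mem hn1, ord_le_zero_of_not_mem hn2,
    ord_le_zero_of_not_mem hn3⟩

end Fermat.CAR

end
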