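import Fermat.Agent.BAD.X0.Count
import Fermat.Agent.MC.X0.Genus

/-!
# Ramification of `j` on the reduced curve of level `M` without elliptic points

In characteristic zero every zero of `j` has order `3` and every zero of `j - 1728` order `2`;
so the orders on the reduced curve are divisible by `3`, respectively `2`.
-/

set_option autoImplicit false

noncomputable section

open ModularCurve AlgebraicCurve

namespace Fermat.CAR

open Fermat.FF Fermat.MC Fermat.JAC.X0 Fermat.RED.Model Fermat.BAD.X0

local notation "Qb" => AlgebraicClosure ℚ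

section CharZero

variable (N : ℕ) [NeZero N] [FF.IsFunctionField Qb (FN N Qb)]

/-- A zero of `j - a` has order `n` when the elliptic stabiliser of order `n` fixes no coset of
the level. -/
theorem ord_jL_sub_eq {a : Qb} {z : UpperHalfPlane} (hz : jA z = embC a)
    {δ : Matrix.SpecialLinearGroup (Fin 2) ℤ} (hfix : δ • z = z)
    {n : ℕ} (hn : n.Prime) (hm : multJ z = n) (hδ : ∀ c : CosetN N, δ ^ n • c = c)
    (hprim : IsPrimitiveRoot (UpperHalfPlane.denom δ (z : ℂ) ^ 2) n)
    (hν : Nat.card {c : CosetN N // δ • c = c} = 0) {P : Place Qb (FN N Qb)}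
    (hP : 0 < P.ord (jL N Qb - algebraMap Qb (FN N Qb) a)) :
    P.ord (jL N Qb - algebraMap Qb (FN N Qb) a) = n := by
  classical
  obtain ⟨T, hT, hcard, hsum⟩ := card_zeros_elliptic N embC hz hfix hn hm hδ hprim
  rw [hν, Nat.cast_zero, mul_zero, add_zero] at hcard
  set x := jL N Qb - algebraMap Qb (FN N Qb) a
  have hle : ∀ Q ∈ T, Q.ord x ≤ (n : ℤ) := fun Q hQ => by
    obtain ⟨c, m, hm0, hall⟩ := exists_eq_pullback (τ := tauPt N embC z) (x := x)
      (fun q c hc => ordT_tauPt_algebraMap N embC z q hc)
      (fun q q' c => by rw [tauPt_algebraMap, tauPt_algebraMap])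
      (fun q q' => by
        rw [map_sub, map_sub, tauPt_jL N embC z q q', tauPt_algebraMap, tauPt_algebraMap])
      (n := (multJ z : ℤ)) (by exact_mod_cast multJ_pos z) (ordT_tauPt_jL_sub N embC hz)
      ⟨jNL N Qb, tauPt_injective N embC z⟩ (card_coset_eq_finrank N embC a) Q ((hT Q).mp hQ)
    have hx0 : x ≠ 0 := fun h => by
      have := (hT Q).mp hQ
      rw [h, Place.ord_zero] at this
      exact lt_irrefl _ this
    have h := (ordT_tauPt_jL_sub N embC hz c).symm.trans (hall x hx0)
    rw [hm] at h
    have h0 := (hT Q).mp hQ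
    nlinarith
  refine (Finset.sum_eq_sum_iff_of_le hle).mp ?_ P ((hT P).mpr hP)
  rw [hsum, Finset.sum_const, nsmul_eq_mul, mul_comm, hcard]

/-- Without elliptic points of order `3`, `j` has order `3` at its zeros. -/
theorem ord_jL_eq_three (hν : nuThree N = 0) {P : Place Qb (FN N Qb)}
    (hP : 0 < P.ord (jL N Qb - algebraMap Qb (FN N Qb) ((0 : ℕ) : Qb))) :
    P.ord (jL N Qb - algebraMap Qb (FN N Qb) ((0 : ℕ) : Qb)) = (3 : ℕ) :=
  ord_jL_sub_eq N (z := rhoH) (by rw [jA_rhoH, map_natCast, Nat.cast_zero]) ST_smul_rhoH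
    Nat.prime_three (by rw [multJ, if_pos jA_rhoH])
    (SL2.ST_cube_smul_coset (SL2.neg_one_mem_Gamma0 N)) isPrimitiveRoot_ST
    ((Fermat.MF.card_fixed_ST (N := N)).trans hν) hP

/-- Without elliptic points of order `2`, `j - 1728` has order `2` at its zeros. -/
theorem ord_jL_eq_two (hν : nuTwo N = 0) {P : Place Qb (FN N Qb)}
    (hP : 0 < P.ord (jL N Qb - algebraMap Qb (FN N Qb) ((1728 : ℕ) : Qb))) :
    P.ord (jL N Qb - algebraMap Qb (FN N Qb) ((1728 : ℕ) : Qb)) = (2 : ℕ) :=
  ord_jL_sub_eq N (z := UpperHalfPlane.I) (by rw [jA_I, map_natCast]; norm_num) S_smul_I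
    Nat.prime_two (by rw [multJ, jA_I, if_neg (by norm_num), if_pos rfl])
    (SL2.S_sq_smul_coset (SL2.neg_one_mem_Gamma0 N))
    isPrimitiveRoot_S ((Fermat.MF.card_fixed_S (N := N)).trans hν) hP

end CharZero

section Transport

variable {K L : Type*} [Field K] [Field L] [Algebra K L] {S T : IntermediateField K L}

/-- A fixed order at the zeros transported along an equality of fields. -/
theorem forall_ord_eq_of_eq (h : S = T) {xS : S} {xT : T} (e : (xS : L) = xT) {n : ℤ}
    (H : ∀ P : Place K T, 0 < P.ord xT → P.ord xT = n) :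
    ∀ P : Place K S, 0 < P.ord xS → P.ord xS = n := by
  subst h
  obtain rfl : xS = xT := Subtype.ext e
  exact H

/-- A divisibility of orders transported along an equality of fields. -/
theorem forall_dvd_ord_of_eq (h : S = T) {jS zS : S} {jT zT : T} (ej : (jS : L) = jT)
    (ez : (zS : L) = zT) {n : ℤ} (H : ∀ P : Place K S, OrdGE P jS 0 → n ∣ P.ord zS) :
    ∀ P : Place K T, OrdGE P jT 0 → n ∣ P.ord zT := by
  subst h
  obtain rfl : jS = jT := Subtype.ext ej
  obtain rfl : zS = zT := Subtype.ext ez
  exact H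

attribute [local instance 10000] SubalgebraClass.toAlgebra HahnSeries.powerSeriesAlgebra

end Transport

section Reduce

variable (M q : ℕ) [NeZero M] (hq : q.Prime) (hqM : ¬ q ∣ M)
variable {A : ValuationSubring (AlgebraicClosure ℚ)} (hA : A.LiesOverPrime q)
  [IsAlgClosed (IsLocalRing.ResidueField A)]

local notation "kA" => IsLocalRing.ResidueField A
local notation "jk" => jX (IsLocalRing.ResidueField A) M

include hq hqM hA in
/-- If all zeros of `j - m` have order `n` in characteristic zero, the orders of `j - m` on the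
reduced curve are multiples of `n`. -/
theorem dvd_ord_jk_sub {m n : ℕ}
    (H : ∀ [FF.IsFunctionField Qb (FN M Qb)] (P : Place Qb (FN M Qb)),
      0 < P.ord (jL M Qb - algebraMap Qb (FN M Qb) (m : Qb)) →
      P.ord (jL M Qb - algebraMap Qb (FN M Qb) (m : Qb)) = (n : ℕ))
    (s : Place kA (FX kA M)) (hs : OrdGE s jk 0) :
    (n : ℤ) ∣ s.ord (jk - algebraMap kA (FX kA M) (m : kA)) := by
  classical
  have hM := natCast_ne_zero_residue A hq hA hqM
  obtain ⟨i1, i2⟩ := isFunctionField_X0 (L := Qb) (A := A) (π := IsLocalRing.residue A)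
    IsLocalRing.residue_surjective hM
  have := i1
  have := i2
  have : FF.IsFunctionField Qb (FN M Qb) := MC.isFunctionField_FN M embC
  have h := goodModel_X0 (L := Qb) (A := A) (π := IsLocalRing.residue A)
    IsLocalRing.residue_surjective hM
  obtain ⟨hn, -⟩ := normal_X0 (L := Qb) (A := A) embC IsLocalRing.residue_surjective hM
  set G : FX Qb M := jX Qb M - algebraMap Qb (FX Qb M) (m : Qb) with hG
  -- the hypothesis on the model with full constants
  have hGeq : ∀ P : Place Qb (FX Qb M), 0 < P.ord G → P.ord G = (n : ℤ) :=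
    forall_ord_eq_of_eq (fullC_eq_baseChange Qb M).symm (xS := G)
      (xT := jL M Qb - algebraMap Qb (FN M Qb) (m : Qb))
      (by rw [hG, AddSubgroupClass.coe_sub, AddSubgroupClass.coe_sub, coe_jL]; rfl)
        fun P hP => H P hP
  have hmA : (m : Qb) ∈ A := natCast_mem A m
  have hGc : G ∈ chart A (jX Qb M) := by
    refine sub_mem (self_mem_chart _) ?_
    rw [map_natCast]
    exact natCast_mem _ m
  -- the reduction of `j - m`
  have hr : redS (IsLocalRing.residue A) (expX Qb M) G =
      redS (IsLocalRing.residue A) (expX Qb M) (jX Qb M) -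
        algebraMap kA _ (m : kA) := by
    rw [hG, redS_sub h.int_self (h.int_algebraMap hmA), h.redS_algebraMap hmA]
    congr 2
  have hr0 : redS (IsLocalRing.residue A) (expX Qb M) G ≠ 0 := fun h0 => by
    rw [hr, sub_eq_zero] at h0
    exact h.transcendental_redS (h0 ▸ isAlgebraic_algebraMap _)
  have hej : (redS (IsLocalRing.residue A) (expX Qb M) (jX Qb M) : LaurentSeries kA) =
      jqModC kA := by
    rw [coe_redS, redF_jX]
  refine forall_dvd_ord_of_eq (specField_X0 (L := Qb) (A := A) (π := IsLocalRing.residue A)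
    IsLocalRing.residue_surjective hM)
    (jS := redS (IsLocalRing.residue A) (expX Qb M) (jX Qb M))
    (zS := redS (IsLocalRing.residue A) (expX Qb M) G)
    (jT := jk) (zT := jk - algebraMap kA (FX kA M) (m : kA)) hej ?_ (fun Q hQ => ?_) s hs
  · rw [hr, AddSubgroupClass.coe_sub, AddSubgroupClass.coe_sub, hej]
    rfl
  -- sum the orders over the places reducing to `Q`
  rw [← h.sum_ord_eq hn hGc hr0 hQ
    ((finite_setOf_ord_ne_zero (K := Qb) G).toFinset.filter
      fun P => Reduces A (IsLocalRing.residue A) (expX Qb M) (jX Qb M) P Q)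
    (fun P => by simp [Finset.mem_filter, Set.Finite.mem_toFinset])]
  refine Finset.dvd_sum fun P hP => ?_
  rw [Finset.mem_filter, Set.Finite.mem_toFinset] at hP
  have hge : OrdGE P G 0 := hP.2.inChart.1.sub (FF.ordGE_algebraMap P _)
  have hpos : 0 < P.ord G := by
    rcases ordGE_iff.mp hge with h0 | h0
    · exact absurd (by rw [h0, Place.ord_zero]) hP.1
    · exact lt_of_le_of_ne h0 (fun e => hP.1 e.symm)
  rw [hGeq P hpos]

include hq hqM hA in
/-- Without elliptic points of order `3`, `3` divides the orders of the reduced `j` at finite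
points. -/
theorem three_dvd_ord_jk (hν : nuThree M = 0) (s : Place kA (FX kA M)) (hs : OrdGE s jk 0) :
    (3 : ℤ) ∣ s.ord jk := by
  have h := dvd_ord_jk_sub M q hq hqM hA (m := 0) (n := 3)
    (fun P hP => ord_jL_eq_three M hν hP) s hs
  simpa using h

include hq hqM hA in
/-- Without elliptic points of order `2`, `2` divides the orders of the reduced `j - 1728` at
finite points. -/
theorem two_dvd_ord_jk_sub (hν : nuTwo M = 0) (s : Place kA (FX kA M)) (hs : OrdGE s jk 0) :
    (2 : ℤ) ∣ s.ord (jk - 1728) := by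
  have h := dvd_ord_jk_sub M q hq hqM hA (m := 1728) (n := 2)
    (fun P hP => ord_jL_eq_two M hν hP) s hs
  rw [map_natCast] at h
  exact_mod_cast h

end Reduce

end Fermat.CAR

end
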