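import Fermat.Agent.CAR.Theta
import Fermat.Agent.CAR.ThetaLift

/-!
# Orders of `(q d/dq x) ^ (q - 1)` at ordinary points and cusps, and the glued points

Without elliptic points `(θ x) ^ (q - 1)` is a unit at the ordinary points where it is regular and
`x` is a uniformiser up to a constant; every glued point has order twelve and is defined over the
field of `q²` elements.
-/

set_option autoImplicit false
set_option linter.unusedSectionVars false

attribute [local instance 10000] SubalgebraClass.toAlgebra HahnSeries.powerSeriesAlgebra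

noncomputable section

open ModularCurve AlgebraicCurve

namespace Fermat.CAR

open Fermat.FF Fermat.MC Fermat.RED Fermat.RED.Model Fermat.BAD.X0

local notation "Qb" => AlgebraicClosure ℚ

section Generic

variable {K F : Type*} [Field K] [Field F] [Algebra K F] [IsAlgClosed K] [FF.IsFunctionField K F]

/-- A differential `df` vanishes to order at least that of `f` minus one where `f` is regular. -/
theorem le_ordDifferential_D (v : Place K F) {f : F} (hf : OrdGE v f 0)
    (hne : KaehlerDifferential.D K F f ≠ 0) :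
    v.ord f - 1 ≤ v.ordDifferential (KaehlerDifferential.D K F f) := by
  obtain ⟨t, ht0, ht⟩ := exists_ord_eq_one v
  obtain ⟨δ, hδt, hδ, hreg⟩ := exists_dt v ht
  have hδ0 : δ f ≠ 0 := fun h => hne (by rw [hδ f, h, zero_smul])
  have h0 := (hreg f hf).le_ord hδ0
  rw [hδ f, ordDifferential_smul_D v ht]
  by_cases hf1 : v.ord f ≤ 1
  · omega
  push Not at hf1
  obtain ⟨n, hn⟩ : ∃ n : ℕ, v.ord f = (n + 1 : ℕ) := ⟨(v.ord f).toNat - 1, by omega⟩
  have hf0 : f ≠ 0 := fun h => by rw [h, Place.ord_zero] at hn; omega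
  set u := f / t ^ (n + 1) with hu
  have hfu : f = t ^ (n + 1) * u := by rw [hu, mul_div_cancel₀ _ (pow_ne_zero _ ht0)]
  have huord : v.ord u = 0 := by
    rw [hu, ord_div v hf0 (pow_ne_zero _ ht0), hn, ord_pow, ht]; omega
  have hu1 : OrdGE v u 0 := ordGE_iff.mpr (.inr huord.ge)
  have hge : OrdGE v (δ f) n := by
    rw [hfu, Derivation.leibniz, Derivation.leibniz_pow, hδt]
    simp only [smul_eq_mul, nsmul_eq_mul, mul_one, Nat.add_sub_cancel]
    have hb : OrdGE v (u * (algebraMap K F ((n + 1 : ℕ) : K) * t ^ n)) (n : ℤ) :=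
      (hu1.mul ((ordGE_algebraMap v ((n + 1 : ℕ) : K)).mul ((ordGE_ord v t).pow n))).mono
        (by rw [ht]; simp)
    rw [map_natCast] at hb
    exact OrdGE.add ((((ordGE_ord v t).pow (n + 1)).mul (hreg u hu1)).mono
      (by rw [ht]; push_cast; omega)) hb
  have := hge.le_ord hδ0
  omega

/-- Subtracting a nonzero constant from a function with a zero gives order zero. -/
theorem ord_sub_algebraMap_eq_zero {v : Place K F} {f : F} {c : K} (hf : 0 < v.ord f) (hc : c ≠ 0) :
    v.ord (f - algebraMap K F c) = 0 := by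
  rw [sub_eq_add_neg, add_comm, (ord_add_of_lt v (g := f)
    (neg_ne_zero.mpr ((_root_.map_ne_zero _).mpr hc))
      (by rw [ord_neg, ord_algebraMap]; exact hf)).1,
    ord_neg, ord_algebraMap]

/-- Constants have zero differential. -/
theorem D_sub_algebraMap (f : F) (c : K) :
    KaehlerDifferential.D K F (f - algebraMap K F c) = KaehlerDifferential.D K F f := by
  rw [map_sub, Derivation.map_algebraMap, sub_zero]

/-- The local arithmetic: the divisibilities leave no room for a zero. -/
theorem ramification_le_zero {q : ℕ} [CharP K q] (hq : 5 ≤ q) (v : Place K F) {f : F}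
    (hD : KaehlerDifferential.D K F f ≠ 0) (hf : OrdGE v f 0) {a : K} (ha : a ≠ 0)
    (hfa : f - algebraMap K F a ≠ 0) (h3 : (3 : ℤ) ∣ v.ord f)
    (h2 : (2 : ℤ) ∣ v.ord (f - algebraMap K F a))
    (h0 : 0 ≤ -6 * v.ordDifferential (KaehlerDifferential.D K F f) + 4 * v.ord f +
      3 * v.ord (f - algebraMap K F a)) :
    -6 * v.ordDifferential (KaehlerDifferential.D K F f) + 4 * v.ord f +
      3 * v.ord (f - algebraMap K F a) ≤ 0 := by
  have hf0 : f ≠ 0 := fun h => hD (by rw [h, map_zero])
  have hd0 : 0 ≤ v.ordDifferential (KaehlerDifferential.D K F f) := ordDifferential_D_nonneg v hf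
  have hg : OrdGE v (f - algebraMap K F a) 0 := hf.sub (FF.ordGE_algebraMap v a)
  have hcast : ∀ e : ℕ, 0 < e → e < 5 → ((e : ℤ) : K) ≠ 0 := fun e he1 he2 h => by
    rw [Int.cast_natCast, CharP.cast_eq_zero_iff K q] at h
    have := Nat.le_of_dvd he1 h
    omega
  have hlo := le_ordDifferential_D v hf hD
  have hlo' := le_ordDifferential_D v hg (by rwa [D_sub_algebraMap])
  rw [D_sub_algebraMap] at hlo'
  rcases eq_or_lt_of_le (hf.le_ord hf0) with hj0 | hjpos
  · rcases eq_or_lt_of_le (hg.le_ord hfa) with hj1 | hj1pos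
    · omega
    · have he2 : v.ord (f - algebraMap K F a) = ((2 : ℕ) : ℤ) := by push_cast; omega
      have := ordDifferential_D_eq v (f := f - algebraMap K F a)
        (by rw [he2]; exact hcast 2 two_pos (by norm_num))
      rw [D_sub_algebraMap, he2] at this
      push_cast at this he2
      omega
  · have h1 := ord_sub_algebraMap_eq_zero hjpos ha
    have he3 : v.ord f = ((3 : ℕ) : ℤ) := by push_cast; omega
    have := ordDifferential_D_eq v (f := f) (by rw [he3]; exact hcast 3 three_pos (by norm_num))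
    rw [he3] at this
    push_cast at this he3
    omega

end Generic

section Derivative

variable {k : Type*} [Field k] [IsAlgClosed k] (M : ℕ) [NeZero M] [FF.IsFunctionField k (FX k M)]

/-- Expansion of differentials: if `dx = c dj` then `θ x = c θ j`. -/
theorem exists_thetaS_eq (hM : (M : k) ≠ 0) (x : FX k M) :
    ∃ c : FX k M, KaehlerDifferential.D k (FX k M) x = c • KaehlerDifferential.D k
      (FX k M) (jX k M) ∧
      thetaS (x : LaurentSeries k) = (c : LaurentSeries k) * thetaS (jqModC k) := by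
  have hne := D_ne_zero_of_separable (Cusps.transcendental_jX (k := k) (M := M))
    (Cusps.isSeparable_jX hM)
  obtain ⟨c, hc⟩ := (finrank_eq_one_iff_of_nonzero' _ hne).mp finrank_kaehler_eq_one
    (KaehlerDifferential.D k (FX k M) x)
  refine ⟨c, hc.symm, ?_⟩
  have : IsScalarTower k (FX k M) (LaurentSeries k) := ⟨fun a b z => by
    change ((a • b : FX k M) : LaurentSeries k) * z = a • ((b : LaurentSeries k) * z)
    rw [Algebra.smul_def, MulMemClass.coe_mul, mul_assoc, laurent_smul_def]
    rfl⟩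
  let θ : Derivation k (FX k M) (LaurentSeries k) :=
    { toFun := fun f => thetaS (f : LaurentSeries k)
      map_add' := fun f g => thetaS_add (f : LaurentSeries k) (g : LaurentSeries k)
      map_smul' := fun a f => (thetaDer k).map_smul a (f : LaurentSeries k)
      map_one_eq_zero' := thetaS_one
      leibniz' := fun f g => thetaS_mul (f : LaurentSeries k) (g : LaurentSeries k) }
  have h1 := congrArg θ.liftKaehlerDifferential hc.symm
  rw [map_smul, Derivation.liftKaehlerDifferential_comp_D,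
    Derivation.liftKaehlerDifferential_comp_D]
    at h1
  exact h1

end Derivative

variable (M q : ℕ) [NeZero M] [NeZero q] [Fact q.Prime] (hq : q.Prime) (hqM : ¬ q ∣ M)
variable [FF.IsFunctionField Qb (FN (M * q) Qb)] [FF.IsFunctionField Qb (FN M Qb)]
variable {A : ValuationSubring (AlgebraicClosure ℚ)} (hA : A.LiesOverPrime q)
  [IsAlgClosed (IsLocalRing.ResidueField A)] [CharP (IsLocalRing.ResidueField A) q]
  [FF.IsFunctionField (IsLocalRing.ResidueField A) (FX (IsLocalRing.ResidueField A) M)]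

local notation "kA" => IsLocalRing.ResidueField A
local notation "jk" => jX (IsLocalRing.ResidueField A) M

/-- The expansion of `hbar`. -/
theorem coe_hbar : (hbar M q hq hqM hA : LaurentSeries kA) = hSer kA q := rfl

/-- The reduced `j` is not the constant `1728`. -/
theorem jk_sub_ne_zero : jk - 1728 ≠ 0 := fun h => by
  refine Cusps.transcendental_jX (k := kA) (M := M) ?_
  rw [sub_eq_zero.mp h, ← map_ofNat (algebraMap kA (FX kA M)) 1728]
  exact isAlgebraic_algebraMap _

/-- The expansion of the reduced `j - 1728`. -/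
theorem coe_jk_sub : ((jk - 1728 : FX kA M) : LaurentSeries kA) = jqModC kA - 1728 := rfl

/-- The basic identity in the function field. -/
theorem pow_mul_hbar_eq {w c : FX kA M}
    (hw : (w : LaurentSeries kA) = ((c : LaurentSeries kA) * thetaS (jqModC kA)) ^ (q - 1)) :
    w ^ 6 * hbar M q hq hqM hA = (c ^ 6 * jk ^ 4 * (jk - 1728) ^ 3) ^ (q - 1) := by
  refine Subtype.ext ?_
  simp only [MulMemClass.coe_mul, SubmonoidClass.coe_pow, coe_hbar, coe_jk_sub]
  rw [hw, show (jk : LaurentSeries kA) = jqModC kA from rfl, ← pow_mul, mul_comm (q - 1) 6, mul_pow,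
    mul_assoc, thetaS_jq_pow_hSer kA q, pow_mul, ← mul_pow]
  ring

/-- The order identity between `(c θ j) ^ (q - 1)`, `hbar`, `j` and `j - 1728` on the reduced
curve. -/
theorem ord_pow_mul_hbar {v : Place kA (FX kA M)} {w c : FX kA M} (hc : c ≠ 0)
    (hw : (w : LaurentSeries kA) = ((c : LaurentSeries kA) * thetaS (jqModC kA)) ^ (q - 1)) :
    w ≠ 0 ∧ 6 * v.ord w + v.ord (hbar M q hq hqM hA) =
      ((q - 1 : ℕ) : ℤ) * (6 * v.ord c + 4 * v.ord jk + 3 * v.ord (jk - 1728)) := by
  have h1 := pow_mul_hbar_eq M q hq hqM hA hw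
  have hj := Model.jX_ne_zero (L := kA) M
  have hj' := jk_sub_ne_zero M (A := A)
  have hr : (c ^ 6 * jk ^ 4 * (jk - 1728) ^ 3) ^ (q - 1) ≠ 0 :=
    pow_ne_zero _ (mul_ne_zero (mul_ne_zero (pow_ne_zero _ hc) (pow_ne_zero _ hj))
      (pow_ne_zero _ hj'))
  have hw0 : w ≠ 0 := fun h => hr (by rw [← h1, h, zero_pow (by norm_num : (6 : ℕ) ≠ 0), zero_mul])
  refine ⟨hw0, ?_⟩
  have h2 := congrArg v.ord h1
  rw [v.ord_mul (pow_ne_zero _ hw0) (hbar_ne_zero M q hq hqM hA), ord_pow, ord_pow,
    v.ord_mul (mul_ne_zero (pow_ne_zero _ hc) (pow_ne_zero _ hj)) (pow_ne_zero _ hj'),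
    v.ord_mul (pow_ne_zero _ hc) (pow_ne_zero _ hj), ord_pow, ord_pow, ord_pow] at h2
  push_cast at h2 ⊢
  exact h2

/-- `hbar` has order zero at finite points which are not glued. -/
theorem ord_hbar_eq_zero {s : Place kA (FX kA M)} (hs : OrdGE s jk 0)
    (hss : s ∉ SS M q hq hqM hA) : s.ord (hbar M q hq hqM hA) = 0 := by
  obtain ⟨g, -, -, hg⟩ := exists_hSer_eq_aeval q hq hA
  have he : hbar M q hq hqM hA = Polynomial.aeval jk g := by
    refine (expX kA M).injective ?_
    rw [expX_aeval]
    exact hg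
  have h1 := (ordGE_aeval hs g)
  rw [← he] at h1
  have h2 := h1.le_ord (hbar_ne_zero M q hq hqM hA)
  have h3 : ¬ 0 < s.ord (hbar M q hq hqM hA) := fun h => hss ((mem_SS M q hq hqM hA).mpr ⟨hs, h⟩)
  omega

/-- When `q` divides `240`, `hbar` is a power of the reduced `j`. -/
theorem hbar_eq_jk_pow (h : q ∣ 240) : hbar M q hq hqM hA = jk ^ (q - 1) :=
  Subtype.ext (by rw [SubmonoidClass.coe_pow, coe_hbar]; exact hSer_eq_jq_pow kA q h)

include hq hqM hA in
/-- **`(θ x) ^ (q - 1)` is a unit at an ordinary point where it is regular.** -/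
theorem ord_theta_of_ordGE (hne : NoElliptic M) {s : Place kA (FX kA M)} (hs : OrdGE s jk 0)
    (hss : s ∉ SS M q hq hqM hA) {x w : FX kA M} {a : kA}
    (hord : s.ord (x - algebraMap kA (FX kA M) a) = 1)
    (hw : (w : LaurentSeries kA) = thetaS (x : LaurentSeries kA) ^ (q - 1)) (hw0 : OrdGE s w 0) :
    w ≠ 0 ∧ s.ord w = 0 := by
  have hM := natCast_ne_zero_residue A hq hA hqM
  -- `θ x` is `c` times `θ j`, and `ord c` is fixed by `ord D(j)`
  obtain ⟨c, hD, hθ⟩ := exists_thetaS_eq M hM x
  rw [hθ] at hw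
  set Ω := KaehlerDifferential.D kA (FX kA M) jk with hΩdef
  have hΩ : Ω ≠ 0 := D_ne_zero_of_separable (Cusps.transcendental_jX (k := kA) (M := M))
    (Cusps.isSeparable_jX hM)
  have hDt : KaehlerDifferential.D kA (FX kA M) (x - algebraMap kA (FX kA M) a) = c • Ω := by
    rw [map_sub, Derivation.map_algebraMap, sub_zero, hD]
  have hc : c ≠ 0 := fun h => D_ne_zero_of_ord_eq_one s hord (by rw [hDt, h, zero_smul])
  have hd := ordDifferential_D_eq s (f := x - algebraMap kA (FX kA M) a) (by rw [hord]; simp)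
  rw [hord, hDt, ordDifferential_smul s hc hΩ, sub_self] at hd
  have hd0 : 0 ≤ s.ordDifferential Ω := ordDifferential_D_nonneg s hs
  obtain ⟨hwne, heq⟩ := ord_pow_mul_hbar M q hq hqM hA (v := s) hc hw
  refine ⟨hwne, ?_⟩
  have hwge := hw0.le_ord hwne
  -- the Hasse invariant is a unit here, so it is enough that `6 c + 4 j + 3 (j - 1728)` is `≤ 0`
  rw [ord_hbar_eq_zero M q hq hqM hA hs hss, add_zero] at heq
  have hq1 : (1 : ℤ) ≤ ((q - 1 : ℕ) : ℤ) := by
    have := hq.two_le
    exact_mod_cast (by omega : 1 ≤ q - 1)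
  set E := 6 * s.ord c + 4 * s.ord jk + 3 * s.ord (jk - 1728) with hE
  clear_value E
  have hE0 : 0 ≤ E := nonneg_of_mul_nonneg_right (a := ((q - 1 : ℕ) : ℤ))
    (by linarith) (by linarith)
  suffices E ≤ 0 by rw [le_antisymm this hE0, mul_zero] at heq; linarith
  -- small `q` directly, otherwise by the ramification over `0` and `1728`
  by_cases hsmall : q ≤ 3
  · have h240 : q ∣ 240 := by
      have := hq.two_le
      interval_cases q <;> norm_num
    have h0 := ord_hbar_eq_zero M q hq hqM hA hs hss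
    rw [hbar_eq_jk_pow M q hq hqM hA h240, ord_pow] at h0
    have hj0 : s.ord jk = 0 := (mul_eq_zero.mp h0).resolve_left (by omega)
    have h1728 : (1728 : FX kA M) = 0 := by
      rw [← map_ofNat (algebraMap kA (FX kA M)) 1728, ← Nat.cast_ofNat, map_eq_zero,
        CharP.cast_eq_zero_iff kA q]
      have := hq.two_le
      interval_cases q <;> norm_num
    rw [h1728, sub_zero, hj0] at hE
    omega
  push Not at hsmall
  have h5 : ¬ q ∣ 1728 := fun h => by
    rw [show (1728 : ℕ) = 2 ^ 6 * 3 ^ 3 by norm_num] at h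
    rcases hq.dvd_mul.mp h with h | h
    · have := (Nat.prime_dvd_prime_iff_eq hq Nat.prime_two).mp (hq.dvd_of_dvd_pow h)
      omega
    · have := (Nat.prime_dvd_prime_iff_eq hq Nat.prime_three).mp (hq.dvd_of_dvd_pow h)
      omega
  have h1728 : (1728 : kA) ≠ 0 := fun h =>
    h5 ((CharP.cast_eq_zero_iff kA q 1728).mp (by exact_mod_cast h))
  have h5' : 5 ≤ q := by
    have : q ≠ 4 := fun h => by rw [h] at hq; norm_num at hq
    omega
  have hsub : jk - 1728 = jk - algebraMap kA (FX kA M) 1728 := by rw [map_ofNat]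
  have h2 := two_dvd_ord_jk_sub M q hq hqM hA hne.two s hs
  have hz := jk_sub_ne_zero M (A := A)
  rw [hsub] at h2 hz hE
  have := ramification_le_zero (q := q) h5' s hΩ hs h1728 hz
    (three_dvd_ord_jk M q hq hqM hA hne.three s hs) h2 (by rw [← hΩdef]; omega)
  rw [← hΩdef] at this
  omega

include hq hqM hA in
/-- **`(θ j / j) ^ (q - 1)` is a unit at the cusps.** -/
theorem ord_theta_cusp {s : Place kA (FX kA M)} (hs : s.ord jk < 0) {w : FX kA M}
    (hw : (w : LaurentSeries kA) = (thetaS (jqModC kA) * (jqModC kA)⁻¹) ^ (q - 1)) :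
    w ≠ 0 ∧ s.ord w = 0 := by
  have hj := Model.jX_ne_zero (L := kA) M
  obtain ⟨hwne, heq⟩ := ord_pow_mul_hbar M q hq hqM hA (v := s) (c := jk⁻¹) (inv_ne_zero hj)
    (w := w) (by rw [hw, mul_comm]; rfl)
  refine ⟨hwne, ?_⟩
  obtain ⟨g, hg0, hgd, hg⟩ := exists_hSer_eq_aeval q hq hA
  have he : hbar M q hq hqM hA = Polynomial.aeval jk g := by
    refine (expX kA M).injective ?_
    rw [expX_aeval]
    exact hg
  have h1 : s.ord (jk - 1728) = s.ord jk := by
    rw [show jk - 1728 = jk + algebraMap kA (FX kA M) (-1728) by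
      rw [map_neg, map_ofNat, sub_eq_add_neg]]
    exact (ord_eq_of_ordGE_lt s hj ((FF.ordGE_algebraMap s _).mono (by omega))).1
  rw [s.ord_inv, h1, he, ord_aeval_of_neg hs hg0, hgd] at heq
  linarith

end Fermat.CAR

end
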