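import Fermat.Agent.CAR.PtChar
import Fermat.Agent.CAR.ThetaOrd

/-!
# The ordinary finite points of the branch at `∞`

The two maps from level `M q` keep regularity over the finite `j`-line.  At a finite ordinary
point of the branch at `∞` the function `phiLow` is an indicator and `q` generates the branch.
-/

set_option autoImplicit false
set_option linter.unusedSectionVars false

noncomputable section

open ModularCurve AlgebraicCurve

namespace Fermat.CAR

attribute [local instance 10000] algFN smulFN algFX smulFX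

open Fermat.FF Fermat.MC Fermat.RED Fermat.RED.Model Fermat.BAD.X0 Fermat.EC.Val

local notation "Qb" => AlgebraicClosure ℚ

section Series

variable (k : Type*) [Field k] (q : ℕ) [Fact q.Prime] [CharP k q] [NeZero q]

/-- `hSer` is defined over the prime field. -/
theorem coeffMap_frobenius_hSer : coeffMap (frobenius k q) (hSer k q) = hSer k q := by
  simp only [hSer, map_mul, ModularCurve.coeffMap_qExpand, coeffMap_deltaSeries,
    coeffMap_deltaSeriesInv]

/-- Raising the variable of `hSer` to the power `q` is raising it to the power `q`. -/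
theorem qExpand_hSer : qExpand k q (hSer k q) = hSer k q ^ q := by
  conv_lhs => rw [← coeffMap_frobenius_hSer k q]
  exact (laurent_pow_char q (hSer k q)).symm

end Series

variable {M q : ℕ} [NeZero M] [NeZero q] {A : ValuationSubring (AlgebraicClosure ℚ)}
variable (hq : q.Prime) (hqM : ¬ q ∣ M)
variable [Fact q.Prime] [IsAlgClosed (IsLocalRing.ResidueField A)]
variable [CharP (IsLocalRing.ResidueField A) q]
variable [FF.IsFunctionField Qb (FN M Qb)] [FF.IsFunctionField Qb (FN (M * q) Qb)]
  [FF.IsFunctionField Qb (FN (M * q * q) Qb)]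

local notation "kA" => IsLocalRing.ResidueField A

/-- The first map preserves integrality over the finite coordinate. -/
theorem alpha_mem_intClosure_qq {f : FN (M * q) Qb} (hf : f ∈ intClosure Qb (aj M q)) :
    heckeAlphaBar Qb (M * q) q f ∈ intClosure Qb (aM M q (xch M true)) :=
  map_mem_intClosure (heckeAlphaBar Qb (M * q) q) hf

include hq hqM in
/-- The second map keeps regularity over the finite `j`-line. -/
theorem beta_mem_intClosure_qq {f : FN (M * q) Qb} (hf : f ∈ intClosure Qb (aj M q)) :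
    heckeBetaBar Qb (M * q) q f ∈ intClosure Qb (aM M q (xch M true)) := by
  refine mem_intClosure_trans ?_
      (map_mem_intClosure (heckeBetaBar Qb (M * q) q) hf)
  rw [show heckeBetaBar Qb (M * q) q (aj M q) = heckeAlphaBar Qb (M * q) q (bj M q) from
    (alpha_beta_comm M q (jL M Qb)).symm]
  exact alpha_mem_intClosure_qq (bj_mem_intClosure M q hq hqM)

/-- Functions regular over the finite `j`-line are regular on the tubes there. -/
theorem BChar.ordGE_of_intClosure (χ : BChar M q A true) {f : FN (M * q * q) Qb}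
    (hf : f ∈ intClosure Qb (aM M q (xch M true))) {P : Place Qb (FN (M * q * q) Qb)}
    (hP : P ∈ χ.tube) : OrdGE P f 0 :=
  FF.mem_intClosure_iff.mp hf P hP.1

variable (h : IsPlace A q)
variable [FF.IsFunctionField (IsLocalRing.ResidueField A) (FX (IsLocalRing.ResidueField A) M)]

include hq hqM h

/-- `hbar` is a unit at finite ordinary points. -/
theorem evalAt_hbar_ne_zero {s : Place kA (FX kA M)} (hs : OrdGE s (jX kA M) 0)
    (hss : s ∉ SS M q hq hqM h.2) :
    OrdGE s (hbar M q hq hqM h.2) 0 ∧ evalAt s (hbar M q hq hqM h.2) ≠ 0 := by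
  have h0 := ord_hbar_eq_zero M q hq hqM h.2 hs hss
  have hne := hbar_ne_zero M q hq hqM h.2
  have hreg : OrdGE s (hbar M q hq hqM h.2) 0 := ordGE_iff.mpr (.inr h0.ge)
  refine ⟨hreg, fun he => ?_⟩
  have := ((evalAt_eq_zero_iff hreg).mp he).le_ord hne
  omega

/-- The reduction of `phiLow` at `∞`. -/
theorem resC_phiLow (hm : phiLow M q hq hqM ∈ OC M q hq hqM A .low) :
    resC M q hq hqM A .low ⟨phiLow M q hq hqM, hm⟩ =
      ((hbar M q hq hqM h.2 ^ q : FX kA M) : LaurentSeries kA) := by
  rw [resC_apply, SubmonoidClass.coe_pow, coe_hbar, ← qExpand_hSer]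
  have e : brC M q hq hqM .low (phiLow M q hq hqM) =
      qExpand Qb q (coeffMap A.subtype (hSer A q)) := by
    rw [brC_low, phiLow, coe_heckeBetaBar, ← emb_true M q hq hqM, emb_wn, Bool.not_true,
      emb_false_un, ← coeffMap_subtype_hSer (A := A) q]
  have hg : coeffMap A.subtype (hSer A q) ∈ gS A := coeffMap_mem_gS _
  refine (congrArg (sR A) (Subtype.ext (a2 := ⟨_, (redCompat_qExpand q).map_mem hg⟩) e)).trans ?_
  rw [(redCompat_qExpand q).sR_map hg, sR_coeffMap, coeffMap_residue_hSer]

/-- On the low branch `q` generates. -/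
theorem hasParam_low {b : Bool} {χ : BChar M q A b} {s : Place kA (FX kA M)}
    (hs' : OrdGE s (xbar M kA b) 0) (hres : ∀ f, χ.res f = evalAt s (redB hq hqM h .low f))
    (hpt : χ.IsPoint hq hqM {Br.low} s) : χ.HasParam hq hqM {Br.low} := by
  have hqmem : (q : FN (M * q * q) Qb) ∈ χ.loc := natCast_mem χ.loc q
  have hq0 : (q : FN (M * q * q) Qb) ≠ 0 := by
    rw [← map_natCast (algebraMap Qb (FN (M * q * q) Qb)), _root_.map_ne_zero]
    exact Nat.cast_ne_zero.mpr hq.ne_zero
  refine hasParam_of_generator hq hqM h χ .low (by simp) hs' hres hpt ⟨_, hqmem⟩ hq0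
    (by rw [gv_natCast_q M q hq hqM h .low]; exact one_pos) fun f hf hpos => ?_
  refine BChar.mem_loc_of hq hqM h hpt (div_mem (χ.loc_le_ratFld f.2) (χ.loc_le_ratFld hqmem))
    (fun P hP => ?_) fun C hC => ?_
  · have hr := (χ.regular_of_mem_loc (f := f) hP).1
    change OrdGE P ((f : FN (M * q * q) Qb) / (q : FN (M * q * q) Qb)) 0
    rw [div_eq_mul_inv, ← map_natCast (algebraMap Qb (FN (M * q * q) Qb)), ← map_inv₀]
    exact (hr.mul (FF.ordGE_algebraMap P _)).mono (add_zero (0 : ℤ)).ge
  · obtain rfl := Finset.mem_singleton.mp hC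
    change (f : FN (M * q * q) Qb) / (q : FN (M * q * q) Qb) ∈ OC M q hq hqM A .low
    rw [mem_OC, brC_mem_iff M q hq hqM h .low (div_ne_zero hf hq0), div_eq_mul_inv,
      gv_mul M q hq hqM h .low hf (inv_ne_zero hq0), gv_inv M q hq hqM h .low hq0,
      gv_natCast_q M q hq hqM h .low]
    obtain ⟨k, hk⟩ := exists_int_gv_low M q hq hqM h hf (χ.loc_le_ratFld f.2)
    rw [hk] at hpos ⊢
    have h1 : (1 : ℤ) ≤ k := by exact_mod_cast hpos
    have h2 : (1 : ℚ) ≤ (k : ℚ) := by exact_mod_cast h1
    linarith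

/-- **Finite ordinary points of the branch at `∞`.** -/
theorem exists_point_low {s : Place kA (FX kA M)} (hs : OrdGE s (jX kA M) 0)
    (hss : s ∉ SS M q hq hqM h.2) :
    ∃ χ : BChar M q A true, χ.IsPoint hq hqM {Br.low} s ∧ χ.HasParam hq hqM {Br.low} := by
  have hs' : OrdGE s (xbar M kA true) 0 := hs
  obtain ⟨χ, hres⟩ : ∃ χ : BChar M q A true, ∀ f, χ.res f = evalAt s (redB hq hqM h .low f) :=
    ⟨ptChar true hq hqM h .low s hs', fun f => ptChar_res hq hqM h .low s hs' f⟩
  obtain ⟨g0, g1, g2⟩ := gv_phiLow M q hq hqM h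
  have hne := phiLow_ne_zero M q hq hqM
  have hOC : phiLow M q hq hqM ∈ OC M q hq hqM A .low :=
    (brC_mem_iff M q hq hqM h .low hne).mpr g0.ge
  obtain ⟨hh, hh0⟩ := evalAt_hbar_ne_zero hq hqM h hs hss
  have hpt : χ.IsPoint hq hqM {Br.low} s := isPoint_of_indicator hq hqM h χ .low s hs' hres
    (phiLow_mem_ratFld M q hq hqM)
    (fun P hP => χ.ordGE_of_intClosure
      (beta_mem_intClosure_qq hq hqM (wn_mem_intClosure M q hq hqM)) hP)
    (fun D => by cases D <;> simp [g0, g1, g2])
    (fun D hD => by cases D <;> simp_all)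
    hOC (resC_phiLow hq hqM h hOC).symm ((hh.pow q).mono (mul_zero (q : ℤ)).ge)
    (by rw [FF.evalAt_pow hh]; exact pow_ne_zero q hh0)
  exact ⟨χ, hpt, hasParam_low hq hqM h hs' hres hpt⟩

end Fermat.CAR

end
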