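import Fermat.Agent.CAR.Branch
import Fermat.Agent.BAD.X0.Unit

/-!
# Reductions on the three branches

The reductions of functions on the outer branches and of rational functions on the middle one lie
in the reduced field of level `M`: a suitable function kills all other branches over the expansion
of level `M q`, so that a trace gives the reduction.
-/

set_option autoImplicit false
set_option linter.unusedSectionVars false

attribute [local instance 10000] SubalgebraClass.toAlgebra HahnSeries.powerSeriesAlgebra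

noncomputable section

open ModularCurve

namespace Fermat.CAR

open Fermat.FF Fermat.MC Fermat.JAC.X0 Fermat.RED Fermat.RED.Model Fermat.BAD.X0 Fermat.EC.Val

local notation "Qb" => AlgebraicClosure ℚ

variable (M q : ℕ) [NeZero M] [NeZero q] (hq : q.Prime) (hqM : ¬ q ∣ M)
variable (A : ValuationSubring (AlgebraicClosure ℚ))

/-- The functions integral at the generic point of a branch. -/
def OC (C : Br) : Subring (FN (M * q * q) Qb) := (gS A).comap (brC M q hq hqM C)

/-- Membership in `OC`. -/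
theorem mem_OC {C : Br} {f : FN (M * q * q) Qb} :
    f ∈ OC M q hq hqM A C ↔ brC M q hq hqM C f ∈ gS A := Iff.rfl

/-- The reduction on a branch. -/
def resC (C : Br) : OC M q hq hqM A C →+* LaurentSeries (IsLocalRing.ResidueField A) :=
  (sR A).comp (((brC M q hq hqM C).comp (OC M q hq hqM A C).subtype).codRestrict (gS A)
    fun f => f.2)

/-- `resC` is the reduction of the expansion on the branch. -/
theorem resC_apply (C : Br) (f : FN (M * q * q) Qb) (hf : f ∈ OC M q hq hqM A C) :
    resC M q hq hqM A C ⟨f, hf⟩ = sR A ⟨brC M q hq hqM C f, hf⟩ := rfl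

/-- The involution exchanges regularity on the top and the low branch. -/
theorem mem_OC_alW2 {f : FN (M * q * q) Qb} :
    alW2 M q hq hqM f ∈ OC M q hq hqM A .low ↔ f ∈ OC M q hq hqM A .top := Iff.rfl

/-- The involution exchanges regularity on the low and the top branch. -/
theorem mem_OC_top_alW2 {f : FN (M * q * q) Qb} :
    alW2 M q hq hqM f ∈ OC M q hq hqM A .top ↔ f ∈ OC M q hq hqM A .low := by
  rw [mem_OC, mem_OC, brC_top_alW2]

/-- The reduction on the top branch is that of the image on the low branch. -/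
theorem resC_top_eq (f : FN (M * q * q) Qb) (hf : f ∈ OC M q hq hqM A .top) :
    resC M q hq hqM A .top ⟨f, hf⟩ = resC M q hq hqM A .low ⟨alW2 M q hq hqM f, hf⟩ := rfl

variable [Fact q.Prime]

/-- A function of nonzero reduction at `∞` and positive orders on the other branches. -/
def phiLow : FN (M * q * q) Qb := heckeBetaBar Qb (M * q) q (wn M q hq hqM)

/-- The same on the middle branches. -/
def phiMid : FN (M * q * q) Qb :=
  heckeAlphaBar Qb (M * q) q (wn M q hq hqM) * heckeBetaBar Qb (M * q) q (un M q)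

/-- The same on the branch opposite to `∞`. -/
def phiTop : FN (M * q * q) Qb := heckeAlphaBar Qb (M * q) q (un M q)

/-- The involution maps `phiLow` to `phiTop`. -/
theorem alW2_phiLow : alW2 M q hq hqM (phiLow M q hq hqM) = phiTop M q := by
  rw [phiLow, alW2_beta, wn, alW_alW]
  rfl

variable {A}

local notation "kA" => IsLocalRing.ResidueField A

variable [IsAlgClosed (IsLocalRing.ResidueField A)]
variable [CharP (IsLocalRing.ResidueField A) q] (h : IsPlace A q)
include h

/-- This ratio of two discriminants has valuation zero. -/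
theorem gIs_hSer : GIs A q (deltaSeries Qb * qExpand Qb q (deltaSeriesInv Qb)) 0 :=
  Prim.gIs h ⟨(coeffMap_subtype_hSer (A := A) q) ▸ coeffMap_mem_gS _, by
    simp only [← coeffMap_subtype_hSer (A := A) q]
    rw [sR_coeffMap, coeffMap_residue_hSer]
    exact hSer_ne_zero _ q⟩

/-- `q ^ 12 Δ (q z) / Δ (z)` has Gauss order `12`. -/
theorem gIs_q12 : GIs A q
    ((q : LaurentSeries Qb) ^ 12 * qExpand Qb q (deltaSeries Qb) * deltaSeriesInv Qb) 12 := by
  have h1 : GIs A q ((q : LaurentSeries Qb) ^ 12) 12 := by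
    have h0 := (gIs_const (c := (q : Qb)) (Nat.cast_ne_zero.mpr h.1.ne_zero)).pow h 12
    rw [map_natCast] at h0
    have e : ord A q (q : Qb) = 1 := ord_q h
    rwa [e, Nat.cast_ofNat, mul_one] at h0
  have h2 : GIs A q (qExpand Qb q (deltaSeries Qb) * deltaSeriesInv Qb) 0 := by
    have e : qExpand Qb q (deltaSeries Qb) * deltaSeriesInv Qb =
        (deltaSeries Qb * qExpand Qb q (deltaSeriesInv Qb))⁻¹ := by
      refine eq_inv_of_mul_eq_one_left ?_
      calc qExpand Qb q (deltaSeries Qb) * deltaSeriesInv Qb *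
            (deltaSeries Qb * qExpand Qb q (deltaSeriesInv Qb))
          = (deltaSeries Qb * deltaSeriesInv Qb) *
            qExpand Qb q (deltaSeries Qb * deltaSeriesInv Qb) := by rw [map_mul]; ring
        _ = 1 := by rw [deltaSeries_mul_inv, map_one, mul_one]
    rw [e]
    simpa using (gIs_hSer q h).inv h
  rw [mul_assoc]
  simpa using h1.mul h h2

omit h in
/-- Pulling an expansion back by `qExpand` keeps its valuation. -/
theorem gIs_qExpand {z : LaurentSeries Qb} {r : ℚ} (hz : GIs A q z r) :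
    GIs A q (qExpand Qb q z) r := by
  obtain ⟨c, p, hc, hr, hp, rfl⟩ := hz
  refine ⟨c, qExpand Qb q p, hc, hr, (redCompat_qExpand q).prim hp, ?_⟩
  rw [map_mul, algebraMap_laurentSeries_eq_single, qExpand_single, mul_zero]

/-- `phiLow` has order `0` on the low branch and `12` on the other two. -/
theorem gv_phiLow : gv M q hq hqM A .low (phiLow M q hq hqM) = 0 ∧
    gv M q hq hqM A .mid (phiLow M q hq hqM) = 12 ∧
    gv M q hq hqM A .top (phiLow M q hq hqM) = 12 := by
  refine ⟨gv_eq M q hq hqM h ?_, gv_eq M q hq hqM h ?_, gv_eq M q hq hqM h ?_⟩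
  · rw [brC_low, phiLow, coe_heckeBetaBar]
    refine gIs_qExpand q ?_
    rw [← emb_true M q hq hqM, emb_wn, Bool.not_true, emb_false_un]
    exact gIs_hSer q h
  · rw [brC_mid, phiLow, br11_beta, emb_wn, Bool.not_false, emb_true_un]
    exact gIs_twist (zpw_pow q _) (gIs_q12 q h)
  · change GIs A q (br02 M q hq hqM (phiLow M q hq hqM)) 12
    rw [phiLow, br02_beta, emb_wn, Bool.not_false, emb_true_un]
    exact gIs_q12 q h

/-- The function `phiMid` has order `12` on both outer branches and `0` on the middle one. -/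
theorem gv_phiMid : gv M q hq hqM A .low (phiMid M q hq hqM) = 12 ∧
    gv M q hq hqM A .mid (phiMid M q hq hqM) = 0 ∧
    gv M q hq hqM A .top (phiMid M q hq hqM) = 12 := by
  refine ⟨gv_eq M q hq hqM h ?_, gv_eq M q hq hqM h ?_, gv_eq M q hq hqM h ?_⟩
  · rw [brC_low, phiMid, MulMemClass.coe_mul, coe_heckeAlphaBar, coe_heckeBetaBar,
      ← emb_true M q hq hqM, ← emb_true M q hq hqM, emb_wn, Bool.not_true, emb_false_un,
      emb_true_un]
    have := (gIs_hSer q h).mul h (gIs_qExpand q (gIs_q12 q h))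
    rwa [zero_add] at this
  · rw [brC_mid, phiMid, map_mul, br11_alpha, br11_beta, ← emb_true M q hq hqM, emb_wn,
      Bool.not_true, emb_false_un]
    have := (gIs_hSer q h).mul h (gIs_twist (zpw_pow q (1 : Fin q)) (gIs_hSer q h))
    rwa [add_zero] at this
  · change GIs A q (br02 M q hq hqM (phiMid M q hq hqM)) 12
    rw [phiMid, map_mul, br02_alpha, br02_beta, emb_wn, Bool.not_false, emb_true_un, emb_false_un]
    have := (gIs_qExpand q (gIs_q12 q h)).mul h (gIs_hSer q h)
    rwa [add_zero] at this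

omit h in
/-- `phiLow` is nonzero. -/
theorem phiLow_ne_zero : phiLow M q hq hqM ≠ 0 := fun h0 => by
  have h1 : wn M q hq hqM = 0 := (heckeBetaBar Qb (M * q) q).injective (h0.trans (map_zero _).symm)
  have := un_mul_wn M q hq hqM
  rw [h1, mul_zero] at this
  exact pow_ne_zero 12 (Nat.cast_ne_zero.mpr hq.ne_zero) this.symm

/-- `phiMid` is nonzero. -/
theorem phiMid_ne_zero : phiMid M q hq hqM ≠ 0 := fun h0 => by
  have h1 := (gv_phiMid M q hq hqM h).1
  have h2 : gv M q hq hqM A .low (0 : FN (M * q * q) Qb) = 0 := by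
    rw [gv, dif_neg]
    rintro ⟨r, hr⟩
    exact hr.ne_zero (map_zero _)
  rw [h0, h2] at h1
  norm_num at h1

omit h in
/-- `phiLow` is invariant. -/
theorem phiLow_mem_ratFld : phiLow M q hq hqM ∈ ratFld M q A := by
  refine mem_ratFld_iff.mpr fun σ _ => ?_
  rw [phiLow, gal2_beta, wn, galAut_alW]
  refine congrArg _ (congrArg _ ?_)
  refine Subtype.ext ((coe_arithmeticGalois_smul _ σ _).trans ?_)
  rw [← emb_true M q hq hqM (un M q), emb_true_un]
  simp only [map_mul, map_pow, map_natCast, ModularCurve.coeffMap_qExpand, coeffMap_deltaSeries,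
    coeffMap_deltaSeriesInv]

omit h in
/-- `phiMid` is invariant. -/
theorem phiMid_mem_ratFld : phiMid M q hq hqM ∈ ratFld M q A := by
  refine mul_mem ?_ ?_
  · have hh := alW2_mem_ratFld M q hq hqM (phiLow_mem_ratFld (A := A) M q hq hqM)
    refine mem_ratFld_iff.mpr fun σ hσ => ?_
    have h1 := mem_ratFld_iff.mp hh σ hσ
    rw [alW2_phiLow, phiTop, gal2_alpha] at h1
    rw [gal2_alpha, wn, galAut_alW, (heckeAlphaBar Qb (M * q) q).injective h1]
  · refine mem_ratFld_iff.mpr fun σ hσ => ?_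
    have h1 := mem_ratFld_iff.mp (phiLow_mem_ratFld M q hq hqM) σ hσ
    rw [phiLow, gal2_beta, wn, galAut_alW] at h1
    rw [gal2_beta, (alW M q hq hqM).injective ((heckeBetaBar Qb (M * q) q).injective h1)]

omit h in
/-- Reductions at level `M q` lie in the reduced field of level `M`. -/
theorem sR_emb_mem (hA : A.LiesOverPrime q) (b : Bool) (g : FN (M * q) Qb)
    (hg : emb M q hq hqM b g ∈ gS A) :
    sR A ⟨emb M q hq hqM b g, hg⟩ ∈ modularFunctionFieldFullC kA M := by
  set K := modularFunctionFieldFullC kA M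
  -- clear denominators
  obtain ⟨u, a, ha, hu, hu0, hgu⟩ := denom M q hq hqM hA b g
  have hi : ∀ (f : FN (M * q) Qb) (hf : emb M q hq hqM b f ∈ intSeries A),
      sR A ⟨emb M q hq hqM b f, int_mem_gS hf⟩ =
        redF (IsLocalRing.residue A) (emb M q hq hqM b) f := fun f hf => by
    obtain ⟨y, hy⟩ := id hf
    rw [redF_of_mem hf]
    refine ((congrArg (sR A) (Subtype.ext hy.symm)).trans
      (sR_coeffMap y (coeffMap_mem_gS y))).trans ?_
    rw [← redHom_coeffMap (IsLocalRing.residue A) y ⟨y, rfl⟩]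
    exact congrArg _ (Subtype.ext hy)
  have hh : emb M q hq hqM b (g * u) ∈ gS A := by rw [map_mul]; exact mul_mem hg (int_mem_gS hu)
  -- it is enough to treat `g u`
  suffices hm : sR A ⟨emb M q hq hqM b (g * u), hh⟩ ∈ K by
    have e : sR A ⟨emb M q hq hqM b (g * u), hh⟩ =
        sR A ⟨emb M q hq hqM b g, hg⟩ * redF (IsLocalRing.residue A) (emb M q hq hqM b) u := by
      rw [← hi u hu, ← map_mul]
      exact congrArg _ (Subtype.ext (map_mul _ g u))
    have hd := div_mem (e ▸ hm) (redF_mem M q hq hqM hA b u hu)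
    rwa [mul_div_cancel_right₀ _ hu0] at hd
  by_cases h0 : g * u = 0
  · rw [show (⟨emb M q hq hqM b (g * u), hh⟩ : gS A) = 0 from Subtype.ext (by
      change emb M q hq hqM b (g * u) = 0
      rw [h0, map_zero]), map_zero]
    exact zero_mem _
  -- normalise by the scalar attaining the minimum
  obtain ⟨a', ha', ha'0⟩ := attained M q hq hqM hA b (a • (g * u))
    (smul_ne_zero ha h0) hgu
  rw [smul_smul] at ha' ha'0
  set c := a' * a
  have hc0 : c ≠ 0 := fun hc => ha'0 (by rw [hc, zero_smul, redF_zero])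
  have hP : Prim A (emb M q hq hqM b (c • (g * u))) :=
    ⟨int_mem_gS ha', by rw [hi _ ha']; exact ha'0⟩
  -- the scalar is integral
  have hcA : c⁻¹ ∈ A := by
    by_contra hn
    have h' : IsPlace A q := ⟨hq, hA⟩
    have hG : GIs A q (emb M q hq hqM b (g * u)) (ord A q c⁻¹) :=
      ⟨c⁻¹, _, inv_ne_zero hc0, rfl, hP, by
        rw [← emb_algebraMap M q hq hqM b, ← map_mul, Algebra.smul_def, ← mul_assoc, ← map_mul,
          inv_mul_cancel₀ hc0, map_one, one_mul]⟩
    exact hn ((mem_iff_ord h' (inv_ne_zero hc0)).mpr ((hG.mem_gS_iff h').mp hh))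
  have e : sR A ⟨emb M q hq hqM b (g * u), hh⟩ =
      algebraMap kA (LaurentSeries kA) (IsLocalRing.residue A ⟨c⁻¹, hcA⟩) *
        redF (IsLocalRing.residue A) (emb M q hq hqM b) (c • (g * u)) := by
    rw [← sR_algebraMap hcA, ← hi _ ha', ← map_mul]
    refine congrArg _ (Subtype.ext ?_)
    change emb M q hq hqM b (g * u) = algebraMap Qb _ c⁻¹ * emb M q hq hqM b (c • (g * u))
    rw [← emb_algebraMap M q hq hqM b, ← map_mul, Algebra.smul_def, ← mul_assoc, ← map_mul,
      inv_mul_cancel₀ hc0, map_one, one_mul]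
  rw [e]
  exact mul_mem (K.algebraMap_mem _) (redF_mem M q hq hqM hA b _ ha')

/-- A nonzero function has a valuation on every intermediate expansion. -/
theorem exists_gIs_br11 {i : Fin q} (hi : i ≠ 0) {f : FN (M * q * q) Qb} (hf : f ≠ 0) :
    ∃ r, GIs A q (br11 M q hq hqM hi f) r := by
  obtain ⟨σ, hσ, he⟩ := exists_inertia_zpw q h.2 (one_ne_zero_fin q hq) hi
  have hne : (gal2 M q σ)⁻¹ • f ≠ 0 := fun h0 => hf (by
    have := congrArg (gal2 M q σ • ·) h0
    simpa using this)
  have h1 := coeffMap_br11 M q hq hqM (one_ne_zero_fin q hq) hi he ((gal2 M q σ)⁻¹ • f)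
  rw [smul_inv_smul] at h1
  exact ⟨_, h1 ▸ gIs_inertia h hσ (gIs_gv M q hq hqM h .mid hne)⟩

omit h in
/-- The trace to level `M q` expands as the sum of the expansions over `∞`. -/
theorem coe_trA_alpha (z : FN (M * q * q) Qb) :
    ((trA (heckeAlphaBar Qb (M * q) q) z : FN (M * q) Qb) : LaurentSeries Qb) =
      ∑ i, brAlpha M q hq hqM i z := by
  have : IsFunctionField Qb (FN (M * q) Qb) := MC.isFunctionField_FN (M * q) embC
  have : IsFunctionField Qb (FN (M * q * q) Qb) := MC.isFunctionField_FN (M * q * q) embC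
  exact trA_eq_sum (heckeAlphaBar Qb (M * q) q) (FN (M * q) Qb).val.toRingHom
    (brAlpha M q hq hqM) (brAlpha_alpha M q hq hqM) (brAlpha_injective M q hq hqM)
    (by rw [Fintype.card_fin, finrankAlong_alpha2 M q hq]) z

/-- Positive valuation gives zero reduction. -/
theorem sR_of_pos {z : LaurentSeries Qb} {r : ℚ} (hz : GIs A q z r) (hr : 0 < r)
    (hm : z ∈ gS A) : sR A ⟨z, hm⟩ = 0 :=
  (hz.sR_eq_zero h hr).choose_spec

/-- The reduction at `∞` lies in the reduced field of level `M`. -/
theorem resC_low_mem (f : FN (M * q * q) Qb) (hf : f ∈ OC M q hq hqM A .low) :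
    resC M q hq hqM A .low ⟨f, hf⟩ ∈ modularFunctionFieldFullC kA M := by
  classical
  by_cases hf0 : f = 0
  · subst hf0
    rw [show (⟨0, hf⟩ : OC M q hq hqM A .low) = 0 from rfl, map_zero]
    exact zero_mem _
  choose r hr using fun i : {i : Fin q // i ≠ 0} => exists_gIs_br11 M q hq hqM h i.2 hf0
  obtain ⟨N, hN⟩ : ∃ N : ℕ, ∀ i, -r i < (12 : ℚ) * N := by
    obtain ⟨N, hN⟩ := exists_nat_gt (∑ i, |r i|)
    refine ⟨N, fun i => ?_⟩
    have h1 := Finset.single_le_sum (fun j _ => abs_nonneg (r j)) (Finset.mem_univ i)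
    have h2 := neg_abs_le (r i)
    nlinarith
  -- if the middle branches vanish on reduction, the trace carries the reduction to level `M q`
  have key : ∀ g : FN (M * q * q) Qb, (hg : g ∈ OC M q hq hqM A .low) →
      (∀ i (hi : i ≠ 0), ∃ s, 0 < s ∧ GIs A q (br11 M q hq hqM hi g) s) →
      resC M q hq hqM A .low ⟨g, hg⟩ ∈ modularFunctionFieldFullC kA M := by
    intro g hg hpos
    have hterm : ∀ i, ∃ hm : brAlpha M q hq hqM i g ∈ gS A,
        sR A ⟨_, hm⟩ = if i = 0 then resC M q hq hqM A .low ⟨g, hg⟩ else 0 := fun i => by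
      rcases eq_or_ne i 0 with rfl | hi
      · refine ⟨by rw [brAlpha_zero]; exact hg, ?_⟩
        rw [if_pos rfl]
        refine congrArg (sR A) (Subtype.ext ?_)
        change brAlpha M q hq hqM 0 g = _
        rw [brAlpha_zero]
        rfl
      · obtain ⟨s, hs, hG⟩ := hpos i hi
        rw [← brAlpha_of_ne M q hq hqM hi] at hG
        refine ⟨(hG.mem_gS_iff h).mpr hs.le, ?_⟩
        rw [if_neg hi]
        exact sR_of_pos q h hG hs _
    choose hm hs using hterm
    have ht : emb M q hq hqM true (trA (heckeAlphaBar Qb (M * q) q) g) ∈ gS A := by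
      rw [emb_true, coe_trA_alpha M q hq hqM]
      exact sum_mem fun i _ => hm i
    have := sR_emb_mem M q hq hqM h.2 true _ ht
    have e : (⟨_, ht⟩ : gS A) = ∑ i, ⟨_, hm i⟩ := Subtype.ext (by
      change ((trA _ g : FN (M * q) Qb) : LaurentSeries Qb) = _
      rw [coe_trA_alpha M q hq hqM, AddSubmonoidClass.coe_finsetSum])
    rw [e, map_sum, Finset.sum_congr rfl fun i _ => hs i, Finset.sum_ite_eq',
      if_pos (Finset.mem_univ _)] at this
    exact this
  obtain ⟨hφ0, hφm, -⟩ := gv_phiLow M q hq hqM h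
  have hφne := phiLow_ne_zero M q hq hqM
  have hφ : phiLow M q hq hqM ∈ OC M q hq hqM A .low :=
    (brC_mem_iff M q hq hqM h .low hφne).mpr hφ0.ge
  have hφp : ∀ n : ℕ, ∀ i (hi : i ≠ 0), GIs A q (br11 M q hq hqM hi (phiLow M q hq hqM ^ n))
      ((12 : ℚ) * n) := fun n i hi => by
    have h0 := (gIs_br11 M q hq hqM h hi hφne (phiLow_mem_ratFld M q hq hqM)).pow h n
    rw [map_pow]
    rwa [hφm, mul_comm (n : ℚ)] at h0
  -- a power of `phiLow` makes them vanish; divide it out again
  have h1 := key (f * phiLow M q hq hqM ^ N) (mul_mem hf (pow_mem hφ N)) fun i hi =>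
    ⟨r ⟨i, hi⟩ + 12 * N, by linarith [hN ⟨i, hi⟩], by
      rw [map_mul]; exact (hr ⟨i, hi⟩).mul h (hφp N i hi)⟩
  have h2 := key (phiLow M q hq hqM ^ (N + 1)) (pow_mem hφ _) fun i hi =>
    ⟨(12 : ℚ) * (N + 1 : ℕ), by positivity, hφp _ i hi⟩
  have h3 := key (phiLow M q hq hqM) hφ fun i hi =>
    ⟨12, by norm_num, by simpa using hφp 1 i hi⟩
  have hne : resC M q hq hqM A .low ⟨_, hφ⟩ ≠ 0 :=
    ((prim_iff M q hq hqM h .low hφne).mpr hφ0).2
  have e : resC M q hq hqM A .low ⟨f, hf⟩ =
      resC M q hq hqM A .low ⟨_, mul_mem hf (pow_mem hφ N)⟩ /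
        resC M q hq hqM A .low ⟨_, hφ⟩ ^ N := by
    rw [eq_div_iff (pow_ne_zero _ hne), ← map_pow, ← map_mul]
    rfl
  rw [e]
  exact div_mem h1 (pow_mem h3 N)

/-- The reduction on the top branch is a function on the reduced curve. -/
theorem resC_top_mem (f : FN (M * q * q) Qb) (hf : f ∈ OC M q hq hqM A .top) :
    resC M q hq hqM A .top ⟨f, hf⟩ ∈ modularFunctionFieldFullC kA M := by
  have h1 := resC_low_mem M q hq hqM h (alW2 M q hq hqM f)
    ((mem_OC_alW2 M q hq hqM A).mpr hf)
  have e := resC_top_eq M q hq hqM A f hf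
  exact e.symm ▸ h1

/-- The reductions of a rational function on all middle branches agree. -/
theorem sR_br11 {i : Fin q} (hi : i ≠ 0) {f : FN (M * q * q) Qb} (hr : f ∈ ratFld M q A)
    (hf : f ∈ OC M q hq hqM A .mid) :
    ∃ hm : br11 M q hq hqM hi f ∈ gS A, sR A ⟨_, hm⟩ = resC M q hq hqM A .mid ⟨f, hf⟩ := by
  obtain ⟨σ, hσ, he⟩ := exists_inertia_zpw q h.2 (one_ne_zero_fin q hq) hi
  have h1 := coeffMap_br11 M q hq hqM (one_ne_zero_fin q hq) hi he f
  rw [mem_ratFld_iff.mp hr σ hσ] at h1
  refine ⟨h1 ▸ (redCompat_inertia hσ).map_mem hf, ?_⟩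
  have h2 := (redCompat_inertia hσ).sR_map hf
  rw [RingHom.id_apply] at h2
  exact (congrArg (sR A) (Subtype.ext h1.symm)).trans h2

/-- The reduction of a rational function on the middle branches lies in the reduced field of
level `M`. -/
theorem resC_mid_mem (f : FN (M * q * q) Qb) (hr : f ∈ ratFld M q A)
    (hf : f ∈ OC M q hq hqM A .mid) :
    resC M q hq hqM A .mid ⟨f, hf⟩ ∈ modularFunctionFieldFullC kA M := by
  classical
  by_cases hf0 : f = 0
  · subst hf0
    rw [show (⟨0, hf⟩ : OC M q hq hqM A .mid) = 0 from rfl, map_zero]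
    exact zero_mem _
  -- if the low branch vanishes on reduction, the trace is `q - 1 = -1` times the reduction
  have key : ∀ g : FN (M * q * q) Qb, g ∈ ratFld M q A → (hg : g ∈ OC M q hq hqM A .mid) →
      (∃ s, 0 < s ∧ GIs A q (g : LaurentSeries Qb) s) →
      resC M q hq hqM A .mid ⟨g, hg⟩ ∈ modularFunctionFieldFullC kA M := by
    rintro g hgr hg ⟨s, hs, hG⟩
    have hterm : ∀ i, ∃ hm : brAlpha M q hq hqM i g ∈ gS A,
        sR A ⟨_, hm⟩ = if i = 0 then 0 else resC M q hq hqM A .mid ⟨g, hg⟩ := fun i => by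
      rcases eq_or_ne i 0 with rfl | hi
      · have hG' : GIs A q (brAlpha M q hq hqM 0 g) s := by rw [brAlpha_zero]; exact hG
        refine ⟨(hG'.mem_gS_iff h).mpr hs.le, ?_⟩
        rw [if_pos rfl]
        exact sR_of_pos q h hG' hs _
      · obtain ⟨hm, he⟩ := sR_br11 M q hq hqM h hi hgr hg
        refine ⟨by rw [brAlpha_of_ne M q hq hqM hi]; exact hm, ?_⟩
        rw [if_neg hi, ← he]
        refine congrArg (sR A) (Subtype.ext ?_)
        change brAlpha M q hq hqM i g = _
        rw [brAlpha_of_ne M q hq hqM hi]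
    choose hm hs' using hterm
    have ht : emb M q hq hqM true (trA (heckeAlphaBar Qb (M * q) q) g) ∈ gS A := by
      rw [emb_true, coe_trA_alpha M q hq hqM]
      exact sum_mem fun i _ => hm i
    have h1 := sR_emb_mem M q hq hqM h.2 true _ ht
    have e : (⟨_, ht⟩ : gS A) = ∑ i, ⟨_, hm i⟩ := Subtype.ext (by
      change ((trA _ g : FN (M * q) Qb) : LaurentSeries Qb) = _
      rw [coe_trA_alpha M q hq hqM, AddSubmonoidClass.coe_finsetSum])
    rw [e, map_sum, Finset.sum_congr rfl fun i _ => hs' i, Finset.sum_ite, Finset.sum_const_zero,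
      zero_add, Finset.sum_const, Finset.filter_ne', Finset.card_erase_of_mem (Finset.mem_univ _),
      Finset.card_univ, Fintype.card_fin, nsmul_eq_mul, Nat.cast_sub hq.one_le, Nat.cast_one] at h1
    have : CharP (LaurentSeries kA) q :=
      charP_of_injective_algebraMap (algebraMap kA (LaurentSeries kA)).injective q
    rw [CharP.cast_eq_zero (LaurentSeries kA) q, zero_sub, neg_one_mul] at h1
    simpa using neg_mem h1
  obtain ⟨hφl, hφ0, -⟩ := gv_phiMid M q hq hqM h
  have hφne := phiMid_ne_zero M q hq hqM h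
  have hφr := phiMid_mem_ratFld M q hq hqM (A := A)
  have hφ : phiMid M q hq hqM ∈ OC M q hq hqM A .mid :=
    (brC_mem_iff M q hq hqM h .mid hφne).mpr hφ0.ge
  -- a power of `phiMid` makes it vanish; divide it out again
  obtain ⟨N, hN⟩ : ∃ N : ℕ, -gv M q hq hqM A .low f < (12 : ℚ) * N := by
    obtain ⟨N, hN⟩ := exists_nat_gt (|gv M q hq hqM A .low f|)
    exact ⟨N, by have := neg_abs_le (gv M q hq hqM A .low f); linarith⟩
  have hlow : ∀ n : ℕ, gv M q hq hqM A .low (phiMid M q hq hqM ^ n) = (12 : ℚ) * n := fun n => by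
    rw [gv_pow M q hq hqM h .low hφne, hφl]; ring
  have h1 := key (f * phiMid M q hq hqM ^ N) (mul_mem hr (pow_mem hφr N))
    (mul_mem hf (pow_mem hφ N)) ⟨gv M q hq hqM A .low f + 12 * N, by linarith, by
      have h0 := gIs_gv M q hq hqM h .low (mul_ne_zero hf0 (pow_ne_zero N hφne))
      rwa [gv_mul M q hq hqM h .low hf0 (pow_ne_zero N hφne), hlow] at h0⟩
  have h3 := key (phiMid M q hq hqM) hφr hφ
    ⟨12, by norm_num, hφl ▸ gIs_gv M q hq hqM h .low hφne⟩
  have hne : resC M q hq hqM A .mid ⟨_, hφ⟩ ≠ 0 :=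
    ((prim_iff M q hq hqM h .mid hφne).mpr hφ0).2
  have e : resC M q hq hqM A .mid ⟨f, hf⟩ =
      resC M q hq hqM A .mid ⟨_, mul_mem hf (pow_mem hφ N)⟩ /
        resC M q hq hqM A .mid ⟨_, hφ⟩ ^ N := by
    rw [eq_div_iff (pow_ne_zero _ hne), ← map_pow, ← map_mul]
    rfl
  rw [e]
  exact div_mem h1 (pow_mem h3 N)

end Fermat.CAR

end
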