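import Fermat.Agent.CAR.SSTube
import Fermat.Agent.CAR.Base

/-!
# The three reductions take one value at a glued point

The coefficients of the characteristic polynomial of `f` along the first map from level `M q`
reduce to those of `(X - f₀) (X - f₁) ^ (q - 1)` on the component of `∞` and to those of
`X ^ q - φ f₂` on the other one; if all values of `f` over a glued point reduce to `r`, gluing at
level `M q` gives `f₀ = f₁ = f₂ = r` there.
-/

set_option autoImplicit false

attribute [local instance 10000] SubalgebraClass.toAlgebra HahnSeries.powerSeriesAlgebra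

noncomputable section

open ModularCurve AlgebraicCurve Polynomial

namespace Fermat.CAR

open Fermat.FF Fermat.MC Fermat.JAC Fermat.RED Fermat.RED.Model Fermat.BAD.X0 Fermat.EC.Val

local notation "Qb" => AlgebraicClosure ℚ

variable {A : ValuationSubring (AlgebraicClosure ℚ)}

local notation "kA" => IsLocalRing.ResidueField A

section General

variable {F F' : Type*} [Field F] [Field F'] [Algebra Qb F] [Algebra Qb F']
  [FF.IsFunctionField Qb F] [FF.IsFunctionField Qb F'] (φ : F →ₐ[Qb] F')

/-- The reductions of the coefficients of a characteristic polynomial. -/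
theorem sR_coeff_charA (bb : F →+* LaurentSeries Qb) {I : Type*} [Fintype I]
    (τ : I → (F' →+* LaurentSeries Qb)) (hN : ∀ g, bb (normAlong φ g) = ∏ i, τ i g)
    (hτ : ∀ i (c : Qb), τ i (algebraMap Qb F' c) = bb (algebraMap Qb F c)) (g : F')
    (hS : ∀ i, τ i g ∈ gS A) (n : ℕ) :
    ∃ hm : bb ((charA φ g).coeff n) ∈ gS A,
      sR A ⟨_, hm⟩ = (∏ i, (X - Polynomial.C (sR A ⟨τ i g, hS i⟩))).coeff n := by
  classical
  have hm := coeff_charA_mem φ bb τ hN hτ g (gS A) hS n
  refine ⟨hm, ?_⟩
  have hprod : (charA φ g).map bb =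
      (∏ i, (X - Polynomial.C (⟨τ i g, hS i⟩ : gS A))).map (gS A).subtype := by
    rw [map_charA φ bb τ hN hτ, Polynomial.map_prod]
    simp
  have hn := congrArg (fun p => p.coeff n) hprod
  simp only [coeff_map] at hn
  rw [show (⟨_, hm⟩ : gS A) = (∏ i, (X - Polynomial.C (⟨τ i g, hS i⟩ : gS A))).coeff n from
    Subtype.ext hn, ← coeff_map, Polynomial.map_prod]
  simp only [Polynomial.map_sub, Polynomial.map_X, Polynomial.map_C]

end General

variable (M q : ℕ) [NeZero M] [NeZero q] [Fact q.Prime] (hq : q.Prime) (hqM : ¬ q ∣ M)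
variable [FF.IsFunctionField Qb (FN M Qb)] [FF.IsFunctionField Qb (FN (M * q) Qb)]
  [FF.IsFunctionField Qb (FN (M * q * q) Qb)]
variable [IsAlgClosed (IsLocalRing.ResidueField A)] [CharP (IsLocalRing.ResidueField A) q]
  [FF.IsFunctionField (IsLocalRing.ResidueField A) (FX (IsLocalRing.ResidueField A) M)]
variable (h : IsPlace A q)

include hq hqM h

/-- The coefficients along the first map from level `M q` and their two reductions. -/
theorem charA_alpha_qq {f : FN (M * q * q) Qb} (hr : f ∈ ratFld M q A)
    (hf : f ∈ chart A (aM M q (xch M true))) (zl zm zt : FX kA M)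
    (hzl : (zl : LaurentSeries kA) =
      resC M q hq hqM A .low ⟨f, chart_le_OC M q hq hqM h true hf .low⟩)
    (hzm : (zm : LaurentSeries kA) =
      resC M q hq hqM A .mid ⟨f, chart_le_OC M q hq hqM h true hf .mid⟩)
    (hzt : (zt : LaurentSeries kA) =
      resC M q hq hqM A .top ⟨f, chart_le_OC M q hq hqM h true hf .top⟩) (n : ℕ) :
    ∃ hc : (charA (heckeAlphaBar Qb (M * q) q) f).coeff n ∈ chart A (aj M q),
      sR A ⟨_, chart_q_gS M q hq hqM h hc true⟩ =
          ((((X - Polynomial.C zl) * (X - Polynomial.C zm) ^ (q - 1)).coeff n : FX kA M) :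
            LaurentSeries kA) ∧
        sR A ⟨_, chart_q_gS M q hq hqM h hc false⟩ =
          (((X ^ q - Polynomial.C (frobAut M q (A := A) • zt)).coeff n : FX kA M) :
            LaurentSeries kA) := by
  classical
  set φ := heckeAlphaBar Qb (M * q) q
  let bb : FN (M * q) Qb →+* LaurentSeries Qb := (FN (M * q) Qb).val.toRingHom
  -- the norm along the first map is a product over branches, at either expansion of level `M q`
  have hN : ∀ g, bb (normAlong φ g) = ∏ i, brAlpha M q hq hqM i g := coe_normAlpha M q hq hqM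
  have hτ : ∀ i (c : Qb), brAlpha M q hq hqM i (algebraMap Qb _ c) =
      bb (algebraMap Qb (FN (M * q) Qb) c) := fun i c => by
    rw [← φ.commutes c]
    exact brAlpha_alpha M q hq hqM i _
  let bf : FN (M * q) Qb →+* LaurentSeries Qb := (qExpand Qb q).comp (emb M q hq hqM false)
  let τ' : Fin q → FN (M * q * q) Qb →+* LaurentSeries Qb := fun i =>
    (twist (zpw q (zetaQ q) i)).comp (br02 M q hq hqM)
  have hN' : ∀ g, bf (normAlong φ g) = ∏ i, τ' i g := qExpand_emb_false_normAlpha M q hq hqM
  have hτ' : ∀ i (c : Qb), τ' i (algebraMap Qb _ c) =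
      bf (algebraMap Qb (FN (M * q) Qb) c) := fun i c => by
    rw [← φ.commutes c]
    exact twist_br02_alpha M q hq hqM i _
  let x₁ := aj M q
  let ρ : Qb[X] →+* LaurentSeries Qb := bb.comp (aeval x₁).toRingHom
  -- the branches of `f` are integral over `j` and reduce to `zl` once, `zm` elsewhere, `zt` below
  have hρ : ∀ i, brAlpha M q hq hqM i f ∈ intOver ρ := fun i =>
    mem_intOver.mpr (isIntegralElem_branch (mem_intClosure_of_chart hf) _ ρ (fun c => by
      rw [hτ]
      change _ = bb (aeval x₁ (Polynomial.C c))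
      rw [aeval_C]) (by
      change brAlpha M q hq hqM i (φ x₁) = bb (aeval x₁ X)
      rw [aeval_X]
      exact brAlpha_alpha M q hq hqM i _))
  have hOC := chart_le_OC M q hq hqM h true hf
  have hbr : ∀ i, ∃ hm : brAlpha M q hq hqM i f ∈ gS A, sR A ⟨_, hm⟩ =
      if i = 0 then (zl : LaurentSeries kA) else (zm : LaurentSeries kA) := fun i => by
    rcases eq_or_ne i 0 with rfl | hi
    · refine ⟨by rw [brAlpha_zero]; exact hOC .low, ?_⟩
      rw [if_pos rfl, hzl, resC_apply]
      refine congrArg (sR A) (Subtype.ext ?_)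
      change brAlpha M q hq hqM 0 f = _
      rw [brAlpha_zero]
      rfl
    · obtain ⟨hm, he⟩ := sR_br11 M q hq hqM h hi hr (hOC .mid)
      refine ⟨by rw [brAlpha_of_ne M q hq hqM hi]; exact hm, ?_⟩
      rw [if_neg hi, hzm, ← he]
      refine congrArg (sR A) (Subtype.ext ?_)
      change brAlpha M q hq hqM i f = _
      rw [brAlpha_of_ne M q hq hqM hi]
  choose hS hsR using hbr
  have hS' : ∀ i, τ' i f ∈ gS A := fun i =>
    (redCompat_twist (A := A) (zpw_pow q i)).map_mem (hOC .top)
  have hsR' : ∀ i, sR A ⟨τ' i f, hS' i⟩ = (zt : LaurentSeries kA) := fun i => by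
    rw [hzt, resC_apply]
    exact sR_twist (A := A) (zpw_pow q i) (hOC .top)
  -- so the coefficients lie in the chart and reduce to those of the two products
  obtain ⟨hm, e⟩ := sR_coeff_charA φ bb (brAlpha M q hq hqM) hN hτ f hS n
  obtain ⟨hm', e'⟩ := sR_coeff_charA φ bf τ' hN' hτ' f hS' n
  have hgf : emb M q hq hqM false ((charA φ f).coeff n) ∈ gS A :=
    mem_gS_of_qExpand M q hq hqM h (alW M q hq hqM _) hm'
  have hgt : emb M q hq hqM true ((charA φ f).coeff n) ∈ gS A := hm
  have hc : (charA φ f).coeff n ∈ chart A (aj M q) :=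
    mem_chart_of_q M q hq hqM h (mem_intClosure_iff_elem.mpr
      ((RingHom.IsIntegralElem.map_iff (g := bb) (RingHom.injective _)).mp (mem_intOver.mp
        (coeff_charA_mem φ bb _ hN hτ f (intOver ρ) hρ n)))) fun c => by
      cases c
      · exact hgf
      · exact hgt
  refine ⟨hc, ?_, ?_⟩
  · refine ((congrArg (sR A) (Subtype.ext rfl)).trans e).trans ?_
    -- the first product is `(X - zl) (X - zm) ^ (q - 1)`
    simp only [hsR, ← Finset.mul_prod_erase Finset.univ _ (Finset.mem_univ (0 : Fin q)), if_pos]
    rw [Finset.prod_congr rfl fun i hi => by rw [if_neg (Finset.ne_of_mem_erase hi)],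
      Finset.prod_const, Finset.card_erase_of_mem (Finset.mem_univ _), Finset.card_univ,
      Fintype.card_fin]
    have hvm : ((X - Polynomial.C zl) * (X - Polynomial.C zm) ^ (q - 1)).map
        (modularFunctionFieldFullC kA M).val.toRingHom =
        (X - Polynomial.C (zl : LaurentSeries kA)) *
          (X - Polynomial.C (zm : LaurentSeries kA)) ^ (q - 1) := by
      simp
    rw [← hvm, coeff_map]
    rfl
  · refine qExpand_injective q ?_
    rw [← (redCompat_qExpand (A := A) q).sR_map (chart_q_gS M q hq hqM h hc false)]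
    refine ((congrArg (sR A) (Subtype.ext rfl)).trans e').trans ?_
    -- the second is `(X - zt) ^ q`, read through Frobenius
    simp only [hsR', Finset.prod_const, Finset.card_univ, Fintype.card_fin]
    have : CharP (LaurentSeries kA) q :=
      charP_of_injective_algebraMap (algebraMap kA (LaurentSeries kA)).injective q
    rw [sub_pow_char, ← Polynomial.C_pow, laurent_pow_char q, ← coe_frobAut_smul M q zt]
    have hvm : (X ^ q - Polynomial.C (frobAut M q (A := A) • zt)).map
        ((qExpand kA q).comp (modularFunctionFieldFullC kA M).val.toRingHom) =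
        X ^ q - Polynomial.C (qExpand kA q
          ((frobAut M q (A := A) • zt : FX kA M) : LaurentSeries kA)) := by
      simp
    rw [← hvm, coeff_map]
    rfl

variable (hne : NoElliptic M)
  {s : Place (IsLocalRing.ResidueField A) (FX (IsLocalRing.ResidueField A) M)}
  (hs : s ∈ SS M q hq hqM h.2)

include hne hs

/-- **Gluing.** If all values of a function over a glued point reduce to `r`, its three reductions
take the value `r` there. -/
theorem glue_qq {P : Place Qb (FN (M * q) Qb)}
    (hP : RedS (jL M Qb) (below (heckeAlphaBar Qb M q) P) s)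
    {f : FN (M * q * q) Qb} (hr : f ∈ ratFld M q A)
    (hf : f ∈ chart A (aM M q (xch M true))) {r : kA}
    (hval : ∀ Q ∈ above (heckeAlphaBar Qb (M * q) q) P,
      OrdGE Q f 0 ∧ Fermat.FLAT.red A (evalAt Q f) = r)
    (C : Br) (z : FX kA M)
    (hz : (z : LaurentSeries kA) =
      resC M q hq hqM A C ⟨f, chart_le_OC M q hq hqM h true hf C⟩) :
    evalAt s z = r := by
  classical
  set φ := heckeAlphaBar Qb (M * q) q
  have hOC := chart_le_OC M q hq hqM h true hf
  set zl : FX kA M := ⟨_, resC_low_mem M q hq hqM h f (hOC .low)⟩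
  set zm : FX kA M := ⟨_, resC_mid_mem M q hq hqM h f hr (hOC .mid)⟩
  set zt : FX kA M := ⟨_, resC_top_mem M q hq hqM h f (hOC .top)⟩
  have hs1 : OrdGE s (jX kA M) 0 := ((mem_SS M q hq hqM h.2).mp hs).1
  have hreg : ∀ D (y : FX kA M), (y : LaurentSeries kA) = resC M q hq hqM A D ⟨f, hOC D⟩ →
      OrdGE s y 0 := fun D y hy =>
    FF.mem_intClosure_iff.mp (resC_mem_intClosure M q hq hqM h true D hf y hy) s hs1
  -- the three reductions are regular at `s`
  have hla := hreg .low zl rfl
  have hma := hreg .mid zm rfl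
  have hta := hreg .top zt rfl
  have hφs : frobAut M q (A := A) • s = Qf M q s := by
    conv_lhs => rw [← Qf_Qf M q hq hqM h.2 hne hs]
    exact smul_inv_smul _ _
  have hta' : OrdGE (Qf M q s) (frobAut M q (A := A) • zt) 0 := hφs ▸ ordGE_smul _ hta
  have hev : evalAt (Qf M q s) (frobAut M q (A := A) • zt) = evalAt s zt ^ q := by
    have h1 := evalAt_smul (s := frobAut M q (A := A)) hta
    rw [hφs] at h1
    exact h1
  set a := evalAt s zl
  set b := evalAt s zm
  set c := evalAt s zt
  have hchart := charA_alpha_qq M q hq hqM h hr hf zl zm zt rfl rfl rfl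
  choose hc hT hF using hchart
  have hover : ∀ n, OrdGE P ((charA φ f).coeff n) 0 ∧ evalAt P ((charA φ f).coeff n) ∈ A ∧
      Fermat.FLAT.red A (evalAt P ((charA φ f).coeff n)) =
        evalAt s (((X - Polynomial.C zl) * (X - Polynomial.C zm) ^ (q - 1)).coeff n) := fun n =>
    residue_q M q hq hqM h hs hP (hc n) _ (hT n).symm
  -- the two reductions of each coefficient take equal values at `s` and at its Frobenius partner
  have hglue : ∀ n, evalAt s (((X - Polynomial.C zl) * (X - Polynomial.C zm) ^ (q - 1)).coeff n) =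
      evalAt (Qf M q s) ((X ^ q - Polynomial.C (frobAut M q (A := A) • zt)).coeff n) := fun n =>
    glue_gS M q hq hqM h (chart_q_intClosure M q (hc n))
      (chart_q_gS M q hq hqM h (hc n)) _ _ (hT n).symm (hF n).symm hs
  -- every value above `P` reduces to `r`, so the polynomial reduces to `(X - r) ^ q`
  obtain ⟨-, hres⟩ := residual_chP φ (P := P) (fun Q hQ => (hval Q hQ).1) (fun n => (hover n).1)
    (fun n => (hover n).2.1)
  have e1 : ∀ n, ((X - Polynomial.C r) ^ q).coeff n =
      Fermat.FLAT.red A (evalAt P ((charA φ f).coeff n)) := fun n => by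
    rw [← hres n, Finset.prod_congr rfl fun Q hQ => by rw [(hval Q hQ).2],
      Finset.prod_pow_eq_pow_sum, sum_ramificationIndex_above φ P,
      finrankAlong_alpha2 M q hq]
  -- the values of the two polynomials
  have e2 : (X - Polynomial.C r) ^ q = (X - Polynomial.C a) * (X - Polynomial.C b) ^ (q - 1) := by
    refine Polynomial.ext fun n => ?_
    rw [e1, (hover n).2.2]
    have hl : (X - Polynomial.C zl) * (X - Polynomial.C zm) ^ (q - 1) ∈
        lifts s.toValuationSubring.subtype :=
      ⟨(X - Polynomial.C (⟨zl, (mem_iff_ordGE s).mpr hla⟩ : s.toValuationSubring)) *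
        (X - Polynomial.C (⟨zm, (mem_iff_ordGE s).mpr hma⟩ : s.toValuationSubring)) ^ (q - 1),
        by simp⟩
    obtain ⟨G, ev, hG, hevd, hGn⟩ := evalAt_coeff_map hl
    have hGe : G = (X - Polynomial.C (⟨zl, (mem_iff_ordGE s).mpr hla⟩ : s.toValuationSubring)) *
        (X - Polynomial.C (⟨zm, (mem_iff_ordGE s).mpr hma⟩ : s.toValuationSubring)) ^ (q - 1) :=
      Polynomial.map_injective s.toValuationSubring.subtype Subtype.val_injective (by
        rw [hG]; simp)
    rw [hGn, hGe]
    simp [hevd, a, b]
  have e3 : (X - Polynomial.C r) ^ q = X ^ q - Polynomial.C (c ^ q) := by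
    refine Polynomial.ext fun n => ?_
    rw [e1, (hover n).2.2, hglue n]
    have hl : X ^ q - Polynomial.C (frobAut M q (A := A) • zt) ∈
        lifts (Qf M q s).toValuationSubring.subtype :=
      ⟨X ^ q - Polynomial.C (⟨_, (mem_iff_ordGE _).mpr hta'⟩ : (Qf M q s).toValuationSubring),
        by simp⟩
    obtain ⟨G, ev, hG, hevd, hGn⟩ := evalAt_coeff_map hl
    have hGe : G =
        X ^ q - Polynomial.C (⟨_, (mem_iff_ordGE _).mpr hta'⟩ : (Qf M q s).toValuationSubring) :=
      Polynomial.map_injective (Qf M q s).toValuationSubring.subtype Subtype.val_injective (by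
        rw [hG]; simp)
    rw [hGn, hGe]
    rw [SemilinearAut.smul_def] at hev
    simp [hevd, hev, c]
  -- comparing roots gives the three values
  have hrc : r = c := by
    rw [sub_pow_char, ← Polynomial.C_pow] at e3
    exact frobenius_inj kA q (Polynomial.C_injective (sub_right_injective e3))
  have hra : a = r := by
    have h0 := congrArg (Polynomial.eval a) e2
    simp only [eval_pow, eval_sub, eval_X, eval_C, eval_mul, sub_self, zero_mul] at h0
    exact sub_eq_zero.mp (pow_eq_zero_iff hq.ne_zero |>.mp h0)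
  have hrb : b = r := by
    have h0 := congrArg (Polynomial.eval b) e2
    simp only [eval_pow, eval_sub, eval_X, eval_C, eval_mul, sub_self,
      zero_pow (Nat.sub_ne_zero_of_lt hq.one_lt), mul_zero] at h0
    exact sub_eq_zero.mp (pow_eq_zero_iff hq.ne_zero |>.mp h0)
  have hz' : ∀ {D} (y : FX kA M), (y : LaurentSeries kA) = resC M q hq hqM A D ⟨f, hOC D⟩ →
      C = D → evalAt s z = evalAt s y := fun {D} y hy e => by
    subst e
    rw [show z = y from Subtype.ext (hz.trans hy.symm)]
  cases C
  · exact (hz' zl rfl rfl).trans hra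
  · exact (hz' zm rfl rfl).trans hrb
  · exact (hz' zt rfl rfl).trans hrc.symm

end Fermat.CAR

end
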