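import Fermat.Agent.BAD.Inst.Order
import Fermat.Agent.BAD.X0.Degen

/-!
# The glued points without elliptic points

Every glued point has order twelve, there is one, and functions defined over the prime field take
values in the field of `q²` elements there, conjugate at the two glued points.
-/

set_option autoImplicit false

attribute [local instance 10000] SubalgebraClass.toAlgebra HahnSeries.powerSeriesAlgebra

noncomputable section

open ModularCurve AlgebraicCurve

namespace Fermat.CAR

open Fermat.FF Fermat.MC Fermat.JAC Fermat.RED.Model Fermat.BAD.X0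

local notation "Qb" => AlgebraicClosure ℚ

variable (M q : ℕ) [NeZero M] [NeZero q] [Fact q.Prime] (hq : q.Prime) (hqM : ¬ q ∣ M)
variable [FF.IsFunctionField Qb (FN (M * q) Qb)] [FF.IsFunctionField Qb (FN M Qb)]
variable {A : ValuationSubring (AlgebraicClosure ℚ)} (hA : A.LiesOverPrime q)
  [IsAlgClosed (IsLocalRing.ResidueField A)] [CharP (IsLocalRing.ResidueField A) q]
  [FF.IsFunctionField (IsLocalRing.ResidueField A) (FX (IsLocalRing.ResidueField A) M)]

local notation "kA" => IsLocalRing.ResidueField A
local notation "jk" => jX (IsLocalRing.ResidueField A) M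

/-- The genus formula makes every glued point of order twelve. -/
theorem ord_hbar_eq_twelve (hne : NoElliptic M) {s : Place kA (FX kA M)}
    (hs : s ∈ SS M q hq hqM hA) : s.ord (hbar M q hq hqM hA) = 12 :=
  Fermat.BAD.Inst.ord_hbar_eq M q hq hqM hA (degen M q hq hqM hA hne) rfl hne hs

/-- At a glued point a Frobenius-fixed function takes the `q`-th power of its value at the
partner. -/
theorem SS_evalAt_eq_pow {x : FX kA M}
    (hfix : coeffMap (frobenius kA q) (x : LaurentSeries kA) = (x : LaurentSeries kA))
    {s : Place kA (FX kA M)} (hx : OrdGE (Qf M q s) x 0) :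
    evalAt s x = evalAt (Qf M q s) x ^ q := by
  have hφ : frobAut M q (A := A) • x = x := Subtype.ext (by rw [coe_frobAut_smul, hfix])
  have h : evalAt (frobAut M q (A := A) • Qf M q s) (frobAut M q (A := A) • x) =
      frobenius kA q (evalAt (Qf M q s) x) := evalAt_smul (frobAut M q (A := A)) hx
  rw [hφ, show frobAut M q (A := A) • Qf M q s = s from smul_inv_smul _ _] at h
  exact h

include hq hqM hA in
/-- **Values at glued points of functions over the prime field.** -/
theorem evalAt_Qf_pow (hne : NoElliptic M) {x : FX kA M} (hx : x ∈ intClosure kA jk)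
    (hfix : coeffMap (frobenius kA q) (x : LaurentSeries kA) = (x : LaurentSeries kA))
    {s : Place kA (FX kA M)} (hs : s ∈ SS M q hq hqM hA) :
    evalAt (Qf M q s) x ^ q = evalAt s x ∧ evalAt s x ^ q = evalAt (Qf M q s) x ∧
      evalAt s x ^ (q ^ 2) = evalAt s x := by
  have hs1 := ((mem_SS M q hq hqM hA).mp hs).1
  have hQQ := Qf_Qf M q hq hqM hA hne hs
  have hreg : ∀ v : Place kA (FX kA M), OrdGE v jk 0 → OrdGE v x 0 := fun v hv =>
    mem_intClosure_iff.mp hx v hv
  have h1 : evalAt s x = evalAt (Qf M q s) x ^ q :=
    SS_evalAt_eq_pow M q hfix (hreg _ (ordGE_Qf M q hs1))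
  have h2 : evalAt (Qf M q s) x = evalAt s x ^ q := by
    have h := SS_evalAt_eq_pow M q hfix (s := Qf M q s) (hQQ.symm ▸ hreg s hs1)
    rwa [hQQ] at h
  exact ⟨h1.symm, h2.symm, by rw [pow_two, pow_mul, ← h2, ← h1]⟩

end Fermat.CAR

end
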