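import Fermat.Agent.CAR.SSAlg
import Fermat.Agent.CAR.Chart
import Fermat.Agent.CAR.ThetaSS
import Fermat.Agent.BAD.X0.Uniformizer
import Mathlib.FieldTheory.KummerExtension

/-!
# The point of level `M` over a glued point

A rational function `t` with uniformising reduction at `s` and a root of unity `c` of order prime
to `q` lifting its value: `t - c` has a single zero reducing to `s`, which is simple, and it is
singled out by the residues of the rational functions.
-/

set_option autoImplicit false
set_option linter.unusedSectionVars false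

attribute [local instance 10000] SubalgebraClass.toAlgebra HahnSeries.powerSeriesAlgebra

noncomputable section

open ModularCurve AlgebraicCurve

namespace Fermat.CAR

open Fermat.FF Fermat.MC Fermat.JAC.X0 Fermat.RED Fermat.RED.Model Fermat.BAD.X0 Fermat.EC.Val

local notation "Qb" => AlgebraicClosure ℚ

variable {A : ValuationSubring (AlgebraicClosure ℚ)}

local notation "kA" => IsLocalRing.ResidueField A

section Structure

variable [IsAlgClosed (IsLocalRing.ResidueField A)]
variable {S : IntermediateField Qb (LaurentSeries Qb)}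
  {T : IntermediateField (IsLocalRing.ResidueField A) (LaurentSeries (IsLocalRing.ResidueField A))}
variable [FF.IsFunctionField Qb S] [FF.IsFunctionField (IsLocalRing.ResidueField A) T]

/-- `P` reduces to `s`, seen through expansions. -/
def RedS (xS : S) (P : Place Qb S) (s : Place kA T) : Prop :=
  InChart A xS P ∧ ∀ g ∈ chart A xS, ∀ (y : LaurentSeries A) (z : T),
    (g : LaurentSeries Qb) = coeffMap A.subtype y →
    (z : LaurentSeries kA) = coeffMap (IsLocalRing.residue A) y →
    Fermat.FLAT.red A (evalAt P g) = evalAt s z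

/-- A field of functions with a normal reduction, seen through expansions. -/
structure LevelRed (xS : S) (xT : T) : Prop where
  /-- Functions of the chart have integral expansions, reducing to functions integral over `xT`. -/
  int : ∀ g ∈ chart A xS, ∃ (y : LaurentSeries A) (z : T),
    (g : LaurentSeries Qb) = coeffMap A.subtype y ∧
      (z : LaurentSeries kA) = coeffMap (IsLocalRing.residue A) y ∧ z ∈ intClosure kA xT
  /-- Every point of the chart has a reduction. -/
  exists_red : ∀ P : Place Qb S, InChart A xS P → ∃ s, OrdGE s xT 0 ∧ RedS xS P s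
  /-- A lift of a simple zero at `s` has one zero or pole reducing to `s`, a simple zero. -/
  lift : ∀ G ∈ chart A xS, ∀ (y : LaurentSeries A) (z : T),
    (G : LaurentSeries Qb) = coeffMap A.subtype y →
    (z : LaurentSeries kA) = coeffMap (IsLocalRing.residue A) y →
    ∀ s : Place kA T, OrdGE s xT 0 → s.ord z = 1 →
      ∃ P, P.ord G = 1 ∧ RedS xS P s ∧ ∀ P', RedS xS P' s → P'.ord G ≠ 0 → P' = P

/-- `LevelRed` is transported along equalities of fields of series. -/
theorem levelRed_congr {S' : IntermediateField Qb (LaurentSeries Qb)}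
    {T' : IntermediateField kA (LaurentSeries kA)} [FF.IsFunctionField Qb S']
    [FF.IsFunctionField kA T'] (hS : S = S') (hT : T = T') {xS : S} {xT : T}
    {xS' : S'} {xT' : T'} (hx : (xS : LaurentSeries Qb) = xS')
    (hx' : (xT : LaurentSeries kA) = xT') (H : LevelRed xS xT) : LevelRed xS' xT' := by
  subst hS
  subst hT
  obtain rfl : xS = xS' := Subtype.ext hx
  obtain rfl : xT = xT' := Subtype.ext hx'
  exact H

/-- The value at the lifted place reduces to the value of the reduction. -/
theorem RedS.residue {xS : S} {xT : T} (hL : LevelRed xS xT) {P : Place Qb S} {s : Place kA T}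
    (hr : RedS xS P s) {g : S} (hg : g ∈ chart A xS) (hm : (g : LaurentSeries Qb) ∈ gS A) (z : T)
    (hz : (z : LaurentSeries kA) = sR A ⟨_, hm⟩) :
    Fermat.FLAT.red A (evalAt P g) = evalAt s z ∧ z ∈ intClosure kA xT := by
  obtain ⟨y, z', hy, hz', hz'i⟩ := hL.int g hg
  have e : z' = z := Subtype.ext (by
    rw [hz', hz, ← sR_coeffMap y (coeffMap_mem_gS y)]
    exact congrArg (sR A) (Subtype.ext hy.symm))
  subst e
  exact ⟨hr.2 g hg y z' hy hz', hz'i⟩

end Structure

section Level

variable (M q : ℕ) [NeZero M] [NeZero q] [Fact q.Prime] (hq : q.Prime) (hqM : ¬ q ∣ M)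
variable [FF.IsFunctionField Qb (FN M Qb)]
variable [IsAlgClosed (IsLocalRing.ResidueField A)] [CharP (IsLocalRing.ResidueField A) q]
  [FF.IsFunctionField (IsLocalRing.ResidueField A) (FX (IsLocalRing.ResidueField A) M)]
variable (hA : A.LiesOverPrime q)

include hq hqM hA

/-- The fields of level `M` in the two characteristics are related by reduction along `j`. -/
theorem levelRed : LevelRed (A := A) (jL M Qb) (jX kA M) := by
  classical
  have hM := natCast_ne_zero_residue A hq hA hqM
  obtain ⟨i1, i2⟩ := isFunctionField_X0 (L := Qb) (A := A) (π := IsLocalRing.residue A)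
    IsLocalRing.residue_surjective hM
  have := i1
  have := i2
  have h := goodModel_X0 (L := Qb) (A := A) (π := IsLocalRing.residue A)
    IsLocalRing.residue_surjective hM
  obtain ⟨hn, -⟩ := normal_X0 (L := Qb) (A := A) embC IsLocalRing.residue_surjective hM
  have hred : ∀ (g : FX Qb M) (y : LaurentSeries A),
      (g : LaurentSeries Qb) = coeffMap A.subtype y →
      (redS (IsLocalRing.residue A) (expX Qb M) g : LaurentSeries kA) =
        coeffMap (IsLocalRing.residue A) y := fun g y hy => by
    have hi : expX Qb M g ∈ intSeries A := ⟨y, hy.symm⟩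
    rw [coe_redS, redF_of_mem hi, ← redHom_coeffMap (IsLocalRing.residue A) y ⟨y, rfl⟩]
    exact congrArg _ (Subtype.ext hy)
  have hto : ∀ {P : Place Qb (FX Qb M)}
      {s : Place kA (specField (IsLocalRing.residue A) (expX Qb M))},
      Reduces A (IsLocalRing.residue A) (expX Qb M) (jX Qb M) P s → RedS (jX Qb M) P s :=
    fun {P s} hr => ⟨hr.inChart, fun g hg y z hy hz => by
      obtain ⟨hm, e⟩ := hr.eval g hg
      rw [Fermat.FLAT.red_of_mem hm, e]
      exact congrArg _ (Subtype.ext ((hred g y hy).trans hz.symm))⟩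
  -- transport the good model of level `M` to the function field
  refine levelRed_congr (fullC_eq_baseChange Qb M).symm
    (specField_X0 (L := Qb) (A := A) (π := IsLocalRing.residue A) IsLocalRing.residue_surjective hM)
    (xS := jX Qb M) (xT := redS (IsLocalRing.residue A) (expX Qb M) (jX Qb M))
    (coe_jL M).symm ?_ ⟨fun g hg => ?_, fun P hP => ?_, fun G hG y z hy hz s hs hord => ?_⟩
  · rw [hred _ (jqModC A) coeffMap_subtype_jqModC.symm]
    exact coeffMap_jqModC _
  · obtain ⟨y, hy⟩ := h.int_chart g hg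
    exact ⟨y, _, hy.symm, hred g y hy.symm, h.redS_mem_intClosure hg⟩
  · obtain ⟨s, hs⟩ := exists_reduces h.toPreModel hn hP
    exact ⟨s, hs.ord_right, hto hs⟩
  · obtain rfl : z = redS (IsLocalRing.residue A) (expX Qb M) G :=
      Subtype.ext (hz.trans (hred G y hy).symm)
    have hG0 : redS (IsLocalRing.residue A) (expX Qb M) G ≠ 0 := fun h0 => by
      rw [h0, Place.ord_zero] at hord; exact zero_ne_one hord
    have hGF : G ≠ 0 := fun h0 => hG0 (by rw [h0, redS_zero])
    -- a function of order one at `s` has exactly one zero reducing to it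
    obtain ⟨F, hF⟩ : ∃ F : Finset (Place Qb (FX Qb M)), ∀ P, P ∈ F ↔
        P.ord G ≠ 0 ∧ Reduces A (IsLocalRing.residue A) (expX Qb M) (jX Qb M) P s :=
      ⟨(finite_setOf_ord_ne_zero (K := Qb) G).toFinset.filter fun P =>
        Reduces A (IsLocalRing.residue A) (expX Qb M) (jX Qb M) P s,
        fun P => by simp [Finset.mem_filter, Set.Finite.mem_toFinset]⟩
    have hsum := h.sum_ord_eq hn hG hG0 hs F hF
    rw [hord] at hsum
    have hpos : ∀ P ∈ F, 1 ≤ P.ord G := fun P hP => by
      obtain ⟨h0, hr⟩ := (hF P).mp hP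
      have := (evalAt_mem hG hr.ord_left hr.inChart.2).1.le_ord hGF
      omega
    have hle : (F.card : ℤ) ≤ 1 := by
      rw [← hsum, Finset.card_eq_sum_ones]
      push_cast
      exact Finset.sum_le_sum hpos
    obtain ⟨P, hP⟩ : F.Nonempty := by
      by_contra hF0
      rw [Finset.not_nonempty_iff_eq_empty] at hF0
      rw [hF0, Finset.sum_empty] at hsum
      exact zero_ne_one hsum
    have huniq : ∀ P' ∈ F, P' = P := fun P' hP' =>
      Finset.card_le_one.mp (by exact_mod_cast hle) P' hP' P hP
    refine ⟨P, ?_, hto ((hF P).mp hP).2, fun P' hP' hne => huniq P' ((hF P').mpr ⟨hne, ?_⟩)⟩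
    · rwa [Finset.sum_eq_single_of_mem P hP fun P' hP' hne => absurd (huniq P' hP') hne] at hsum
    · refine ⟨hP'.1.1, hs, fun g hg => ?_⟩
      obtain ⟨y', hy'⟩ := h.int_chart g hg
      have hm := (evalAt_mem hg hP'.1.1 hP'.1.2).2
      exact ⟨hm, (Fermat.FLAT.red_of_mem hm).symm.trans
        (hP'.2 g hg y' _ hy'.symm (hred g y' hy'.symm))⟩

/-- **Rational functions separate the points of the finite part.** -/
theorem place_ext_rat {s s' : Place kA (FX kA M)} (hs : OrdGE s (jX kA M) 0)
    (hs' : OrdGE s' (jX kA M) 0)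
    (H : ∀ (t : FN M Qb), t ∈ intClosure Qb (jL M Qb) → ∀ y : LaurentSeries A,
      (t : LaurentSeries Qb) = coeffMap A.subtype y → RatSeries (t : LaurentSeries Qb) →
      ∀ z : FX kA M, (z : LaurentSeries kA) = coeffMap (IsLocalRing.residue A) y →
      evalAt s z = evalAt s' z) : s = s' := by
  classical
  by_contra hne
  -- a separating function lifts and lies in the span of reductions of rational functions
  obtain ⟨z₁, hz₁, e1, e0⟩ := FF.exists_separating_integral Cusps.transcendental_jX hs hs' hne
  have hM := natCast_ne_zero_residue A hq hA hqM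
  obtain ⟨g, hg, y, hy, hz₁e⟩ := exists_lift_intClosure_level hq hqM hA z₁ hz₁
  have hspan := red_mem_span_rat_intClosure hq hA (transcendental_jL M)
    (arithmeticGalois (modularFunctionFieldFull M)) (fun σ t => coe_arithmeticGalois_smul _ σ t)
    arithmeticGalois_smul_jL (fun t => coeff_mem_of_fixed t) (exists_smul_int_level hq hqM hA)
    hg hy
  rw [hz₁e] at hspan
  suffices hP : ∀ w ∈ Submodule.span kA {w | ∃ (t : FN M Qb) (r : LaurentSeries A),
      t ∈ intClosure Qb (jL M Qb) ∧ (t : LaurentSeries Qb) = coeffMap A.subtype r ∧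
        RatSeries (t : LaurentSeries Qb) ∧ w = coeffMap (IsLocalRing.residue A) r},
      ∃ z : FX kA M, (z : LaurentSeries kA) = w ∧ OrdGE s z 0 ∧ OrdGE s' z 0 ∧
        evalAt s z = evalAt s' z by
    obtain ⟨z, hz, -, -, he⟩ := hP _ hspan
    obtain rfl : z = z₁ := Subtype.ext hz
    rw [e1, e0] at he
    exact one_ne_zero he
  -- rational functions take equal values at `s` and `s'`, hence so does the span
  intro w hw
  induction hw using Submodule.span_induction with
  | mem w hw =>
    obtain ⟨t, r, hti, hte, hrQ, rfl⟩ := hw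
    set z : FX kA M := ⟨coeffMap (IsLocalRing.residue A) r,
      mem_fullC_of_coe (L := Qb) (B := A) IsLocalRing.residue_surjective hM r
        (by rw [← hte, ← fullC_eq_baseChange Qb M]; exact t.2)⟩
    have hzi := mem_intClosure_level hq hqM hA t hti r hte z rfl
    exact ⟨z, rfl, mem_intClosure_iff.mp hzi s hs,
      mem_intClosure_iff.mp hzi s' hs',
      H t hti r hte hrQ z rfl⟩
  | zero => exact ⟨0, rfl, ordGE_zero _ _, ordGE_zero _ _, by rw [evalAt_zero, evalAt_zero]⟩
  | add a b _ _ ha hb =>
    obtain ⟨za, rfl, ha1, ha2, ha3⟩ := ha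
    obtain ⟨zb, rfl, hb1, hb2, hb3⟩ := hb
    exact ⟨za + zb, rfl, ha1.add hb1, ha2.add hb2,
      by rw [evalAt_add ha1 hb1, evalAt_add ha2 hb2, ha3, hb3]⟩
  | smul a b _ hb =>
    obtain ⟨zb, rfl, hb1, hb2, hb3⟩ := hb
    exact ⟨a • zb, by rw [Algebra.smul_def, RED.laurent_smul_def]; rfl, hb1.smul a, hb2.smul a, by
      rw [Algebra.smul_def, evalAt_mul (FF.ordGE_algebraMap s a) hb1,
        evalAt_mul (FF.ordGE_algebraMap s' a) hb2, evalAt_algebraMap, evalAt_algebraMap, hb3]⟩

variable [FF.IsFunctionField Qb (FN (M * q) Qb)]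

omit hq hqM hA [FF.IsFunctionField Qb (FN M Qb)] in
/-- Frobenius-fixed functions have the same order at a point and at its partner. -/
theorem ord_Qf_of_fixed {x : FX kA M}
    (hx : coeffMap (frobenius kA q) (x : LaurentSeries kA) = x) (s : Place kA (FX kA M)) :
    (Qf M q s).ord x = s.ord x := by
  have hφ : frobAut M q (A := A) • x = x := Subtype.ext (by rw [coe_frobAut_smul, hx])
  conv_lhs => rw [← inv_smul_fixed _ hφ]
  exact SemilinearAut.ord_smul _ _ _

/-- The partner of a glued point is glued. -/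
theorem Qf_mem_SS {s : Place kA (FX kA M)} (hs : s ∈ SS M q hq hqM hA) :
    Qf M q s ∈ SS M q hq hqM hA := by
  obtain ⟨h1, h2⟩ := (mem_SS M q hq hqM hA).mp hs
  refine (mem_SS M q hq hqM hA).mpr ⟨ordGE_Qf M q h1, ?_⟩
  rw [ord_Qf_of_fixed M q ?_ s]
  · exact h2
  · change coeffMap (frobenius kA q) (hSer kA q) = hSer kA q
    simp only [hSer, map_mul, ModularCurve.coeffMap_qExpand, coeffMap_deltaSeries,
      coeffMap_deltaSeriesInv]

/-- The data at level `M` over a glued point. -/
structure SSBase (s : Place kA (FX kA M)) where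
  /-- A function of level `M` with rational expansion, regular on the chart of `j`. -/
  t : FN M Qb
  /-- The reduction of `t` at the generic point. -/
  z : FX kA M
  /-- The lift of the value of `z` at `s`. -/
  c : Qb
  /-- The zero of `t - c` over `s`. -/
  a : Place Qb (FN M Qb)
  /-- `t` has a rational expansion. -/
  t_rat : RatSeries (t : LaurentSeries Qb)
  /-- `t` lies in the chart of `j`. -/
  t_chart : t ∈ chart A (jL M Qb)
  /-- `t` is integral at the generic point. -/
  t_int : (t : LaurentSeries Qb) ∈ gS A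
  /-- `z` is the reduction of `t`. -/
  t_red : (z : LaurentSeries kA) = sR A ⟨_, t_int⟩
  /-- The coefficients of `z` are fixed by Frobenius. -/
  z_fixed : coeffMap (frobenius kA q) (z : LaurentSeries kA) = z
  /-- `z` is integral over the polynomials in `j`. -/
  z_reg : z ∈ intClosure kA (jX kA M)
  /-- `z` minus its value is a uniformiser at `s`. -/
  z_ord : s.ord (z - algebraMap kA (FX kA M) (evalAt s z)) = 1
  /-- `z - z ^ q ^ 2` has simple zeros at `s` and at the point glued to it. -/
  u_ord : s.ord (z - z ^ q ^ 2) = 1 ∧ (Qf M q s).ord (z - z ^ q ^ 2) = 1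
  /-- `c` is integral. -/
  c_int : c ∈ A
  /-- `c` is fixed by inertia. -/
  c_fix : c ∈ fixK A
  /-- `c ^ (q ^ 2) = c`. -/
  c_pow : c ^ q ^ 2 = c
  /-- `t - c` has a simple zero at `a`. -/
  a_ord : a.ord (t - algebraMap Qb (FN M Qb) c) = 1
  /-- `a` reduces to `s`. -/
  a_red : RedS (jL M Qb) a s
  /-- `t` takes the value `c` at `a`. -/
  a_val : evalAt a t = c
  /-- `a` is the only chart zero of `t - c` agreeing with `s` on rational functions. -/
  unique : ∀ P : Place Qb (FN M Qb), InChart A (jL M Qb) P →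
    0 < P.ord (t - algebraMap Qb (FN M Qb) c) →
    (∀ (t' : FN M Qb) (_ : t' ∈ chart A (jL M Qb)), RatSeries (t' : LaurentSeries Qb) →
      ∀ (hm : (t' : LaurentSeries Qb) ∈ gS A) (z' : FX kA M),
        (z' : LaurentSeries kA) = sR A ⟨_, hm⟩ →
        Fermat.FLAT.red A (evalAt P t') = evalAt s z') → P = a

omit hqM in
/-- An element of the field of `q ^ 2` elements has a lift in `A` which is fixed by inertia and is
zero or a root of unity of order dividing `q ^ 2 - 1`. -/
theorem exists_lift_pow {r : kA} (hr : r ^ q ^ 2 = r) :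
    ∃ c : Qb, c ∈ A ∧ c ∈ fixK A ∧ c ^ q ^ 2 = c ∧ Fermat.FLAT.red A c = r := by
  rcases eq_or_ne r 0 with rfl | hr0
  · exact ⟨0, zero_mem A, (fixK A).zero_mem,
      zero_pow (pow_ne_zero 2 hq.ne_zero), Fermat.FLAT.red_zero⟩
  have h : IsPlace A q := ⟨hq, hA⟩
  set n := q ^ 2 - 1 with hn
  have hq2 : 1 < q ^ 2 := Nat.one_lt_pow two_ne_zero hq.one_lt
  have hn0 : 0 < n := by omega
  have hqn : ¬ q ∣ n := fun hd => hq.one_lt.ne' (Nat.dvd_one.mp (by
    have := Nat.dvd_sub (dvd_pow_self q two_ne_zero) hd
    rwa [hn, Nat.sub_sub_self hq2.le] at this))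
  have : NeZero (n : Qb) := ⟨Nat.cast_ne_zero.mpr hn0.ne'⟩
  -- a primitive root of unity of order `q ^ 2 - 1`
  obtain ⟨ζ, hζ⟩ := HasEnoughRootsOfUnity.exists_primitiveRoot Qb n
  have hζI : Is A q ζ 0 := by
    refine ⟨hζ.ne_zero hn0.ne', ?_⟩
    have := ord_pow h ζ n
    rw [hζ.pow_eq_one, ord_one h, eq_comm, mul_eq_zero] at this
    exact this.resolve_left (Nat.cast_ne_zero.mpr hn0.ne')
  have hζA : ζ ∈ A := (mem_iff_ge h ζ).mpr hζI.ge
  have hζ' : IsPrimitiveRoot (⟨ζ, hζA⟩ : A) n :=
    IsPrimitiveRoot.of_map_of_injective (f := A.subtype) hζ Subtype.val_injective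
  have hrn : r ^ n = 1 := mul_right_cancel₀ hr0 (by
    rw [one_mul, ← pow_succ, hn, Nat.sub_add_cancel hq2.le, hr])
  -- as `X ^ n - 1` splits into its powers, `r` is the reduction of one
  have e := congrArg (fun p => (p.map (IsLocalRing.residue A)).eval r)
    (X_pow_sub_C_eq_prod hζ' hn0 (α := (1 : A)) (a := 1) (one_pow n))
  simp only [Polynomial.map_sub, Polynomial.map_pow, Polynomial.map_X, Polynomial.map_C, map_one,
    Polynomial.eval_sub, Polynomial.eval_pow, Polynomial.eval_X, Polynomial.eval_C,
    Polynomial.map_prod, Polynomial.eval_prod, mul_one, map_pow, hrn, Polynomial.map_one,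
    Polynomial.eval_one, sub_self] at e
  obtain ⟨i, -, hi⟩ := Finset.prod_eq_zero_iff.mp e.symm
  have hiA : ζ ^ i ∈ A := pow_mem hζA i
  have hin : (ζ ^ i) ^ n = 1 := by rw [← pow_mul, mul_comm, pow_mul, hζ.pow_eq_one, one_pow]
  -- it is fixed by inertia, `q` not dividing the order
  refine ⟨ζ ^ i, hiA, root_mem_fixK h hqn (by simpa using hζI.pow h i) (by
    rw [hin]; exact (fixK A).one_mem), ?_, ?_⟩
  · rw [show q ^ 2 = n + 1 by omega, pow_succ, hin, one_mul]
  · rw [Fermat.FLAT.red_of_mem hiA, sub_eq_zero.mp hi, ← map_pow]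
    rfl

/-- Without elliptic points every glued point carries the data of `SSBase`. -/
theorem exists_ssBase (hne : NoElliptic M) {s : Place kA (FX kA M)}
    (hs : s ∈ SS M q hq hqM hA) : Nonempty (SSBase M q s) := by
  have h : IsPlace A q := ⟨hq, hA⟩
  have hs1 := ((mem_SS M q hq hqM hA).mp hs).1
  have hL := levelRed M q hq hqM hA
  -- a rational uniformiser `t` at `s` with reduction `z`, and a lift `c` of its value
  obtain ⟨t, y, z, c₀, hti, hty, htQ, hzy, -, hord⟩ := exists_rat_uniformizer hq hqM hA hs1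
  have hzi := mem_intClosure_level hq hqM hA t hti y hty z hzy
  have htm : (t : LaurentSeries Qb) ∈ gS A := by rw [hty]; exact coeffMap_mem_gS y
  have htc : t ∈ chart A (jL M Qb) := mem_chart_level M q hq hqM h true t hti htm
  have hzfix : coeffMap (frobenius kA q) (z : LaurentSeries kA) = z := by
    rw [hzy]
    exact rat_series_frobenius hq hA fun n => by
      obtain ⟨r, hr⟩ := htQ n
      exact ⟨r, by rw [hr, hty, coeffMap_coeff]; rfl⟩
  have hc₀ : evalAt s z = c₀ := evalAt_eq (ordGE_iff.mpr (.inr hord.ge))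
  subst hc₀
  have hr := (evalAt_Qf_pow M q hq hqM hA hne hzi hzfix hs).2.2
  obtain ⟨c, hcA, hcK, hcq, hcr⟩ := exists_lift_pow q hq hA hr
  set G := t - algebraMap Qb (FN M Qb) c
  have hGc : G ∈ chart A (jL M Qb) := sub_mem htc (algebraMap_mem_chart _ hcA)
  set yG : LaurentSeries A := y - HahnSeries.single 0 (⟨c, hcA⟩ : A)
  have hGy : (G : LaurentSeries Qb) = coeffMap A.subtype yG := by
    rw [map_sub, coeffMap_single, ← hty, AddSubgroupClass.coe_sub]
    congr 1
    exact algebraMap_laurentSeries_eq_single Qb c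
  have hzG : ((z - algebraMap kA (FX kA M) (evalAt s z) : FX kA M) : LaurentSeries kA) =
      coeffMap (IsLocalRing.residue A) yG := by
    rw [map_sub, coeffMap_single, ← hzy, AddSubgroupClass.coe_sub, ← hcr,
      Fermat.FLAT.red_of_mem hcA]
    congr 1
    exact algebraMap_laurentSeries_eq_single kA _
  -- the zero of `t - c` above `s`
  obtain ⟨a, ha1, ha2, ha3⟩ := hL.lift G hGc yG _ hGy hzG s hs1 hord
  have : CharP (FX kA M) q :=
    charP_of_injective_algebraMap (algebraMap kA (FX kA M)).injective q
  -- `z - z ^ (q ^ 2)` has order one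
  have hu : s.ord (z - z ^ q ^ 2) = 1 := by
    have hG0 : z - algebraMap kA (FX kA M) (evalAt s z) ≠ 0 := fun h0 => by
      rw [h0, Place.ord_zero] at hord; exact zero_ne_one hord
    have e : z - z ^ q ^ 2 = (z - algebraMap kA (FX kA M) (evalAt s z)) +
        -(z - algebraMap kA (FX kA M) (evalAt s z)) ^ q ^ 2 := by
      rw [sub_pow_char_pow, ← map_pow, hr]
      ring
    rw [e, (ord_add_of_lt s (f := z - algebraMap kA (FX kA M) (evalAt s z))
      (g := -(z - algebraMap kA (FX kA M) (evalAt s z)) ^ q ^ 2) hG0 (by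
        rw [FF.ord_neg, FF.ord_pow, hord, mul_one]
        exact_mod_cast Nat.one_lt_pow two_ne_zero hq.one_lt)).1, hord]
  refine ⟨{ t := t, z := z, c := c, a := a, t_rat := htQ, t_chart := htc, t_int := htm,
            t_red := ?_, z_fixed := hzfix, z_reg := hzi, z_ord := hord, u_ord := ⟨hu, ?_⟩,
            c_int := hcA, c_fix := hcK, c_pow := hcq, a_ord := ha1, a_red := ha2, a_val := ?_,
            unique := fun P hP hpos hmatch => ?_ }⟩
  · rw [hzy, ← sR_coeffMap y (coeffMap_mem_gS y)]
    exact congrArg (sR A) (Subtype.ext hty.symm)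
  · refine (ord_Qf_of_fixed M q ?_ s).trans hu
    rw [AddSubgroupClass.coe_sub, SubmonoidClass.coe_pow, map_sub, map_pow, hzfix]
  · exact evalAt_eq (ordGE_iff.mpr (.inr ha1.ge))
  · obtain ⟨s', hs', hr'⟩ := hL.exists_red P hP
    obtain rfl : s' = s := place_ext_rat M q hq hqM hA hs' hs1 fun t' ht' y' hy' hQ' z' hz' => by
      have hm : (t' : LaurentSeries Qb) ∈ gS A := by rw [hy']; exact coeffMap_mem_gS y'
      have hc' : t' ∈ chart A (jL M Qb) := mem_chart_level M q hq hqM h true t' ht' hm
      rw [← hr'.2 t' hc' y' z' hy' hz']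
      refine hmatch t' hc' hQ' hm z' ?_
      rw [hz', ← sR_coeffMap y' (coeffMap_mem_gS y')]
      exact congrArg (sR A) (Subtype.ext hy'.symm)
    exact ha3 P hr' hpos.ne'

end Level

end Fermat.CAR

end
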