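import Fermat.Agent.CAR.Induct
import Fermat.Agent.CAR.Orders
import Fermat.Agent.CAR.SSGlue
import Fermat.Agent.CAR.SSLevel
import Fermat.Agent.BAD.X0.Regular

/-!
# Roots of the reductions from the two norms

For an invariant function of order `0` on the branches the reductions of its two norms are products
of its three reductions and Frobenius transforms of them.  If the norms are powers up to constants,
so are the reductions after a fixed power, and at glued points the values of the local roots satisfy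
two relations with constants not depending on the point.
-/

set_option autoImplicit false
set_option linter.unusedSectionVars false

noncomputable section

open ModularCurve AlgebraicCurve

namespace Fermat.CAR

attribute [local instance 10000] algFN smulFN algFX smulFX

open Fermat.FF Fermat.MC Fermat.JAC Fermat.RED Fermat.RED.Model Fermat.BAD.X0 Fermat.EC.Val

local notation "Qb" => AlgebraicClosure ℚ

variable {M q : ℕ} [NeZero M] [NeZero q] {A : ValuationSubring (AlgebraicClosure ℚ)}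
variable (hq : q.Prime) (hqM : ¬ q ∣ M)
variable [Fact q.Prime] [IsAlgClosed (IsLocalRing.ResidueField A)]
variable [CharP (IsLocalRing.ResidueField A) q] (h : IsPlace A q)
variable [FF.IsFunctionField Qb (FN M Qb)] [FF.IsFunctionField Qb (FN (M * q) Qb)]
  [FF.IsFunctionField Qb (FN (M * q * q) Qb)]
variable [FF.IsFunctionField (IsLocalRing.ResidueField A) (FX (IsLocalRing.ResidueField A) M)]

local notation "kA" => IsLocalRing.ResidueField A
local notation "φF" => frobAut M q (A := A)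

/-- `Z` gives the reductions of `f` on the three branches. -/
def RedOn (f : FN (M * q * q) Qb) (Z : Br → FX kA M) : Prop :=
  ∀ C, ∃ hm : f ∈ OC M q hq hqM A C,
    (Z C : LaurentSeries kA) = resC M q hq hqM A C ⟨f, hm⟩

/-- The reduction on a branch is unique. -/
theorem RedOn.eq_of {f : FN (M * q * q) Qb} {Z : Br → FX kA M} (hZ : RedOn hq hqM f Z) {C : Br}
    {z : FX kA M} {hm : f ∈ OC M q hq hqM A C}
    (hz : (z : LaurentSeries kA) = resC M q hq hqM A C ⟨f, hm⟩) : z = Z C :=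
  Subtype.ext (hz.trans (hZ C).2.symm)

/-- The reductions of a power are the powers. -/
theorem RedOn.pow {f : FN (M * q * q) Qb} {Z : Br → FX kA M} (hZ : RedOn hq hqM f Z) (k : ℕ) :
    RedOn hq hqM (f ^ k) fun C => Z C ^ k := fun C => by
  obtain ⟨hm, hz⟩ := hZ C
  exact ⟨pow_mem hm k, by rw [SubmonoidClass.coe_pow, hz, ← map_pow]; rfl⟩

include h

/-- An invariant function of order zero on every branch has reductions. -/
theorem exists_redOn {f : FN (M * q * q) Qb} (hr : f ∈ ratFld M q A) (hf : f ≠ 0)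
    (hgv : ∀ C, gv M q hq hqM A C f = 0) :
    ∃ Z : Br → FX kA M, RedOn hq hqM f Z ∧ ∀ C, Z C ≠ 0 :=
  ⟨fun C => ⟨_, resC_mem hq hqM h C f hr (mem_OC_of_gv hq hqM h hf (hgv C))⟩,
    fun C => ⟨mem_OC_of_gv hq hqM h hf (hgv C), rfl⟩,
    fun C h0 => resC_ne_zero hq hqM h hf (hgv C) (mem_OC_of_gv hq hqM h hf (hgv C))
      (congrArg Subtype.val h0)⟩

omit h in
/-- Substituting `q`-th powers in the Frobenius image gives the `q`-th power. -/
theorem qExpand_frob (x : FX kA M) :
    qExpand kA q (((φF • x : FX kA M)) : LaurentSeries kA) = (x : LaurentSeries kA) ^ q := by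
  rw [coe_frobAut_smul, ← laurent_pow_char]

/-- The reductions of a norm. -/
theorem red_nB (b : Bool) {f : FN (M * q * q) Qb} (hf : f ≠ 0) (hr : f ∈ ratFld M q A)
    (hgv : ∀ C, gv M q hq hqM A C f = 0) {Z : Br → FX kA M} (hZ : RedOn hq hqM f Z) :
    ∃ (h1 : Prim A (emb M q hq hqM b (nB M q b f)))
      (h2 : Prim A (emb M q hq hqM (!b) (nB M q b f))),
      sR A ⟨_, h1.mem⟩ = ((Z (sB b) * Z .mid ^ (q - 1) : FX kA M) : LaurentSeries kA) ∧
        sR A ⟨_, h2.mem⟩ = (((φF • Z (sB (!b)) : FX kA M)) : LaurentSeries kA) := by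
  classical
  have g1 := gIs_nB_prod M q hq hqM h b hf hr
  rw [hgv, hgv, mul_zero, add_zero] at g1
  have h1 : Prim A (emb M q hq hqM b (nB M q b f)) := (g1.prim_iff h).mpr rfl
  obtain ⟨r, hr2⟩ := exists_gIs_emb M q hq hqM h (!b) (nB_ne_zero M q b hf)
  have g2 := (gIs_qExpand q hr2).unique h (gIs_nB_single M q hq hqM h b hf)
  rw [hgv, mul_zero] at g2
  subst g2
  have h2 : Prim A (emb M q hq hqM (!b) (nB M q b f)) := (hr2.prim_iff h).mpr rfl
  refine ⟨h1, h2, ?_, ?_⟩
  -- on one side the norm is the product over one outer branch and `q - 1` middle ones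
  · have hbr : ∀ i, ∃ hm : brP M q hq hqM b i f ∈ gS A, sR A ⟨_, hm⟩ =
        if i = 0 then (Z (sB b) : LaurentSeries kA) else (Z .mid : LaurentSeries kA) := fun i => by
      rcases eq_or_ne i 0 with rfl | hi
      · obtain ⟨hm, hz⟩ := hZ (sB b)
        rw [if_pos rfl]
        have e : brP M q hq hqM b 0 f = brC M q hq hqM (sB b) f := by
          cases b
          · change brBeta M q hq hqM 0 f = _
            rw [brBeta_zero]; rfl
          · change brAlpha M q hq hqM 0 f = _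
            rw [brAlpha_zero]; rfl
        refine ⟨e.symm ▸ hm, ?_⟩
        rw [hz, resC_apply]
        exact congrArg (sR A) (Subtype.ext e)
      · obtain ⟨hmid, hz⟩ := hZ .mid
        obtain ⟨hm, he⟩ := sR_br11 M q hq hqM h hi hr hmid
        rw [if_neg hi, hz, ← he]
        cases b
        · have e : brP M q hq hqM false i f =
              twist (zpw q (zetaQ q) (-i)) (br11 M q hq hqM hi f) := by
            change brBeta M q hq hqM i f = _
            rw [brBeta_of_ne M q hq hqM hi]; rfl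
          refine ⟨e.symm ▸ (redCompat_twist (zpw_pow q _)).map_mem hm, ?_⟩
          rw [← sR_twist (zpw_pow q (-i)) hm]
          exact congrArg (sR A) (Subtype.ext e)
        · have e : brP M q hq hqM true i f = br11 M q hq hqM hi f := by
            change brAlpha M q hq hqM i f = _
            rw [brAlpha_of_ne M q hq hqM hi]
          exact ⟨e.symm ▸ hm, congrArg (sR A) (Subtype.ext e)⟩
    choose hm he using hbr
    rw [show (⟨_, h1.mem⟩ : gS A) = ∏ i, (⟨brP M q hq hqM b i f, hm i⟩ : gS A) from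
      Subtype.ext (by rw [SubmonoidClass.coe_finsetProd]; exact emb_nB M q hq hqM b f), map_prod,
      Finset.prod_congr rfl fun i _ => he i,
      ← Finset.mul_prod_erase _ _ (Finset.mem_univ (0 : Fin q)), if_pos rfl,
      Finset.prod_congr rfl fun i hi => if_neg (Finset.mem_erase.mp hi).1, Finset.prod_const,
      Finset.card_erase_of_mem (Finset.mem_univ _), Finset.card_univ, Fintype.card_fin,
      MulMemClass.coe_mul, SubmonoidClass.coe_pow]
  -- on the other it is a product of `q` twists of the remaining branch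
  · obtain ⟨hm, hz⟩ := hZ (sB (!b))
    refine (qExpand kA q).injective ?_
    rw [← (redCompat_qExpand q).sR_map h2.mem, qExpand_frob, hz, resC_apply]
    have ht := fun i : Fin q => (redCompat_twist (A := A) (zpw_pow q i)).map_mem hm
    rw [show (⟨_, (redCompat_qExpand q).map_mem h2.mem⟩ : gS A) =
      ∏ i, (⟨_, ht i⟩ : gS A) from
      Subtype.ext (by rw [SubmonoidClass.coe_finsetProd]; exact qExpand_emb_nB M q hq hqM b f),
      map_prod, Finset.prod_congr rfl fun i _ => sR_twist (zpw_pow q i) hm, Finset.prod_const,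
      Finset.card_univ, Fintype.card_fin]

omit h in
/-- The inverse Frobenius acts on constants through the constant field. -/
theorem inv_smul_algebraMap (c : kA) :
    φF⁻¹ • algebraMap kA (FX kA M) c =
      algebraMap kA (FX kA M) (SemilinearAut.baseAut φF⁻¹ c) :=
  SemilinearAut.smul_algebraMap _ _

/-- The reductions of the norm data. -/
theorem exists_red_normPow {b : Bool} {n : ℕ} (hn : n ≠ 0) {f : FN (M * q * q) Qb} (hf : f ≠ 0)
    (hr : f ∈ ratFld M q A) (hgv : ∀ C, gv M q hq hqM A C f = 0) (hN : NormPow M q b n f)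
    {Z : Br → FX kA M} (hZ : RedOn hq hqM f Z) :
    ∃ (c : Qb) (g : FN (M * q) Qb) (k : kA) (R : Bool → FX kA M), c ≠ 0 ∧ g ≠ 0 ∧ k ≠ 0 ∧
      nB M q b f = algebraMap Qb _ c * g ^ n ∧
      (∀ t, ∃ hp : Prim A (emb M q hq hqM t g),
        (R t : LaurentSeries kA) = sR A ⟨_, hp.mem⟩) ∧
      Z (sB b) * Z .mid ^ (q - 1) = algebraMap kA (FX kA M) k * R b ^ n ∧
      φF • Z (sB (!b)) = algebraMap kA (FX kA M) k * R (!b) ^ n := by
  obtain ⟨c, g, hc, hco, hg, hp, e⟩ := exists_unit_normPow M q hq hqM h hn hf hr hgv hN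
  have hcA : c ∈ A := (mem_iff_ord h hc).mpr hco.ge
  have hk : IsLocalRing.residue A ⟨c, hcA⟩ ≠ 0 := fun h0 => by
    rw [IsLocalRing.residue_eq_zero_iff, ← A.coe_mem_nonunits_iff, nonunit_iff_ord h hc, hco] at h0
    exact lt_irrefl _ h0
  set R : Bool → FX kA M := fun t => ⟨_, sR_emb_mem M q hq hqM h.2 t g (hp t).mem⟩
  obtain ⟨h1, h2, e1, e2⟩ := red_nB hq hqM h b hf hr hgv hZ
  have key : ∀ t, ∀ hm : emb M q hq hqM t (nB M q b f) ∈ gS A,
      sR A ⟨_, hm⟩ =
        ((algebraMap kA (FX kA M) (IsLocalRing.residue A ⟨c, hcA⟩) * R t ^ n : FX kA M) :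
          LaurentSeries kA) := fun t hm => by
    rw [MulMemClass.coe_mul, SubmonoidClass.coe_pow]
    change _ = algebraMap kA (LaurentSeries kA) _ * sR A ⟨_, (hp t).mem⟩ ^ n
    rw [← sR_algebraMap hcA, ← map_pow, ← map_mul]
    refine congrArg _ (Subtype.ext ?_)
    change emb M q hq hqM t (nB M q b f) = _
    rw [e, map_mul, map_pow, emb_algebraMap]
    rfl
  exact ⟨c, g, _, R, hc, hg, hk, e, fun t => ⟨hp t, rfl⟩,
    Subtype.ext (e1.symm.trans (key b h1.mem)), Subtype.ext (e2.symm.trans (key (!b) h2.mem))⟩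

/-- Roots of the reductions of the `(q - 1)`-st power. -/
theorem exists_roots {n : ℕ} (hn : n ≠ 0) {y : FN (M * q * q) Qb} (hy : y ≠ 0)
    (hr : y ∈ ratFld M q A) (hgv : ∀ C, gv M q hq hqM A C y = 0)
    (hN : ∀ b, NormPow M q b n y) {Z : Br → FX kA M} (hZ : RedOn hq hqM y Z)
    (hZ0 : ∀ C, Z C ≠ 0) :
    ∃ H : Br → FX kA M, ∀ C, H C ^ n = Z C ^ (q - 1) := by
  have hout : ∀ b : Bool, ∃ r : FX kA M, r ^ n = Z (sB b) := fun b => by
    obtain ⟨-, -, k, R, -, -, -, -, -, -, e2⟩ :=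
      exists_red_normPow hq hqM h hn hy hr hgv (hN (!b)) hZ
    rw [Bool.not_not] at e2
    obtain ⟨d, hd⟩ := IsAlgClosed.exists_pow_nat_eq (SemilinearAut.baseAut φF⁻¹ k)
      (Nat.pos_of_ne_zero hn)
    refine ⟨algebraMap kA (FX kA M) d * φF⁻¹ • R b, ?_⟩
    rw [mul_pow, ← map_pow, hd, ← smul_pow', ← inv_smul_algebraMap, ← smul_mul', ← e2,
      inv_smul_smul]
  obtain ⟨rl, hrl⟩ := hout true
  obtain ⟨rt, hrt⟩ := hout false
  obtain ⟨-, -, k, R, -, -, -, -, -, e1, -⟩ :=
    exists_red_normPow hq hqM h hn hy hr hgv (hN true) hZ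
  obtain ⟨d, hd⟩ := IsAlgClosed.exists_pow_nat_eq k (Nat.pos_of_ne_zero hn)
  refine ⟨fun C => match C with
    | .low => rl ^ (q - 1)
    | .mid => algebraMap kA (FX kA M) d * R true / rl
    | .top => rt ^ (q - 1), fun C => ?_⟩
  cases C
  · change (rl ^ (q - 1)) ^ n = _
    rw [← pow_mul, mul_comm (q - 1) n, pow_mul, hrl]; rfl
  · change (algebraMap kA (FX kA M) d * R true / rl) ^ n = _
    rw [div_pow, mul_pow, ← map_pow, hd, ← e1, hrl, mul_div_cancel_left₀]
    exact hZ0 _
  · change (rt ^ (q - 1)) ^ n = _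
    rw [← pow_mul, mul_comm (q - 1) n, pow_mul, hrt]; rfl

omit h in
include hq hqM in
/-- Norms of functions regular over the finite `j`-line are regular there. -/
theorem nB_mem_intClosure (b : Bool) {a : FN (M * q * q) Qb}
    (ha : a ∈ intClosure Qb (aM M q (xch M true))) : nB M q b a ∈ intClosure Qb (aj M q) := by
  cases b
  · refine Fermat.BAD.Inst.normAlong_mem_intClosure (heckeBetaBar Qb (M * q) q) ?_
    refine mem_intClosure_trans ?_ ha
    rw [show heckeBetaBar Qb (M * q) q (aj M q) = heckeAlphaBar Qb (M * q) q (bj M q) from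
      (alpha_beta_comm M q (jL M Qb)).symm]
    refine map_mem_intClosure (heckeAlphaBar Qb (M * q) q) ?_
    have h1 := map_mem_intClosure (alW M q hq hqM).toAlgHom (bj_mem_intClosure M q hq hqM)
    rw [show (alW M q hq hqM).toAlgHom (bj M q) = aj M q from alW_bj M q hq hqM,
      show (alW M q hq hqM).toAlgHom (aj M q) = bj M q from alW_aj M q hq hqM] at h1
    exact h1
  · exact Fermat.BAD.Inst.normAlong_mem_intClosure (heckeAlphaBar Qb (M * q) q) ha

/-- The value at the glued point of a transform by Frobenius. -/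
theorem evalAt_Qf_frob (hne : NoElliptic M) {s : Place kA (FX kA M)}
    (hs : s ∈ SS M q hq hqM h.2) {x : FX kA M} (hx : OrdGE s x 0) :
    OrdGE (Qf M q s) (φF • x) 0 ∧ evalAt (Qf M q s) (φF • x) = evalAt s x ^ q := by
  have e : Qf M q s = φF • s := by
    have h1 := Qf_Qf M q hq hqM h.2 hne hs
    calc Qf M q s = φF • (φF⁻¹ • Qf M q s) := (smul_inv_smul _ _).symm
      _ = φF • s := congrArg (φF • ·) h1
  rw [e]
  exact ⟨ordGE_smul _ hx, evalAt_smul φF hx⟩

omit h in
/-- Two functions with equal powers up to a constant differ by a constant. -/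
private theorem exists_eq_const_mul_of_pow {n : ℕ} (hn : n ≠ 0) {k : kA}
    {x z : FX kA M} (hz0 : z ≠ 0) (hx : x ^ n * algebraMap kA (FX kA M) k = z ^ n) :
    ∃ κ : kA, x = algebraMap kA (FX kA M) κ * z := by
  obtain ⟨κ, hκ⟩ := exists_const_of_pow_eq (K := kA) (ξ := x / z) hn (d := k⁻¹) (by
    rw [div_pow, ← hx, map_inv₀, div_mul_eq_div_div, div_self, one_div]
    intro h0
    rw [h0, zero_mul] at hx
    exact pow_ne_zero n hz0 hx.symm)
  exact ⟨κ, by rw [← hκ, div_mul_cancel₀ _ hz0]⟩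

omit h in
include hq hqM in
/-- The quotient of a root of the norm by the norm of an `n`-th root, cleared of denominators, is
regular over the finite `j`-line. -/
private theorem root_mem_intClosure (b : Bool) {n : ℕ} (hn : n ≠ 0) {c : Qb} (hc : c ≠ 0)
    {g : FN (M * q) Qb} {a c' u e : FN (M * q * q) Qb} (hNe : nB M q b e ≠ 0)
    (hac : u * c' = a) (heN : nB M q b (u * e ^ n) = algebraMap Qb _ c * g ^ n)
    (ha : a ∈ intClosure Qb (aM M q (xch M true)))
    (hc'i : c' ∈ intClosure Qb (aM M q (xch M true))) :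
    g / nB M q b e * nB M q b c' ∈ intClosure Qb (aj M q) := by
  obtain ⟨m, hm⟩ := Nat.exists_eq_succ_of_ne_zero hn
  have hPn : (g / nB M q b e * nB M q b c') ^ n =
      algebraMap Qb _ c⁻¹ * (nB M q b a * nB M q b c' ^ m) := by
    have hac' : nB M q b u * nB M q b c' = nB M q b a := by rw [← map_mul, hac]
    have hgn : g ^ n = algebraMap Qb _ c⁻¹ * (nB M q b u * nB M q b e ^ n) := by
      rw [← map_pow (nB M q b), ← map_mul (nB M q b), heN, ← mul_assoc, ← map_mul,
        inv_mul_cancel₀ hc, map_one, one_mul]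
    rw [mul_pow, div_pow, hgn, ← hac', hm, pow_succ (nB M q b c') m]
    field_simp
  refine mem_intClosure.mpr (IsIntegral.of_pow (Nat.pos_of_ne_zero hn) (mem_intClosure.mp ?_))
  rw [hPn]
  exact mul_mem (Subalgebra.algebraMap_mem _ _) (mul_mem
    (nB_mem_intClosure hq hqM b ha) (pow_mem (nB_mem_intClosure hq hqM b hc'i) m))

/-- The reduction of a quotient times a function, with the three reductions primitive. -/
private theorem exists_red_div_mul {g₁ g₂ g₃ : FN (M * q) Qb} (hg₂ : g₂ ≠ 0) (t : Bool)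
    (hgt : Prim A (emb M q hq hqM t g₁)) (het : Prim A (emb M q hq hqM t g₂))
    (hct : Prim A (emb M q hq hqM t g₃)) {x₁ x₂ x₃ : FX kA M}
    (h₁ : (x₁ : LaurentSeries kA) = sR A ⟨_, hgt.mem⟩)
    (h₂ : (x₂ : LaurentSeries kA) = sR A ⟨_, het.mem⟩)
    (h₃ : (x₃ : LaurentSeries kA) = sR A ⟨_, hct.mem⟩) :
    ∃ hm : emb M q hq hqM t (g₁ / g₂ * g₃) ∈ gS A,
      ((x₁ / x₂ * x₃ : FX kA M) : LaurentSeries kA) = sR A ⟨_, hm⟩ := by
  have hmP : emb M q hq hqM t (g₁ / g₂ * g₃) ∈ gS A := by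
    rw [map_mul, map_div₀, div_eq_mul_inv]
    exact mul_mem (mul_mem hgt.mem het.inv.mem) hct.mem
  have hx₂ : x₂ ≠ 0 := fun h0 => het.2 (by rw [← h₂, h0]; rfl)
  obtain ⟨z, hz⟩ := exists_red_q M q hq hqM h t (g₁ / g₂ * g₃) hmP
  have he : z * x₂ = x₁ * x₃ := Subtype.ext (by
    rw [MulMemClass.coe_mul, MulMemClass.coe_mul, hz, h₁, h₂, h₃, ← map_mul, ← map_mul]
    refine congrArg _ (Subtype.ext ?_)
    change emb M q hq hqM t (g₁ / g₂ * g₃) * emb M q hq hqM t g₂ =
      emb M q hq hqM t g₁ * emb M q hq hqM t g₃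
    rw [← map_mul, ← map_mul]
    congr 1
    rw [div_mul_eq_mul_div, div_mul_cancel₀ _ hg₂])
  refine ⟨hmP, ?_⟩
  rw [← hz, show z = x₁ / x₂ * x₃ by rw [div_mul_eq_mul_div, eq_div_iff hx₂, he]]

/-- The relation given by one norm between the values of the local roots at glued points. -/
theorem exists_relation (hne : NoElliptic M) (b : Bool) {n : ℕ} (hn : n ≠ 0)
    {y : FN (M * q * q) Qb} (hy : y ≠ 0) (hr : y ∈ ratFld M q A)
    (hgv : ∀ C, gv M q hq hqM A C y = 0) (hN : NormPow M q b n y) {Z : Br → FX kA M}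
    (hZ : RedOn hq hqM y Z) (hZ0 : ∀ C, Z C ≠ 0) {H : Br → FX kA M} (hH : ∀ C, H C ^ n = Z C) :
    ∃ w : kA, w ≠ 0 ∧ ∀ s ∈ SS M q hq hqM h.2, ∀ χ : BChar M q A true,
      χ.IsPoint hq hqM Finset.univ s →
      ∀ (u : χ.loc) (e : FN (M * q * q) Qb), χ.lres u ≠ 0 → e ∈ ratFld M q A → e ≠ 0 →
        y = (u : FN (M * q * q) Qb) * e ^ n → ∀ E : Br → FX kA M, RedOn hq hqM e E →
          evalAt s (H (sB b) / E (sB b)) * evalAt s (H .mid / E .mid) ^ (q - 1) =
            w * evalAt s (H (sB (!b)) / E (sB (!b))) ^ q := by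
  obtain ⟨c, g, k, R, hc, hg, hk, heN, hR, e1, e2⟩ :=
    exists_red_normPow hq hqM h hn hy hr hgv hN hZ
  have hH0 : ∀ C, H C ≠ 0 := fun C h0 => hZ0 C (by rw [← hH, h0, zero_pow hn])
  have hR0 : ∀ t, R t ≠ 0 := fun t h0 => by
    obtain ⟨hp, hz⟩ := hR t
    exact hp.2 (by rw [← hz, h0]; rfl)
  -- the reductions of the norm's root are constant multiples of the roots on the two sides
  obtain ⟨κ, hκ⟩ := exists_eq_const_mul_of_pow hn (x := R b)
    (z := H (sB b) * H .mid ^ (q - 1)) (k := k)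
    (mul_ne_zero (hH0 _) (pow_ne_zero _ (hH0 _))) (by
      rw [mul_comm, ← e1, mul_pow, ← pow_mul, mul_comm (q - 1) n, pow_mul, hH, hH])
  obtain ⟨κ', hκ'⟩ := exists_eq_const_mul_of_pow hn (x := R (!b)) (z := φF • H (sB (!b)))
    (k := k) ((smul_ne_zero_iff_ne _).mpr (hH0 _))
    (by rw [mul_comm, ← e2, ← smul_pow', hH])
  have hκ0 : κ ≠ 0 := fun h0 => hR0 b (by rw [hκ, h0, map_zero, zero_mul])
  have hκ'0 : κ' ≠ 0 := fun h0 => hR0 (!b) (by rw [hκ', h0, map_zero, zero_mul])
  refine ⟨κ' / κ, div_ne_zero hκ'0 hκ0, fun s hs χ hχ u e hu her he0 heq E hE => ?_⟩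
  have hge : ∀ C, gv M q hq hqM A C e = 0 := fun C =>
    gv_eq_zero_of_decomp hq hqM h hχ hn u hu he0 heq (Finset.mem_univ C) (hgv C)
  obtain ⟨a, c', hc', hac⟩ := u.2
  have hc'0 := χ.coe_ne_zero hc'
  have hgc : ∀ C, gv M q hq hqM A C (c' : FN (M * q * q) Qb) = 0 := fun C =>
    BChar.gv_eq_zero hq hqM h hχ (Finset.mem_univ C) hc'
  obtain ⟨C', hC', -⟩ := exists_redOn hq hqM h c'.2.1 hc'0 hgc
  obtain ⟨hE1, hE2, fE1, fE2⟩ := red_nB hq hqM h b he0 her hge hE
  obtain ⟨hC1, hC2, fC1, fC2⟩ := red_nB hq hqM h b hc'0 c'.2.1 hgc hC'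
  have hNe := nB_ne_zero M q b he0
  -- write `u = a / c'`: then `g / N e · N c'` is integral over `j`
  set P : FN (M * q) Qb := g / nB M q b e * nB M q b (c' : FN (M * q * q) Qb) with hP
  have hPi : P ∈ intClosure Qb (aj M q) := root_mem_intClosure hq hqM b hn hc hNe hac
    (by rw [← heq, heN]) (mem_intClosure_of_chart a.2.2) (mem_intClosure_of_chart c'.2.2)
  obtain ⟨hgb, hRb⟩ := hR b
  obtain ⟨hgn', hRn⟩ := hR (!b)
  obtain ⟨hPb, hPb'⟩ := exists_red_div_mul hq hqM h hNe b hgb hE1 hC1 hRb fE1.symm fC1.symm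
  obtain ⟨hPn', hPn''⟩ := exists_red_div_mul hq hqM h hNe (!b) hgn' hE2 hC2 hRn
    fE2.symm fC2.symm
  have hv : ∀ C, OrdGE s (H C / E C) 0 := fun C => by
    obtain ⟨hme, hze⟩ := hE C
    obtain ⟨hmy, hzy⟩ := hZ C
    exact (red_decomp hq hqM h hχ hn u hu he0 heq (Finset.mem_univ C) (hgv C) hmy hme
      (by rw [← SubmonoidClass.coe_pow, hH, hzy]) hze).2.1
  have hρ : ∀ C, OrdGE s (C' C) 0 ∧ evalAt s (C' C) = χ.res c' := fun C => by
    obtain ⟨z, hz, hzr, hzv⟩ := BChar.exists_red hq hqM h hχ (Finset.mem_univ C)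
      ⟨(c' : FN (M * q * q) Qb), χ.Bx_le_loc c'.2⟩
    rw [← hC'.eq_of hq hqM hz]
    exact ⟨hzr, by rw [hzv, χ.lres_of_mem c'.2]⟩
  -- its two reductions, in terms of `H / E`
  have eb : R b / (E (sB b) * E .mid ^ (q - 1)) * (C' (sB b) * C' .mid ^ (q - 1)) =
      algebraMap kA (FX kA M) κ * ((H (sB b) / E (sB b)) * (H .mid / E .mid) ^ (q - 1) *
        (C' (sB b) * C' .mid ^ (q - 1))) := by
    rw [hκ, div_pow, div_mul_div_comm, mul_div_assoc, mul_assoc]
  have en : R (!b) / (φF • E (sB (!b))) * (φF • C' (sB (!b))) =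
      algebraMap kA (FX kA M) κ' * φF • (H (sB (!b)) / E (sB (!b)) * C' (sB (!b))) := by
    rw [hκ', smul_mul', smul_div₀', mul_div_assoc, mul_assoc]
  rw [eb] at hPb'
  rw [en] at hPn''
  -- which glue at the supersingular point
  have hglue : evalAt s (algebraMap kA (FX kA M) κ * ((H (sB b) / E (sB b)) *
      (H .mid / E .mid) ^ (q - 1) * (C' (sB b) * C' .mid ^ (q - 1)))) =
      evalAt (Qf M q s) (algebraMap kA (FX kA M) κ' *
        φF • (H (sB (!b)) / E (sB (!b)) * C' (sB (!b)))) := by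
    cases b
    · have hall : ∀ t, emb M q hq hqM t P ∈ gS A := fun t => by cases t; exacts [hPb, hPn']
      have := glue_gS M q hq hqM h hPi hall _ _ hPn'' hPb' (Qf_mem_SS M q hq hqM h.2 hs)
      rw [Qf_Qf M q hq hqM h.2 hne hs] at this
      exact this.symm
    · have hall : ∀ t, emb M q hq hqM t P ∈ gS A := fun t => by cases t; exacts [hPn', hPb]
      exact glue_gS M q hq hqM h hPi hall _ _ hPb' hPn'' hs
  obtain ⟨r2, v2⟩ := evalAt_Qf_frob hq hqM h hne hs (x := H (sB (!b)) / E (sB (!b)) * C' (sB (!b)))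
    (by simpa using (hv _).mul (hρ _).1)
  have hpow : ∀ x : FX kA M, OrdGE s x 0 → OrdGE s (x ^ (q - 1)) 0 := fun x hx => by
    simpa using hx.pow (q - 1)
  have hmul : ∀ x z : FX kA M, OrdGE s x 0 → OrdGE s z 0 → OrdGE s (x * z) 0 :=
    fun x z hx hz => by simpa using hx.mul hz
  -- evaluating, and cancelling the value of `c'`
  rw [evalAt_mul (ordGE_algebraMap s κ) (hmul _ _ (hmul _ _ (hv _) (hpow _ (hv _)))
      (hmul _ _ (hρ _).1 (hpow _ (hρ _).1))),
    evalAt_mul (hmul _ _ (hv _) (hpow _ (hv _))) (hmul _ _ (hρ _).1 (hpow _ (hρ _).1)),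
    evalAt_mul (hv _) (hpow _ (hv _)), evalAt_mul (hρ _).1 (hpow _ (hρ _).1),
    evalAt_pow (hv _), evalAt_pow (hρ _).1, (hρ _).2, (hρ _).2,
    evalAt_mul (ordGE_algebraMap _ κ') r2, v2, evalAt_mul (hv _) (hρ _).1, (hρ _).2,
    evalAt_algebraMap, evalAt_algebraMap, mul_pow, ← pow_succ', Nat.sub_add_cancel hq.one_le]
    at hglue
  rw [div_mul_eq_mul_div, eq_div_iff hκ0]
  exact mul_right_cancel₀ (pow_ne_zero q hc') (by linear_combination hglue)

end Fermat.CAR

end
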