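import Fermat.Agent.CAR.Charpoly
import Fermat.Agent.CAR.Inertia
import Fermat.Agent.EC.Sparse
import Fermat.Agent.FLAT.Red
import Mathlib.LinearAlgebra.Lagrange

/-!
# Values of the roots of a characteristic polynomial; interpolation over the field fixed by inertia

The values at the places over `P` of a function are the roots of the values at `P` of the
coefficients of its characteristic polynomial.  Terms of pairwise distinct orders cannot cancel.
-/

set_option autoImplicit false

noncomputable section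

open Polynomial AlgebraicCurve

namespace Fermat.CAR

open Fermat.FF Fermat.JAC Fermat.RED.Model Fermat.EC.Val

local notation "Qb" => AlgebraicClosure ℚ

section Values

variable {F F' : Type*} [Field F] [Field F'] [Algebra Qb F] [Algebra Qb F']
  [FF.IsFunctionField Qb F] [FF.IsFunctionField Qb F'] (φ : F →ₐ[Qb] F')

/-- The polynomial with roots the values at the places over `P`, with multiplicity. -/
def chP (f : F') (P : Place Qb F) : Qb[X] :=
  ∏ Q ∈ above φ P, (X - C (evalAt Q f)) ^ Q.ramificationIndexAlong φ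

/-- `chP` is monic. -/
theorem chP_monic (f : F') (P : Place Qb F) : (chP φ f P).Monic :=
  monic_prod_of_monic _ _ fun _ _ => (monic_X_sub_C _).pow _

/-- The ramification indices above a place add up to the degree. -/
theorem sum_ramificationIndex_above (P : Place Qb F) :
    ∑ Q ∈ above φ P, Q.ramificationIndexAlong φ = finrankAlong Qb φ := by
  have h := degree_pullDiv φ (Finsupp.single P 1)
  rw [pullDiv_single, map_sum] at h
  simp only [Divisor.degree_single, FF.deg_eq_one, Nat.cast_one, mul_one, one_mul] at h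
  exact_mod_cast h

/-- The coefficients of `chP` are the values of those of the characteristic polynomial. -/
theorem coeff_chP {f : F'} {P : Place Qb F} (hf : ∀ Q ∈ above φ P, OrdGE Q f 0)
    (hc : ∀ n, OrdGE P ((charA φ f).coeff n) 0) (n : ℕ) :
    (chP φ f P).coeff n = evalAt P ((charA φ f).coeff n) := by
  classical
  obtain ⟨ev, hev⟩ := FF.IsLocalFamily.exists_evalHom (K := Qb) P
  have hl : charA φ f ∈ lifts P.toValuationSubring.subtype :=
    (lifts_iff_coeff_lifts _).mpr fun m => ⟨⟨_, (mem_iff_ordGE P).mpr (hc m)⟩, rfl⟩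
  obtain ⟨G, hG, -, -⟩ := lifts_and_natDegree_eq_and_monic hl (charA_monic φ f)
  have key : chP φ f P = G.map ev := by
    refine Polynomial.funext fun c => ?_
    set a : P.toValuationSubring :=
      ⟨algebraMap Qb F c, (mem_iff_ordGE P).mpr (FF.ordGE_algebraMap P c)⟩
    have ha : ev a = c := (hev a).trans (evalAt_algebraMap P c)
    conv_rhs => rw [← ha, eval_map, eval₂_hom, hev, show ((G.eval a : P.toValuationSubring) : F) =
        (charA φ f).eval (algebraMap Qb F c) by
      rw [← hG, eval_map]; exact (eval₂_hom P.toValuationSubring.subtype a).symm,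
      eval_charA, AlgHom.commutes]
    rw [evalAt_normAlong φ P fun Q hQ =>
        (FF.ordGE_algebraMap Q c).sub (hf Q hQ), chP, eval_prod]
    refine Finset.prod_congr rfl fun Q hQ => ?_
    rw [eval_pow, eval_sub, eval_X, eval_C, evalAt_sub (FF.ordGE_algebraMap Q c) (hf Q hQ),
      evalAt_algebraMap]
  rw [key, coeff_map, hev, ← hG, coeff_map]
  rfl

/-- The value at a place above is a root of `chP`. -/
theorem eval_chP_self {f : F'} {P : Place Qb F} {Q : Place Qb F'} (hQ : Q ∈ above φ P) :
    (chP φ f P).eval (evalAt Q f) = 0 := by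
  classical
  rw [chP, eval_prod]
  refine Finset.prod_eq_zero hQ ?_
  rw [eval_pow, eval_sub, eval_X, eval_C, sub_self,
    zero_pow (ramificationIndexAlong_pos φ Q).ne']

variable {A : ValuationSubring (AlgebraicClosure ℚ)}

/-- Integral values of the coefficients give integral values at the places over `P`, and the
residues are the roots of the reduced polynomial. -/
theorem residual_chP {f : F'} {P : Place Qb F} (hf : ∀ Q ∈ above φ P, OrdGE Q f 0)
    (hc : ∀ n, OrdGE P ((charA φ f).coeff n) 0) (hA : ∀ n, evalAt P ((charA φ f).coeff n) ∈ A) :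
    (∀ Q ∈ above φ P, evalAt Q f ∈ A) ∧ ∀ n,
      (∏ Q ∈ above φ P,
        (X - C (Fermat.FLAT.red A (evalAt Q f))) ^ Q.ramificationIndexAlong φ).coeff n =
        Fermat.FLAT.red A (evalAt P ((charA φ f).coeff n)) := by
  classical
  have hl : chP φ f P ∈ lifts A.subtype :=
    (lifts_iff_coeff_lifts _).mpr fun m => ⟨⟨_, hA m⟩, (coeff_chP φ hf hc m).symm⟩
  obtain ⟨G, hG, -, hGm⟩ := lifts_and_natDegree_eq_and_monic hl (chP_monic φ f P)
  have hmem : ∀ Q ∈ above φ P, evalAt Q f ∈ A := fun Q hQ => by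
    have hint : IsIntegral A (evalAt Q f) := ⟨G, hGm, by
      rw [show algebraMap A Qb = A.subtype from rfl, ← eval_map, hG, eval_chP_self φ hQ]⟩
    obtain ⟨y, hy⟩ := IsIntegrallyClosed.isIntegral_iff.mp hint
    exact hy ▸ y.2
  refine ⟨hmem, fun n => ?_⟩
  have e : G = ∏ Q ∈ (above φ P).attach,
      (X - C (⟨_, hmem _ Q.2⟩ : A)) ^ (Q.1.ramificationIndexAlong φ) := by
    refine Polynomial.map_injective A.subtype Subtype.val_injective ?_
    rw [hG, Polynomial.map_prod, chP, ← Finset.prod_attach]
    refine Finset.prod_congr rfl fun Q _ => ?_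
    simp
  have hn : (G.coeff n : Qb) = evalAt P ((charA φ f).coeff n) := by
    rw [← coeff_chP φ hf hc n, ← hG, coeff_map]; rfl
  rw [← hn, Fermat.FLAT.red_of_mem (G.coeff n).2,
    show (⟨(G.coeff n : Qb), (G.coeff n).2⟩ : A) = G.coeff n from rfl,
    ← coeff_map (p := G) (IsLocalRing.residue A), e, Polynomial.map_prod, ← Finset.prod_attach]
  refine congrArg (fun p : (IsLocalRing.ResidueField A)[X] => p.coeff n)
    (Finset.prod_congr rfl fun Q _ => ?_)
  simp [Fermat.FLAT.red_of_mem (hmem _ Q.2)]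

end Values

section Orders

variable {A : ValuationSubring (AlgebraicClosure ℚ)} {q : ℕ} (h : IsPlace A q)
include h

/-- Terms of pairwise distinct orders cannot cancel. -/
theorem ge_of_sum_distinct {ι : Type*} {s : Finset ι} {f : ι → Qb}
    (hd : ∀ i ∈ s, ∀ j ∈ s, f i ≠ 0 → f j ≠ 0 → ord A q (f i) = ord A q (f j) → i = j) :
    (∀ r, Ge A q (∑ i ∈ s, f i) r → ∀ i ∈ s, Ge A q (f i) r) ∧
      (∑ i ∈ s, f i ≠ 0 → ∃ i ∈ s, f i ≠ 0 ∧ ord A q (∑ j ∈ s, f j) = ord A q (f i)) := by
  classical
  by_cases hall : ∀ i ∈ s, f i = 0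
  · exact ⟨fun r _ i hi => Or.inl (hall i hi), fun hne => absurd (Finset.sum_eq_zero hall) hne⟩
  push Not at hall
  obtain ⟨i, hi, hi0⟩ := hall
  obtain ⟨m, hm, hmin⟩ := (s.filter fun i => f i ≠ 0).exists_min_image (fun i => ord A q (f i))
    ⟨i, Finset.mem_filter.mpr ⟨hi, hi0⟩⟩
  obtain ⟨hms, hm0⟩ := Finset.mem_filter.mp hm
  have hS : Is A q (∑ i ∈ s, f i) (ord A q (f m)) :=
    is_sum_of_dominant h hms (is_ord hm0) fun j hj hjm => by
      rcases eq_or_ne (f j) 0 with hj0 | hj0
      · exact Or.inl hj0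
      · exact Or.inr (lt_of_le_of_ne (hmin j (Finset.mem_filter.mpr ⟨hj, hj0⟩))
          fun e => hjm (hd m hms j hj hm0 hj0 e).symm)
  refine ⟨fun r hr j hj => ?_, fun _ => ⟨m, hms, hm0, hS.2⟩⟩
  rcases eq_or_ne (f j) 0 with hj0 | hj0
  · exact Or.inl hj0
  · exact Or.inr ((hS.le_of_ge hr).trans (hmin j (Finset.mem_filter.mpr ⟨hj, hj0⟩)))

/-- A sum `∑ cᵢ wⁱ`, `i < n`, of fixed `cᵢ` with `w` of order `1 / n` is integral only if all `cᵢ`
are, and its order lies in `ℤ / n` if it is nonzero. -/
theorem fixK_sum_pow {n : ℕ} {w : Qb} (hw : Is A q w (1 / n)) {c : ℕ → Qb}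
    (hc : ∀ i, c i ∈ fixK A) :
    (Ge A q (∑ i ∈ Finset.range n, c i * w ^ i) 0 → ∀ i < n, c i ∈ A) ∧
      (∑ i ∈ Finset.range n, c i * w ^ i ≠ 0 →
        ∃ k : ℤ, ord A q (∑ i ∈ Finset.range n, c i * w ^ i) = k / n) := by
  -- the terms have orders in distinct classes modulo one
  have key : ∀ i, c i * w ^ i ≠ 0 → ∃ k : ℤ, ord A q (c i) = k ∧
      ord A q (c i * w ^ i) = k + (i : ℚ) / n := fun i hi => by
    obtain ⟨k, hk⟩ := exists_int_ord_fixK h (left_ne_zero_of_mul hi) (hc i)
    refine ⟨k, hk, ?_⟩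
    rw [ord_mul h (left_ne_zero_of_mul hi) (right_ne_zero_of_mul hi), hk, ord_pow h, hw.2]
    ring
  rcases Nat.eq_zero_or_pos n with rfl | hn
  · exact ⟨fun _ i hi => absurd hi (Nat.not_lt_zero i), fun hne => absurd rfl hne⟩
  have hn' : (0 : ℚ) < n := Nat.cast_pos.mpr hn
  -- so the order of the sum is that of its least term
  obtain ⟨h1, h2⟩ := ge_of_sum_distinct h (s := Finset.range n) (f := fun i => c i * w ^ i)
    fun i hi j hj hi0 hj0 e => by
      obtain ⟨k, -, hk⟩ := key i hi0
      obtain ⟨l, -, hl⟩ := key j hj0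
      rw [hk, hl] at e
      field_simp at e
      have e' : k * (n : ℤ) + i = n * l + j := by exact_mod_cast e
      rw [Finset.mem_range] at hi hj
      have hkl : k = l := by nlinarith
      subst hkl
      have e'' : (i : ℤ) = j := by linarith
      exact_mod_cast e''
  constructor
  -- each coefficient is integral
  · intro hs i hi
    rcases eq_or_ne (c i) 0 with h0 | h0
    · rw [h0]; exact zero_mem _
    have hi0 := mul_ne_zero h0 (pow_ne_zero i hw.1)
    obtain ⟨k, hk, hk'⟩ := key i hi0
    have := (h1 0 hs i (Finset.mem_range.mpr hi)).resolve_left hi0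
    rw [hk'] at this
    refine (mem_iff_ord h h0).mpr ?_
    rw [hk]
    by_contra hlt
    push Not at hlt
    have hk1 : (k : ℚ) ≤ -1 := by exact_mod_cast (show k ≤ -1 by
      have : k < 0 := by exact_mod_cast hlt
      omega)
    have : (i : ℚ) / n < 1 := by rw [div_lt_one hn']; exact_mod_cast hi
    linarith
  -- the order has denominator `n`
  · intro hne
    obtain ⟨i, -, hi0, e⟩ := h2 hne
    obtain ⟨k, -, hk⟩ := key i hi0
    refine ⟨k * n + i, ?_⟩
    rw [e, hk]
    push_cast
    field_simp

omit h in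
/-- Interpolation commutes with inertia. -/
theorem interpolate_fixed {ι : Type*} [DecidableEq ι] (s : Finset ι) (w v : ι → Qb)
    (hw : Set.InjOn w s)
    (hs : ∀ σ ∈ A.inertiaSubgroupIn ℚ, ∀ i ∈ s, ∃ j ∈ s, w j = σ (w i) ∧ v j = σ (v i)) (n : ℕ) :
    (Lagrange.interpolate s w v).coeff n ∈ fixK A := by
  refine mem_fixK.mpr fun σ hσ => ?_
  set p := Lagrange.interpolate s w v with hp
  choose g hg hgw hgv using fun i : s => hs σ hσ i i.2
  have hgs : Function.Surjective fun i : s => (⟨g i, hg i⟩ : s) := by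
    refine Finite.injective_iff_surjective.mp fun i j e => ?_
    have := congrArg (fun x : s => w x) e
    simp only [hgw] at this
    exact Subtype.ext (hw i.2 j.2 (σ.injective this))
  have hmap : p.map (σ : Qb →+* Qb) = p := by
    refine Lagrange.eq_interpolate_of_eval_eq _ hw ?_ fun j hj => ?_
    · exact lt_of_le_of_lt degree_map_le (Lagrange.degree_interpolate_lt _ hw)
    · obtain ⟨i, hi⟩ := hgs ⟨j, hj⟩
      obtain rfl : g i = j := congrArg Subtype.val hi
      rw [hgw, hgv, eval_map, show σ (w i) = (σ : Qb →+* Qb) (w i) from rfl, eval₂_hom,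
        hp, Lagrange.eval_interpolate_at_node _ hw i.2]
      rfl
  conv_rhs => rw [← hmap, coeff_map]
  rfl

end Orders

end Fermat.CAR

end
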