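import Fermat.Agent.CAR.SSGlue
import Fermat.Agent.CAR.PtChar

/-!
# The supersingular points

Over a glued point the values at the places of the fibre, reduced, form a character lying on all
three branches.  In its local ring `T = t - c` is prime, and modulo `T` every function is a unit
times a power of `w`: a function is determined by its value at one place of the fibre, and such a
value is a sum of fixed constants times powers of the value of `w`, of order `1 / n`.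
-/

set_option autoImplicit false
set_option linter.unusedSectionVars false

noncomputable section

open ModularCurve AlgebraicCurve Polynomial

namespace Fermat.CAR

attribute [local instance 10000] algFN smulFN algFX smulFX

open Fermat.FF Fermat.MC Fermat.JAC Fermat.RED.Model Fermat.BAD.X0 Fermat.EC.Val

local notation "Qb" => AlgebraicClosure ℚ
local notation "Γℚ" => (AlgebraicClosure ℚ ≃ₐ[ℚ] AlgebraicClosure ℚ)

variable {M q : ℕ} [NeZero M] [NeZero q] {A : ValuationSubring (AlgebraicClosure ℚ)}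
variable [Fact q.Prime] (hq : q.Prime) (hqM : ¬ q ∣ M)
variable [FF.IsFunctionField Qb (FN M Qb)] [FF.IsFunctionField Qb (FN (M * q) Qb)]
  [FF.IsFunctionField Qb (FN (M * q * q) Qb)]
variable [IsAlgClosed (IsLocalRing.ResidueField A)] [CharP (IsLocalRing.ResidueField A) q]
  [FF.IsFunctionField (IsLocalRing.ResidueField A) (FX (IsLocalRing.ResidueField A) M)]
variable (h : IsPlace A q)

local notation "kA" => IsLocalRing.ResidueField A

variable {s : Place (IsLocalRing.ResidueField A) (FX (IsLocalRing.ResidueField A) M)}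
  (D : SSBase (A := A) M q s)

/-- Members are regular with integral values on the fibre. -/
theorem Bx_at_fibre {Q : Place Qb (FN (M * q * q) Qb)} (hQ : Q ∈ fibre M q D)
    (f : Bx M q A true) :
    OrdGE Q (f : FN (M * q * q) Qb) 0 ∧ evalAt Q (f : FN (M * q * q) Qb) ∈ A :=
  chart_at_fibre M q D hQ f.2.2

/-- Invariant functions regular on the fibre take conjugate values there. -/
theorem evalAt_smul_rat {f : FN (M * q * q) Qb} (hf : f ∈ ratFld M q A)
    {Q : Place Qb (FN (M * q * q) Qb)} (hr : OrdGE Q f 0) {σ : Γℚ}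
    (hσ : σ ∈ A.inertiaSubgroupIn ℚ) :
    OrdGE (gal2 M q σ • Q) f 0 ∧ evalAt (gal2 M q σ • Q) f = σ (evalAt Q f) := by
  have h2 := JAC.evalAt_smul (s := gal2 M q σ) hr
  have h3 := ordGE_smul (gal2 M q σ) hr
  rw [mem_ratFld_iff.mp hf σ hσ] at h2 h3
  exact ⟨h3, h2.trans rfl⟩

variable (Q₀ : Place Qb (FN (M * q * q) Qb)) (hQ₀ : Q₀ ∈ fibre M q D)

/-- The character of the fibre. -/
def ssChar : BChar M q A true where
  res :=
    { toFun := fun f => IsLocalRing.residue A ⟨_, (Bx_at_fibre D hQ₀ f).2⟩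
      map_one' := by
        rw [← map_one (IsLocalRing.residue A)]
        exact congrArg _ (Subtype.ext (by
          change evalAt Q₀ (1 : FN (M * q * q) Qb) = 1
          rw [← map_one (algebraMap Qb (FN (M * q * q) Qb)), evalAt_algebraMap]))
      map_zero' := by
        rw [← map_zero (IsLocalRing.residue A)]
        exact congrArg _ (Subtype.ext (RED.Model.evalAt_zero Q₀))
      map_mul' := fun f g => by
        rw [← map_mul]
        exact congrArg _ (Subtype.ext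
          (evalAt_mul (Bx_at_fibre D hQ₀ f).1 (Bx_at_fibre D hQ₀ g).1))
      map_add' := fun f g => by
        rw [← map_add]
        exact congrArg _ (Subtype.ext
          (evalAt_add (Bx_at_fibre D hQ₀ f).1 (Bx_at_fibre D hQ₀ g).1)) }
  const c hc := by
    change IsLocalRing.residue A ⟨evalAt Q₀ (algebraMap Qb (FN (M * q * q) Qb) c), _⟩ = _
    exact congrArg (IsLocalRing.residue A) (Subtype.ext (evalAt_algebraMap Q₀ c))

/-- `ssChar` is the reduced value at `Q₀`. -/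
theorem ssChar_res (f : Bx M q A true) :
    (ssChar D Q₀ hQ₀).res f = Fermat.FLAT.red A (evalAt Q₀ (f : FN (M * q * q) Qb)) :=
  (Fermat.FLAT.red_of_mem (Bx_at_fibre D hQ₀ f).2).symm

variable (hne : NoElliptic M) (hs : s ∈ SS M q hq hqM h.2)
include hne hs hq hqM h

/-- The fibre lies in the tube. -/
theorem fibre_mem_tube {Q : Place Qb (FN (M * q * q) Qb)} (hQ : Q ∈ fibre M q D) :
    Q ∈ (ssChar D Q₀ hQ₀).tube := by
  refine ⟨(aM_at_fibre M q D hQ D.a_red.1.1).1, fun f => ?_⟩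
  obtain ⟨hm₀, hA₀⟩ := Bx_at_fibre D hQ₀ f
  refine ⟨(Bx_at_fibre D hQ f).2, ?_⟩
  obtain ⟨σ, hσ, rfl⟩ := (fibre_orbit M q hq hqM D h hne hs).2.2.2 Q₀ hQ₀ Q hQ
  rw [ssChar_res, ← Fermat.FLAT.red_of_mem]
  rw [(evalAt_smul_rat f.2.1 hm₀ hσ).2,
    Fermat.FLAT.red_apply h (isInert_of_mem_inertia hσ) ((mem_iff_ge h _).mp hA₀)]

omit hq hqM h hne hs in
/-- `Tfn` lies in `Bx`. -/
theorem Tfn_mem_Bx : Tfn M q D.t D.c ∈ Bx M q A true :=
  ⟨Tfn_mem_ratFld M q D.t_rat D.c_fix, Tfn_mem_chart M q D⟩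

omit hne hs in
/-- `wfn` lies in `Bx`. -/
theorem wfn_mem_Bx : wfn M q D.t ∈ Bx M q A true :=
  ⟨wfn_mem_ratFld M q D.t_rat, wfn_mem_chart M q hq hqM D h⟩

omit hne hs in
/-- A zero of `T` in the tube lies in the fibre. -/
theorem mem_fibre_of_tube {Q : Place Qb (FN (M * q * q) Qb)} (hQ : Q ∈ (ssChar D Q₀ hQ₀).tube)
    (hT : 0 < Q.ord (Tfn M q D.t D.c)) : Q ∈ fibre M q D := by
  obtain ⟨hj, hall⟩ := hQ
  refine mem_fibre_of M q hq hqM D h hj (hall ⟨_, self_mem_Bx⟩).1 hT fun t' ht' hQ' => ?_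
  have hm : aM M q t' ∈ Bx M q A true := ⟨aM_mem_ratFld M q hQ', map_mem_chart (aM M q) ht'⟩
  obtain ⟨h1, e⟩ := hall ⟨_, hm⟩
  rw [ssChar_res, ← Fermat.FLAT.red_of_mem h1] at e
  rw [e]
  exact congrArg _ (aM_at_fibre M q D hQ₀ (evalAt_mem ht' D.a_red.1.1 D.a_red.1.2).1).2

/-- An assignment of values on the fibre compatible with inertia is a combination, with coefficients
fixed by inertia, of the powers of the values of `w`. -/
theorem exists_interpolation {v : Place Qb (FN (M * q * q) Qb) → Qb}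
    (hv : ∀ σ ∈ A.inertiaSubgroupIn ℚ, ∀ Q ∈ fibre M q D, v (gal2 M q σ • Q) = σ (v Q)) :
    ∃ c : ℕ → Qb, (∀ i, c i ∈ fixK A) ∧ ∀ Q ∈ fibre M q D,
      v Q = ∑ i ∈ Finset.range (fibre M q D).card, c i * evalAt Q (wfn M q D.t) ^ i := by
  classical
  set S := fibre M q D
  set w := fun Q : Place Qb (FN (M * q * q) Qb) => evalAt Q (wfn M q D.t)
  have hinj : Set.InjOn w S := (fibre_orbit M q hq hqM D h hne hs).2.1
  set p := Lagrange.interpolate S w v
  refine ⟨p.coeff, interpolate_fixed S w v hinj fun σ hσ Q hQ => ⟨gal2 M q σ • Q,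
    smul_mem_fibre M q hq hqM D h hσ hQ, (evalAt_smul_rat
      (wfn_mem_ratFld M q D.t_rat)
      (chart_at_fibre M q D hQ (wfn_mem_chart M q hq hqM D h)).1 hσ).2, hv σ hσ Q hQ⟩,
    fun Q hQ => ?_⟩
  rw [← Lagrange.eval_interpolate_at_node v hinj hQ]
  rcases eq_or_ne p 0 with h0 | h0
  · change p.eval (w Q) = _
    simp [h0]
  exact Polynomial.eval_eq_sum_range' ((natDegree_lt_iff_degree_lt h0).mpr
    (Lagrange.degree_interpolate_lt v hinj)) _

/-- **Values are units times powers of the value of `w`.** -/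
theorem exists_pow_value {f : FN (M * q * q) Qb} (hf : f ∈ ratFld M q A)
    (hreg : ∀ Q ∈ fibre M q D, OrdGE Q f 0) (hA : evalAt Q₀ f ∈ A) (hf0 : evalAt Q₀ f ≠ 0) :
    ∃ (k : ℕ) (g : Bx M q A true), (ssChar D Q₀ hQ₀).res g ≠ 0 ∧
      evalAt Q₀ f = evalAt Q₀ (g : FN (M * q * q) Qb) * evalAt Q₀ (wfn M q D.t) ^ k := by
  classical
  obtain ⟨hn, -, hord, htrans⟩ := fibre_orbit M q hq hqM D h hne hs
  set n := (fibre M q D).card
  set w := fun Q : Place Qb (FN (M * q * q) Qb) => evalAt Q (wfn M q D.t)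
  have hn' : (0 : ℚ) < n := Nat.cast_pos.mpr hn
  have hwσ : ∀ σ ∈ A.inertiaSubgroupIn ℚ, ∀ Q ∈ fibre M q D, w (gal2 M q σ • Q) = σ (w Q) :=
    fun σ hσ Q hQ => (evalAt_smul_rat (wfn_mem_ratFld M q D.t_rat)
      (chart_at_fibre M q D hQ (wfn_mem_chart M q hq hqM D h)).1 hσ).2
  have hw₀ : Is A q (w Q₀) (1 / n) := (hord Q₀ hQ₀).1
  -- interpolate `f` on the fibre: its order there is `k / n`
  obtain ⟨c, hc, hcv⟩ := exists_interpolation hq hqM h D hne hs (v := fun Q => evalAt Q f)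
    fun σ hσ Q hQ => (evalAt_smul_rat hf (hreg Q hQ) hσ).2
  obtain ⟨k, hk⟩ := (fixK_sum_pow h hw₀ hc).2 (by rw [← hcv Q₀ hQ₀]; exact hf0)
  rw [← hcv Q₀ hQ₀] at hk
  have hk0 : 0 ≤ k := by
    have h1 := (mem_iff_ord h hf0).mp hA
    rw [hk] at h1
    rcases lt_or_ge k 0 with hlt | hge
    · exact absurd h1 (not_le.mpr (div_neg_of_neg_of_pos (Int.cast_lt_zero.mpr hlt) hn'))
    · exact hge
  lift k to ℕ using hk0
  -- interpolate `f / w ^ k`, a unit with coefficients integral and fixed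
  obtain ⟨d, hd, hdv⟩ := exists_interpolation hq hqM h D hne hs
    (v := fun Q => evalAt Q f / w Q ^ k) fun σ hσ Q hQ => by
      rw [(evalAt_smul_rat hf (hreg Q hQ) hσ).2, hwσ σ hσ Q hQ, map_div₀, map_pow]
  have hu : Is A q (evalAt Q₀ f / w Q₀ ^ k) 0 := by
    refine ⟨div_ne_zero hf0 (pow_ne_zero _ hw₀.1), ?_⟩
    rw [div_eq_mul_inv, ord_mul h hf0 (inv_ne_zero (pow_ne_zero _ hw₀.1)), ord_inv h, ord_pow h,
      hw₀.2, hk]
    push_cast
    ring
  have hdA := (fixK_sum_pow h hw₀ hd).1 (by rw [← hdv Q₀ hQ₀]; exact hu.ge)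
  -- the polynomial in `w` with these coefficients
  let P : (O0 A)[X] := ∑ i ∈ (Finset.range n).attach,
    Polynomial.C (⟨d i.1, hd i.1, hdA i.1 (Finset.mem_range.mp i.2)⟩ : O0 A) * X ^ i.1
  set g : Bx M q A true := ⟨_, eval₂_mem_Bx (wfn_mem_Bx hq hqM h D) P⟩
  have hgv : evalAt Q₀ (g : FN (M * q * q) Qb) = evalAt Q₀ f / w Q₀ ^ k := by
    refine ((evalAt_eval₂ Q₀ (O0 A).subtype
      (chart_at_fibre M q D hQ₀ (wfn_mem_chart M q hq hqM D h)).1 P).2).trans ?_
    rw [hdv Q₀ hQ₀, eval₂_finsetSum, ← Finset.sum_attach (Finset.range n)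
      (fun i => d i * evalAt Q₀ (wfn M q D.t) ^ i)]
    refine Finset.sum_congr rfl fun i _ => ?_
    rw [eval₂_mul, eval₂_C, eval₂_X_pow]
    rfl
  refine ⟨k, g, ?_, by rw [hgv, div_mul_cancel₀ _ (pow_ne_zero k hw₀.1)]⟩
  rw [ssChar_res, hgv]
  intro h0
  exact hu.not_gt ((Fermat.FLAT.red_eq_zero_iff h hu.ge).mp h0)

/-- The glued point lies on the three branches. -/
theorem isPoint_ssChar :
    (ssChar D Q₀ hQ₀).IsPoint hq hqM ({Br.low, Br.mid, Br.top} : Finset Br) s := by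
  refine ⟨fun C _ f hf => ?_, ((mem_SS M q hq hqM h.2).mp hs).1, 1,
    by rw [map_one]; exact one_ne_zero, fun C hC => absurd ?_ hC⟩
  · have hmem : resC M q hq hqM A C ⟨(f : FN (M * q * q) Qb), hf⟩ ∈
        modularFunctionFieldFullC kA M := resC_mem hq hqM h C _ f.2.1 hf
    refine ⟨⟨_, hmem⟩, rfl, ?_⟩
    have hb := (mem_fibre M q D).mp hQ₀
    refine glue_qq M q hq hqM h hne hs (P := below (heckeAlphaBar Qb (M * q) q) Q₀)
      (hb.symm ▸ D.a_red) f.2.1 f.2.2 (r := (ssChar D Q₀ hQ₀).res f)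
        (fun Q hQ => ?_) C ⟨_, hmem⟩ rfl
    have hQm : Q ∈ fibre M q D := (mem_fibre M q D).mpr (by rw [(mem_above _).mp hQ]; exact hb)
    obtain ⟨hm, e⟩ := (fibre_mem_tube hq hqM h D Q₀ hQ₀ hne hs hQm).2 f
    exact ⟨(Bx_at_fibre D hQm f).1, (Fermat.FLAT.red_of_mem hm).trans e⟩
  · cases C <;> simp

omit hne hs in
/-- `T` has order zero on every branch. -/
theorem gv_Tfn (C : Br) :
    Tfn M q D.t D.c ≠ 0 ∧ gv M q hq hqM A C (Tfn M q D.t D.c) = 0 := by
  set G := D.t - algebraMap Qb (FN M Qb) D.c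
  have hG0 : G ≠ 0 := fun h0 => by
    have h1 := D.a_ord
    rw [show D.t - algebraMap Qb (FN M Qb) D.c = 0 from h0, Place.ord_zero] at h1
    exact zero_ne_one h1
  have hT0 : Tfn M q D.t D.c ≠ 0 := (_root_.map_ne_zero (aM M q)).mpr hG0
  have hGm : (G : LaurentSeries Qb) ∈ gS A := by
    rw [AddSubgroupClass.coe_sub]
    exact sub_mem D.t_int (algebraMap_mem_gS D.c_int)
  have hP : Prim A (G : LaurentSeries Qb) := ⟨hGm, fun h0 => by
    have e : (⟨_, hGm⟩ : gS A) = ⟨_, D.t_int⟩ - ⟨_, algebraMap_mem_gS D.c_int⟩ := Subtype.ext rfl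
    rw [e, map_sub, sR_algebraMap D.c_int, ← D.t_red] at h0
    have hz : D.z = algebraMap kA (FX kA M) (IsLocalRing.residue A ⟨D.c, D.c_int⟩) :=
      Subtype.ext (sub_eq_zero.mp h0)
    have h1 := D.z_ord
    rw [hz, evalAt_algebraMap, sub_self, Place.ord_zero] at h1
    exact zero_ne_one h1⟩
  refine ⟨hT0, (prim_iff M q hq hqM h C hT0).mp ?_⟩
  cases C
  · rw [Tfn, brC_low_aM]; exact hP
  · rw [Tfn, brC_mid_aM]; exact hP
  · rw [Tfn, brC_top_aM]; exact (redCompat_qExpand q).prim ((redCompat_qExpand q).prim hP)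

/-- Divisibility by `T` is vanishing at the chosen place. -/
theorem Tfn_dvd_iff : ∀ f : (ssChar D Q₀ hQ₀).loc,
    (⟨_, (ssChar D Q₀ hQ₀).Bx_le_loc (Tfn_mem_Bx D)⟩ : (ssChar D Q₀ hQ₀).loc) ∣ f ↔
      evalAt Q₀ (f : FN (M * q * q) Qb) = 0 := by
  classical
  set χ := ssChar D Q₀ hQ₀
  intro f
  set T := Tfn M q D.t D.c with hTdef
  have hχ : χ.IsPoint hq hqM ({Br.low, Br.mid, Br.top} : Finset Br) s :=
    isPoint_ssChar hq hqM h D Q₀ hQ₀ hne hs
  have htube : ∀ {Q}, Q ∈ fibre M q D → Q ∈ χ.tube := fun hQ =>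
    fibre_mem_tube hq hqM h D Q₀ hQ₀ hne hs hQ
  obtain ⟨-, -, hord, htrans⟩ := fibre_orbit M q hq hqM D h hne hs
  have hT0 : T ≠ 0 := (gv_Tfn hq hqM h D .low).1
  -- `T` vanishes at `Q₀`
  have hTQ : evalAt Q₀ T = 0 := by
    refine (evalAt_eq_zero_iff (χ.ordGE_of_mem_tube (htube hQ₀) (Tfn_mem_Bx D))).mpr
      (ordGE_iff.mpr (.inr ?_))
    rw [(hord Q₀ hQ₀).2]
  constructor
  · rintro ⟨g, rfl⟩
    rw [Subring.coe_mul, evalAt_mul (χ.ordGE_of_mem_tube (htube hQ₀) (Tfn_mem_Bx D))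
      (χ.regular_of_mem_loc (f := g) (htube hQ₀)).1, hTQ, zero_mul]
  · intro h0
    have hfr := χ.loc_le_ratFld f.2
    -- a function vanishing at `Q₀` is divisible by `T`
    have hmem : (f : FN (M * q * q) Qb) / T ∈ χ.loc := by
      refine BChar.mem_loc_of hq hqM h hχ (div_mem hfr (Tfn_mem_Bx D).1)
        (fun P hP => ?_) (fun C hC => ?_)
      · rcases eq_or_ne (f : FN (M * q * q) Qb) 0 with hz | hz
        · rw [hz, zero_div]; exact ordGE_zero _ _
        -- on the tube: the zeros of `T` are conjugates of `Q₀`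
        refine (ordGE_iff_of_ne (div_ne_zero hz hT0)).mpr ?_
        have h1 := P.ord_mul (div_ne_zero hz hT0) hT0
        rw [div_mul_cancel₀ _ hT0] at h1
        have hfP := (χ.regular_of_mem_loc (f := f) hP).1
        have h2 := hfP.le_ord hz
        have h3 := (χ.ordGE_of_mem_tube hP (Tfn_mem_Bx D)).le_ord hT0
        rcases h3.eq_or_lt with h4 | h4
        · rw [← hTdef] at h4; omega
        have hPf := mem_fibre_of_tube hq hqM h D Q₀ hQ₀ hP h4
        obtain ⟨σ, hσ, rfl⟩ := htrans Q₀ hQ₀ P hPf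
        have hev : evalAt (gal2 M q σ • Q₀) (f : FN (M * q * q) Qb) = 0 := by
          rw [(evalAt_smul_rat hfr (χ.regular_of_mem_loc (f := f) (htube hQ₀)).1 hσ).2,
            h0, map_zero]
        have h5 := ((evalAt_eq_zero_iff hfP).mp hev).le_ord hz
        have h6 := (hord _ hPf).2
        rw [← hTdef] at h6
        omega
      -- on the branches `T` has valuation zero
      · rcases eq_or_ne (f : FN (M * q * q) Qb) 0 with hz | hz
        · rw [hz, zero_div]; exact zero_mem _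
        rw [mem_OC, brC_mem_iff M q hq hqM h C (div_ne_zero hz hT0), div_eq_mul_inv,
          gv_mul M q hq hqM h C hz (inv_ne_zero hT0), gv_inv M q hq hqM h C hT0,
          (gv_Tfn hq hqM h D C).2, neg_zero, add_zero, ← brC_mem_iff M q hq hqM h C hz]
        exact BChar.mem_OC_of_loc hq hqM h hχ hC f.2
    exact ⟨⟨_, hmem⟩, Subtype.ext (mul_div_cancel₀ _ hT0).symm⟩

omit D Q₀ hQ₀ in
/-- **The supersingular points.** A glued point gives a character at it lying on all three branches,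
with parameters. -/
theorem exists_point_ss :
    ∃ χ : BChar M q A true, χ.IsPoint hq hqM ({Br.low, Br.mid, Br.top} : Finset Br) s ∧
      χ.HasParam hq hqM ({Br.low, Br.mid, Br.top} : Finset Br) := by
  obtain ⟨D⟩ := exists_ssBase M q hq hqM h.2 hne hs
  obtain ⟨Q₀, hQ₀⟩ := fibre_nonempty M q D
  set χ := ssChar D Q₀ hQ₀
  have htube := fibre_mem_tube hq hqM h D Q₀ hQ₀ hne hs hQ₀
  have hTB := Tfn_mem_Bx D
  have hwB := wfn_mem_Bx hq hqM h D
  set T : χ.loc := ⟨_, χ.Bx_le_loc hTB⟩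
  set w : χ.loc := ⟨_, χ.Bx_le_loc hwB⟩
  have hdvd : ∀ f : χ.loc, T ∣ f ↔ evalAt Q₀ (f : FN (M * q * q) Qb) = 0 :=
    Tfn_dvd_iff hq hqM h D Q₀ hQ₀ hne hs
  have hTl : χ.lres T = 0 := by
    rw [χ.lres_of_mem hTB, ssChar_res, show ((⟨_, hTB⟩ : Bx M q A true) : FN (M * q * q) Qb) =
      (T : FN (M * q * q) Qb) from rfl, (hdvd T).mp dvd_rfl, Fermat.FLAT.red_zero]
  have hT0 : (T : FN (M * q * q) Qb) ≠ 0 := (gv_Tfn hq hqM h D .low).1
  have hprime : Prime T := by
    refine ⟨fun h0 => hT0 (by rw [h0]; rfl), fun hu => (χ.isUnit_loc_iff.mp hu) hTl,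
      fun a b hab => ?_⟩
    rw [hdvd, Subring.coe_mul, evalAt_mul (χ.regular_of_mem_loc (f := a) htube).1
      (χ.regular_of_mem_loc (f := b) htube).1, mul_eq_zero] at hab
    exact hab.imp (hdvd a).mpr (hdvd b).mpr
  refine ⟨χ, isPoint_ssChar hq hqM h D Q₀ hQ₀ hne hs, ⟨T, w, hprime, fun f hf => ?_⟩,
    fun C _ => ⟨T, hTl, hT0, (gv_Tfn hq hqM h D C).2⟩⟩
  rw [hdvd] at hf
  obtain ⟨k, g, hg, e⟩ := exists_pow_value hq hqM h D Q₀ hQ₀ hne hs (χ.loc_le_ratFld f.2)
    (fun Q hQ => (χ.regular_of_mem_loc (f := f) (fibre_mem_tube hq hqM h D Q₀ hQ₀ hne hs hQ)).1)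
    (χ.regular_of_mem_loc (f := f) htube).2.choose hf
  refine ⟨k, ⟨_, χ.Bx_le_loc g.2⟩, χ.isUnit_loc_iff.mpr (by rw [χ.lres_of_mem g.2]; exact hg), ?_⟩
  rw [hdvd, AddSubgroupClass.coe_sub, Subring.coe_mul, SubmonoidClass.coe_pow]
  have hgr := (Bx_at_fibre D hQ₀ g).1
  have hwr := (Bx_at_fibre D hQ₀ ⟨_, hwB⟩).1
  have hwk : OrdGE Q₀ (wfn M q D.t ^ k) 0 := (hwr.pow k).mono (by simp)
  rw [evalAt_sub (χ.regular_of_mem_loc (f := f) htube).1 ((hgr.mul hwk).mono (by simp)),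
    evalAt_mul hgr hwk, FF.evalAt_pow hwr, e, sub_self]

end Fermat.CAR

end
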