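import Fermat.Agent.CAR.Inst
import Fermat.Agent.CAR.SSFibre

/-!
# The function `U = t (z) - t (q z) ^ q` over a glued point

Its value and the value of its image under the involution at every place of level `M q` over the
point of level `M` have orders `q / (q + 1)` and `1 / (q + 1)`; the norm of the latter has order one
at the conjugate points.
-/

set_option autoImplicit false
set_option linter.unusedSectionVars false

noncomputable section

open ModularCurve AlgebraicCurve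

namespace Fermat.CAR

attribute [local instance 10000] algFN smulFN algFX smulFX

open Fermat.FF Fermat.MC Fermat.JAC Fermat.RED Fermat.RED.Model Fermat.BAD.X0 Fermat.EC.Val

local notation "Qb" => AlgebraicClosure ℚ

variable {A : ValuationSubring (AlgebraicClosure ℚ)}

local notation "kA" => IsLocalRing.ResidueField A

variable (M q : ℕ) [NeZero M] [NeZero q] [Fact q.Prime] (hq : q.Prime) (hqM : ¬ q ∣ M)

/-- `t (z) - t (q z) ^ q`. -/
def Uq (t : FN M Qb) : FN (M * q) Qb :=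
  heckeAlphaBar Qb M q t - heckeBetaBar Qb M q t ^ q

/-- `t (q z) - t (z) ^ q`. -/
def Uq' (t : FN M Qb) : FN (M * q) Qb :=
  heckeBetaBar Qb M q t - heckeAlphaBar Qb M q t ^ q

/-- The Atkin-Lehner operator maps `Uq` to `Uq'`. -/
theorem alW_Uq (t : FN M Qb) : alW M q hq hqM (Uq M q t) = Uq' M q t := by
  rw [Uq, Uq', map_sub, map_pow, alW_alpha, alW_beta]

/-- The Atkin-Lehner operator maps `Uq'` to `Uq`. -/
theorem alW_Uq' (t : FN M Qb) : alW M q hq hqM (Uq' M q t) = Uq M q t := by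
  rw [← alW_Uq M q hq hqM, alW_alW]

/-- The auxiliary function `(t (q z) - t (z) ^ q) ^ 12 wn / q ^ 12`. -/
def auxUnit (t : FN M Qb) : FN (M * q) Qb :=
  algebraMap Qb (FN (M * q) Qb) ((q : Qb) ^ 12)⁻¹ * (Uq' M q t ^ 12 * wn M q hq hqM)

/-- The image of the auxiliary function under the involution. -/
theorem alW_auxUnit (t : FN M Qb) : alW M q hq hqM (auxUnit M q hq hqM t) =
    algebraMap Qb (FN (M * q) Qb) ((q : Qb) ^ 12)⁻¹ * (Uq M q t ^ 12 * un M q) := by
  rw [auxUnit, map_mul, map_mul, map_pow, alW_Uq', wn, alW_alW, AlgEquiv.commutes]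

variable [FF.IsFunctionField Qb (FN (M * q) Qb)] [FF.IsFunctionField Qb (FN M Qb)]
variable [IsAlgClosed (IsLocalRing.ResidueField A)] [CharP (IsLocalRing.ResidueField A) q]
  [FF.IsFunctionField (IsLocalRing.ResidueField A) (FX (IsLocalRing.ResidueField A) M)]
variable [FF.IsFunctionField Qb (FN (M * q * q) Qb)]
/-- The expansions of the two functions at both cusps. -/
theorem emb_Uq {t : FN M Qb} {y : LaurentSeries A}
    (hty : (t : LaurentSeries Qb) = coeffMap A.subtype y) :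
    emb M q hq hqM true (Uq' M q t) = coeffMap A.subtype (qExpand A q y - y ^ q) ∧
      emb M q hq hqM true (Uq M q t) = coeffMap A.subtype (y - qExpand A q y ^ q) ∧
      emb M q hq hqM false (Uq' M q t) = coeffMap A.subtype (y - qExpand A q y ^ q) := by
  have h2 : emb M q hq hqM true (Uq M q t) = coeffMap A.subtype (y - qExpand A q y ^ q) := by
    rw [Uq, map_sub, map_pow, emb_true_alpha, emb_true_beta, map_sub, map_pow,
      ModularCurve.coeffMap_qExpand, ← hty]
  refine ⟨?_, h2, ?_⟩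
  · rw [Uq', map_sub, map_pow, emb_true_alpha, emb_true_beta, map_sub, map_pow,
      ModularCurve.coeffMap_qExpand, ← hty]
  · rw [← h2, ← alW_Uq M q hq hqM, emb_alW]; rfl

/-- The expansions of the auxiliary function at both cusps. -/
theorem emb_auxUnit {t : FN M Qb} {y yw : LaurentSeries A}
    (hty : (t : LaurentSeries Qb) = coeffMap A.subtype y)
    (hyw : qExpand A q y - y ^ q = (q : LaurentSeries A) * yw) :
    emb M q hq hqM true (auxUnit M q hq hqM t) = coeffMap A.subtype (yw ^ 12 * hSer A q) ∧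
      emb M q hq hqM false (auxUnit M q hq hqM t) = coeffMap A.subtype
        ((y - qExpand A q y ^ q) ^ 12 * (qExpand A q (deltaSeries A) * deltaSeriesInv A)) := by
  obtain ⟨hT, -, hF⟩ := emb_Uq M q hq hqM hty
  have hq12 : (q : Qb) ^ 12 ≠ 0 := pow_ne_zero _ (Nat.cast_ne_zero.mpr hq.ne_zero)
  have hCq : algebraMap Qb (LaurentSeries Qb) ((q : Qb) ^ 12)⁻¹ *
      (q : LaurentSeries Qb) ^ 12 = 1 := by
    rw [← map_natCast (algebraMap Qb (LaurentSeries Qb)), ← map_pow, ← map_mul,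
      inv_mul_cancel₀ hq12, map_one]
  constructor
  · rw [auxUnit, map_mul, map_mul, map_pow, emb_algebraMap, hT, hyw, emb_wn, Bool.not_true,
      emb_false_un, map_mul, map_mul, map_natCast, map_pow, coeffMap_subtype_hSer]
    linear_combination (coeffMap A.subtype yw ^ 12 * deltaSeries Qb *
      qExpand Qb q (deltaSeriesInv Qb)) * hCq
  · rw [auxUnit, map_mul, map_mul, map_pow, emb_algebraMap, hF, emb_wn, Bool.not_false,
      emb_true_un, map_mul, map_mul, map_pow, ModularCurve.coeffMap_qExpand, coeffMap_deltaSeries,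
      coeffMap_deltaSeriesInv]
    linear_combination (coeffMap A.subtype (y - qExpand A q y ^ q) ^ 12 *
      qExpand Qb q (deltaSeries Qb) * deltaSeriesInv Qb) * hCq

variable (h : IsPlace A q)
include hq hqM h

omit hq hqM in
/-- A value with nonzero residue has order zero. -/
theorem is_zero_of_red {x : Qb} (hx : x ∈ A) (hr : Fermat.FLAT.red A x ≠ 0) : Is A q x 0 :=
  ((mem_iff_ge h x).mp hx).is_of_not_gt fun hg => hr
    ((Fermat.FLAT.red_eq_zero_iff h hg.ge).mpr hg)

/-- `Uq` and `Uq'` lie in the chart when `t` does. -/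
theorem Uq_mem_chart {t : FN M Qb} (ht : t ∈ chart A (jL M Qb)) :
    Uq M q t ∈ chart A (aj M q) ∧ Uq' M q t ∈ chart A (aj M q) :=
  ⟨sub_mem (map_mem_chart (heckeAlphaBar Qb M q) ht)
      (pow_mem (beta_mem_chart M q hq hqM h ht) q),
    sub_mem (beta_mem_chart M q hq hqM h ht)
      (pow_mem (map_mem_chart (heckeAlphaBar Qb M q) ht) q)⟩

omit hq hqM h in
/-- The quotient of the two discriminant series reduces to the inverse of the series of `hbar`. -/
theorem residue_auxSeries :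
    coeffMap (IsLocalRing.residue A) (qExpand A q (deltaSeries A) * deltaSeriesInv A) =
      (hSer kA q)⁻¹ := by
  refine eq_inv_of_mul_eq_one_left ?_
  rw [map_mul, ModularCurve.coeffMap_qExpand, coeffMap_deltaSeries, coeffMap_deltaSeriesInv, hSer]
  calc qExpand kA q (deltaSeries kA) * deltaSeriesInv kA *
        (deltaSeries kA * qExpand kA q (deltaSeriesInv kA))
      = (deltaSeries kA * deltaSeriesInv kA) *
        qExpand kA q (deltaSeries kA * deltaSeriesInv kA) := by rw [map_mul]; ring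
    _ = 1 := by rw [deltaSeries_mul_inv, map_one, mul_one]

omit hq hqM in
/-- For a rational expansion `y` with fixed reduction, `y (q z) - y (z) ^ q` is divisible by `q`. -/
theorem exists_qExpand_sub_pow_eq {y : LaurentSeries A} {z : LaurentSeries kA}
    (hy : ∀ n, ((y.coeff n : A) : Qb) ∈ Set.range (algebraMap ℚ Qb))
    (hyz : coeffMap (IsLocalRing.residue A) y = z) (hz : coeffMap (frobenius kA q) z = z) :
    ∃ yw : LaurentSeries A, qExpand A q y - y ^ q = (q : LaurentSeries A) * yw := by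
  have : CharP (LaurentSeries kA) q :=
    charP_of_injective_algebraMap (algebraMap kA (LaurentSeries kA)).injective q
  let S : Subring A := ((algebraMap ℚ Qb).range.comap A.subtype)
  have hmem : ∀ w : LaurentSeries A, (∀ n, ((w.coeff n : A) : Qb) ∈ Set.range (algebraMap ℚ Qb)) ↔
      w ∈ (coeffMap S.subtype).range := fun w => by
    constructor
    · intro hw
      refine ⟨HahnSeries.ofSuppBddBelow (fun n => (⟨w.coeff n, hw n⟩ : S))
        ⟨w.order, fun n hn => le_of_not_gt fun hlt => hn (Subtype.ext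
          (HahnSeries.coeff_eq_zero_of_lt_order hlt))⟩, ?_⟩
      ext n
      rw [coeffMap_coeff]
      rfl
    · rintro ⟨v, rfl⟩ n
      rw [coeffMap_coeff]
      exact (v.coeff n).2
  obtain ⟨v, hv⟩ := (hmem y).mp hy
  refine exists_eq_q_mul h.1 h.2 ((hmem _).mpr ⟨qExpand S q v - v ^ q, ?_⟩) ?_
  · rw [map_sub, map_pow, ModularCurve.coeffMap_qExpand, hv]
  · rw [map_sub, map_pow, ModularCurve.coeffMap_qExpand, hyz, laurent_pow_char q, hz, sub_self]

omit hq hqM in
/-- If `U ^ 12 W / q ^ 12` is a unit at a point then `12 ord U + ord W = 12` there. -/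
theorem ord_add_eq_twelve {P₁ : Place Qb (FN (M * q) Qb)} (hj : OrdGE P₁ (aj M q) 0)
    (hjA : evalAt P₁ (aj M q) ∈ A) {U W : FN (M * q) Qb} (hU : U ∈ chart A (aj M q))
    (hW : W ∈ chart A (aj M q))
    (hI : Is A q (evalAt P₁ (algebraMap Qb (FN (M * q) Qb) ((q : Qb) ^ 12)⁻¹ * (U ^ 12 * W))) 0) :
    evalAt P₁ U ≠ 0 ∧ evalAt P₁ W ≠ 0 ∧
      12 * ord A q (evalAt P₁ U) + ord A q (evalAt P₁ W) = 12 := by
  rw [evalAt_mul (FF.ordGE_algebraMap P₁ _)
      (evalAt_mem (mul_mem (pow_mem hU 12) hW) hj hjA).1,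
    evalAt_algebraMap, evalAt_mul (evalAt_mem (pow_mem hU 12) hj hjA).1 (evalAt_mem hW hj hjA).1,
    FF.evalAt_pow (evalAt_mem hU hj hjA).1] at hI
  have hne12 := mul_ne_zero_iff.mp (right_ne_zero_of_mul hI.1)
  refine ⟨(pow_ne_zero_iff (by norm_num)).mp hne12.1, hne12.2, ?_⟩
  have h2 := hI.2
  rw [ord_mul h (left_ne_zero_of_mul hI.1) (right_ne_zero_of_mul hI.1),
    ord_mul h hne12.1 hne12.2, ord_inv h, EC.Val.ord_pow h, EC.Val.ord_pow h, ord_q h] at h2
  push_cast at h2
  linarith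

omit hqM in
/-- **The congruence**: `va = x - x' ^ q` and `vb = x' - x ^ q` have orders `q / (q + 1)` and
`1 / (q + 1)` when these are positive with sum one. -/
theorem is_of_congr {x x' : Qb} (hx : x ∈ A) (hx' : x' ∈ A) (hxc : (x ^ q) ^ q = x)
    (ha0 : x - x' ^ q ≠ 0) (hb0 : x' - x ^ q ≠ 0)
    (hga : 0 < ord A q (x - x' ^ q)) (hgb : 0 < ord A q (x' - x ^ q))
    (hsum : ord A q (x - x' ^ q) + ord A q (x' - x ^ q) = 1) :
    Is A q (x - x' ^ q) ((q : ℚ) / (q + 1)) ∧ Is A q (x' - x ^ q) (1 / (q + 1)) := by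
  set va := x - x' ^ q with hva
  set vb := x' - x ^ q with hvb
  -- expand `x' ^ q` with `x' = vb + x ^ q`: `va = -vb ^ q` modulo `q`
  set rest := vb * x ^ q * ∑ k ∈ Finset.Ioo 0 q, vb ^ (k - 1) * (x ^ q) ^ (q - k - 1) *
    ((q.choose k / q : ℕ) : Qb)
  have hvbA : vb ∈ A := sub_mem hx' (pow_mem hx q)
  have hrest : rest ∈ A := mul_mem (mul_mem hvbA (pow_mem hx q)) (sum_mem fun k _ =>
    mul_mem (mul_mem (pow_mem hvbA _) (pow_mem (pow_mem hx q) _)) (natCast_mem A _))
  have hqr : Ge A q (-((q : Qb) * rest)) 1 := Ge.neg h (by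
    simpa using Ge.mul h (x := (q : Qb)) (r := 1) (Or.inr (ord_q h).ge)
      ((mem_iff_ge h rest).mp hrest))
  have hcong : va = -(vb ^ q) + -((q : Qb) * rest) := by
    have e3 : x' ^ q = vb ^ q + x + (q : Qb) * rest := by
      rw [show x' = vb + x ^ q by rw [hvb]; ring, add_pow_prime_eq hq, hxc]
      simp only [rest]
      ring
    rw [hva, e3]
    ring
  -- `q ord vb < 1`, else `va` would have order at least one
  have hqv : (q : ℚ) * ord A q vb < 1 := by
    by_contra hge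
    push Not at hge
    have h1 : Ge A q va 1 := by
      rw [hcong]
      refine (Ge.neg h (Or.inr ?_)).add h hqr
      rw [EC.Val.ord_pow h]
      exact hge
    have := h1.resolve_left ha0
    linarith
  -- so `ord va = q ord vb`, which the sum determines
  have hIa : Is A q va ((q : ℚ) * ord A q vb) := by
    rw [hcong]
    exact ((is_ord hb0).pow h q).neg h |>.add h (hqr.gt hqv)
  have hqq : (0 : ℚ) < q := Nat.cast_pos.mpr hq.pos
  have hvq : ord A q vb = 1 / (q + 1) := by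
    rw [eq_div_iff (by linarith)]
    have := hIa.2
    linarith
  refine ⟨⟨ha0, ?_⟩, ⟨hb0, hvq⟩⟩
  rw [hIa.2, hvq]
  field_simp

variable (hne : NoElliptic M) {s : Place (IsLocalRing.ResidueField A)
  (FX (IsLocalRing.ResidueField A) M)}
  (hs : s ∈ SS M q hq hqM h.2) (D : SSBase (A := A) M q s)
include hne hs

omit hne hs in
/-- An integral rational expansion of `t` with reduction `z`. -/
theorem exists_tSeries : ∃ y : LaurentSeries A, (D.t : LaurentSeries Qb) = coeffMap A.subtype y ∧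
    coeffMap (IsLocalRing.residue A) y = (D.z : LaurentSeries kA) ∧
    ∀ n, ((y.coeff n : A) : Qb) ∈ Set.range (algebraMap ℚ Qb) := by
  obtain ⟨y, z', hty, -, -⟩ := (levelRed M q hq hqM h.2 (A := A)).int D.t D.t_chart
  refine ⟨y, hty, ?_, fun n => ?_⟩
  · rw [D.t_red, ← sR_coeffMap y (coeffMap_mem_gS y)]
    exact congrArg (sR A) (Subtype.ext hty.symm)
  · obtain ⟨r, hr⟩ := D.t_rat n
    exact ⟨r, by rw [hr, hty, coeffMap_coeff]; rfl⟩

omit hq hqM h hne hs in
/-- The reduction of `y - y (q z) ^ q` is `z - z ^ (q ^ 2)`. -/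
theorem residue_sub_qExpand_pow {y : LaurentSeries A}
    (hyz : coeffMap (IsLocalRing.residue A) y = (D.z : LaurentSeries kA)) :
    coeffMap (IsLocalRing.residue A) (y - qExpand A q y ^ q) =
      ((D.z - D.z ^ q ^ 2 : FX kA M) : LaurentSeries kA) := by
  have : CharP (LaurentSeries kA) q :=
    charP_of_injective_algebraMap (algebraMap kA (LaurentSeries kA)).injective q
  have hzq : (D.z : LaurentSeries kA) ^ q = qExpand kA q (D.z : LaurentSeries kA) := by
    rw [laurent_pow_char q, D.z_fixed]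
  rw [map_sub, map_pow, ModularCurve.coeffMap_qExpand, hyz, ← hzq, ← pow_mul, ← pow_two]
  rfl

omit hne hs in
/-- The auxiliary function and its image lie in the chart of level `M q`. -/
theorem auxUnit_mem {y yw : LaurentSeries A}
    (hty : (D.t : LaurentSeries Qb) = coeffMap A.subtype y)
    (hyw : qExpand A q y - y ^ q = (q : LaurentSeries A) * yw) :
    auxUnit M q hq hqM D.t ∈ intClosure Qb (aj M q) ∧
      (∀ b, emb M q hq hqM b (auxUnit M q hq hqM D.t) ∈ gS A) ∧
      auxUnit M q hq hqM D.t ∈ chart A (aj M q) ∧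
      alW M q hq hqM (auxUnit M q hq hqM D.t) ∈ chart A (aj M q) := by
  obtain ⟨hT, hF⟩ := emb_auxUnit M q hq hqM hty hyw
  obtain ⟨hUc, hU'c⟩ := Uq_mem_chart M q hq hqM h D.t_chart
  have hg : ∀ b, emb M q hq hqM b (auxUnit M q hq hqM D.t) ∈ gS A := fun b => by
    cases b
    · rw [hF]; exact coeffMap_mem_gS _
    · rw [hT]; exact coeffMap_mem_gS _
  have hi : auxUnit M q hq hqM D.t ∈ intClosure Qb (aj M q) :=
    mul_mem ((intClosure Qb (aj M q)).algebraMap_mem _) (mul_mem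
      (pow_mem (chart_q_intClosure M q hU'c) 12) (wn_mem_intClosure M q hq hqM))
  refine ⟨hi, hg, mem_chart_of_q M q hq hqM h hi hg, mem_chart_of_q M q hq hqM h ?_ fun b => ?_⟩
  · rw [alW_auxUnit]
    exact mul_mem ((intClosure Qb (aj M q)).algebraMap_mem _) (mul_mem
      (pow_mem (chart_q_intClosure M q hUc) 12) (un_mem_intClosure M q hq hqM))
  · rw [emb_alW]; exact hg _

omit hs in
/-- A quotient `u ^ 12 / hbar` with `u` of order one at a supersingular point is a unit there. -/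
theorem evalAt_quot_hbar_ne_zero {x : Place kA (FX kA M)} (hx : x ∈ SS M q hq hqM h.2)
    {u : FX kA M} (hu : x.ord u = 1) :
    evalAt x (u ^ 12 / hbar M q hq hqM h.2) ≠ 0 := by
  have hhb := hbar_ne_zero M q hq hqM h.2 (A := A)
  have hu0 : u ≠ 0 := fun h0 => by rw [h0, Place.ord_zero] at hu; exact zero_ne_one hu
  refine evalAt_ne_zero (div_ne_zero (pow_ne_zero _ hu0) hhb) ?_
  rw [ord_div x (pow_ne_zero _ hu0) hhb, FF.ord_pow, hu, ord_hbar_eq_twelve M q hq hqM h.2 hne hx]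
  norm_num

/-- The auxiliary function reduces at both cusps to units at `s` and at its image. -/
theorem exists_red_auxUnit {y yw : LaurentSeries A}
    (hty : (D.t : LaurentSeries Qb) = coeffMap A.subtype y)
    (hyz : coeffMap (IsLocalRing.residue A) y = (D.z : LaurentSeries kA))
    (hyw : qExpand A q y - y ^ q = (q : LaurentSeries A) * yw) :
    ∃ fT fF : FX kA M,
      (∀ hm, (fT : LaurentSeries kA) = sR A ⟨emb M q hq hqM true (auxUnit M q hq hqM D.t), hm⟩) ∧
      (∀ hm, (fF : LaurentSeries kA) = sR A ⟨emb M q hq hqM false (auxUnit M q hq hqM D.t), hm⟩) ∧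
      evalAt s fT ≠ 0 ∧ evalAt (Qf M q s) fT ≠ 0 ∧ evalAt s fF ≠ 0 := by
  obtain ⟨-, hF⟩ := emb_auxUnit M q hq hqM hty hyw
  obtain ⟨hi, hg, -, -⟩ := auxUnit_mem M q hq hqM h D hty hyw
  have hs' := Qf_mem_SS M q hq hqM h.2 hs
  set uS : FX kA M := D.z - D.z ^ q ^ 2
  set fF : FX kA M := uS ^ 12 / hbar M q hq hqM h.2
  have hfF : (fF : LaurentSeries kA) = sR A ⟨_, hg false⟩ := by
    refine Eq.trans ?_ (congrArg (sR A) (Subtype.ext (a1 := ⟨_, coeffMap_mem_gS _⟩) hF.symm))
    rw [sR_coeffMap, map_mul, map_pow, residue_sub_qExpand_pow M q D hyz,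
      residue_auxSeries,
      show (fF : LaurentSeries kA) =
        (((uS ^ 12 : FX kA M)) : LaurentSeries kA) / (hbar M q hq hqM h.2 : LaurentSeries kA) from
        map_div₀ (modularFunctionFieldFullC kA M).val _ _, div_eq_mul_inv, SubmonoidClass.coe_pow]
    rfl
  obtain ⟨fT, hfT⟩ := exists_red_q M q hq hqM h true _ (hg true)
  refine ⟨fT, fF, fun _ => hfT, fun _ => hfF, ?_, ?_,
    evalAt_quot_hbar_ne_zero M q hq hqM h hne hs D.u_ord.1⟩
  · rw [glue_gS M q hq hqM h hi hg fT fF hfT hfF (s := s) hs]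
    exact evalAt_quot_hbar_ne_zero M q hq hqM h hne hs' D.u_ord.2
  · rw [glue_gS M q hq hqM h hi hg fT fF hfT hfF (s := Qf M q s) hs',
      Qf_Qf M q hq hqM h.2 hne hs]
    exact evalAt_quot_hbar_ne_zero M q hq hqM h hne hs D.u_ord.1

/-- Over the point, neither value vanishes and their orders sum to one. -/
theorem ord_Uq_add {P₁ : Place Qb (FN (M * q) Qb)}
    (hP : below (heckeAlphaBar Qb M q) P₁ = D.a) :
    evalAt P₁ (Uq M q D.t) ≠ 0 ∧ evalAt P₁ (Uq' M q D.t) ≠ 0 ∧
      ord A q (evalAt P₁ (Uq M q D.t)) + ord A q (evalAt P₁ (Uq' M q D.t)) = 1 := by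
  obtain ⟨y, hty, hyz, hyrat⟩ := exists_tSeries M q hq hqM h D
  obtain ⟨yw, hyw⟩ := exists_qExpand_sub_pow_eq q h hyrat hyz D.z_fixed
  obtain ⟨fT, fF, hfT, hfF, hT0, -, hF0⟩ := exists_red_auxUnit M q hq hqM h hne hs D hty hyz hyw
  obtain ⟨-, hg, hc0, hc1⟩ := auxUnit_mem M q hq hqM h D hty hyw
  obtain ⟨hUc, hU'c⟩ := Uq_mem_chart M q hq hqM h D.t_chart
  have hwnc : wn M q hq hqM ∈ chart A (aj M q) := mem_chart_of_q M q hq hqM h
    (wn_mem_intClosure M q hq hqM) fun b => int_mem_gS (emb_wn_int M q hq hqM b)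
  have hunc : un M q ∈ chart A (aj M q) := mem_chart_of_q M q hq hqM h
    (un_mem_intClosure M q hq hqM) fun b => by
      have := int_mem_gS (emb_wn_int M q hq hqM (!b) (A := A))
      rwa [emb_wn, Bool.not_not] at this
  have hP1 : RedS (jL M Qb) (below (heckeAlphaBar Qb M q) P₁) s := hP.symm ▸ D.a_red
  obtain ⟨-, hm0, hv0⟩ := residue_q M q hq hqM h hs hP1 hc0 fT (hfT _)
  obtain ⟨-, hm1, hv1⟩ := residue_q M q hq hqM h hs hP1 hc1 fF
    ((hfF (hg false)).trans (congrArg (sR A)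
      (Subtype.ext (emb_alW M q hq hqM true (auxUnit M q hq hqM D.t)).symm)))
  have hI1 := is_zero_of_red q h hm1 (hv1 ▸ hF0)
  rw [alW_auxUnit] at hI1
  obtain ⟨hj1, hjA⟩ : OrdGE P₁ (aj M q) 0 ∧ evalAt P₁ (aj M q) ∈ A :=
    ⟨ordGE_comp (heckeAlphaBar Qb M q) hP1.1.1,
      by rw [aj, evalAt_comp (heckeAlphaBar Qb M q) hP1.1.1]; exact hP1.1.2⟩
  obtain ⟨hb0, hw0, ebw⟩ := ord_add_eq_twelve M q h hj1 hjA hU'c hwnc
    (is_zero_of_red q h hm0 (hv0 ▸ hT0))
  obtain ⟨ha0, hu0, eau⟩ := ord_add_eq_twelve M q h hj1 hjA hUc hunc hI1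
  have euw : ord A q (evalAt P₁ (un M q)) + ord A q (evalAt P₁ (wn M q hq hqM)) = 12 := by
    rw [← ord_mul h hu0 hw0, ← evalAt_mul (evalAt_mem hunc hj1 hjA).1 (evalAt_mem hwnc hj1 hjA).1,
      un_mul_wn, ← map_natCast (algebraMap Qb (FN (M * q) Qb)), ← map_pow, evalAt_algebraMap,
      EC.Val.ord_pow h, ord_q h]
    norm_num
  exact ⟨ha0, hb0, by linarith⟩

/-- The values over the point, in terms of those of `t` at the points below, which reduce to
conjugate values of `z`. -/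
theorem evalAt_Uq_congr {P₁ : Place Qb (FN (M * q) Qb)}
    (hP : below (heckeAlphaBar Qb M q) P₁ = D.a) :
    ∃ x x' : Qb, x ∈ A ∧ x' ∈ A ∧ (x ^ q) ^ q = x ∧
      evalAt P₁ (Uq M q D.t) = x - x' ^ q ∧ evalAt P₁ (Uq' M q D.t) = x' - x ^ q ∧
      Gt A q (x - x' ^ q) 0 ∧ Gt A q (x' - x ^ q) 0 := by
  set α := heckeAlphaBar Qb M q
  set β := heckeBetaBar Qb M q
  have hL := levelRed M q hq hqM h.2 (A := A)
  have hP1 : RedS (jL M Qb) (below α P₁) s := hP.symm ▸ D.a_red
  have hP2 := redS_below_beta M q hq hqM h hs hP1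
  set x := evalAt D.a D.t
  set x' := evalAt (below β P₁) D.t
  have hta := evalAt_mem D.t_chart D.a_red.1.1 D.a_red.1.2
  have htb := evalAt_mem D.t_chart hP2.1.1 hP2.1.2
  have hαt : evalAt P₁ (α D.t) = x ∧ OrdGE P₁ (α D.t) 0 :=
    ⟨by rw [evalAt_comp α (hP.symm ▸ hta.1), hP], ordGE_comp α (hP.symm ▸ hta.1)⟩
  have hβt : evalAt P₁ (β D.t) = x' ∧ OrdGE P₁ (β D.t) 0 :=
    ⟨evalAt_comp β htb.1, ordGE_comp β htb.1⟩
  have hrx : Fermat.FLAT.red A x = evalAt s D.z :=
    (D.a_red.residue hL D.t_chart D.t_int D.z D.t_red).1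
  have hrx' : Fermat.FLAT.red A x' = evalAt (Qf M q s) D.z :=
    (hP2.residue hL D.t_chart D.t_int D.z D.t_red).1
  obtain ⟨e1, e2, -⟩ := evalAt_Qf_pow M q hq hqM h.2 hne D.z_reg D.z_fixed hs
  have hxG : Ge A q x 0 := (mem_iff_ge h _).mp hta.2
  have hx'G : Ge A q x' 0 := (mem_iff_ge h _).mp htb.2
  refine ⟨x, x', hta.2, htb.2, ?_, ?_, ?_, ?_, ?_⟩
  · change (evalAt D.a D.t ^ q) ^ q = evalAt D.a D.t
    rw [D.a_val, ← pow_mul, ← pow_two, D.c_pow]
  · rw [Uq, evalAt_sub hαt.2 ((hβt.2.pow q).mono (by simp)), FF.evalAt_pow hβt.2, hαt.1, hβt.1]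
  · rw [Uq', evalAt_sub hβt.2 ((hαt.2.pow q).mono (by simp)), FF.evalAt_pow hαt.2, hαt.1, hβt.1]
  · refine (Fermat.FLAT.red_eq_iff h hxG (by simpa using hx'G.pow h q)).mp ?_
    rw [hrx, Fermat.FLAT.red_pow h hx'G, hrx', e1]
  · refine (Fermat.FLAT.red_eq_iff h hx'G (by simpa using hxG.pow h q)).mp ?_
    rw [hrx', Fermat.FLAT.red_pow h hxG, hrx, e2]

omit hne hs in
/-- The norm of `t (q z) - t (z) ^ q`, divided by `q`, is in the chart of level `M`; the expansion
of its reduction. -/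
theorem exists_red_normUq (hU'0 : Uq' M q D.t ≠ 0) {y yw : LaurentSeries A}
    (hty : (D.t : LaurentSeries Qb) = coeffMap A.subtype y)
    (hyz : coeffMap (IsLocalRing.residue A) y = (D.z : LaurentSeries kA))
    (hyw : qExpand A q y - y ^ q = (q : LaurentSeries A) * yw) :
    normAlong (heckeAlphaBar Qb M q) (Uq' M q D.t) / (q : FN M Qb) ∈ chart A (jL M Qb) ∧
      ∃ zG : FX kA M,
        (zG : LaurentSeries kA) =
          coeffMap (IsLocalRing.residue A) yw * ((D.z - D.z ^ q ^ 2 : FX kA M) : LaurentSeries kA) ∧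
        ∃ hm, (zG : LaurentSeries kA) = sR A ⟨((normAlong (heckeAlphaBar Qb M q) (Uq' M q D.t) /
          (q : FN M Qb) : FN M Qb) : LaurentSeries Qb), hm⟩ := by
  classical
  have : CharP (LaurentSeries kA) q :=
    charP_of_injective_algebraMap (algebraMap kA (LaurentSeries kA)).injective q
  set α := heckeAlphaBar Qb M q
  set N := normAlong α (Uq' M q D.t)
  set yF : LaurentSeries A := y - qExpand A q y ^ q
  obtain ⟨hEU', -, hFU'⟩ := emb_Uq M q hq hqM hty
  have hU'c := (Uq_mem_chart M q hq hqM h D.t_chart).2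
  set G : FN M Qb := N / (q : FN M Qb)
  have hqS : (q : LaurentSeries Qb) ≠ 0 := by
    rw [← map_natCast (algebraMap Qb (LaurentSeries Qb))]
    exact (_root_.map_ne_zero _).mpr (Nat.cast_ne_zero.mpr hq.ne_zero)
  -- expanded, `N / q` is `yw` times a product of twists of `y - y(q ^ q) ^ q`
  have hGs : qExpand Qb q (G : LaurentSeries Qb) = qExpand Qb q (coeffMap A.subtype yw) *
      ∏ i : Fin q, twist (zetaQ q ^ (i : ℕ)) (coeffMap A.subtype yF) := by
    rw [show (G : LaurentSeries Qb) = (N : LaurentSeries Qb) /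
      ((q : FN M Qb) : LaurentSeries Qb) from
        map_div₀ (FN M Qb).val _ _, map_div₀, qExpand_norm M q hq hqM (zetaQ_spec q), hEU', hFU',
      show ((q : FN M Qb) : LaurentSeries Qb) = (q : LaurentSeries Qb) from
        map_natCast (FN M Qb).val q, map_natCast, hyw, map_mul, map_natCast, map_mul, map_natCast,
      mul_assoc, mul_div_cancel_left₀ _ hqS]
  have hGq : qExpand Qb q (G : LaurentSeries Qb) ∈ gS A := hGs ▸
    mul_mem ((redCompat_qExpand q).map_mem (coeffMap_mem_gS _))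
      (prod_mem fun i _ => (redCompat_twist (A := A) (zpw_pow q i)).map_mem (coeffMap_mem_gS _))
  have hGm : (G : LaurentSeries Qb) ∈ gS A := by
    have := mem_gS_of_qExpand M q hq hqM h (α G) (by rw [coe_heckeAlphaBar]; exact hGq)
    rwa [coe_heckeAlphaBar] at this
  have hGi : G ∈ intClosure Qb (jL M Qb) := by
    rw [show G = N * algebraMap Qb (FN M Qb) (q : Qb)⁻¹ by rw [map_inv₀, map_natCast]; rfl]
    refine mul_mem (mem_intClosure_iff.mpr fun v hv => ordGE_iff.mpr
      (.inr ?_)) ((intClosure Qb (jL M Qb)).algebraMap_mem _)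
    rw [ord_normAlong α v hU'0]
    refine Finset.sum_nonneg fun w hw => ?_
    exact (mem_intClosure_iff.mp (chart_q_intClosure M q hU'c) w
      (ordGE_comp α (((mem_above α).mp hw).symm ▸ hv))).le_ord hU'0
  have hGc : G ∈ chart A (jL M Qb) := mem_chart_level M q hq hqM h true G hGi hGm
  -- its reduction, computed from that expansion
  obtain ⟨yG, zG, hGy, hzG, -⟩ := (levelRed M q hq hqM h.2 (A := A)).int G hGc
  have hzGs : (zG : LaurentSeries kA) = sR A ⟨_, hGm⟩ := by
    rw [hzG, ← sR_coeffMap yG (coeffMap_mem_gS yG)]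
    exact congrArg (sR A) (Subtype.ext hGy.symm)
  refine ⟨hGc, zG, qExpand_injective q ?_, hGm, hzGs⟩
  rw [hzGs, ← (redCompat_qExpand (A := A) q).sR_map hGm,
    show (⟨_, (redCompat_qExpand q).map_mem hGm⟩ : gS A) =
      ⟨_, (redCompat_qExpand q).map_mem (coeffMap_mem_gS yw)⟩ *
        ∏ i : Fin q, ⟨_, (redCompat_twist (A := A) (zpw_pow q i)).map_mem (coeffMap_mem_gS yF)⟩
      from Subtype.ext (hGs.trans (by push_cast; rfl)),
    map_mul, map_prod, (redCompat_qExpand (A := A) q).sR_map (coeffMap_mem_gS yw),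
    Finset.prod_congr rfl fun i _ => sR_twist (A := A) (zpw_pow q i) (coeffMap_mem_gS yF),
    Finset.prod_const, Finset.card_univ, Fintype.card_fin, sR_coeffMap, sR_coeffMap,
    residue_sub_qExpand_pow M q D hyz, laurent_pow_char q, map_mul]
  congr 2
  change coeffMap (frobenius kA q) ((D.z - D.z ^ q ^ 2 : FX kA M) : LaurentSeries kA) = _
  rw [AddSubgroupClass.coe_sub, SubmonoidClass.coe_pow, map_sub, map_pow, D.z_fixed]

/-- The norm of `t (q z) - t (z) ^ q` has order one at a point reducing to the image of `s`. -/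
theorem is_one_norm_Uq (hU'0 : Uq' M q D.t ≠ 0) {a' : Place Qb (FN M Qb)}
    (ha' : RedS (jL M Qb) a' (Qf M q s)) :
    OrdGE a' (normAlong (heckeAlphaBar Qb M q) (Uq' M q D.t)) 0 ∧
      Is A q (evalAt a' (normAlong (heckeAlphaBar Qb M q) (Uq' M q D.t))) 1 := by
  obtain ⟨y, hty, hyz, hyrat⟩ := exists_tSeries M q hq hqM h D
  obtain ⟨yw, hyw⟩ := exists_qExpand_sub_pow_eq q h hyrat hyz D.z_fixed
  obtain ⟨fT, -, hfT, -, -, hfT', -⟩ := exists_red_auxUnit M q hq hqM h hne hs D hty hyz hyw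
  obtain ⟨hi, hg, -, -⟩ := auxUnit_mem M q hq hqM h D hty hyw
  obtain ⟨hGc, zG, hzGe, hGm, hzGs⟩ := exists_red_normUq M q hq hqM h D hU'0 hty hyz hyw
  have hs' := Qf_mem_SS M q hq hqM h.2 hs
  have hhb := hbar_ne_zero M q hq hqM h.2 (A := A)
  set uS : FX kA M := D.z - D.z ^ q ^ 2
  -- the reduction of the norm divided by `q` satisfies `z ^ 12 hbar = fT uS ^ 12`
  have hid : zG ^ 12 * hbar M q hq hqM h.2 = fT * uS ^ 12 := by
    refine Subtype.ext ?_
    rw [MulMemClass.coe_mul, MulMemClass.coe_mul, SubmonoidClass.coe_pow, SubmonoidClass.coe_pow,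
      hfT (hg true), show (⟨_, hg true⟩ : gS A) = ⟨_, coeffMap_mem_gS (yw ^ 12 * hSer A q)⟩ from
        Subtype.ext (emb_auxUnit M q hq hqM hty hyw).1, sR_coeffMap, map_mul, map_pow,
      coeffMap_residue_hSer, hzGe,
      show (hbar M q hq hqM h.2 : LaurentSeries kA) = hSer kA q from rfl]
    ring
  -- so it does not vanish at the point, by comparing orders
  have hzG0 : evalAt (Qf M q s) zG ≠ 0 := by
    have hfT0 : fT ≠ 0 := fun h0 => hfT' (by rw [h0]; exact Model.evalAt_zero _)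
    have hu : (Qf M q s).ord uS = 1 := D.u_ord.2
    have hu0' : uS ≠ 0 := fun h0 => by rw [h0, Place.ord_zero] at hu; exact zero_ne_one hu
    have hz0 : zG ≠ 0 := fun h0 => mul_ne_zero hfT0 (pow_ne_zero 12 hu0') (by
      rw [← hid, h0, zero_pow (by norm_num), zero_mul])
    have hfTr : OrdGE (Qf M q s) fT 0 := mem_intClosure_iff.mp
      (red_mem_intClosure M q hq hqM h hi hg true fT (hfT _)) _
      ((mem_SS M q hq hqM h.2).mp hs').1
    have hfTord : (Qf M q s).ord fT = 0 := le_antisymm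
      (not_lt.mp fun hlt => hfT'
        ((evalAt_eq_zero_iff hfTr).mpr (ordGE_iff.mpr (.inr hlt)))) (hfTr.le_ord hfT0)
    have e := congrArg (Qf M q s).ord hid
    rw [Place.ord_mul _ (pow_ne_zero _ hz0) hhb, Place.ord_mul _ hfT0 (pow_ne_zero _ hu0'),
      FF.ord_pow, FF.ord_pow, hfTord, ord_hbar_eq_twelve M q hq hqM h.2 hne hs', hu] at e
    exact evalAt_ne_zero hz0 (by push_cast at e; omega)
  -- hence the norm divided by `q` is a unit at `a'`
  set N := normAlong (heckeAlphaBar Qb M q) (Uq' M q D.t)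
  set G : FN M Qb := N / (q : FN M Qb)
  have hGv := evalAt_mem hGc ha'.1.1 ha'.1.2
  have hGI : Is A q (evalAt a' G) 0 := is_zero_of_red q h hGv.2
    ((ha'.residue (levelRed M q hq hqM h.2) hGc hGm zG hzGs).1 ▸ hzG0)
  have eN : N = G * algebraMap Qb (FN M Qb) (q : Qb) := by
    rw [map_natCast]; exact (div_mul_cancel₀ N (Nat.cast_ne_zero.mpr hq.ne_zero)).symm
  refine ⟨eN ▸ ((hGv.1.mul (FF.ordGE_algebraMap a' _)).mono (by simp)), ?_⟩
  rw [eN, evalAt_mul hGv.1 (FF.ordGE_algebraMap a' _), evalAt_algebraMap]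
  simpa using hGI.mul h ⟨Nat.cast_ne_zero.mpr hq.ne_zero, ord_q h⟩

/-- **The orders at the places over the point of level `M`.** -/
theorem ord_Uq {P₁ : Place Qb (FN (M * q) Qb)}
    (hP : below (heckeAlphaBar Qb M q) P₁ = D.a) :
    Is A q (evalAt P₁ (Uq M q D.t)) ((q : ℚ) / (q + 1)) ∧
      Is A q (evalAt P₁ (Uq' M q D.t)) (1 / (q + 1)) ∧
      OrdGE (below (heckeBetaBar Qb M q) P₁) (normAlong (heckeAlphaBar Qb M q) (Uq' M q D.t)) 0 ∧
      Is A q (evalAt (below (heckeBetaBar Qb M q) P₁)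
        (normAlong (heckeAlphaBar Qb M q) (Uq' M q D.t))) 1 := by
  obtain ⟨ha0, hb0, hsum⟩ := ord_Uq_add M q hq hqM h hne hs D hP
  obtain ⟨x, x', hx, hx', hxc, ea, eb, hga, hgb⟩ := evalAt_Uq_congr M q hq hqM h hne hs D hP
  have hU'0 : Uq' M q D.t ≠ 0 := fun h0 => hb0 (by rw [h0, Model.evalAt_zero])
  rw [ea] at ha0 hsum ⊢
  rw [eb] at hb0 hsum ⊢
  obtain ⟨hIa, hIb⟩ := is_of_congr q hq h hx hx' hxc ha0 hb0
    (Or.resolve_left hga ha0) (Or.resolve_left hgb hb0) hsum
  exact ⟨hIa, hIb, is_one_norm_Uq M q hq hqM h hne hs D hU'0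
    (redS_below_beta M q hq hqM h hs (hP.symm ▸ D.a_red))⟩

end Fermat.CAR

end
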