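import Fermat.Agent.CAR.Inst
import Fermat.Agent.CAR.SSUnit

/-!
# The places of level `M q²` over a glued point

They form one orbit of inertia on which `t - c` has simple zeros, and the value of
`w = β (t (q z) - t (z) ^ q)` separates them: its orders are `1 / n` for `n` the number of places.
-/

set_option autoImplicit false
set_option linter.unusedSectionVars false

noncomputable section

open ModularCurve AlgebraicCurve

namespace Fermat.CAR

attribute [local instance 10000] algFN smulFN algFX smulFX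

open Fermat.FF Fermat.MC Fermat.JAC Fermat.RED Fermat.RED.Model Fermat.BAD.X0 Fermat.EC.Val

local notation "Qb" => AlgebraicClosure ℚ
local notation "Γℚ" => (AlgebraicClosure ℚ ≃ₐ[ℚ] AlgebraicClosure ℚ)

variable {A : ValuationSubring (AlgebraicClosure ℚ)}

/-- Galois fixes series with rational coefficients. -/
theorem ratSeries_fixed {z : LaurentSeries Qb} (hz : RatSeries z) (σ : Γℚ) :
    coeffMap (σ : Qb →+* Qb) z = z := by
  ext n
  obtain ⟨r, hr⟩ := hz n
  rw [coeffMap_coeff, ← hr]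
  exact σ.commutes r

variable (M q : ℕ) [NeZero M] [NeZero q] [Fact q.Prime] (hq : q.Prime) (hqM : ¬ q ∣ M)

/-- The function `T = t - c` on level `M q²`. -/
def Tfn (t : FN M Qb) (c : Qb) : FN (M * q * q) Qb :=
  aM M q (t - algebraMap Qb (FN M Qb) c)

/-- The function `w`: the pullback of `t (q z) - t (z) ^ q` along the second map. -/
def wfn (t : FN M Qb) : FN (M * q * q) Qb := heckeBetaBar Qb (M * q) q (Uq' M q t)

/-- `Tfn` of a rational function and an invariant constant is invariant. -/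
theorem Tfn_mem_ratFld {t : FN M Qb} (ht : RatSeries (t : LaurentSeries Qb)) {c : Qb}
    (hc : c ∈ fixK A) : Tfn M q t c ∈ ratFld M q A := by
  refine mem_ratFld.mpr fun σ hσ => ?_
  rw [Tfn, coe_aM, AddSubgroupClass.coe_sub, map_sub, ratSeries_fixed ht]
  refine congrArg _ ?_
  change coeffMap (σ : Qb →+* Qb) (algebraMap Qb (LaurentSeries Qb) c) = _
  rw [coeffMap_algebraMap]
  exact congrArg _ (mem_fixK.mp hc σ hσ)

/-- Rational functions of level `M` are invariant at level `M q²`. -/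
theorem aM_mem_ratFld {t : FN M Qb} (ht : RatSeries (t : LaurentSeries Qb)) :
    aM M q t ∈ ratFld M q A :=
  mem_ratFld.mpr fun σ _ => by rw [coe_aM, ratSeries_fixed ht]

/-- `wfn` of a rational function is invariant. -/
theorem wfn_mem_ratFld {t : FN M Qb} (ht : RatSeries (t : LaurentSeries Qb)) :
    wfn M q t ∈ ratFld M q A := by
  refine mem_ratFld.mpr fun σ _ => ?_
  rw [wfn, coe_heckeBetaBar, ModularCurve.coeffMap_qExpand]
  refine congrArg _ ?_
  rw [Uq', AddSubgroupClass.coe_sub, SubmonoidClass.coe_pow, coe_heckeAlphaBar, coe_heckeBetaBar,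
    map_sub, map_pow, ModularCurve.coeffMap_qExpand, ratSeries_fixed ht]

variable [FF.IsFunctionField Qb (FN (M * q) Qb)] [FF.IsFunctionField Qb (FN M Qb)]
variable [FF.IsFunctionField Qb (FN (M * q * q) Qb)]

/-- The norm of the second image of a function. -/
theorem norm_beta_mul (hq : q.Prime) (hqM : ¬ q ∣ M) (g : FN (M * q) Qb) :
    normAlong (heckeAlphaBar Qb (M * q) q) (heckeBetaBar Qb (M * q) q g) * alW M q hq hqM g =
      heckeBetaBar Qb M q (normAlong (heckeAlphaBar Qb M q) g) := by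
  classical
  refine Subtype.ext ?_
  rw [MulMemClass.coe_mul, coe_normAlpha M q hq hqM, coe_heckeBetaBar,
    qExpand_norm M q hq hqM (zetaQ_spec q), ← emb_false M q hq hqM g,
    ← Finset.mul_prod_erase Finset.univ (fun i => brAlpha M q hq hqM i
      (heckeBetaBar Qb (M * q) q g)) (Finset.mem_univ (0 : Fin q)),
    ← Finset.mul_prod_erase Finset.univ (fun i : Fin q => twist (zetaQ q ^ (i : ℕ))
      (emb M q hq hqM false g)) (Finset.mem_univ (0 : Fin q)),
    Fin.val_zero, pow_zero, twist_one_apply, brAlpha_zero]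
  have e : ∀ i ∈ (Finset.univ : Finset (Fin q)).erase 0,
      brAlpha M q hq hqM i (heckeBetaBar Qb (M * q) q g) =
        twist (zetaQ q ^ (i : ℕ)) (emb M q hq hqM false g) := fun i hi => by
    rw [brAlpha_of_ne M q hq hqM (Finset.ne_of_mem_erase hi), br11_beta]
  rw [Finset.prod_congr rfl e]
  change ((heckeBetaBar Qb (M * q) q g : FN (M * q * q) Qb) : LaurentSeries Qb) * _ * _ = _
  rw [coe_heckeBetaBar, emb_true]
  ring

/-- The two ways down to level `M` agree. -/
theorem below_alpha_beta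
    (Q : Place Qb (FN (M * q * q) Qb)) :
    below (heckeAlphaBar Qb M q) (below (heckeBetaBar Qb (M * q) q) Q) =
      below (heckeBetaBar Qb M q) (below (heckeAlphaBar Qb (M * q) q) Q) := by
  refine Place.ext (ValuationSubring.ext _ _ fun g => ?_)
  rw [mem_iff_ordGE, mem_iff_ordGE]
  constructor <;> intro hg
  · have h1 := ordGE_comp (heckeBetaBar Qb (M * q) q) (ordGE_comp (heckeAlphaBar Qb M q) hg)
    rw [← alpha_beta_comm] at h1
    exact ordGE_below _ (ordGE_below _ h1)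
  · have h1 := ordGE_comp (heckeAlphaBar Qb (M * q) q) (ordGE_comp (heckeBetaBar Qb M q) hg)
    rw [alpha_beta_comm] at h1
    exact ordGE_below _ (ordGE_below _ h1)

variable [IsAlgClosed (IsLocalRing.ResidueField A)] [CharP (IsLocalRing.ResidueField A) q]
  [FF.IsFunctionField (IsLocalRing.ResidueField A) (FX (IsLocalRing.ResidueField A) M)]

open Classical in
/-- The places over the point of level `M`. -/
def fibre {s : Place (IsLocalRing.ResidueField A) (FX (IsLocalRing.ResidueField A) M)}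
    (D : SSBase (A := A) M q s) : Finset (Place Qb (FN (M * q * q) Qb)) :=
  (above (heckeAlphaBar Qb M q) D.a).biUnion (above (heckeAlphaBar Qb (M * q) q))

variable {s : Place (IsLocalRing.ResidueField A) (FX (IsLocalRing.ResidueField A) M)}
  (D : SSBase (A := A) M q s)

/-- Membership in the fibre. -/
theorem mem_fibre {Q : Place Qb (FN (M * q * q) Qb)} :
    Q ∈ fibre M q D ↔
      below (heckeAlphaBar Qb M q) (below (heckeAlphaBar Qb (M * q) q) Q) = D.a := by
  classical
  simp [fibre, mem_above]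

/-- The fibre is not empty. -/
theorem fibre_nonempty : (fibre M q D).Nonempty := by
  obtain ⟨P, hP⟩ := below_surjective (heckeAlphaBar Qb M q) D.a
  obtain ⟨Q, hQ⟩ := below_surjective (heckeAlphaBar Qb (M * q) q) P
  exact ⟨Q, (mem_fibre M q D).mpr (by rw [hQ, hP])⟩

/-- Functions of level `M` keep their values on the fibre. -/
theorem aM_at_fibre {Q : Place Qb (FN (M * q * q) Qb)} (hQ : Q ∈ fibre M q D) {g : FN M Qb}
    (hg : OrdGE D.a g 0) : OrdGE Q (aM M q g) 0 ∧ evalAt Q (aM M q g) = evalAt D.a g := by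
  have hb := (mem_fibre M q D).mp hQ
  set P := below (heckeAlphaBar Qb (M * q) q) Q
  have h1 : OrdGE P (heckeAlphaBar Qb M q g) 0 := ordGE_comp _ (hb.symm ▸ hg)
  refine ⟨ordGE_comp (heckeAlphaBar Qb (M * q) q) h1, ?_⟩
  change evalAt Q (heckeAlphaBar Qb (M * q) q (heckeAlphaBar Qb M q g)) = _
  rw [evalAt_comp _ h1, evalAt_comp _ (hb.symm ▸ hg), hb]

/-- Functions in the chart have integral values on the fibre. -/
theorem chart_at_fibre {Q : Place Qb (FN (M * q * q) Qb)} (hQ : Q ∈ fibre M q D)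
    {f : FN (M * q * q) Qb} (hf : f ∈ chart A (aM M q (jL M Qb))) :
    OrdGE Q f 0 ∧ evalAt Q f ∈ A := by
  obtain ⟨h1, h2⟩ := aM_at_fibre M q D hQ D.a_red.1.1
  exact evalAt_mem hf h1 (h2 ▸ D.a_red.1.2)

/-- The order of `Tfn` on the fibre is the ramification index over level `M`. -/
theorem ord_Tfn {Q : Place Qb (FN (M * q * q) Qb)} (hQ : Q ∈ fibre M q D) :
    Q.ord (Tfn M q D.t D.c) = ((Place.ramificationIndexAlong (heckeAlphaBar Qb (M * q) q) Q *
      Place.ramificationIndexAlong (heckeAlphaBar Qb M q)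
        (below (heckeAlphaBar Qb (M * q) q) Q) : ℕ) : ℤ) := by
  change Q.ord (heckeAlphaBar Qb (M * q) q (heckeAlphaBar Qb M q _)) = _
  rw [ord_below, ord_below, (mem_fibre M q D).mp hQ, D.a_ord, mul_one, Nat.cast_mul]

/-- `Tfn` lies in the chart. -/
theorem Tfn_mem_chart : Tfn M q D.t D.c ∈ chart A (aM M q (jL M Qb)) :=
  map_mem_chart (aM M q) (sub_mem D.t_chart (algebraMap_mem_chart _ D.c_int))

variable (h : IsPlace A q)
include h in
/-- The orders of an inertia stable set of values of positive order sum to at least `1`. -/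
private theorem one_le_sum_ord_of_stable {O : Finset Qb} (hpos : ∀ x ∈ O, x ≠ 0 ∧ 0 < ord A q x)
    (hne' : O.Nonempty) (hst : ∀ σ ∈ A.inertiaSubgroupIn ℚ, ∀ x ∈ O, σ x ∈ O) :
    1 ≤ ∑ x ∈ O, ord A q x := by
  have hI := Is.prod h (s := O) (f := id) fun x hx => is_ord (hpos x hx).1
  have hfix : ∏ x ∈ O, x ∈ fixK A := mem_fixK.mpr fun σ hσ => by
    rw [map_prod]
    refine (Finset.prod_image (f := fun x : Qb => x) (g := fun x : Qb => σ x) (s := O)
      fun x _ y _ e => σ.injective e).symm.trans ?_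
    refine congrArg (fun s : Finset Qb => ∏ x ∈ s, x) (Finset.eq_of_subset_of_card_le
      (fun x hx => ?_) (by rw [Finset.card_image_of_injective _ σ.injective]))
    obtain ⟨y, hy, rfl⟩ := Finset.mem_image.mp hx
    exact hst σ hσ y hy
  obtain ⟨k, hk⟩ := exists_int_ord_fixK h hI.1 hfix
  have hk0 : (0 : ℚ) < k := by
    rw [← hk]
    exact hI.2 ▸ Finset.sum_pos (fun x hx => (hpos x hx).2) hne'
  calc (1 : ℚ) ≤ k := by
        have : (0 : ℤ) < k := by exact_mod_cast hk0
        exact_mod_cast (show (1 : ℤ) ≤ k by omega)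
    _ = ∑ x ∈ O, ord A q x := by rw [← hk]; exact hI.2

/-- If positive values weighted by multiplicities sum to `1`, and the distinct values sum to at
least `1`, the values are distinct and the multiplicities are `1`. -/
private theorem injOn_and_eq_one_of_sum {ι κ : Type*} {S : Finset ι} [DecidableEq κ] {w : ι → κ}
    {ν : κ → ℚ} {m : ι → ℕ} (hv : ∀ Q ∈ S, 0 < ν (w Q)) (hm : ∀ Q ∈ S, 1 ≤ m Q)
    (htot : ∑ Q ∈ S, (m Q : ℚ) * ν (w Q) = 1) (hge1 : 1 ≤ ∑ x ∈ S.image w, ν x) :
    Set.InjOn w S ∧ (∀ Q ∈ S, m Q = 1) ∧ ∑ Q ∈ S, ν (w Q) = 1 ∧ ∑ x ∈ S.image w, ν x = 1 := by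
  classical
  choose g hgS hgw using fun x : {x // x ∈ S.image w} => Finset.mem_image.mp x.2
  have hm1 : ∀ Q ∈ S, (1 : ℚ) ≤ m Q := fun Q hQ => by exact_mod_cast hm Q hQ
  have hle1 : ∑ Q ∈ S, ν (w Q) ≤ 1 := htot ▸ Finset.sum_le_sum fun Q hQ => by
    nlinarith [hm1 Q hQ, hv Q hQ]
  set R := Finset.univ.image g
  have hRS : R ⊆ S := fun Q hQ => by
    obtain ⟨x, -, rfl⟩ := Finset.mem_image.mp hQ; exact hgS x
  have hginj : Function.Injective g := fun x x' e => Subtype.ext (by rw [← hgw x, e, hgw x'])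
  have hRsum : ∑ Q ∈ R, ν (w Q) = ∑ x ∈ S.image w, ν x := by
    rw [Finset.sum_image fun x _ x' _ e => hginj e]
    refine Eq.trans ?_ (Finset.sum_coe_sort (S.image w) ν)
    exact Finset.sum_congr rfl fun x _ => by rw [hgw]
  have hRle : ∑ Q ∈ R, ν (w Q) ≤ ∑ Q ∈ S, ν (w Q) :=
    Finset.sum_le_sum_of_subset_of_nonneg hRS fun Q hQ _ => (hv Q hQ).le
  have hsum1 : ∑ Q ∈ S, ν (w Q) = 1 := by linarith
  have hO1 : ∑ x ∈ S.image w, ν x = 1 := by linarith
  have hRall : R = S := Finset.Subset.antisymm hRS fun Q hQ => by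
    by_contra hQR
    have := Finset.sum_lt_sum_of_subset hRS hQ hQR (hv Q hQ) fun j hj _ => (hv j hj).le
    linarith
  refine ⟨fun Q hQ Q' hQ' e => ?_, fun Q hQ => ?_, hsum1, hO1⟩
  · obtain ⟨x, -, rfl⟩ := Finset.mem_image.mp (hRall.symm ▸ hQ : Q ∈ R)
    obtain ⟨x', -, rfl⟩ := Finset.mem_image.mp (hRall.symm ▸ hQ' : Q' ∈ R)
    rw [hgw, hgw] at e
    rw [Subtype.ext e]
  · have h0 := (Finset.sum_eq_zero_iff_of_nonneg (f := fun Q => ((m Q : ℚ) - 1) * ν (w Q))
      fun Q hQ => mul_nonneg (sub_nonneg.mpr (hm1 Q hQ)) (hv Q hQ).le).mp (by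
      simp only [sub_mul, one_mul, Finset.sum_sub_distrib, htot, hsum1, sub_self]) Q hQ
    have := (mul_eq_zero.mp h0).resolve_right (hv Q hQ).ne'
    exact_mod_cast (sub_eq_zero.mp this)

include hq hqM h

/-- `wfn` lies in the chart. -/
theorem wfn_mem_chart : wfn M q D.t ∈ chart A (aM M q (jL M Qb)) := by
  have h1 : heckeBetaBar Qb (M * q) q (Uq' M q D.t) ∈
      chart A (heckeBetaBar Qb (M * q) q (aj M q)) :=
    map_mem_chart _ (Uq_mem_chart M q hq hqM h D.t_chart).2
  refine mem_chart_trans ?_ h1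
  have h2 : heckeBetaBar Qb (M * q) q (aj M q) =
      heckeAlphaBar Qb (M * q) q (heckeBetaBar Qb M q (jL M Qb)) :=
    (alpha_beta_comm M q (jL M Qb)).symm
  rw [h2]
  exact map_mem_chart (heckeAlphaBar Qb (M * q) q) (x := aj M q)
    (beta_mem_chart M q hq hqM h (self_mem_chart _))

/-- A place in the tube of `T = 0` lies over the point of level `M`. -/
theorem mem_fibre_of {Q : Place Qb (FN (M * q * q) Qb)} (hj : OrdGE Q (aM M q (jL M Qb)) 0)
    (hjA : evalAt Q (aM M q (jL M Qb)) ∈ A) (hT : 0 < Q.ord (Tfn M q D.t D.c))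
    (hres : ∀ t' : FN M Qb, t' ∈ chart A (jL M Qb) → RatSeries (t' : LaurentSeries Qb) →
      Fermat.FLAT.red A (evalAt Q (aM M q t')) = Fermat.FLAT.red A (evalAt D.a t')) :
    Q ∈ fibre M q D := by
  set P := below (heckeAlphaBar Qb (M * q) q) Q
  set R := below (heckeAlphaBar Qb M q) P
  have hev : ∀ g : FN M Qb, OrdGE Q (aM M q g) 0 →
      OrdGE R g 0 ∧ evalAt Q (aM M q g) = evalAt R g := fun g hg => by
    have h1 : OrdGE P (heckeAlphaBar Qb M q g) 0 :=
      ordGE_below (heckeAlphaBar Qb (M * q) q) hg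
    have h2 : OrdGE R g 0 := ordGE_below _ h1
    refine ⟨h2, ?_⟩
    change evalAt Q (heckeAlphaBar Qb (M * q) q (heckeAlphaBar Qb M q g)) = _
    rw [evalAt_comp _ h1, evalAt_comp _ h2]
  obtain ⟨hjR, hje⟩ := hev _ hj
  have hR : InChart A (jL M Qb) R := ⟨hjR, hje ▸ hjA⟩
  refine (mem_fibre M q D).mpr (D.unique R hR ?_ fun t' ht' hQ' hm z' hz' => ?_)
  · change 0 < Q.ord (heckeAlphaBar Qb (M * q) q (heckeAlphaBar Qb M q _)) at hT
    rw [ord_below, ord_below] at hT
    exact pos_of_mul_pos_right (pos_of_mul_pos_right hT (Int.natCast_nonneg _))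
      (Int.natCast_nonneg _)
  · rw [← (D.a_red.residue (levelRed M q hq hqM h.2) ht' hm z' hz').1, ← hres t' ht' hQ',
      (hev t' (evalAt_mem (map_mem_chart (aM M q) ht') hj hjA).1).2]

/-- Inertia permutes the places over the point. -/
theorem smul_mem_fibre {σ : Γℚ} (hσ : σ ∈ A.inertiaSubgroupIn ℚ)
    {Q : Place Qb (FN (M * q * q) Qb)} (hQ : Q ∈ fibre M q D) :
    gal2 M q σ • Q ∈ fibre M q D := by
  have hI := isInert_of_mem_inertia hσ
  have hval : ∀ f : FN (M * q * q) Qb, f ∈ ratFld M q A → OrdGE Q f 0 →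
      OrdGE (gal2 M q σ • Q) f 0 ∧ evalAt (gal2 M q σ • Q) f = σ (evalAt Q f) := fun f hf hr => by
    have h1 := mem_ratFld_iff.mp hf σ hσ
    have h2 := evalAt_smul (gal2 M q σ) hr
    have h3 := ordGE_smul (gal2 M q σ) hr
    rw [h1] at h2 h3
    exact ⟨h3, h2.trans rfl⟩
  have hjr : aM M q (jL M Qb) ∈ ratFld M q A := mem_ratFld.mpr fun σ _ => by
    rw [coe_aM, coe_jL, coeffMap_jqModC]
  obtain ⟨hj, hje⟩ := aM_at_fibre M q D hQ D.a_red.1.1
  obtain ⟨hj', hje'⟩ := hval _ hjr hj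
  refine mem_fibre_of M q hq hqM D h hj' ?_ ?_ fun t' ht' hQ' => ?_
  · rw [hje', hje]; exact (hI.1 _).mpr D.a_red.1.2
  · rw [← mem_ratFld_iff.mp (Tfn_mem_ratFld M q D.t_rat D.c_fix (A := A)) σ hσ,
      SemilinearAut.ord_smul, ord_Tfn M q D hQ]
    exact_mod_cast Nat.mul_pos (ramificationIndexAlong_pos _ _) (ramificationIndexAlong_pos _ _)
  · have hta := evalAt_mem ht' D.a_red.1.1 D.a_red.1.2
    obtain ⟨h1, h2⟩ := aM_at_fibre M q D hQ hta.1
    rw [(hval _ (aM_mem_ratFld M q hQ') h1).2, h2,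
      Fermat.FLAT.red_apply h hI ((mem_iff_ge h _).mp hta.2)]

variable (hne : NoElliptic M) (hs : s ∈ SS M q hq hqM h.2)
include hne hs

/-- `w` takes values in the maximal ideal. -/
theorem wfn_small {Q : Place Qb (FN (M * q * q) Qb)} (hQ : Q ∈ fibre M q D) :
    Fermat.FLAT.red A (evalAt Q (wfn M q D.t)) = 0 := by
  set P := below (heckeAlphaBar Qb (M * q) q) Q
  set P' := below (heckeBetaBar Qb (M * q) q) Q
  have hP1 : RedS (jL M Qb) (below (heckeAlphaBar Qb M q) P) s :=
    (mem_fibre M q D).mp hQ ▸ D.a_red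
  have hP2 := redS_below_beta M q hq hqM h hs hP1
  have hP1' : RedS (jL M Qb) (below (heckeAlphaBar Qb M q) P') (Qf M q s) := by
    rw [below_alpha_beta M q Q]
    exact hP2
  have hs' := Qf_mem_SS M q hq hqM h.2 hs
  have hP2' := redS_below_beta M q hq hqM h hs' hP1'
  rw [Qf_Qf M q hq hqM h.2 hne hs] at hP2'
  set x := evalAt (below (heckeAlphaBar Qb M q) P') D.t
  set y := evalAt (below (heckeBetaBar Qb M q) P') D.t
  have hx := evalAt_mem D.t_chart hP1'.1.1 hP1'.1.2
  have hy := evalAt_mem D.t_chart hP2'.1.1 hP2'.1.2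
  have hU : evalAt P' (Uq' M q D.t) = y - x ^ q := by
    rw [Uq', evalAt_sub (ordGE_comp _ hy.1) (((ordGE_comp _ hx.1).pow q).mono (by simp)),
      FF.evalAt_pow (ordGE_comp _ hx.1), evalAt_comp _ hy.1, evalAt_comp _ hx.1]
  have hUr : OrdGE P' (Uq' M q D.t) 0 :=
    (ordGE_comp _ hy.1).sub (((ordGE_comp _ hx.1).pow q).mono (by simp))
  rw [wfn, evalAt_comp _ hUr, hU]
  have hL := levelRed M q hq hqM h.2 (A := A)
  have hxG : Ge A q x 0 := (mem_iff_ge h _).mp hx.2
  have hyG : Ge A q y 0 := (mem_iff_ge h _).mp hy.2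
  have hxq : Ge A q (x ^ q) 0 := by simpa using hxG.pow h q
  rw [Fermat.FLAT.red_eq_zero_iff h (hyG.sub h hxq),
    ← Fermat.FLAT.red_eq_iff h hyG hxq, Fermat.FLAT.red_pow h hxG,
    (hP1'.residue hL D.t_chart D.t_int D.z D.t_red).1,
    (hP2'.residue hL D.t_chart D.t_int D.z D.t_red).1]
  exact (evalAt_Qf_pow M q hq hqM h.2 hne D.z_reg D.z_fixed hs).1.symm

/-- The orders of the values of `w` over one place of level `M q`. -/
theorem sum_ord_wfn {P : Place Qb (FN (M * q) Qb)}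
    (hP : P ∈ above (heckeAlphaBar Qb M q) D.a) :
    (∀ Q ∈ above (heckeAlphaBar Qb (M * q) q) P, evalAt Q (wfn M q D.t) ≠ 0) ∧
      ∑ Q ∈ above (heckeAlphaBar Qb (M * q) q) P,
        (Q.ramificationIndexAlong (heckeAlphaBar Qb (M * q) q) : ℚ) *
          ord A q (evalAt Q (wfn M q D.t)) = 1 / (q + 1) := by
  classical
  set φ := heckeAlphaBar Qb (M * q) q
  have hb := (mem_above (heckeAlphaBar Qb M q)).mp hP
  obtain ⟨hU, -, hNr, hN⟩ := ord_Uq M q hq hqM h hne hs D hb
  have hmem : ∀ Q ∈ above φ P, Q ∈ fibre M q D := fun Q hQ =>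
    (mem_fibre M q D).mpr (by rw [(mem_above φ).mp hQ, hb])
  have hreg : ∀ Q ∈ above φ P, OrdGE Q (wfn M q D.t) 0 := fun Q hQ =>
    (chart_at_fibre M q D (hmem Q hQ) (wfn_mem_chart M q hq hqM D h)).1
  have hU'0 : Uq' M q D.t ≠ 0 := fun h0 => hN.1 (by
    rw [h0]
    let := algebraAlong (heckeAlphaBar Qb M q)
    have : Module.Finite (FN M Qb) (FN (M * q) Qb) := FF.finiteAlong (heckeAlphaBar Qb M q)
    change FF.evalAt _ (Algebra.norm (FN M Qb) (0 : FN (M * q) Qb)) = 0
    rw [Algebra.norm_zero, Model.evalAt_zero])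
  have hw0 : wfn M q D.t ≠ 0 := (_root_.map_ne_zero _).mpr hU'0
  -- the norm and `U_q` are regular at `P`
  have hNwr : OrdGE P (normAlong φ (wfn M q D.t)) 0 := by
    refine ordGE_iff.mpr (.inr ?_)
    rw [ord_normAlong φ P hw0]
    exact Finset.sum_nonneg fun Q hQ => (hreg Q hQ).le_ord hw0
  have hUr : OrdGE P (Uq M q D.t) 0 := by
    have hj := ordGE_comp (heckeAlphaBar Qb M q) (hb.symm ▸ D.a_red.1.1 :
      OrdGE (below (heckeAlphaBar Qb M q) P) (jL M Qb) 0)
    refine (evalAt_mem (Uq_mem_chart M q hq hqM h D.t_chart).1 hj ?_).1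
    rw [aj, evalAt_comp _ (hb.symm ▸ D.a_red.1.1), hb]
    exact D.a_red.1.2
  have key := norm_beta_mul M q hq hqM (Uq' M q D.t)
  rw [alW_Uq'] at key
  -- the norm relation, evaluated at `P`
  have hev : evalAt P (normAlong φ (wfn M q D.t)) * evalAt P (Uq M q D.t) =
      evalAt (below (heckeBetaBar Qb M q) P)
        (normAlong (heckeAlphaBar Qb M q) (Uq' M q D.t)) := by
    rw [← evalAt_mul hNwr hUr, ← evalAt_comp (heckeBetaBar Qb M q) hNr]
    exact congrArg _ key
  rw [evalAt_normAlong φ P hreg] at hev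
  have hne0 : ∀ Q ∈ above φ P, evalAt Q (wfn M q D.t) ≠ 0 := fun Q hQ h0 => hN.1 (by
    rw [← hev, Finset.prod_eq_zero hQ (by rw [h0, zero_pow (ramificationIndexAlong_pos φ Q).ne']),
      zero_mul])
  refine ⟨hne0, ?_⟩
  -- take orders of the product
  have hprod := Is.prod h (s := above φ P)
    (f := fun Q => evalAt Q (wfn M q D.t) ^ Q.ramificationIndexAlong φ) fun Q hQ =>
      (is_ord (hne0 Q hQ)).pow h (Q.ramificationIndexAlong φ)
  have h1 := (hprod.mul h hU).unique (hev ▸ hN)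
  have hq1 : (0 : ℚ) < (q : ℚ) + 1 := by positivity
  rw [eq_div_iff hq1.ne']
  field_simp at h1
  linarith

/-- The orders of `w` over the point sum to `1`, with multiplicities. -/
private theorem sum_ramification_mul_ord_wfn :
    ∑ Q ∈ fibre M q D, ((Place.ramificationIndexAlong (heckeAlphaBar Qb (M * q) q) Q *
      Place.ramificationIndexAlong (heckeAlphaBar Qb M q)
        (below (heckeAlphaBar Qb (M * q) q) Q) : ℕ) : ℚ) * ord A q (evalAt Q (wfn M q D.t))
      = 1 := by
  classical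
  rw [show fibre M q D = (above (heckeAlphaBar Qb M q) D.a).biUnion
    (above (heckeAlphaBar Qb (M * q) q)) from rfl,
    Finset.sum_biUnion fun P _ P' _ hne => Finset.disjoint_left.mpr fun Q hQ hQ' => hne (by
      rw [← (mem_above _).mp hQ, (mem_above _).mp hQ'])]
  rw [Finset.sum_congr rfl fun P hP => (show _ =
    (Place.ramificationIndexAlong (heckeAlphaBar Qb M q) P : ℚ) * (1 / (q + 1)) by
      rw [← (sum_ord_wfn M q hq hqM D h hne hs hP).2, Finset.mul_sum]
      refine Finset.sum_congr rfl fun Q hQ => ?_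
      simp only [(mem_above _).mp hQ]
      push_cast
      ring),
    ← Finset.sum_mul, ← Nat.cast_sum, sum_ramificationIndex_above,
    CongX0.finrankAlong_alpha_bar M q hq hqM]
  push_cast
  field_simp

/-- **One orbit.** The places over a glued point form one orbit of inertia, separated by the values
of `wfn`, on which `Tfn` has simple zeros. -/
theorem fibre_orbit :
    0 < (fibre M q D).card ∧ Set.InjOn (fun Q : Place Qb (FN (M * q * q) Qb) =>
      evalAt Q (wfn M q D.t))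
        (fibre M q D) ∧
      (∀ Q ∈ fibre M q D, Is A q (evalAt Q (wfn M q D.t)) (1 / (fibre M q D).card) ∧
        Q.ord (Tfn M q D.t D.c) = 1) ∧
      ∀ Q ∈ fibre M q D, ∀ Q' ∈ fibre M q D,
        ∃ σ ∈ A.inertiaSubgroupIn ℚ, gal2 M q σ • Q = Q' := by
  classical
  set S := fibre M q D
  set w := fun Q : Place Qb (FN (M * q * q) Qb) => evalAt Q (wfn M q D.t) with hw
  set v := fun Q => ord A q (w Q)
  set m := fun Q : Place Qb (FN (M * q * q) Qb) =>
    Place.ramificationIndexAlong (heckeAlphaBar Qb (M * q) q) Q *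
      Place.ramificationIndexAlong (heckeAlphaBar Qb M q) (below (heckeAlphaBar Qb (M * q) q) Q)
  -- the values of `w` at the fibre are nonzero and of positive order, permuted by inertia
  have hw0 : ∀ Q ∈ S, w Q ≠ 0 := fun Q hQ =>
    (sum_ord_wfn M q hq hqM D h hne hs ((mem_above _).mpr ((mem_fibre M q D).mp hQ))).1 Q
      ((mem_above _).mpr rfl)
  have hv : ∀ Q ∈ S, 0 < v Q := fun Q hQ => by
    have hm := (chart_at_fibre M q D hQ (wfn_mem_chart M q hq hqM D h)).2
    exact ((Fermat.FLAT.red_eq_zero_iff h ((mem_iff_ge h _).mp hm)).mp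
      (wfn_small M q hq hqM D h hne hs hQ)).resolve_left (hw0 Q hQ)
  have hm : ∀ Q ∈ S, 1 ≤ m Q := fun Q _ =>
    Nat.mul_pos (ramificationIndexAlong_pos _ _) (ramificationIndexAlong_pos _ _)
  have hσw : ∀ σ ∈ A.inertiaSubgroupIn ℚ, ∀ Q ∈ S, gal2 M q σ • Q ∈ S ∧
      w (gal2 M q σ • Q) = σ (w Q) := fun σ hσ Q hQ => by
    refine ⟨smul_mem_fibre M q hq hqM D h hσ hQ, ?_⟩
    have h2 := evalAt_smul (gal2 M q σ)
      (chart_at_fibre M q D hQ (wfn_mem_chart M q hq hqM D h)).1
    rw [mem_ratFld_iff.mp (wfn_mem_ratFld M q D.t_rat (A := A)) σ hσ] at h2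
    exact h2.trans rfl
  have hOst : ∀ σ ∈ A.inertiaSubgroupIn ℚ, ∀ x ∈ S.image w, σ x ∈ S.image w := fun σ hσ x hx => by
    obtain ⟨Q, hQ, rfl⟩ := Finset.mem_image.mp hx
    exact Finset.mem_image.mpr ⟨_, (hσw σ hσ Q hQ).1, (hσw σ hσ Q hQ).2⟩
  have hSne : S.Nonempty := fibre_nonempty M q D
  have hpos : ∀ x ∈ S.image w, x ≠ 0 ∧ 0 < ord A q x := fun x hx => by
    obtain ⟨Q, hQ, rfl⟩ := Finset.mem_image.mp hx
    exact ⟨hw0 Q hQ, hv Q hQ⟩
  -- with multiplicity their orders sum to one, and any stable set sums to at least one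
  obtain ⟨hinj, hmall, hsum1, hO1⟩ := injOn_and_eq_one_of_sum (ν := ord A q) (m := m) hv hm
    (sum_ramification_mul_ord_wfn M q hq hqM D h hne hs)
    (one_le_sum_ord_of_stable q h hpos (hSne.image w) hOst)
  -- hence one orbit, all of multiplicity one
  have htrans : ∀ Q ∈ S, ∀ Q' ∈ S, ∃ σ ∈ A.inertiaSubgroupIn ℚ, gal2 M q σ • Q = Q' := by
    intro Q hQ Q' hQ'
    set O' := (S.image w).filter fun x => ∃ σ ∈ A.inertiaSubgroupIn ℚ, σ (w Q) = x
    have hO' : O'.Nonempty := ⟨w Q, Finset.mem_filter.mpr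
      ⟨Finset.mem_image_of_mem w hQ, 1, one_mem _, rfl⟩⟩
    have h1 := one_le_sum_ord_of_stable q h (O := O')
      (fun x hx => hpos x (Finset.filter_subset _ _ hx)) hO' fun σ hσ x hx => by
      obtain ⟨hx', τ, hτ, rfl⟩ := Finset.mem_filter.mp hx
      exact Finset.mem_filter.mpr ⟨hOst σ hσ _ hx', σ * τ, mul_mem hσ hτ, rfl⟩
    have hmem : w Q' ∈ O' := by
      by_contra hn
      have hlt := Finset.sum_lt_sum_of_subset (f := fun x => ord A q x) (Finset.filter_subset _ _)
        (Finset.mem_image_of_mem w hQ') hn (hv Q' hQ') fun x hx _ => by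
          obtain ⟨P, hP, rfl⟩ := Finset.mem_image.mp hx
          exact (hv P hP).le
      linarith
    obtain ⟨-, σ, hσ, e⟩ := Finset.mem_filter.mp hmem
    exact ⟨σ, hσ, hinj (hσw σ hσ Q hQ).1 hQ' ((hσw σ hσ Q hQ).2.trans e)⟩
  refine ⟨Finset.card_pos.mpr hSne, hinj, fun Q hQ => ⟨⟨hw0 Q hQ, ?_⟩, ?_⟩, htrans⟩
  -- of common order `1 / card`
  · have hall : ∀ Q' ∈ S, v Q' = v Q := fun Q' hQ' => by
      obtain ⟨σ, hσ, rfl⟩ := htrans Q hQ Q' hQ'
      simp only [v, (hσw σ hσ Q hQ).2]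
      exact (isInert_of_mem_inertia hσ).ord_apply h _
    rw [Finset.sum_congr rfl hall, Finset.sum_const, nsmul_eq_mul] at hsum1
    change v Q = 1 / (S.card : ℚ)
    rw [eq_div_iff (Nat.cast_ne_zero.mpr (Finset.card_pos.mpr hSne).ne'), mul_comm]
    exact hsum1
  · rw [ord_Tfn M q D hQ]
    exact_mod_cast hmall Q hQ

end Fermat.CAR

end
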