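import Fermat.Agent.CAR.Inertia
import Fermat.Agent.RED.Model.Generic
import Fermat.Agent.BAD.X0.Series

/-!
# The Gauss valuation on series

`gS A` is the ring of series that are quotients of integral series by primitive ones and `sR A`
its reduction.  `Tame A z` says that the series has coefficients in a number field and bounded
denominators; quotients of such series are constants times elements of reduction not zero.
-/

set_option autoImplicit false
set_option linter.unusedSectionVars false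

attribute [local instance 10000] SubalgebraClass.toAlgebra HahnSeries.powerSeriesAlgebra

noncomputable section

open ModularCurve Fermat.RED Fermat.RED.Model Fermat.EC.Val

namespace Fermat.CAR

local notation "Qb" => AlgebraicClosure ℚ
local notation "Γℚ" => (AlgebraicClosure ℚ ≃ₐ[ℚ] AlgebraicClosure ℚ)

variable (A : ValuationSubring (AlgebraicClosure ℚ))

local notation "kA" => IsLocalRing.ResidueField A
local notation "idS" => RingHom.id (LaurentSeries (AlgebraicClosure ℚ))

/-- The series defined at the generic point. -/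
def gS : Subring (LaurentSeries Qb) := gInt (IsLocalRing.residue A) idS

/-- The reduction at the generic point. -/
def sR : gS A →+* LaurentSeries kA where
  toFun z := gRed (IsLocalRing.residue A) idS (z : LaurentSeries Qb)
  map_one' := gRed_one
  map_mul' z w := gRed_mul z.2 w.2
  map_zero' := gRed_zero
  map_add' z w := gRed_add z.2 w.2

variable {A}

/-- Integral series are defined at the generic point. -/
theorem int_mem_gS {z : LaurentSeries Qb} (hz : z ∈ intSeries A) : z ∈ gS A :=
  mem_gInt_of_int hz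

/-- Series over `A` are defined at the generic point. -/
theorem coeffMap_mem_gS (y : LaurentSeries A) : coeffMap A.subtype y ∈ gS A :=
  int_mem_gS ⟨y, rfl⟩

/-- The reduction of a series over `A` is coefficientwise. -/
theorem sR_coeffMap (y : LaurentSeries A) (h : coeffMap A.subtype y ∈ gS A) :
    sR A ⟨_, h⟩ = coeffMap (IsLocalRing.residue A) y := by
  change gRed (IsLocalRing.residue A) idS (coeffMap A.subtype y) = _
  have hm : idS (coeffMap A.subtype y) ∈ intSeries A := ⟨y, rfl⟩
  rw [gRed_of_int hm, redF_of_mem hm]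
  exact redHom_coeffMap (IsLocalRing.residue A) y ⟨y, rfl⟩

/-- Integral constants are defined at the generic point. -/
theorem algebraMap_mem_gS {c : Qb} (hc : c ∈ A) :
    algebraMap Qb (LaurentSeries Qb) c ∈ gS A := int_mem_gS (algebraMap_mem_intSeries hc)

/-- The reduction of an integral constant. -/
theorem sR_algebraMap {c : Qb} (hc : c ∈ A) :
    sR A ⟨_, algebraMap_mem_gS hc⟩ =
      algebraMap kA (LaurentSeries kA) (IsLocalRing.residue A ⟨c, hc⟩) := by
  change gRed (IsLocalRing.residue A) idS (algebraMap Qb (LaurentSeries Qb) c) = _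
  have hm : idS (algebraMap Qb (LaurentSeries Qb) c) ∈ intSeries A := algebraMap_mem_intSeries hc
  rw [gRed_of_int hm, redF_of_mem hm]
  exact redHom_algebraMap _ hc

/-- Defined at the generic point means: a quotient of series over `A` with denominator of nonzero
reduction. -/
theorem mem_gS_iff {z : LaurentSeries Qb} : z ∈ gS A ↔ ∃ g u : LaurentSeries A,
    coeffMap (IsLocalRing.residue A) u ≠ 0 ∧
      z * coeffMap A.subtype u = coeffMap A.subtype g := by
  constructor
  · rintro ⟨g, u, ⟨g', hg'⟩, ⟨u', hu'⟩, hu0, e⟩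
    simp only [RingHom.id_apply] at hg' hu'
    refine ⟨g', u', fun h0 => hu0 ?_, by rw [hu', hg', e]⟩
    rw [redF_of_mem (ι := idS) ⟨u', hu'⟩, ← h0,
      ← redHom_coeffMap (IsLocalRing.residue A) u' ⟨_, rfl⟩]
    exact congrArg _ (Subtype.ext hu'.symm)
  · rintro ⟨g, u, hu, e⟩
    refine ⟨coeffMap A.subtype g, coeffMap A.subtype u, ⟨g, rfl⟩, ⟨u, rfl⟩, ?_, e⟩
    have hm : idS (coeffMap A.subtype u) ∈ intSeries A := ⟨u, rfl⟩
    rw [redF_of_mem hm]
    exact fun h0 => hu ((redHom_coeffMap (IsLocalRing.residue A) u ⟨u, rfl⟩).symm.trans h0)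

/-- A homomorphism of series compatible with reduction. -/
structure RedCompat (A : ValuationSubring (AlgebraicClosure ℚ))
    (Φ : LaurentSeries Qb →+* LaurentSeries Qb)
    (φ : LaurentSeries (IsLocalRing.ResidueField A) →+*
      LaurentSeries (IsLocalRing.ResidueField A)) :
    Prop where
  /-- `Φ` maps integral series to integral series, compatibly with `φ` on reductions. -/
  lift : ∀ y : LaurentSeries A, ∃ y' : LaurentSeries A,
    Φ (coeffMap A.subtype y) = coeffMap A.subtype y' ∧
      coeffMap (IsLocalRing.residue A) y' = φ (coeffMap (IsLocalRing.residue A) y)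
  /-- `φ` is injective. -/
  inj : Function.Injective φ

namespace RedCompat

variable {Φ : LaurentSeries Qb →+* LaurentSeries Qb}
  {fb : LaurentSeries (IsLocalRing.ResidueField A) →+* LaurentSeries (IsLocalRing.ResidueField A)}
  (hc : RedCompat A Φ fb)
include hc

/-- A compatible homomorphism preserves being defined at the generic point. -/
theorem map_mem {z : LaurentSeries Qb} (hz : z ∈ gS A) : Φ z ∈ gS A := by
  obtain ⟨g, u, hu, e⟩ := mem_gS_iff.mp hz
  obtain ⟨g', hg, -⟩ := hc.lift g
  obtain ⟨u', hu', hu''⟩ := hc.lift u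
  refine mem_gS_iff.mpr ⟨g', u', ?_, by rw [← hu', ← hg, ← map_mul, e]⟩
  rw [hu'']
  exact (map_ne_zero_iff _ hc.inj).mpr hu

/-- Reduction of series commutes with a compatible homomorphism of series. -/
theorem sR_map {z : LaurentSeries Qb} (hz : z ∈ gS A) :
    sR A ⟨Φ z, map_mem hc hz⟩ = fb (sR A ⟨z, hz⟩) := by
  obtain ⟨g, u, hu, e⟩ := mem_gS_iff.mp hz
  obtain ⟨g', hg, hg'⟩ := hc.lift g
  obtain ⟨u', hu', hu''⟩ := hc.lift u
  have e1 : sR A ⟨z, hz⟩ * coeffMap (IsLocalRing.residue A) u =
      coeffMap (IsLocalRing.residue A) g := by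
    rw [← sR_coeffMap u (coeffMap_mem_gS u), ← sR_coeffMap g (coeffMap_mem_gS g), ← map_mul]
    exact congrArg _ (Subtype.ext e)
  have e2 : sR A ⟨Φ z, hc.map_mem hz⟩ * coeffMap (IsLocalRing.residue A) u' =
      coeffMap (IsLocalRing.residue A) g' := by
    rw [← sR_coeffMap u' (coeffMap_mem_gS u'), ← sR_coeffMap g' (coeffMap_mem_gS g'), ← map_mul]
    exact congrArg _ (Subtype.ext (show Φ z * coeffMap A.subtype u' = coeffMap A.subtype g' by
      rw [← hu', ← hg, ← map_mul, e]))
  have e3 := congrArg fb e1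
  rw [map_mul, ← hu'', ← hg'] at e3
  rw [← e3] at e2
  exact mul_right_cancel₀ (by rw [hu'']; exact (map_ne_zero_iff _ hc.inj).mpr hu) e2

end RedCompat

/-- Raising the variable to a power is compatible with reduction. -/
theorem redCompat_qExpand (n : ℕ) [NeZero n] :
    RedCompat A (qExpand Qb n) (qExpand kA n) :=
  ⟨fun y => ⟨qExpand A n y, (ModularCurve.coeffMap_qExpand _ _ _).symm,
    ModularCurve.coeffMap_qExpand _ _ _⟩, qExpand_injective n⟩

/-- Twisting by a `q`-th root of unity does not change reductions. -/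
theorem redCompat_twist {q : ℕ} [Fact q.Prime] [CharP kA q] {ζ : Qbˣ} (hζ : ζ ^ q = 1) :
    RedCompat A (twist ζ) (RingHom.id _) := by
  refine ⟨fun y => ?_, Function.injective_id⟩
  have hA : (ζ : Qb) ∈ A := by
    have h1 : A.valuation (ζ : Qb) ^ q = 1 := by
      rw [← map_pow, ← Units.val_pow_eq_pow_val, hζ, Units.val_one, map_one]
    refine (A.valuation_le_one_iff _).mp (le_of_eq ?_)
    exact (pow_eq_one_iff_of_nonneg zero_le (Fact.out : q.Prime).ne_zero).mp h1
  have hu : (⟨ζ, hA⟩ : A) ^ q = 1 := Subtype.ext (by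
    change (ζ : Qb) ^ q = 1
    rw [← Units.val_pow_eq_pow_val, hζ, Units.val_one])
  set u : Aˣ := Units.ofPowEqOne _ q hu (Fact.out : q.Prime).ne_zero
  have hπ : Units.map (IsLocalRing.residue A : A →* kA) u = 1 := Units.ext (by
    change IsLocalRing.residue A (⟨ζ, hA⟩ : A) = 1
    refine sub_eq_zero.mp (pow_eq_zero_iff (n := q) (Fact.out : q.Prime).ne_zero |>.mp ?_)
    rw [sub_pow_char, ← map_pow, hu, map_one, one_pow, sub_self])
  refine ⟨twist u y, ?_, ?_⟩
  · rw [coeffMap_twist]
    congr 1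
    exact congrArg twist (Units.ext rfl)
  · rw [coeffMap_twist, hπ, twist_one_apply]
    rfl

/-- Inertia is compatible with reduction and reduces to the identity. -/
theorem redCompat_inertia {σ : Γℚ} (hσ : σ ∈ A.inertiaSubgroupIn ℚ) :
    RedCompat A (coeffMap (σ : Qb →+* Qb)) (RingHom.id _) := by
  refine ⟨fun y => ?_, Function.injective_id⟩
  obtain ⟨hd, he⟩ := residueAut_eq_refl hσ
  obtain ⟨σA, h1, h2⟩ := exists_residue_conj hd
  refine ⟨coeffMap σA y, ?_, ?_⟩
  · rw [coeffMap_coeffMap, coeffMap_coeffMap]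
    exact coeffMap_congr (RingHom.ext fun a => (h1 a).symm) y
  · rw [coeffMap_coeffMap, RingHom.id_apply]
    refine coeffMap_congr (RingHom.ext fun a => ?_) y
    have := h2 a
    rw [he, RingEquiv.refl_apply] at this
    exact this

/-- A series of nonzero reduction. -/
def Prim (A : ValuationSubring (AlgebraicClosure ℚ)) (p : LaurentSeries Qb) : Prop :=
  ∃ h : p ∈ gS A, sR A ⟨p, h⟩ ≠ 0

/-- A series of nonzero reduction is defined at the generic point. -/
theorem Prim.mem {p : LaurentSeries Qb} (hp : Prim A p) : p ∈ gS A := hp.1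

/-- `1` has nonzero reduction. -/
theorem prim_one : Prim A (1 : LaurentSeries Qb) :=
  ⟨one_mem _, by rw [show (⟨(1 : LaurentSeries Qb), one_mem _⟩ : gS A) = 1 from rfl, map_one]
                 exact one_ne_zero⟩

/-- A series of nonzero reduction is nonzero. -/
theorem Prim.ne_zero {p : LaurentSeries Qb} (hp : Prim A p) : p ≠ 0 := fun h0 => by
  obtain ⟨hm, hp⟩ := hp
  subst h0
  exact hp (map_zero (sR A))

/-- Products of series of nonzero reduction. -/
theorem Prim.mul {p p' : LaurentSeries Qb} (hp : Prim A p) (hp' : Prim A p') :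
    Prim A (p * p') :=
  ⟨mul_mem hp.1 hp'.1, by
    rw [show (⟨p * p', mul_mem hp.1 hp'.1⟩ : gS A) = ⟨p, hp.1⟩ * ⟨p', hp'.1⟩ from rfl, map_mul]
    exact mul_ne_zero hp.2 hp'.2⟩

/-- Inverses of series of nonzero reduction. -/
theorem Prim.inv {p : LaurentSeries Qb} (hp : Prim A p) : Prim A p⁻¹ := by
  have hp0 := hp.ne_zero
  obtain ⟨g, u, hu, e⟩ := mem_gS_iff.mp hp.1
  have e1 : sR A ⟨p, hp.1⟩ * coeffMap (IsLocalRing.residue A) u =
      coeffMap (IsLocalRing.residue A) g := by
    rw [← sR_coeffMap u (coeffMap_mem_gS u), ← sR_coeffMap g (coeffMap_mem_gS g), ← map_mul]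
    exact congrArg _ (Subtype.ext e)
  have hg : coeffMap (IsLocalRing.residue A) g ≠ 0 := e1 ▸ mul_ne_zero hp.2 hu
  have hm : p⁻¹ ∈ gS A := mem_gS_iff.mpr ⟨u, g, hg, by
    rw [← e, ← mul_assoc, inv_mul_cancel₀ hp0, one_mul]⟩
  refine ⟨hm, fun h0 => one_ne_zero (α := LaurentSeries kA) ?_⟩
  rw [← map_one (sR A), show (1 : gS A) = ⟨p, hp.1⟩ * ⟨p⁻¹, hm⟩ from
    Subtype.ext (mul_inv_cancel₀ hp0).symm, map_mul, h0, mul_zero]

/-- A compatible homomorphism preserves nonzero reduction. -/
theorem RedCompat.prim {Φ : LaurentSeries Qb →+* LaurentSeries Qb}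
    {φ : LaurentSeries kA →+* LaurentSeries kA} (hc : RedCompat A Φ φ) {p : LaurentSeries Qb}
    (hp : Prim A p) : Prim A (Φ p) :=
  ⟨hc.map_mem hp.1, by rw [hc.sR_map hp.1]; exact (map_ne_zero_iff _ hc.inj).mpr hp.2⟩

/-- `z` is a constant of order `r` times a series of nonzero reduction. -/
def GIs (A : ValuationSubring (AlgebraicClosure ℚ)) (q : ℕ) (z : LaurentSeries Qb) (r : ℚ) : Prop :=
  ∃ (c : Qb) (p : LaurentSeries Qb), c ≠ 0 ∧ ord A q c = r ∧ Prim A p ∧
    z = algebraMap Qb (LaurentSeries Qb) c * p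

section Order

variable {q : ℕ} (h : IsPlace A q)
include h

omit h in
/-- A series with a valuation is nonzero. -/
theorem GIs.ne_zero {z : LaurentSeries Qb} {r : ℚ} (hz : GIs A q z r) : z ≠ 0 := by
  obtain ⟨c, p, hc, -, hp, rfl⟩ := hz
  exact mul_ne_zero ((map_ne_zero _).mpr hc) hp.ne_zero

/-- The valuations add on products. -/
theorem GIs.mul {z z' : LaurentSeries Qb} {r r' : ℚ} (hz : GIs A q z r) (hz' : GIs A q z' r') :
    GIs A q (z * z') (r + r') := by
  obtain ⟨c, p, hc, rfl, hp, rfl⟩ := hz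
  obtain ⟨c', p', hc', rfl, hp', rfl⟩ := hz'
  exact ⟨c * c', p * p', mul_ne_zero hc hc', ord_mul h hc hc', hp.mul hp', by rw [map_mul]; ring⟩

/-- The valuation of an inverse is the negative. -/
theorem GIs.inv {z : LaurentSeries Qb} {r : ℚ} (hz : GIs A q z r) : GIs A q z⁻¹ (-r) := by
  obtain ⟨c, p, hc, rfl, hp, rfl⟩ := hz
  exact ⟨c⁻¹, p⁻¹, inv_ne_zero hc, ord_inv h c, hp.inv, by rw [mul_inv, map_inv₀]⟩

omit h in
/-- The valuation of a constant is its order. -/
theorem gIs_const {c : Qb} (hc : c ≠ 0) :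
    GIs A q (algebraMap Qb (LaurentSeries Qb) c) (ord A q c) :=
  ⟨c, 1, hc, rfl, prim_one, (mul_one _).symm⟩

/-- The valuation of a power is the multiple. -/
theorem GIs.pow {z : LaurentSeries Qb} {r : ℚ} (hz : GIs A q z r) (n : ℕ) :
    GIs A q (z ^ n) (n * r) := by
  induction n with
  | zero => exact ⟨1, 1, one_ne_zero, by simp [h], prim_one, by simp⟩
  | succ n ih =>
    rw [pow_succ, show ((n + 1 : ℕ) : ℚ) * r = n * r + r by push_cast; ring]
    exact ih.mul h hz

/-- Nonzero reduction means valuation zero. -/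
theorem Prim.gIs {p : LaurentSeries Qb} (hp : Prim A p) : GIs A q p 0 :=
  ⟨1, p, one_ne_zero, ord_one h, hp, by rw [map_one, one_mul]⟩

/-- A series with a Gauss order is primitive iff the order is `0`. -/
theorem GIs.prim_iff {z : LaurentSeries Qb} {r : ℚ} (hz : GIs A q z r) : Prim A z ↔ r = 0 := by
  obtain ⟨c, p, hc, rfl, hp, rfl⟩ := hz
  constructor
  · intro hz
    have hcp : Prim A (algebraMap Qb (LaurentSeries Qb) c) := by
      have := hz.mul hp.inv
      rwa [mul_assoc, mul_inv_cancel₀ hp.ne_zero, mul_one] at this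
    rcases lt_trichotomy (ord A q c) 0 with hlt | heq | hgt
    · exfalso
      have hinv : c⁻¹ ∈ A := (mem_iff_ord h (inv_ne_zero hc)).mpr (by rw [ord_inv h]; linarith)
      have h1 := hcp.inv
      rw [← map_inv₀] at h1
      obtain ⟨_, h2⟩ := h1
      refine h2 ?_
      rw [show (⟨algebraMap Qb (LaurentSeries Qb) c⁻¹, _⟩ : gS A) =
        ⟨_, algebraMap_mem_gS hinv⟩ from rfl, sR_algebraMap hinv, map_eq_zero,
        IsLocalRing.residue_eq_zero_iff, ← A.coe_mem_nonunits_iff,
        nonunit_iff_ord h (inv_ne_zero hc),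
        ord_inv h]
      linarith
    · exact heq
    · exfalso
      have hcA : c ∈ A := (mem_iff_ord h hc).mpr hgt.le
      obtain ⟨_, h2⟩ := hcp
      refine h2 ?_
      rw [show (⟨algebraMap Qb (LaurentSeries Qb) c, _⟩ : gS A) =
        ⟨_, algebraMap_mem_gS hcA⟩ from rfl, sR_algebraMap hcA, map_eq_zero,
        IsLocalRing.residue_eq_zero_iff, ← A.coe_mem_nonunits_iff, nonunit_iff_ord h hc]
      exact hgt
  · intro h0
    have hcA : c ∈ A := (mem_iff_ord h hc).mpr h0.ge
    refine Prim.mul ⟨algebraMap_mem_gS hcA, ?_⟩ hp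
    rw [sR_algebraMap hcA, ne_eq, map_eq_zero, IsLocalRing.residue_eq_zero_iff,
      ← A.coe_mem_nonunits_iff, nonunit_iff_ord h hc, h0]
    exact lt_irrefl _

/-- The valuation is unique. -/
theorem GIs.unique {z : LaurentSeries Qb} {r r' : ℚ} (hz : GIs A q z r) (hz' : GIs A q z r') :
    r = r' := by
  have h1 := hz.mul h (hz'.inv h)
  rw [mul_inv_cancel₀ hz.ne_zero] at h1
  have := (h1.prim_iff h).mp prim_one
  linarith

/-- A series with a Gauss order lies in the Gauss ring iff the order is nonnegative. -/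
theorem GIs.mem_gS_iff {z : LaurentSeries Qb} {r : ℚ} (hz : GIs A q z r) :
    z ∈ gS A ↔ 0 ≤ r := by
  obtain ⟨c, p, hc, rfl, hp, rfl⟩ := hz
  refine ⟨fun hm => ?_, fun h0 =>
    mul_mem (algebraMap_mem_gS ((mem_iff_ord h hc).mpr h0)) hp.mem⟩
  by_contra hlt
  push Not at hlt
  have hinv : c⁻¹ ∈ A := (mem_iff_ord h (inv_ne_zero hc)).mpr (by rw [ord_inv h]; linarith)
  refine hp.2 ?_
  rw [show (⟨p, hp.1⟩ : gS A) = ⟨_, algebraMap_mem_gS hinv⟩ * ⟨_, hm⟩ from Subtype.ext (by
      change p = algebraMap Qb (LaurentSeries Qb) c⁻¹ * (algebraMap Qb _ c * p)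
      rw [← mul_assoc, ← map_mul, inv_mul_cancel₀ hc, map_one, one_mul]),
    map_mul, sR_algebraMap hinv, (map_eq_zero _).mpr, zero_mul]
  rw [IsLocalRing.residue_eq_zero_iff, ← A.coe_mem_nonunits_iff, nonunit_iff_ord h (inv_ne_zero hc),
    ord_inv h]
  linarith

/-- Positive valuation means zero reduction. -/
theorem GIs.sR_eq_zero {z : LaurentSeries Qb} {r : ℚ} (hz : GIs A q z r) (hr : 0 < r) :
    ∃ hm : z ∈ gS A, sR A ⟨z, hm⟩ = 0 := by
  refine ⟨(hz.mem_gS_iff h).mpr hr.le, ?_⟩
  by_contra hne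
  exact hr.ne' ((hz.prim_iff h).mp ⟨_, hne⟩)

/-- Integral over `gS`, a constant times a primitive series is in `gS`. -/
theorem GIs.mem_gS_of_root {z : LaurentSeries Qb} {r : ℚ} (hz : GIs A q z r)
    {P : Polynomial (gS A)} (hP : P.Monic) (hroot : P.eval₂ (gS A).subtype z = 0) : z ∈ gS A := by
  by_contra hm
  have hr : r < 0 := not_le.mp fun h0 => hm ((hz.mem_gS_iff h).mpr h0)
  obtain ⟨hw, hw0⟩ := (hz.inv h).sR_eq_zero h (neg_pos.mpr hr)
  have hz0 := hz.ne_zero
  set d := P.natDegree
  set w : gS A := ⟨z⁻¹, hw⟩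
  have key : (1 : gS A) + ∑ i ∈ Finset.range d, P.coeff i * w ^ (d - i) = 0 := by
    refine Subtype.ext ?_
    push_cast
    have h1 := hroot
    rw [Polynomial.eval₂_eq_sum_range, Finset.sum_range_succ, hP.coeff_natDegree, map_one,
      one_mul] at h1
    refine mul_right_cancel₀ (pow_ne_zero d hz0) ?_
    rw [zero_mul, add_mul, one_mul, Finset.sum_mul, ← h1, add_comm]
    congr 1
    refine Finset.sum_congr rfl fun i hi => ?_
    rw [Finset.mem_range] at hi
    change ((P.coeff i : gS A) : LaurentSeries Qb) * z⁻¹ ^ (d - i) * z ^ d = _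
    rw [mul_assoc]
    congr 1
    conv_lhs => rw [show d = (d - i) + i by omega, pow_add, ← mul_assoc,
      show d - i + i - i = d - i by omega, ← mul_pow, inv_mul_cancel₀ hz0, one_pow, one_mul]
  have h2 := congrArg (sR A) key
  rw [map_add, map_one, map_zero, map_sum, Finset.sum_eq_zero, add_zero] at h2
  · exact one_ne_zero h2
  intro i hi
  rw [Finset.mem_range] at hi
  rw [map_mul, map_pow, hw0, zero_pow (by omega), mul_zero]

end Order

section Tame

variable (A) in
/-- Coefficients in a number field and bounded denominators. -/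
def Tame (z : LaurentSeries Qb) : Prop :=
  (∃ L₀ : IntermediateField ℚ Qb, FiniteDimensional ℚ L₀ ∧ ∀ n, z.coeff n ∈ L₀) ∧
    ∃ a : Qb, a ≠ 0 ∧ algebraMap Qb (LaurentSeries Qb) a * z ∈ intSeries A

/-- Products of series over a number field have coefficients in it. -/
theorem coeff_mem_of_mul {L₀ : IntermediateField ℚ Qb} {z w : LaurentSeries Qb}
    (hz : ∀ n, z.coeff n ∈ L₀) (hw : ∀ n, w.coeff n ∈ L₀) (n : ℤ) : (z * w).coeff n ∈ L₀ := by
  rw [HahnSeries.coeff_mul]
  exact sum_mem fun ij _ => mul_mem (hz _) (hw _)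

/-- An integral series over a number field is tame. -/
theorem tame_of_int {L₀ : IntermediateField ℚ Qb} [FiniteDimensional ℚ L₀] {z : LaurentSeries Qb}
    (hz : z ∈ intSeries A) (hL : ∀ n, z.coeff n ∈ L₀) : Tame A z :=
  ⟨⟨L₀, inferInstance, hL⟩, 1, one_ne_zero, by rwa [map_one, one_mul]⟩

variable {q : ℕ} (h : IsPlace A q)
include h

omit h in
/-- Constants are tame. -/
theorem tame_algebraMap (c : Qb) : Tame A (algebraMap Qb (LaurentSeries Qb) c) := by
  have : FiniteDimensional ℚ (IntermediateField.adjoin ℚ ({c} : Set Qb)) :=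
    IntermediateField.adjoin.finiteDimensional (Algebra.IsIntegral.isIntegral c)
  refine ⟨⟨IntermediateField.adjoin ℚ {c}, inferInstance, fun n => ?_⟩, ?_⟩
  · rw [algebraMap_laurentSeries_eq_single]
    rcases eq_or_ne n 0 with rfl | hn
    · rw [HahnSeries.coeff_single_same]; exact IntermediateField.mem_adjoin_simple_self ℚ c
    · rw [HahnSeries.coeff_single_of_ne hn]; exact zero_mem _
  · rcases A.mem_or_inv_mem c with hc | hc
    · exact ⟨1, one_ne_zero, by rw [map_one, one_mul]; exact algebraMap_mem_intSeries hc⟩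
    · rcases eq_or_ne c 0 with rfl | hc0
      · exact ⟨1, one_ne_zero, by rw [map_zero, mul_zero]; exact zero_mem _⟩
      · exact ⟨c⁻¹, inv_ne_zero hc0, by
          rw [← map_mul, inv_mul_cancel₀ hc0, map_one]; exact one_mem _⟩

omit h in
/-- Tame series are stable under products. -/
theorem Tame.mul {z w : LaurentSeries Qb} (hz : Tame A z) (hw : Tame A w) : Tame A (z * w) := by
  obtain ⟨⟨L₁, h1, hz1⟩, a, ha, hza⟩ := hz
  obtain ⟨⟨L₂, h2, hw2⟩, b, hb, hwb⟩ := hw
  have := h1
  have := h2
  refine ⟨⟨L₁ ⊔ L₂, inferInstance, coeff_mem_of_mul (fun n => SetLike.le_def.mp le_sup_left (hz1 n))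
    fun n => SetLike.le_def.mp le_sup_right (hw2 n)⟩, a * b, mul_ne_zero ha hb, ?_⟩
  rw [map_mul, mul_mul_mul_comm]
  exact mul_mem hza hwb

omit h in
/-- The sum of tame series is tame. -/
theorem Tame.add {z w : LaurentSeries Qb} (hz : Tame A z) (hw : Tame A w) : Tame A (z + w) := by
  obtain ⟨⟨L₁, h1, hz1⟩, a, ha, hza⟩ := hz
  obtain ⟨⟨L₂, h2, hw2⟩, b, hb, hwb⟩ := hw
  have := h1
  have := h2
  refine ⟨⟨L₁ ⊔ L₂, inferInstance, fun n => by
    rw [HahnSeries.coeff_add]
    exact add_mem (SetLike.le_def.mp le_sup_left (hz1 n))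
      (SetLike.le_def.mp le_sup_right (hw2 n))⟩, ?_⟩
  rcases A.mem_or_inv_mem (a / b) with hab | hab
  · refine ⟨a, ha, ?_⟩
    rw [mul_add]
    refine add_mem hza ?_
    rw [show a = a / b * b from (div_mul_cancel₀ a hb).symm, map_mul, mul_assoc]
    exact mul_mem (algebraMap_mem_intSeries hab) hwb
  · refine ⟨b, hb, ?_⟩
    rw [mul_add]
    refine add_mem ?_ hwb
    rw [show b = (a / b)⁻¹ * a by rw [inv_div, div_mul_cancel₀ b ha], map_mul, mul_assoc]
    exact mul_mem (algebraMap_mem_intSeries hab) hza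

/-- A bounded series over a number field is a coefficient times a primitive series; the constant
is a coefficient of it. -/
theorem Tame.exists_coeff {z : LaurentSeries Qb} (hz : Tame A z) (hz0 : z ≠ 0) :
    ∃ n, z.coeff n ≠ 0 ∧ GIs A q z (ord A q (z.coeff n)) := by
  classical
  obtain ⟨⟨L₀, hfin, hL⟩, a, ha, hza⟩ := hz
  have := hfin
  have : FiniteDimensional ℚ (IntermediateField.adjoin ℚ ({a} : Set Qb)) :=
    IntermediateField.adjoin.finiteDimensional (Algebra.IsIntegral.isIntegral a)
  set z' := algebraMap Qb (LaurentSeries Qb) a * z with hz'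
  have hcoef : ∀ n, z'.coeff n = a * z.coeff n := fun n => RED.coeff_algebraMap_mul a z n
  -- over a number field some coefficient scales the series to an integral one
  obtain ⟨n, hn, hint⟩ := Fermat.BAD.X0.exists_scale_of_finite h.1 h.2
    (L₀ ⊔ IntermediateField.adjoin ℚ ({a} : Set Qb)) hza
    (mul_ne_zero ((map_ne_zero _).mpr ha) hz0) fun n => by
      show z'.coeff n ∈ _
      rw [hcoef]
      exact mul_mem (SetLike.le_def.mp le_sup_right (IntermediateField.mem_adjoin_simple_self ℚ a))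
        (SetLike.le_def.mp le_sup_left (hL n))
  change z'.coeff n ≠ 0 at hn
  change (z'.coeff n)⁻¹ • z' ∈ intSeries A at hint
  rw [hcoef] at hn hint
  have hzn : z.coeff n ≠ 0 := right_ne_zero_of_mul hn
  have e : (a * z.coeff n)⁻¹ • z' = algebraMap Qb (LaurentSeries Qb) (z.coeff n)⁻¹ * z := by
    rw [Fermat.RED.laurent_smul_def, hz', ← mul_assoc, ← map_mul]
    congr 2
    field_simp
  rw [e] at hint
  refine ⟨n, hzn, z.coeff n, algebraMap Qb (LaurentSeries Qb) (z.coeff n)⁻¹ * z, hzn, rfl,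
    ⟨int_mem_gS hint, fun h0 => ?_⟩, by
      rw [← mul_assoc, ← map_mul, mul_inv_cancel₀ hzn, map_one, one_mul]⟩
  -- its reduction has a coefficient one, so is not zero
  obtain ⟨y, hy⟩ := id hint
  have h1 : coeffMap (IsLocalRing.residue A) y = 0 := by
    rw [← sR_coeffMap y (coeffMap_mem_gS y), ← h0]
    exact congrArg _ (Subtype.ext hy)
  have h2 : y.coeff n = 1 := Subtype.ext (by
    change A.subtype (y.coeff n) = 1
    rw [← coeffMap_coeff, hy, RED.coeff_algebraMap_mul, inv_mul_cancel₀ hzn])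
  have h3 := congrArg (fun s : LaurentSeries kA => s.coeff n) h1
  simp only [coeffMap_coeff, h2, map_one, HahnSeries.coeff_zero] at h3
  exact one_ne_zero h3

/-- A quotient of two such series. -/
theorem Tame.exists_gIs_div {z w : LaurentSeries Qb} (hz : Tame A z) (hw : Tame A w) (hz0 : z ≠ 0)
    (hw0 : w ≠ 0) : ∃ r, GIs A q (z / w) r := by
  obtain ⟨n, -, h1⟩ := hz.exists_coeff h hz0
  obtain ⟨m, -, h2⟩ := hw.exists_coeff h hw0
  rw [div_eq_mul_inv]
  exact ⟨_, h1.mul h (h2.inv h)⟩

end Tame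

end Fermat.CAR

end
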