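import Fermat.Agent.CAR.Sheets
import Fermat.Agent.HT.Cusp.Series
import Fermat.Agent.JAC.EvalDiv

/-!
# The cusps of the outer branches

The place of the expansion at `∞` lies in the tube of the cuspidal point of that branch and in no
tube of another point; its image under the involution lies in no tube of a point avoiding the
opposite branch.
-/

set_option autoImplicit false
set_option linter.unusedSectionVars false

noncomputable section

open ModularCurve AlgebraicCurve Polynomial

namespace Fermat.CAR

attribute [local instance 10000] algFN smulFN algFX smulFX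

open Fermat.FF Fermat.MC Fermat.RED.Model Fermat.BAD.X0 Fermat.EC.Val

local notation "Qb" => AlgebraicClosure ℚ

section Series

variable {K F : Type*} [Field K] [IsAlgClosed K] [Field F] [Algebra K F] [FF.IsFunctionField K F]
  {v : Place K F} {ψ : F →ₐ[K] LaurentSeries K}

/-- For a place given by expansions, a bound on the order is vanishing of the coefficients below
it. -/
theorem ordGE_iff_coeff (hord : ∀ f, v.ord f = (ψ f).order) {f : F} {n : ℤ} :
    FF.OrdGE v f n ↔ ∀ k < n, (ψ f).coeff k = 0 := by
  rcases eq_or_ne f 0 with rfl | hf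
  · simp [FF.ordGE_zero]
  rw [FF.ordGE_iff_of_ne hf, hord]
  exact HahnSeries.le_order_iff_forall ((_root_.map_ne_zero ψ).mpr hf)

/-- For such a place the value is the constant coefficient. -/
theorem evalAt_eq_coeff (hord : ∀ f, v.ord f = (ψ f).order) {f : F} (hf : FF.OrdGE v f 0) :
    FF.evalAt v f = (ψ f).coeff 0 := by
  refine FF.evalAt_eq ((ordGE_iff_coeff hord).mpr fun k hk => ?_)
  rw [map_sub, AlgHom.commutes, HahnSeries.coeff_sub, algebraMap_laurentSeries_eq_single]
  rcases eq_or_ne k 0 with rfl | hk0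
  · rw [HahnSeries.coeff_single_same, sub_self]
  · rw [HahnSeries.coeff_single_of_ne hk0, sub_zero]
    exact (ordGE_iff_coeff hord).mp hf k (by omega)

end Series

section Integral

variable {A : ValuationSubring (AlgebraicClosure ℚ)} {q : ℕ} (h : IsPlace A q)
include h

/-- A series defined at the generic point and integral over integral series is integral. -/
theorem int_of_gS_of_root {z : LaurentSeries Qb} (hz : z ∈ gS A) {R : Type*} [CommRing R]
    (ρ : R →+* LaurentSeries Qb) (hρ : ∀ a, ρ a ∈ intSeries A) {P : R[X]} (hP : P.Monic)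
    (hroot : P.eval₂ ρ z = 0) : z ∈ intSeries A := by
  obtain ⟨g, u, hu, e⟩ := mem_gS_iff.mp hz
  set U := coeffMap A.subtype u
  set G := coeffMap A.subtype g
  have hU : U ∈ intSeries A := ⟨u, rfl⟩
  have hG : G ∈ intSeries A := ⟨g, rfl⟩
  have hU0 : U ≠ 0 := fun h0 => hu (by
    have h1 : u = 0 := HahnSeries.ext (funext fun n => Subtype.ext (by
      have h2 := congrArg (fun z : LaurentSeries Qb => z.coeff n) h0
      simpa [U, coeffMap_coeff] using h2))
    rw [h1, map_zero])
  set d := P.natDegree
  refine Fermat.HT.Cusp.mem_intSeries_of_almostIntegral (Fermat.HT.Cusp.arch_of_isPlace h)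
    (v := U ^ d) (pow_ne_zero d hU0) fun m => ?_
  induction m using Nat.strong_induction_on with
  | _ m ih =>
    rcases le_or_gt m d with hm | hm
    · rw [show U ^ d * z ^ m = U ^ (d - m) * (z * U) ^ m by
        rw [mul_pow, mul_left_comm, ← pow_add, Nat.sub_add_cancel hm]; ring, e]
      exact mul_mem (pow_mem hU _) (pow_mem hG _)
    · have h1 := hroot
      rw [eval₂_eq_sum_range, Finset.sum_range_succ, hP.coeff_natDegree, map_one, one_mul] at h1
      have h2 : z ^ d = -∑ i ∈ Finset.range d, ρ (P.coeff i) * z ^ i :=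
        eq_neg_of_add_eq_zero_right h1
      rw [show m = (m - d) + d by omega, pow_add, h2, mul_neg, mul_neg, Finset.mul_sum,
        Finset.mul_sum]
      refine neg_mem (sum_mem fun i hi => ?_)
      rw [Finset.mem_range] at hi
      rw [show U ^ d * (z ^ (m - d) * (ρ (P.coeff i) * z ^ i)) =
        ρ (P.coeff i) * (U ^ d * z ^ (m - d + i)) by rw [pow_add]; ring]
      exact mul_mem (hρ _) (ih _ (by omega))

end Integral

section Red

variable (M : ℕ) [NeZero M] (k : Type*) [Field k] [IsAlgClosed k]
  [FF.IsFunctionField k (FX k M)]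

/-- The cusp `∞` of the reduced curve. -/
def sInf : Place k (FX k M) :=
  HT.Cusp.seriesPlace (ψ := (modularFunctionFieldFullC k M).val)
    ⟨jX k M, fun hm => by
      change jqModC k ∈ _ at hm
      rw [HT.Cusp.mem_regSeries_iff_order (ModularCurve.jqModC_ne_zero_of_nontrivial k),
        HT.Cusp.order_jqModC] at hm
      omega⟩

variable {M k}

/-- The order at the reduced cusp is that of the expansion. -/
theorem ord_sInf (f : FX k M) : (sInf M k).ord f =
    ((modularFunctionFieldFullC k M).val f : LaurentSeries k).order :=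
  HT.Cusp.ord_seriesPlace _ (t := jX k M) HT.Cusp.order_jqModC f

/-- `j` has a pole at the reduced cusp. -/
theorem not_ordGE_sInf_jX : ¬ FF.OrdGE (sInf M k) (jX k M) 0 := fun h0 => by
  have hne : jX k M ≠ 0 := fun e =>
    ModularCurve.jqModC_ne_zero_of_nontrivial k (congrArg Subtype.val e)
  have h1 := h0.le_ord hne
  rw [ord_sInf] at h1
  change 0 ≤ (jqModC k).order at h1
  rw [HT.Cusp.order_jqModC] at h1
  omega

/-- The coordinate `1 / j` is regular at the reduced cusp. -/
theorem ordGE_sInf_xbar_false : FF.OrdGE (sInf M k) (xbar M k false) 0 := by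
  refine FF.ordGE_iff.mpr (.inr ?_)
  change 0 ≤ (sInf M k).ord (jX k M)⁻¹
  rw [Place.ord_inv, ord_sInf]
  change 0 ≤ -(jqModC k).order
  rw [HT.Cusp.order_jqModC]
  omega

end Red

variable {M q : ℕ} [NeZero M] [NeZero q] (hq : q.Prime) (hqM : ¬ q ∣ M)
variable {A : ValuationSubring (AlgebraicClosure ℚ)} [Fact q.Prime]
variable [CharP (IsLocalRing.ResidueField A) q] [IsAlgClosed (IsLocalRing.ResidueField A)]
variable [FF.IsFunctionField Qb (FN M Qb)] [FF.IsFunctionField Qb (FN (M * q) Qb)]
  [FF.IsFunctionField Qb (FN (M * q * q) Qb)]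
variable [FF.IsFunctionField (IsLocalRing.ResidueField A) (FX (IsLocalRing.ResidueField A) M)]

local notation "kA" => IsLocalRing.ResidueField A

variable (M q) in
/-- The place of the expansion at `∞`. -/
def infP : Place Qb (FN (M * q * q) Qb) := Fermat.BAD.Inst.inf (M * q) q

variable (M q) in
/-- The involution as an automorphism. -/
def invW : SemilinearAut Qb (FN (M * q * q) Qb) := SemilinearAut.ofAlgAut (alW2 M q hq hqM)

/-- `invW` acts by the involution. -/
theorem invW_smul (f : FN (M * q * q) Qb) : invW M q hq hqM • f = alW2 M q hq hqM f :=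
  SemilinearAut.ofAlgAut_smul _ f

/-- The order at the cusp `∞` is that of the expansion. -/
theorem ord_infP (f : FN (M * q * q) Qb) :
    (infP M q).ord f = (((FN (M * q * q) Qb).val f : LaurentSeries Qb)).order :=
  Fermat.BAD.Inst.ord_inf (M * q) q f

/-- `j` has a pole at the cusp `∞`. -/
theorem not_ordGE_infP_jL : ¬ OrdGE (infP M q) (aM M q (jL M Qb)) 0 := fun h0 => by
  have hne : aM M q (jL M Qb) ≠ 0 := fun e =>
    transcendental_aM_xch (M := M) (q := q) (b := true)
      (by rw [show aM M q (xch M true) = 0 from e]; exact isAlgebraic_zero)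
  have h1 := h0.le_ord hne
  rw [ord_infP, show ((FN (M * q * q) Qb).val (aM M q (jL M Qb)) : LaurentSeries Qb) = jqModC Qb
    from (coe_aM M q _).trans (coe_jL M), HT.Cusp.order_jqModC] at h1
  omega

/-- The coordinate `1 / j` is regular at the cusp `∞`. -/
theorem ordGE_infP_xch_false : OrdGE (infP M q) (aM M q (xch M false)) 0 := by
  refine ordGE_iff.mpr (.inr ?_)
  rw [show aM M q (xch M false) = (aM M q (jL M Qb))⁻¹ from map_inv₀ _ _, Place.ord_inv, ord_infP,
    show ((FN (M * q * q) Qb).val (aM M q (jL M Qb)) : LaurentSeries Qb) = jqModC Qb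
    from (coe_aM M q _).trans (coe_jL M), HT.Cusp.order_jqModC]
  omega

/-- The value at the opposite cusp is the constant coefficient on the top branch. -/
theorem evalAt_invW {f : FN (M * q * q) Qb} (hf : OrdGE (invW M q hq hqM • infP M q) f 0) :
    evalAt (invW M q hq hqM • infP M q) f = (brC M q hq hqM .top f).coeff 0 := by
  obtain ⟨g, rfl⟩ : ∃ g, invW M q hq hqM • g = f :=
    ⟨(invW M q hq hqM)⁻¹ • f, smul_inv_smul _ _⟩
  have hg : OrdGE (infP M q) g 0 := by
    have := ordGE_smul (invW M q hq hqM)⁻¹ hf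
    rwa [inv_smul_smul, inv_smul_smul] at this
  rw [Fermat.JAC.evalAt_smul _ hg, invW_smul, brC_top_alW2]
  change (SemilinearAut.baseAut (invW M q hq hqM)) (evalAt (infP M q) g) = _
  rw [evalAt_eq_coeff ord_infP hg]
  rfl

/-- At the image of the place at `∞` under the involution, `j` of level `M` has a pole. -/
theorem not_ordGE_invW_jL :
    ¬ OrdGE (invW M q hq hqM • infP M q) (aM M q (jL M Qb)) 0 := fun h0 => by
  obtain ⟨g, hg⟩ : ∃ g, invW M q hq hqM • g = aM M q (jL M Qb) :=
    ⟨(invW M q hq hqM)⁻¹ • _, smul_inv_smul _ _⟩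
  have hgr : OrdGE (infP M q) g 0 := by
    have := ordGE_smul (invW M q hq hqM)⁻¹ h0
    rwa [← hg, inv_smul_smul, inv_smul_smul] at this
  have h1 := (ordGE_iff_coeff ord_infP).mp hgr ((q : ℤ) * ((q : ℤ) * (-1)))
    (by have := hq.pos; nlinarith)
  have h2 : ((FN (M * q * q) Qb).val g : LaurentSeries Qb) =
      qExpand Qb q (qExpand Qb q (jqModC Qb)) := by
    change brC M q hq hqM .low g = _
    rw [← brC_top_alW2, ← invW_smul, hg, brC_top_aM, coe_jL]
  rw [h2, qExpand_coeff_mul, qExpand_coeff_mul] at h1
  refine (HahnSeries.coeff_order_eq_zero (x := jqModC Qb)).not.mpr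
    (ModularCurve.jqModC_ne_zero_of_nontrivial Qb) ?_
  rwa [HT.Cusp.order_jqModC]

/-- The reduced cusp is not glued. -/
theorem sInf_not_mem_SS (hA : A.LiesOverPrime q) :
    sInf M (IsLocalRing.ResidueField A) ∉ SS M q hq hqM hA := fun hs =>
  not_ordGE_sInf_jX ((mem_SS M q hq hqM hA).mp hs).1

variable (h : IsPlace A q)
include h

/-- At a place reading off the expansion on a branch members of the chart at `∞` are integral with
residue the constant term of their reduction. -/
theorem residue_evalAt_series {C : Br} {P : Place Qb (FN (M * q * q) Qb)}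
    (hx : OrdGE P (aM M q (xch M false)) 0)
    (hev : ∀ f, OrdGE P f 0 → evalAt P f = (brC M q hq hqM C f).coeff 0) (f : Bx M q A false) :
    ∃ hm : evalAt P (f : FN (M * q * q) Qb) ∈ A,
      IsLocalRing.residue A ⟨_, hm⟩ =
        ((redB hq hqM h C f : FX kA M) : LaurentSeries kA).coeff 0 := by
  have hreg : OrdGE P (f : FN (M * q * q) Qb) 0 :=
    FF.mem_intClosure_iff.mp (mem_intClosure_of_chart f.2.2) P hx
  have hint : brC M q hq hqM C (f : FN (M * q * q) Qb) ∈ intSeries A := by
    have hxi : brC M q hq hqM C (aM M q (xch M false)) ∈ intSeries A := by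
      have h0 := int_xch (A := A) M false
      cases C
      · rw [brC_low_aM]; exact h0
      · rw [brC_mid_aM]; exact h0
      · rw [brC_top_aM]
        exact qExpand_mem_intSeries q (qExpand_mem_intSeries q h0)
    obtain ⟨Q, hQ, hQf⟩ := f.2.2
    refine int_of_gS_of_root h (mem_OC_Bx hq hqM h C f)
      ((brC M q hq hqM C).comp (ax A (aM M q (xch M false)))) (fun D => ?_) hQ ?_
    · change brC M q hq hqM C (ax A (aM M q (xch M false)) D) ∈ intSeries A
      induction D using Polynomial.induction_on' with
      | add p p' hp hp' => rw [map_add, map_add]; exact add_mem hp hp'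
      | monomial n a =>
        rw [← C_mul_X_pow_eq_monomial, map_mul, map_pow, ax_C, ax_X, map_mul, map_pow,
          brC_algebraMap]
        exact mul_mem (algebraMap_mem_intSeries a.2) (pow_mem hxi n)
    · rw [← hom_eval₂, show eval₂ (ax A _) (f : FN (M * q * q) Qb) Q = 0 from hQf, map_zero]
  obtain ⟨Y, hY⟩ := id hint
  have he : evalAt P (f : FN (M * q * q) Qb) = ((Y.coeff 0 : A) : Qb) := by
    rw [hev _ hreg, ← hY, coeffMap_coeff]
    rfl
  refine ⟨he ▸ (Y.coeff 0).2, ?_⟩
  have hr : ((redB hq hqM h C f : FX kA M) : LaurentSeries kA) =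
      coeffMap (IsLocalRing.residue A) Y := by
    rw [coe_redB hq hqM h C f (mem_OC_Bx hq hqM h C f), resC_apply,
      ← sR_coeffMap Y (coeffMap_mem_gS Y)]
    exact congrArg (sR A) (Subtype.ext hY.symm)
  rw [hr, coeffMap_coeff]
  exact congrArg _ (Subtype.ext he)

/-- The value of a reduction at the reduced cusp is its constant coefficient. -/
theorem evalAt_sInf_redB (C : Br) (f : Bx M q A false) :
    evalAt (sInf M (IsLocalRing.ResidueField A)) (redB hq hqM h C f) =
      ((redB hq hqM h C f : FX kA M) : LaurentSeries kA).coeff 0 :=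
  evalAt_eq_coeff (ord_sInf (M := M) (k := kA))
    (FF.mem_intClosure_iff.mp (redB_mem_intClosure hq hqM h C f) (sInf M kA)
    ordGE_sInf_xbar_false)

variable {b : Bool} {χ : BChar M q A b} {S : Finset Br}
  {s : Place (IsLocalRing.ResidueField A) (FX (IsLocalRing.ResidueField A) M)}

omit h in
/-- A point at the reduced cusp uses the coordinate `1 / j`. -/
theorem eq_false_of_isPoint_sInf (hχ : χ.IsPoint hq hqM S (sInf M (IsLocalRing.ResidueField A))) :
    b = false := by
  cases b
  · rfl
  · exact absurd hχ.regular not_ordGE_sInf_jX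

/-- The cusp `∞` lies in the tube of a point at the reduced cusp through the low branch. -/
theorem infP_mem_tube {χ : BChar M q A false} (hlow : Br.low ∈ S)
    (hχ : χ.IsPoint hq hqM S (sInf M (IsLocalRing.ResidueField A))) : infP M q ∈ χ.tube := by
  refine χ.mem_tube.mpr ⟨ordGE_infP_xch_false, fun a => ?_⟩
  obtain ⟨hm, hr⟩ := residue_evalAt_series hq hqM h (C := .low) ordGE_infP_xch_false
    (fun f hf => evalAt_eq_coeff ord_infP hf) a
  refine ⟨hm, ?_⟩
  obtain ⟨z, hz, hev⟩ := hχ.res_eq _ hlow a (mem_OC_Bx hq hqM h .low a)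
  rw [hr, ← evalAt_sInf_redB hq hqM h, ← hev]
  exact congrArg _ (Subtype.ext hz.symm)

/-- A place reading the constant coefficient of a branch outside `S`, with `j` polar, is not in
the tube. -/
theorem not_mem_tube_of_indicator {C : Br} {P : Place Qb (FN (M * q * q) Qb)}
    (hpole : ¬ OrdGE P (aM M q (jL M Qb)) 0)
    (hev : ∀ f, OrdGE P f 0 → evalAt P f = (brC M q hq hqM C f).coeff 0)
    (hχ : χ.IsPoint hq hqM S s) (hC : C ∉ S) : P ∉ χ.tube := fun hP => by
  cases b
  · obtain ⟨φ, hφ, hpos⟩ := hχ.indicator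
    obtain ⟨hm, hr⟩ := residue_evalAt_series hq hqM h hP.1 hev φ
    obtain ⟨hm', hr'⟩ := hP.2 φ
    have h0 : ((redB hq hqM h C φ : FX kA M) : LaurentSeries kA) = 0 := by
      rw [coe_redB hq hqM h C φ (mem_OC_Bx hq hqM h C φ)]
      exact GvGE.res_eq_zero hq hqM h (Or.inr le_rfl) (hpos C hC) _
    rw [h0, HahnSeries.coeff_zero] at hr
    exact hφ (by rw [← hr']; exact hr)
  · exact hpole hP.1

/-- The cusp `∞` is not in the tube of a point other than the reduced cusp through the low
branch. -/
theorem infP_not_mem_tube (hlow : Br.low ∈ S) (hχ : χ.IsPoint hq hqM S s)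
    (hs : s ≠ sInf M (IsLocalRing.ResidueField A)) :
    infP M q ∉ χ.tube := fun hP => by
  cases b
  · obtain ⟨z, hz, hz1, hz0⟩ :=
      exists_separating_integral (transcendental_xbar (M := M) false) hχ.regular
        ordGE_sInf_xbar_false hs
    obtain ⟨g, hg⟩ := exists_redB_eq hq hqM h .low (by decide) hz
    obtain ⟨hm, hr⟩ := residue_evalAt_series hq hqM h (C := .low) hP.1
      (fun f hf => evalAt_eq_coeff ord_infP hf) g
    obtain ⟨hm', hr'⟩ := hP.2 g
    obtain ⟨z', hz', hev⟩ := hχ.res_eq _ hlow g (mem_OC_Bx hq hqM h .low g)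
    rw [← evalAt_sInf_redB hq hqM h, hg, hz0] at hr
    rw [show z' = z from hg ▸ Subtype.ext (hz'.trans (coe_redB hq hqM h .low g _).symm), hz1] at hev
    exact one_ne_zero (hev.trans (hr'.symm.trans hr))
  · exact not_ordGE_infP_jL hP.1

end Fermat.CAR

end
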