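import Fermat.Agent.CAR.Sheets
import Fermat.Agent.FF.Reciprocity

/-!
# Regularity at a point of the reduction at a root

Near a point the root `Θ` of `y` divided by a local `l`-th root `e` satisfies `Θ ^ l = u`, a unit
of the local ring.  A polynomial `Q` in `Θ` with coefficients regular on the tube and of
nonnegative order at the root near `Hc / e` reduces there to functions regular at the point, with
the same value on all branches of the point: multiplying by an element that reduces to zero at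
the other roots brings all the coefficients into the local ring.
-/

set_option autoImplicit false
set_option linter.unusedSectionVars false

noncomputable section

open ModularCurve AlgebraicCurve Polynomial

namespace Fermat.CAR

attribute [local instance 10000] algFN smulFN algFX smulFX

open Fermat.FF Fermat.MC Fermat.RED Fermat.RED.Model Fermat.BAD.X0 Fermat.EC.Val

local notation "Qb" => AlgebraicClosure ℚ

section Eval

variable {L F : Type*} [Field L] [IsAlgClosed L] [Field F] [Algebra L F] [FF.IsFunctionField L F]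

/-- The value of a polynomial expression at a place where its terms are regular. -/
theorem evalAt_eval₂_hom (v : Place L F) {R : Type*} [CommRing R] {f : R →+* F} {g : R →+* L}
    (hf : ∀ a, FF.OrdGE v (f a) 0) (hg : ∀ a, FF.evalAt v (f a) = g a) {x : F}
    (hx : FF.OrdGE v x 0) (P : R[X]) :
    FF.OrdGE v (P.eval₂ f x) 0 ∧ FF.evalAt v (P.eval₂ f x) = P.eval₂ g (FF.evalAt v x) := by
  induction P using Polynomial.induction_on' with
  | add P P' hP hP' =>
    rw [eval₂_add, eval₂_add, FF.evalAt_add hP.1 hP'.1, hP.2, hP'.2]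
    exact ⟨hP.1.add hP'.1, rfl⟩
  | monomial n a =>
    have hxn : FF.OrdGE v (x ^ n) 0 := (hx.pow n).mono (by simp)
    rw [eval₂_monomial, eval₂_monomial, FF.evalAt_mul (hf a) hxn, hg, FF.evalAt_pow hx]
    exact ⟨((hf a).mul hxn).mono (add_zero (0 : ℤ)).ge, rfl⟩

/-- A root of a function regular and nonzero at a place is regular there. -/
theorem ordGE_of_pow_eq (v : Place L F) {x w : F} {l : ℕ} (hl : l ≠ 0) (hw : FF.OrdGE v w 0)
    (hw0 : FF.evalAt v w ≠ 0) (e : x ^ l = w) :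
    FF.OrdGE v x 0 ∧ FF.evalAt v x ^ l = FF.evalAt v w := by
  have hx : FF.OrdGE v x 0 := by
    refine FF.ordGE_iff.mpr (or_iff_not_imp_left.mpr fun hx0 => ?_)
    have h1 : v.ord w = 0 := le_antisymm
      (not_lt.mp fun hlt => hw0 ((FF.evalAt_eq_zero_iff hw).mpr (FF.ordGE_iff.mpr (.inr hlt))))
      (hw.le_ord (e ▸ pow_ne_zero l hx0))
    rw [← e, FF.ord_pow, mul_eq_zero] at h1
    exact (h1.resolve_left (by exact_mod_cast hl)).ge
  exact ⟨hx, by rw [← FF.evalAt_pow hx, e]⟩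

/-- A quotient by a function regular and nonzero at a place is regular there, with the quotient
of the values. -/
theorem ordGE_evalAt_of_mul_eq (v : Place L F) {x b c : F} (hb : FF.OrdGE v b 0)
    (hb0 : FF.evalAt v b ≠ 0) (hc : FF.OrdGE v c 0) (e : x * b = c) :
    FF.OrdGE v x 0 ∧ FF.evalAt v x = FF.evalAt v c / FF.evalAt v b := by
  have hbne : b ≠ 0 := fun h0 => hb0 (by rw [h0]; exact RED.Model.evalAt_zero v)
  have hbord : v.ord b = 0 := le_antisymm (not_lt.mp fun hlt =>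
    hb0 ((FF.evalAt_eq_zero_iff hb).mpr (FF.ordGE_iff.mpr (.inr hlt)))) (hb.le_ord hbne)
  have hx : FF.OrdGE v x 0 := by
    refine FF.ordGE_iff.mpr (or_iff_not_imp_left.mpr fun hx0 => ?_)
    have h2 := v.ord_mul hx0 hbne
    rw [e, hbord, add_zero] at h2
    rw [← h2]
    exact hc.le_ord (e ▸ mul_ne_zero hx0 hbne)
  exact ⟨hx, by rw [eq_div_iff hb0, ← FF.evalAt_mul hx hb, e]⟩

end Eval

section Division

variable {R K : Type*} [CommRing R] [CommRing K]

/-- The value of the remainder on division by `X ^ l - u`. -/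
theorem eval_map_modByMonic_X_pow (φ : R →+* K) (P : R[X]) (u : R) (l : ℕ) (x : K) :
    ((P %ₘ (X ^ l - Polynomial.C u)).map φ).eval x = (P.map φ).eval x -
      (x ^ l - φ u) * ((P /ₘ (X ^ l - Polynomial.C u)).map φ).eval x := by
  have h1 := congrArg (fun T => (T.map φ).eval x) (modByMonic_add_div P (X ^ l - Polynomial.C u))
  simp only [Polynomial.map_add, Polynomial.map_mul, Polynomial.map_sub, Polynomial.map_pow,
    Polynomial.map_X, Polynomial.map_C, eval_add, eval_mul, eval_sub, eval_pow, eval_X, eval_C]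
    at h1
  exact eq_sub_of_add_eq h1

/-- The remainder on division by `X ^ l - u` has degree less than `l`. -/
theorem natDegree_modByMonic_X_pow_lt [Nontrivial R] (P : R[X]) (u : R) {l : ℕ} (hl : l ≠ 0) :
    (P %ₘ (X ^ l - Polynomial.C u)).natDegree < l := by
  have h1 : (X ^ l - Polynomial.C u : R[X]) ≠ 1 := fun h1 => hl (by
    have := congrArg natDegree h1
    rwa [natDegree_X_pow_sub_C, natDegree_one] at this)
  simpa [natDegree_X_pow_sub_C] using
    natDegree_modByMonic_lt P (monic_X_pow_sub_C u hl) h1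

end Division

variable {M q : ℕ} [NeZero M] [NeZero q] (hq : q.Prime) (hqM : ¬ q ∣ M)
variable {A : ValuationSubring (AlgebraicClosure ℚ)} [Fact q.Prime]
variable [CharP (IsLocalRing.ResidueField A) q] [IsAlgClosed (IsLocalRing.ResidueField A)]

local notation "kA" => IsLocalRing.ResidueField A

/-- Primitive roots of unity of prime order in the integers of the fixed field. -/
theorem exists_zeta (h : IsPlace A q) {l : ℕ} (hl : l.Prime) (hlq : l ≠ q) :
    ∃ ζ : O0 A, IsPrimitiveRoot (ζ : Qb) l ∧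
      IsPrimitiveRoot (IsLocalRing.residue A ⟨(ζ : Qb), ζ.2.2⟩) l := by
  have : NeZero (l : Qb) := ⟨Nat.cast_ne_zero.mpr hl.ne_zero⟩
  obtain ⟨z, hz⟩ := HasEnoughRootsOfUnity.exists_primitiveRoot Qb l
  have hord : ord A q z = 0 := by
    have h1 := ord_pow h z l
    rw [hz.pow_eq_one, ord_one h, eq_comm, mul_eq_zero] at h1
    exact h1.resolve_left (Nat.cast_ne_zero.mpr hl.ne_zero)
  have hzA : z ∈ A := (mem_iff_ord h (hz.ne_zero hl.ne_zero)).mpr hord.ge
  have hzK : z ∈ fixK A := root_mem_fixK h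
    (fun hd => hlq ((Nat.prime_dvd_prime_iff_eq h.1 hl).mp hd).symm)
    ⟨hz.ne_zero hl.ne_zero, hord⟩ (by rw [hz.pow_eq_one]; exact (fixK A).one_mem)
  refine ⟨⟨z, hzK, hzA⟩, hz, ?_⟩
  have hpow : IsLocalRing.residue A ⟨z, hzA⟩ ^ l = 1 := by
    rw [← map_pow, show (⟨z, hzA⟩ : A) ^ l = 1 from Subtype.ext hz.pow_eq_one, map_one]
  have hne : IsLocalRing.residue A ⟨z, hzA⟩ ≠ 1 := fun h1 => by
    have h2 : ∑ i ∈ Finset.range l, (⟨z, hzA⟩ : A) ^ i = 0 := Subtype.ext (by
      push_cast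
      exact hz.geom_sum_eq_zero hl.one_lt)
    have h3 := congrArg (IsLocalRing.residue A) h2
    simp only [map_sum, map_pow, h1, one_pow, Finset.sum_const, Finset.card_range, nsmul_eq_mul,
      mul_one, map_zero] at h3
    exact CharP.cast_ne_zero_of_ne_of_prime kA hl hlq.symm h3
  exact IsPrimitiveRoot.iff_orderOf.mpr (by
    have : Fact l.Prime := ⟨hl⟩
    exact orderOf_eq_prime hpow hne)

variable [FF.IsFunctionField Qb (FN M Qb)] [FF.IsFunctionField Qb (FN (M * q) Qb)]
  [FF.IsFunctionField Qb (FN (M * q * q) Qb)]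
variable [FF.IsFunctionField (IsLocalRing.ResidueField A) (FX (IsLocalRing.ResidueField A) M)]
variable {b : Bool} (h : IsPlace A q)

namespace BChar

variable (χ : BChar M q A b)

/-- The invariant functions regular on the tube. -/
def treg : Subring (FN (M * q * q) Qb) where
  carrier := {f | f ∈ ratFld M q A ∧ ∀ P ∈ χ.tube, OrdGE P f 0}
  one_mem' := ⟨one_mem _, fun P _ => ordGE_one P⟩
  zero_mem' := ⟨zero_mem _, fun P _ => ordGE_zero P 0⟩
  mul_mem' ha hb := ⟨mul_mem ha.1 hb.1,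
    fun P hP => ((ha.2 P hP).mul (hb.2 P hP)).mono (add_zero (0 : ℤ)).ge⟩
  add_mem' ha hb := ⟨add_mem ha.1 hb.1, fun P hP => (ha.2 P hP).add (hb.2 P hP)⟩
  neg_mem' ha := ⟨neg_mem ha.1, fun P hP => (ha.2 P hP).neg⟩

/-- Evaluation at a place of the tube. -/
def evT {P : Place Qb (FN (M * q * q) Qb)} (hP : P ∈ χ.tube) : χ.treg →+* Qb where
  toFun f := evalAt P (f : FN (M * q * q) Qb)
  map_one' := evalAt_one P
  map_zero' := RED.Model.evalAt_zero P
  map_mul' f g := evalAt_mul (f.2.2 P hP) (g.2.2 P hP)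
  map_add' f g := evalAt_add (f.2.2 P hP) (g.2.2 P hP)

/-- The local ring consists of functions regular on the tube. -/
theorem loc_le_treg : χ.loc ≤ χ.treg := fun f hf =>
  ⟨χ.loc_le_ratFld hf, fun _ hP => (χ.regular_of_mem_loc (f := ⟨f, hf⟩) hP).1⟩

/-- A polynomial whose coefficients vanish at a place of the tube evaluates to zero there. -/
theorem map_evT_eq_zero {P : Place Qb (FN (M * q * q) Qb)} (hP : P ∈ χ.tube)
    {Qt : χ.treg[X]} (hQ : ∀ j, OrdGE P ((Qt.map χ.treg.subtype).coeff j) 1) :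
    Qt.map (χ.evT hP) = 0 := Polynomial.ext fun j => by
  rw [coeff_map, coeff_zero]
  change evalAt P (Qt.coeff j : FN (M * q * q) Qb) = 0
  have h1 := hQ j
  rw [coeff_map] at h1
  exact (evalAt_eq_zero_iff (h1.mono zero_le_one)).mpr h1

/-- A polynomial over the local ring vanishing at a place of the tube reduces to zero. -/
theorem map_lres_eq_zero {P : Place Qb (FN (M * q * q) Qb)} (hP : P ∈ χ.tube)
    {RL : χ.loc[X]} {Rt : χ.treg[X]} (e : RL.map χ.loc.subtype = Rt.map χ.treg.subtype)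
    (h0 : Rt.map (χ.evT hP) = 0) : RL.map χ.lres = 0 := Polynomial.ext fun j => by
  rw [coeff_map, coeff_zero]
  obtain ⟨-, hm, e1⟩ := χ.regular_of_mem_loc (f := RL.coeff j) hP
  have e2 : evalAt P (RL.coeff j : FN (M * q * q) Qb) = 0 := by
    have h2 := congrArg (fun T => T.coeff j) h0
    simp only [coeff_map, coeff_zero] at h2
    have h3 := congrArg (fun T => T.coeff j) e
    simp only [coeff_map] at h3
    rw [show (RL.coeff j : FN (M * q * q) Qb) = (Rt.coeff j : FN (M * q * q) Qb) from h3]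
    exact h2
  rw [← e1, show (⟨_, hm⟩ : A) = 0 from Subtype.ext e2, map_zero]

variable {χ} {S : Finset Br} {s : Place (IsLocalRing.ResidueField A)
  (FX (IsLocalRing.ResidueField A) M)}
variable (hχ : χ.IsPoint hq hqM S s) {C : Br} (hC : C ∈ S)

/-- The reduction of the local ring on a branch of the point. -/
def redLoc : χ.loc →+* FX kA M :=
  ((resC M q hq hqM A C).comp (χ.loc.subtype.codRestrict (OC M q hq hqM A C)
    fun f => mem_OC_of_loc hq hqM h hχ hC f.2)).codRestrict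
      (modularFunctionFieldFullC kA M).toSubring
    fun f => resC_mem hq hqM h C _ (χ.loc_le_ratFld f.2) (mem_OC_of_loc hq hqM h hχ hC f.2)

/-- `redLoc` is the reduction on the branch. -/
theorem coe_redLoc (f : χ.loc) :
    ((redLoc hq hqM h hχ hC f : FX kA M) : LaurentSeries kA) =
      resC M q hq hqM A C ⟨(f : FN (M * q * q) Qb), mem_OC_of_loc hq hqM h hχ hC f.2⟩ := rfl

/-- The reduction is regular at the point with the residue as value. -/
theorem redLoc_spec (f : χ.loc) :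
    OrdGE s (redLoc hq hqM h hχ hC f) 0 ∧ evalAt s (redLoc hq hqM h hχ hC f) = χ.lres f := by
  obtain ⟨z, hz, h1, h2⟩ := exists_red hq hqM h hχ hC f
  rw [show redLoc hq hqM h hχ hC f = z from Subtype.ext hz.symm]
  exact ⟨h1, h2⟩

/-- On `Bx`, `redLoc` is `redB`. -/
theorem redLoc_of_mem (f : Bx M q A b) :
    redLoc hq hqM h hχ hC ⟨(f : FN (M * q * q) Qb), χ.Bx_le_loc f.2⟩ = redB hq hqM h C f := rfl

/-- Reductions of values of polynomials over the local ring. -/
theorem resC_eval (R : χ.loc[X]) {x : FN (M * q * q) Qb} (hx : x ∈ OC M q hq hqM A C)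
    {γ : FX kA M} (hγ : resC M q hq hqM A C ⟨x, hx⟩ = (γ : LaurentSeries kA)) :
    ∃ hm : (R.map χ.loc.subtype).eval x ∈ OC M q hq hqM A C,
      resC M q hq hqM A C ⟨_, hm⟩ =
        ((R.eval₂ (redLoc hq hqM h hχ hC) γ : FX kA M) : LaurentSeries kA) := by
  let φ : χ.loc →+* OC M q hq hqM A C :=
    χ.loc.subtype.codRestrict (OC M q hq hqM A C) fun f => mem_OC_of_loc hq hqM h hχ hC f.2
  have he : ((R.eval₂ φ ⟨x, hx⟩ : OC M q hq hqM A C) : FN (M * q * q) Qb) =
      (R.map χ.loc.subtype).eval x := by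
    rw [eval_map]
    exact hom_eval₂ R φ (OC M q hq hqM A C).subtype _
  refine ⟨he ▸ (R.eval₂ φ ⟨x, hx⟩).2, ?_⟩
  rw [show (⟨(R.map χ.loc.subtype).eval x, he ▸ (R.eval₂ φ ⟨x, hx⟩).2⟩ : OC M q hq hqM A C) =
    R.eval₂ φ ⟨x, hx⟩ from Subtype.ext he.symm, hom_eval₂, hγ]
  exact (hom_eval₂ R (redLoc hq hqM h hχ hC) (modularFunctionFieldFullC kA M).val.toRingHom γ).symm

end BChar

/-- An integral constant reduces to its residue on every branch. -/
theorem resC_algebraMap (C : Br) {c : Qb} (hc : c ∈ A) :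
    ∃ hm : algebraMap Qb (FN (M * q * q) Qb) c ∈ OC M q hq hqM A C,
      resC M q hq hqM A C ⟨_, hm⟩ =
        ((algebraMap kA (FX kA M) (IsLocalRing.residue A ⟨c, hc⟩) : FX kA M) :
          LaurentSeries kA) := by
  have e : brC M q hq hqM C (algebraMap Qb (FN (M * q * q) Qb) c) =
      algebraMap Qb (LaurentSeries Qb) c := brC_algebraMap M q hq hqM C c
  refine ⟨(mem_OC M q hq hqM A).mpr (e ▸ algebraMap_mem_gS hc), ?_⟩
  rw [resC_apply]
  exact Eq.trans (congrArg (sR A) (Subtype.ext (a2 := ⟨_, algebraMap_mem_gS (A := A) hc⟩) e))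
    (sR_algebraMap hc)

include h

/-- Every integral function of the reduced curve is, to the power `q ^ 2`, a reduction on any
branch. -/
theorem exists_redB_pow (C : Br) {a : FX kA M} (ha : a ∈ intClosure kA (xbar M kA b)) :
    ∃ g : Bx M q A b, redB hq hqM h C g = a ^ (q ^ 2) := by
  by_cases hC : C = .top
  · subst hC
    have hfix : frobAut M q (A := A) • xbar M kA b = xbar M kA b := by
      cases b
      · change frobAut M q • (jX kA M)⁻¹ = (jX kA M)⁻¹
        rw [smul_inv₀', frobAut_jk]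
      · exact frobAut_jk M q
    set a' := frobAut M q (A := A) • frobAut M q (A := A) • a
    have ha' : a' ∈ intClosure kA (xbar M kA b) :=
      smul_mem_intClosure _ hfix
        (smul_mem_intClosure _ hfix ha)
    obtain ⟨g, hg, Y, hY, hzY⟩ := exists_rat_lift hq hqM h b a' ha'
    refine ⟨⟨_, hg⟩, Subtype.ext ?_⟩
    have hm : aM M q g ∈ OC M q hq hqM A .top := chart_le_OC M q hq hqM h b hg.2 .top
    have hY' : coeffMap A.subtype Y ∈ gS A := coeffMap_mem_gS Y
    rw [coe_redB hq hqM h .top ⟨aM M q g, hg⟩ hm, resC_apply M q hq hqM A .top (aM M q g) hm]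
    refine Eq.trans (congrArg (sR A) (Subtype.ext
      (a2 := ⟨_, (redCompat_qExpand q).map_mem ((redCompat_qExpand q).map_mem hY')⟩)
      ((brC_top_aM M q hq hqM g).trans
        (congrArg (fun z => qExpand Qb q (qExpand Qb q z)) hY)))) ?_
    rw [(redCompat_qExpand (A := A) q).sR_map ((redCompat_qExpand q).map_mem hY'),
      (redCompat_qExpand (A := A) q).sR_map hY', sR_coeffMap Y hY', ← hzY, coe_frobAut_smul,
      coe_frobAut_smul, SubmonoidClass.coe_pow, pow_two, pow_mul, laurent_pow_char q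
      (a : LaurentSeries kA), ← map_pow, ← ModularCurve.coeffMap_qExpand,
      ← ModularCurve.coeffMap_qExpand]
    rw [laurent_pow_char q (coeffMap (frobenius kA q) (a : LaurentSeries kA))]
    simp only [ModularCurve.coeffMap_qExpand]
  · obtain ⟨g, hg⟩ := exists_redB_eq hq hqM h C hC ha
    exact ⟨g ^ (q ^ 2), by rw [map_pow, hg]⟩

section Steps

variable {C : Br} {Hc : FX (IsLocalRing.ResidueField A) M} {y u₀ e : FN (M * q * q) Qb} {l : ℕ}

/-- A function of order zero on a branch has its inverse regular there. -/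
theorem inv_mem_OC_of_gv (he : e ≠ 0) (hge : gv M q hq hqM A C e = 0) :
    e⁻¹ ∈ OC M q hq hqM A C := by
  rw [mem_OC, brC_mem_iff M q hq hqM h C (inv_ne_zero he), gv_inv M q hq hqM h C he, hge,
    neg_zero]

/-- An approximate root divided by `e` is an approximate root of `u₀`, and so are its multiples by
roots of unity. -/
theorem gvGE_mul_div_pow_sub (he : e ≠ 0) (heq : y = u₀ * e ^ l)
    (hge : gv M q hq hqM A C e = 0) {z : FN (M * q * q) Qb} (hz : z ^ l = 1)
    {r : FN (M * q * q) Qb} {δ : ℚ} (hr : IsApprox hq hqM A C Hc y l r δ) :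
    GvGE hq hqM A C ((z * (r / e)) ^ l - u₀) δ := by
  have e1 : (z * (r / e)) ^ l - u₀ = (r ^ l - y) * (e ^ l)⁻¹ := by
    rw [mul_pow, hz, one_mul, div_pow, sub_mul, div_eq_mul_inv]
    congr 1
    rw [heq, mul_inv_cancel_right₀ (pow_ne_zero l he)]
  rw [e1]
  have := hr.2.2.mul hq hqM h (show GvGE hq hqM A C (e ^ l)⁻¹ 0 from Or.inr (by
    rw [gv_inv M q hq hqM h C (pow_ne_zero l he), gv_pow M q hq hqM h C he, hge, mul_zero,
      neg_zero]))
  rwa [add_zero] at this

/-- A multiple of `x ^ l - u₀` is small at the approximate roots. -/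
theorem ev_gvGE_sub_mul (he : e ≠ 0) (heq : y = u₀ * e ^ l) (hge : gv M q hq hqM A C e = 0)
    {z : FN (M * q * q) Qb} (hz : z ^ l = 1)
    (hx : ∀ r δ, IsApprox hq hqM A C Hc y l r δ → z * (r / e) ∈ OC M q hq hqM A C)
    (D : (FN (M * q * q) Qb)[X]) (κ : ℚ) :
    Ev hq hqM A C Hc y l fun r =>
      GvGE hq hqM A C (((z * (r / e)) ^ l - u₀) * D.eval (z * (r / e))) κ := by
  obtain ⟨β, hβ⟩ := exists_eval_bound hq hqM (A := A) (C := C) h D
  exact ⟨κ - β, fun r δ hδ hr => ((gvGE_mul_div_pow_sub hq hqM h he heq hge hz hr).mul hq hqM h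
    (hβ _ (hx r δ hr))).mono hq hqM (by linarith)⟩

/-- A polynomial times a high power of one reducing to zero at a multiple of the approximate
roots is integral there. -/
theorem exists_gvGE_mul_pow (hl : l.Prime) (hlq : l ≠ q) (hy : RootOn hq hqM A C Hc y l)
    (he : e ≠ 0) (hge : gv M q hq hqM A C e = 0) {z : FN (M * q * q) Qb}
    (hz : z ∈ OC M q hq hqM A C)
    (hx : ∀ r δ, IsApprox hq hqM A C Hc y l r δ → z * (r / e) ∈ OC M q hq hqM A C)
    {B' : (FN (M * q * q) Qb)[X]} (hB : ∀ r δ, IsApprox hq hqM A C Hc y l r δ →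
      ∃ hm : B'.eval (z * (r / e)) ∈ OC M q hq hqM A C, resC M q hq hqM A C ⟨_, hm⟩ = 0)
    (Q : (FN (M * q * q) Qb)[X]) :
    ∃ N₀, ∀ N ≥ N₀, Ev hq hqM A C Hc y l fun r =>
      GvGE hq hqM A C (Q.eval (z * (r / e)) * B'.eval (z * (r / e)) ^ N) 0 := by
  obtain ⟨βQ, hβQ⟩ := exists_eval_bound hq hqM (A := A) (C := C) h Q
  obtain ⟨L, hL⟩ := exists_lipschitz hq hqM (A := A) (C := C) h B'
  obtain ⟨r₁, hr₁⟩ := exists_root_approx hq hqM h hl hlq hy (1 - L)
  obtain ⟨hBm₁, hBres₁⟩ := hB r₁ _ hr₁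
  obtain ⟨ε, hε, hBε⟩ := exists_pos_of_res_eq_zero hq hqM h hBm₁ hBres₁
  set ε' := min ε 1
  have hε' : 0 < ε' := lt_min hε one_pos
  obtain ⟨N₀, hN₀⟩ := exists_nat_ge (-βQ / ε')
  refine ⟨N₀, fun N hN => ⟨1 - L, fun r δ hδ hr => ?_⟩⟩
  beta_reduce
  have hm := hx r δ hr
  have hclose := approx_close hq hqM h hl hlq hy (μ := 1 - L) (r := r) (r' := r₁)
    ⟨hr.1, hr.2.1, hr.2.2.mono hq hqM hδ⟩ hr₁
  have hc : GvGE hq hqM A C (z * (r / e) - z * (r₁ / e)) (1 - L) := by
    rw [show z * (r / e) - z * (r₁ / e) = z * e⁻¹ * (r - r₁) by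
      rw [← mul_sub, div_sub_div_same, div_eq_mul_inv]; ring]
    simpa using ((gvGE_zero_iff hq hqM h).mpr
      (mul_mem hz (inv_mem_OC_of_gv hq hqM h he hge))).mul hq hqM h hclose
  have hBr : GvGE hq hqM A C (B'.eval (z * (r / e))) ε' := by
    have h2 := (hL _ hm _ (hx r₁ _ hr₁) _ hc).mono hq hqM
      (show ε' ≤ 1 - L + L by linarith [min_le_right ε 1])
    have h3 := h2.add hq hqM h (hBε.mono hq hqM (min_le_left ε 1))
    rwa [sub_add_cancel] at h3
  refine ((hβQ _ hm).mul hq hqM h (hBr.pow hq hqM h N)).mono hq hqM ?_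
  rw [div_le_iff₀ hε'] at hN₀
  have : (N₀ : ℚ) ≤ N := by exact_mod_cast hN
  nlinarith

/-- The coefficients of a polynomial of degree less than `l` integral at all the multiples of the
approximate roots by `l`-th roots of unity are integral. -/
theorem coeff_mem_OC_of_ev (hl : l.Prime) (hlq : l ≠ q) (hy : RootOn hq hqM A C Hc y l)
    {ζ : Qb} (hζ : IsPrimitiveRoot ζ l)
    (hzm : algebraMap Qb (FN (M * q * q) Qb) ζ ∈ OC M q hq hqM A C)
    {γ : FX kA M} (hγ0 : γ ≠ 0)
    (hγr : ∀ (r : FN (M * q * q) Qb) (hr : r ∈ OC M q hq hqM A C),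
      resC M q hq hqM A C ⟨r, hr⟩ = (Hc : LaurentSeries kA) →
        ∃ hm : r / e ∈ OC M q hq hqM A C,
          resC M q hq hqM A C ⟨r / e, hm⟩ = (γ : LaurentSeries kA))
    {R : (FN (M * q * q) Qb)[X]} (hdeg : R.natDegree < l)
    (hR : ∀ i < l, Ev hq hqM A C Hc y l fun r =>
      GvGE hq hqM A C (R.eval (algebraMap Qb (FN (M * q * q) Qb) ζ ^ i * (r / e))) 0)
    {j : ℕ} (hj : j < l) : R.coeff j ∈ OC M q hq hqM A C := by
  set zF := algebraMap Qb (FN (M * q * q) Qb) ζ
  choose d hd using fun i : {i // i ∈ Finset.range l} => hR i.1 (Finset.mem_range.mp i.2)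
  obtain ⟨r, hr⟩ := exists_root_approx hq hqM h hl hlq hy (∑ i, |d i|)
  have hint : ∀ i ∈ Finset.range l, GvGE hq hqM A C (R.eval (zF ^ i * (r / e))) 0 := fun i hi =>
    hd ⟨i, hi⟩ r _ ((le_abs_self _).trans (Finset.single_le_sum (f := fun i => |d i|)
      (fun _ _ => abs_nonneg _) (Finset.mem_univ _))) hr
  have hsum := dft (hζ.map_of_injective (algebraMap Qb (FN (M * q * q) Qb)).injective) hdeg hj
    (r / e)
  have hm : ∑ i ∈ Finset.range l, zF ^ (i * (l - j)) * R.eval (zF ^ i * (r / e)) ∈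
      OC M q hq hqM A C :=
    sum_mem fun i hi => mul_mem (pow_mem hzm _) ((gvGE_zero_iff hq hqM h).mp (hint i hi))
  rw [show ∑ i ∈ Finset.range l, zF ^ (i * (l - j)) * R.eval (zF ^ i * (r / e)) =
    (l : FN (M * q * q) Qb) * (R.coeff j * (r / e) ^ j) from hsum] at hm
  obtain ⟨hm', hres'⟩ := hγr r hr.2.1.choose hr.2.1.choose_spec
  have hprod : (l : FN (M * q * q) Qb) * (r / e) ^ j ∈ OC M q hq hqM A C :=
    mul_mem (natCast_mem _ l) (pow_mem hm' j)
  obtain ⟨hne, hgv⟩ := gv_eq_zero_of_res hq hqM h hprod (by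
    rw [show (⟨_, hprod⟩ : OC M q hq hqM A C) =
      (l : OC M q hq hqM A C) * ⟨r / e, hm'⟩ ^ j from rfl, map_mul, map_natCast,
      map_pow, hres']
    refine mul_ne_zero ?_ (pow_ne_zero _ fun h0 => hγ0 (Subtype.ext h0))
    rw [← map_natCast (HahnSeries.C : kA →+* LaurentSeries kA)]
    exact HahnSeries.C_ne_zero (CharP.cast_ne_zero_of_ne_of_prime kA hl hlq.symm))
  rw [show R.coeff j = (l : FN (M * q * q) Qb) * (R.coeff j * (r / e) ^ j) *
    ((l : FN (M * q * q) Qb) * (r / e) ^ j)⁻¹ by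
      rw [mul_left_comm, mul_inv_cancel_right₀ hne]]
  exact mul_mem hm (inv_mem_OC_of_gv hq hqM h hne hgv)

end Steps

variable {χ : BChar M q A b} {S : Finset Br}
  {s : Place (IsLocalRing.ResidueField A) (FX (IsLocalRing.ResidueField A) M)}
variable (hχ : χ.IsPoint hq hqM S s)
variable {y : FN (M * q * q) Qb} {l : ℕ} {H : Br → FX (IsLocalRing.ResidueField A) M}
variable (hl : l.Prime) (hlq : l ≠ q) (hy : ∀ C ∈ S, RootOn hq hqM A C (H C) y l)
variable (u : χ.loc) {e : FN (M * q * q) Qb} (hu : χ.lres u ≠ 0) (her : e ∈ ratFld M q A)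
variable (he : e ≠ 0) (heq : y = (u : FN (M * q * q) Qb) * e ^ l)
variable {g0 : IsLocalRing.ResidueField A}
variable (hg0 : ∀ C ∈ S, ∀ (z : FX (IsLocalRing.ResidueField A) M) (hm : e ∈ OC M q hq hqM A C),
  (z : LaurentSeries (IsLocalRing.ResidueField A)) = resC M q hq hqM A C ⟨e, hm⟩ →
    evalAt s (H C / z) = g0)
include hχ hl hy hu her he heq hg0

/-- On a branch of the point the reduction of the root divided by `e` is regular there with value
`g0`. -/
theorem exists_gamma {C : Br} (hC : C ∈ S) :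
    ∃ γ : FX kA M, OrdGE s γ 0 ∧ evalAt s γ = g0 ∧ g0 ^ l = χ.lres u ∧ γ ≠ 0 ∧
      gv M q hq hqM A C e = 0 ∧ ∀ (r : FN (M * q * q) Qb) (hr : r ∈ OC M q hq hqM A C),
        resC M q hq hqM A C ⟨r, hr⟩ = (H C : LaurentSeries kA) →
          ∃ hm : r / e ∈ OC M q hq hqM A C,
            resC M q hq hqM A C ⟨r / e, hm⟩ = (γ : LaurentSeries kA) := by
  have hge : gv M q hq hqM A C e = 0 :=
    gv_eq_zero_of_decomp hq hqM h hχ hl.ne_zero u hu he heq hC (hy C hC).gv_eq
  have hem : e ∈ OC M q hq hqM A C := by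
    rw [mem_OC, brC_mem_iff M q hq hqM h C he, hge]
  set eb : FX kA M := ⟨_, resC_mem hq hqM h C e her hem⟩
  have heb : (eb : LaurentSeries kA) = resC M q hq hqM A C ⟨e, hem⟩ := rfl
  have heb0 : eb ≠ 0 := fun h0 =>
    ((prim_iff M q hq hqM h C he).mpr hge).2 (congrArg Subtype.val h0)
  have hγl : (H C / eb) ^ l = BChar.redLoc hq hqM h hχ hC u := by
    rw [div_pow, div_eq_iff (pow_ne_zero l heb0)]
    refine Subtype.ext ?_
    rw [SubmonoidClass.coe_pow, MulMemClass.coe_mul, SubmonoidClass.coe_pow, heb, BChar.coe_redLoc,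
      (hy C hC).res_eq ((hy C hC).mem_OC hq hqM h), ← map_pow, ← map_mul]
    exact congrArg _ (Subtype.ext heq)
  obtain ⟨hur, huv⟩ := BChar.redLoc_spec hq hqM h hχ hC u
  obtain ⟨hreg, hval⟩ := ordGE_of_pow_eq s hl.ne_zero hur (by rw [huv]; exact hu) hγl
  have hgv := hg0 C hC eb hem rfl
  refine ⟨H C / eb, hreg, hgv, by rw [← hgv, hval, huv], ?_, hge, fun r hr hres => ?_⟩
  · exact div_ne_zero (fun h0 => (hy C hC).root_ne_zero hq hqM h hl.ne_zero
      (congrArg Subtype.val h0)) heb0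
  have hinv : e⁻¹ ∈ OC M q hq hqM A C := by
    rw [mem_OC, brC_mem_iff M q hq hqM h C (inv_ne_zero he), gv_inv M q hq hqM h C he, hge,
      neg_zero]
  have hm : r / e ∈ OC M q hq hqM A C := by rw [div_eq_mul_inv]; exact mul_mem hr hinv
  refine ⟨hm, mul_right_cancel₀
    (show (eb : LaurentSeries kA) ≠ 0 from fun h0 => heb0 (Subtype.ext h0)) ?_⟩
  refine Eq.trans ?_ (congrArg Subtype.val (div_mul_cancel₀ (H C) heb0)).symm
  rw [← hres, heb, ← map_mul]
  exact congrArg (resC M q hq hqM A C) (Subtype.ext (div_mul_cancel₀ r he))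

include hlq

/-- An element vanishing at the other roots on the branches of the point but not at the point. -/
theorem exists_killer_sheets {ζ : O0 A}
    (hζk : IsPrimitiveRoot (IsLocalRing.residue A ⟨(ζ : Qb), ζ.2.2⟩) l) :
    ∃ B : χ.loc[X], B.eval₂ χ.lres g0 ≠ 0 ∧ ∀ (C : Br) (hC : C ∈ S) (γ : FX kA M),
      (∀ (r : FN (M * q * q) Qb) (hr : r ∈ OC M q hq hqM A C),
        resC M q hq hqM A C ⟨r, hr⟩ = (H C : LaurentSeries kA) →
          ∃ hm : r / e ∈ OC M q hq hqM A C,
            resC M q hq hqM A C ⟨r / e, hm⟩ = (γ : LaurentSeries kA)) →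
      ∀ i < l, i ≠ 0 → B.eval₂ (BChar.redLoc hq hqM h hχ hC)
        (algebraMap kA (FX kA M) (IsLocalRing.residue A ⟨(ζ : Qb), ζ.2.2⟩ ^ i) * γ) = 0 := by
  classical
  set E := q ^ 2
  set z := IsLocalRing.residue A ⟨(ζ : Qb), ζ.2.2⟩
  -- for one sheet: a geometric sum in the power of a lift of `γ`
  have hfac : ∀ (C : Br) (hC : C ∈ S), ∃ K : χ.loc[X], K.eval₂ χ.lres g0 ≠ 0 ∧
      ∀ (γ : FX kA M),
      (∀ (r : FN (M * q * q) Qb) (hr : r ∈ OC M q hq hqM A C),
        resC M q hq hqM A C ⟨r, hr⟩ = (H C : LaurentSeries kA) →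
          ∃ hm : r / e ∈ OC M q hq hqM A C,
            resC M q hq hqM A C ⟨r / e, hm⟩ = (γ : LaurentSeries kA)) →
      ∀ i < l, i ≠ 0 → K.eval₂ (BChar.redLoc hq hqM h hχ hC)
        (algebraMap kA (FX kA M) (z ^ i) * γ) = 0 := by
    intro C hC
    obtain ⟨γ, hγs, hγv, hg0l, -, -, hγr⟩ :=
      exists_gamma hq hqM h hχ hl hy u hu her he heq hg0 hC
    obtain ⟨a, ha, d, hd, hds, had⟩ := exists_frac_at (transcendental_xbar b) hχ.regular hγs
    obtain ⟨ga, hga⟩ := exists_redB_pow hq hqM h C ha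
    obtain ⟨gd, hgd⟩ := exists_redB_pow hq hqM h C hd
    set la : χ.loc := ⟨(ga : FN (M * q * q) Qb), χ.Bx_le_loc ga.2⟩
    set ld : χ.loc := ⟨(gd : FN (M * q * q) Qb), χ.Bx_le_loc gd.2⟩
    refine ⟨∑ j ∈ Finset.range l, Polynomial.C (ld ^ j * la ^ (l - 1 - j)) * X ^ (E * j),
      ?_, fun γ' hγ' i hi hi0 => ?_⟩
    -- at the point it is `l` times a nonzero power
    · have hreg : ∀ {w : FX kA M}, w ∈ intClosure kA (xbar M kA b) → OrdGE s w 0 := fun hw =>
        FF.mem_intClosure_iff.mp hw s hχ.regular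
      have hla : χ.lres la = evalAt s a ^ E := by
        rw [← (BChar.redLoc_spec hq hqM h hχ hC la).2, BChar.redLoc_of_mem, hga,
          evalAt_pow (hreg ha)]
      have hld : χ.lres ld = evalAt s d ^ E := by
        rw [← (BChar.redLoc_spec hq hqM h hχ hC ld).2, BChar.redLoc_of_mem, hgd,
          evalAt_pow (hreg hd)]
      have hev : evalAt s a = g0 * evalAt s d := by
        rw [← had, evalAt_mul hγs (hreg hd), hγv]
      have hterm : ∀ j ∈ Finset.range l,
          (Polynomial.C (ld ^ j * la ^ (l - 1 - j)) * X ^ (E * j)).eval₂ χ.lres g0 =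
            (g0 ^ E * evalAt s d ^ E) ^ (l - 1) := fun j hj => by
        rw [Finset.mem_range] at hj
        obtain ⟨k, hk⟩ := Nat.exists_eq_add_of_le (show j ≤ l - 1 by omega)
        rw [eval₂_mul, eval₂_C, eval₂_X_pow, map_mul, map_pow, map_pow, hla, hld, hev, hk,
          Nat.add_sub_cancel_left]
        ring
      rw [eval₂_finsetSum, Finset.sum_congr rfl hterm, Finset.sum_const, Finset.card_range,
        nsmul_eq_mul]
      refine mul_ne_zero (CharP.cast_ne_zero_of_ne_of_prime kA hl hlq.symm)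
        (pow_ne_zero _ (mul_ne_zero
        (pow_ne_zero _ fun h0 => hu ?_) (pow_ne_zero _ hds)))
      rw [← hg0l, h0, zero_pow hl.ne_zero]
    · obtain rfl : γ' = γ := by
        obtain ⟨r₀, hr₀, -, hr₀'⟩ := exists_lift_field hq hqM h C (H C)
        obtain ⟨hm, e1⟩ := hγr r₀ hr₀ hr₀'
        obtain ⟨hm', e2⟩ := hγ' r₀ hr₀ hr₀'
        exact Subtype.ext (e2.symm.trans e1)
      set c := algebraMap kA (FX kA M) (z ^ i)
      have hterm : ∀ j ∈ Finset.range l,
          (Polynomial.C (ld ^ j * la ^ (l - 1 - j)) * X ^ (E * j)).eval₂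
            (BChar.redLoc hq hqM h hχ hC) (c * γ') =
            (γ' * d) ^ (E * (l - 1)) * (c ^ E) ^ j := fun j hj => by
        rw [Finset.mem_range] at hj
        obtain ⟨k, hk⟩ := Nat.exists_eq_add_of_le (show j ≤ l - 1 by omega)
        rw [eval₂_mul, eval₂_C, eval₂_X_pow, map_mul, map_pow, map_pow, BChar.redLoc_of_mem,
          BChar.redLoc_of_mem, hga, hgd, ← had, hk, Nat.add_sub_cancel_left]
        ring
      rw [eval₂_finsetSum, Finset.sum_congr rfl hterm, ← Finset.mul_sum]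
      -- at the other conjugates of `γ` the sum of the roots of unity vanishes
      refine mul_eq_zero_of_right _ ?_
      have hcl : (c ^ E) ^ l = 1 := by
        rw [← pow_mul, ← map_pow, ← pow_mul, show i * (E * l) = l * (i * E) by ring, pow_mul,
          hζk.pow_eq_one, one_pow, map_one]
      have hc1 : c ^ E ≠ 1 := fun h1 => by
        rw [← map_pow, ← pow_mul, map_eq_one_iff _ (algebraMap kA (FX kA M)).injective] at h1
        rcases hl.dvd_mul.mp (hζk.dvd_of_pow_eq_one _ h1) with h2 | h2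
        · exact hi0 (Nat.eq_zero_of_dvd_of_lt h2 hi)
        · exact hlq ((Nat.prime_dvd_prime_iff_eq hl hq).mp (hl.dvd_of_dvd_pow h2))
      have := geom_sum_mul (c ^ E) l
      rw [hcl, sub_self, mul_eq_zero] at this
      exact this.resolve_right (sub_ne_zero.mpr hc1)
  choose K hK0 hK using hfac
  -- the product over the sheets works for all
  refine ⟨∏ D ∈ S.attach, K D.1 D.2, ?_, fun C hC γ hγ i hi hi0 => ?_⟩
  · rw [eval₂_finsetProd]
    exact Finset.prod_ne_zero_iff.mpr fun D _ => hK0 D.1 D.2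
  · rw [eval₂_finsetProd]
    exact Finset.prod_eq_zero (Finset.mem_attach S ⟨C, hC⟩) (hK C hC γ hγ i hi hi0)

omit h hχ hl hlq hy hu her he heq hg0 in
/-- The approximate roots, moved by a root of unity and divided by `e`, reduce to the multiple of
`γ` by its residue. -/
theorem resC_zeta_mul_div {C : Br} {γ : FX kA M}
    (hγr : ∀ (r : FN (M * q * q) Qb) (hr : r ∈ OC M q hq hqM A C),
      resC M q hq hqM A C ⟨r, hr⟩ = (H C : LaurentSeries kA) →
        ∃ hm : r / e ∈ OC M q hq hqM A C,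
          resC M q hq hqM A C ⟨r / e, hm⟩ = (γ : LaurentSeries kA))
    (ζ : O0 A) (i : ℕ) {r : FN (M * q * q) Qb} {δ : ℚ}
    (hr : IsApprox hq hqM A C (H C) y l r δ) :
    ∃ hm : algebraMap Qb (FN (M * q * q) Qb) (ζ : Qb) ^ i * (r / e) ∈ OC M q hq hqM A C,
      resC M q hq hqM A C ⟨_, hm⟩ = ((algebraMap kA (FX kA M)
        (IsLocalRing.residue A ⟨(ζ : Qb), ζ.2.2⟩ ^ i) * γ : FX kA M) : LaurentSeries kA) := by
  obtain ⟨hzm, hzres⟩ := resC_algebraMap hq hqM (M := M) C ζ.2.2
  obtain ⟨-, ⟨hm, hres⟩, -⟩ := hr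
  obtain ⟨hm', hres'⟩ := hγr r hm hres
  refine ⟨mul_mem (pow_mem hzm i) hm', ?_⟩
  rw [show (⟨algebraMap Qb (FN (M * q * q) Qb) (ζ : Qb) ^ i * (r / e),
      mul_mem (pow_mem hzm i) hm'⟩ : OC M q hq hqM A C) =
    ⟨_, hzm⟩ ^ i * ⟨r / e, hm'⟩ from rfl, map_mul, map_pow, hzres, hres',
    map_pow (algebraMap kA (FX kA M)), MulMemClass.coe_mul, SubmonoidClass.coe_pow]

/-- The remainder of `Q B ^ N` on division by `X ^ l - u` has its coefficients in the local ring
for some `N`, if `Q` is integral at the root and `B` reduces to zero at the others. -/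
theorem exists_rem_coeff_mem_loc {ζ : O0 A} (hζ : IsPrimitiveRoot (ζ : Qb) l) {B : χ.loc[X]}
    (hB : ∀ (C : Br) (hC : C ∈ S) (γ : FX kA M),
      (∀ (r : FN (M * q * q) Qb) (hr : r ∈ OC M q hq hqM A C),
        resC M q hq hqM A C ⟨r, hr⟩ = (H C : LaurentSeries kA) →
          ∃ hm : r / e ∈ OC M q hq hqM A C,
            resC M q hq hqM A C ⟨r / e, hm⟩ = (γ : LaurentSeries kA)) →
      ∀ i < l, i ≠ 0 → B.eval₂ (BChar.redLoc hq hqM h hχ hC)
        (algebraMap kA (FX kA M) (IsLocalRing.residue A ⟨(ζ : Qb), ζ.2.2⟩ ^ i) * γ) = 0)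
    {Qt : χ.treg[X]} (hv : ∀ C ∈ S, Ev hq hqM A C (H C) y l fun r =>
      GvGE hq hqM A C ((Qt.map χ.treg.subtype).eval (r / e)) 0) :
    ∃ N : ℕ, ∀ j, ((((Qt * B.map (Subring.inclusion χ.loc_le_treg) ^ N) %ₘ
      (X ^ l - Polynomial.C (Subring.inclusion χ.loc_le_treg u))).map χ.treg.subtype).coeff j)
        ∈ χ.loc := by
  choose γ hγs hγv hg0l hγne hge hγr using fun (C : Br) (hC : C ∈ S) =>
    exists_gamma hq hqM h hχ hl hy u hu her he heq hg0 hC
  let ι : χ.loc →+* χ.treg := Subring.inclusion χ.loc_le_treg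
  let zF : FN (M * q * q) Qb := algebraMap Qb _ (ζ : Qb)
  let B' := B.map χ.loc.subtype
  let Q := Qt.map χ.treg.subtype
  let R : ℕ → (FN (M * q * q) Qb)[X] := fun N =>
    ((Qt * B.map ι ^ N) %ₘ (X ^ l - Polynomial.C (ι u))).map χ.treg.subtype
  have hdec : ∀ (N : ℕ) (x : FN (M * q * q) Qb), (R N).eval x = Q.eval x * B'.eval x ^ N -
      (x ^ l - (u : FN (M * q * q) Qb)) * (((Qt * B.map ι ^ N) /ₘ
        (X ^ l - Polynomial.C (ι u))).map χ.treg.subtype).eval x := fun N x => by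
    simp only [R, eval_map_modByMonic_X_pow, Polynomial.map_mul, Polynomial.map_pow, eval_mul,
      eval_pow, Polynomial.map_map]
    rfl
  have hzpow : ∀ i : ℕ, (zF ^ i) ^ l = 1 := fun i => by
    rw [← pow_mul, mul_comm i l, pow_mul, ← map_pow, hζ.pow_eq_one, map_one, one_pow]
  have hzm : ∀ C, zF ∈ OC M q hq hqM A C := fun C => (resC_algebraMap hq hqM C ζ.2.2).choose
  -- for large `N` the remainder is integral at every `ζ ^ i r / e` on every sheet
  have hstep : ∀ C ∈ S, ∀ i < l, ∀ᶠ N in Filter.atTop, Ev hq hqM A C (H C) y l fun r =>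
      GvGE hq hqM A C ((R N).eval (zF ^ i * (r / e))) 0 := by
    intro C hC i hi
    have hx := fun r δ hr => resC_zeta_mul_div hq hqM (y := y) (l := l)
      (hγr C hC) ζ i (r := r) (δ := δ) hr
    have hBm := fun r δ hr => BChar.resC_eval hq hqM h hχ hC B (hx r δ hr).choose
      (hx r δ hr).choose_spec
    obtain ⟨N₀, hN₀⟩ : ∃ N₀, ∀ N ≥ N₀, Ev hq hqM A C (H C) y l fun r => GvGE hq hqM A C
        (Q.eval (zF ^ i * (r / e)) * B'.eval (zF ^ i * (r / e)) ^ N) 0 := by
      -- at `r / e` by hypothesis, elsewhere as the power of `B` tends to zero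
      rcases eq_or_ne i 0 with rfl | hi0
      · obtain ⟨δ₁, hδ₁⟩ := hv C hC
        refine ⟨0, fun N _ => ⟨δ₁, fun r δ hδ hr => ?_⟩⟩
        have h1 := (hδ₁ r δ hδ hr).mul hq hqM h
          ((gvGE_zero_iff hq hqM h).mpr (pow_mem (hBm r δ hr).choose N))
        rw [add_zero] at h1
        simpa [zF] using h1
      · refine exists_gvGE_mul_pow hq hqM h hl hlq (hy C hC) he (hge C hC) (pow_mem (hzm C) i)
          (fun r δ hr => (hx r δ hr).choose) (fun r δ hr => ⟨(hBm r δ hr).choose, ?_⟩) Q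
        rw [(hBm r δ hr).choose_spec, hB C hC (γ C hC) (hγr C hC) i hi hi0, ZeroMemClass.coe_zero]
    refine Filter.eventually_atTop.mpr ⟨N₀, fun N hN => ?_⟩
    refine ((hN₀ N hN).and hq hqM (ev_gvGE_sub_mul hq hqM h (u₀ := (u : FN (M * q * q) Qb)) he heq
      (hge C hC) (hzpow i) (fun r δ hr => (hx r δ hr).choose)
      (((Qt * B.map ι ^ N) /ₘ (X ^ l - Polynomial.C (ι u))).map χ.treg.subtype) 0)).mono hq hqM
        fun r hr => ?_
    rw [hdec]
    exact hr.1.sub hq hqM h hr.2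
  obtain ⟨N, hN⟩ := ((Filter.eventually_all_finset S).mpr fun C hC =>
    (Filter.eventually_all_finset (Finset.range l)).mpr fun i hi =>
      hstep C hC i (Finset.mem_range.mp hi)).exists
  refine ⟨N, fun j => show (R N).coeff j ∈ χ.loc from ?_⟩
  -- a polynomial of degree `< l` integral at all these points has integral coefficients
  have hdeg : (R N).natDegree < l := lt_of_le_of_lt natDegree_map_le
    (natDegree_modByMonic_X_pow_lt _ _ hl.ne_zero)
  rcases lt_or_ge j l with hj | hj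
  swap
  · rw [coeff_eq_zero_of_natDegree_lt (lt_of_lt_of_le hdeg hj)]
    exact zero_mem _
  have hmem : (R N).coeff j ∈ χ.treg := by rw [coeff_map]; exact SetLike.coe_mem _
  exact BChar.mem_loc_of hq hqM h hχ hmem.1 hmem.2 fun C hC => coeff_mem_OC_of_ev hq hqM h hl hlq
    (hy C hC) hζ (hzm C) (hγne C hC) (hγr C hC) hdeg
    (fun i hi => hN C hC i (Finset.mem_range.mpr hi)) hj

/-- **Regularity at the point.** A polynomial in the local root, regular on the tube, reduces to
functions with the same value at the point on all its branches. -/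
theorem exists_value {Q : (FN (M * q * q) Qb)[X]}
    (hQ : ∀ j, Q.coeff j ∈ χ.treg)
    (hv : ∀ C ∈ S, Ev hq hqM A C (H C) y l fun r => GvGE hq hqM A C (Q.eval (r / e)) 0) :
    ∃ w : kA, (∀ C ∈ S, ∀ ρ : FX kA M, Ev hq hqM A C (H C) y l (fun r =>
        ∃ hm : Q.eval (r / e) ∈ OC M q hq hqM A C,
          resC M q hq hqM A C ⟨_, hm⟩ = (ρ : LaurentSeries kA)) →
        OrdGE s ρ 0 ∧ evalAt s ρ = w) ∧
      ∀ P ∈ χ.tube, (∀ j, OrdGE P (Q.coeff j) 1) → w = 0 := by
  classical
  -- multiply by a power of a killer and reduce modulo `X ^ l - u` to local coefficients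
  obtain ⟨ζ, hζ, hζk⟩ := exists_zeta h hl hlq (A := A)
  obtain ⟨B, hB0, hB⟩ := exists_killer_sheets hq hqM h hχ hl hlq hy u hu her he heq hg0 hζk
  choose γ hγs hγv hg0l hγne hge hγr using fun (C : Br) (hC : C ∈ S) =>
    exists_gamma hq hqM h hχ hl hy u hu her he heq hg0 hC
  obtain ⟨Qt, hQt⟩ := (Polynomial.mem_lifts Q).mp
    ((lifts_iff_coeff_lifts Q).mpr fun j => ⟨⟨_, hQ j⟩, rfl⟩ : Q ∈ lifts χ.treg.subtype)
  obtain ⟨N, hco⟩ := exists_rem_coeff_mem_loc hq hqM h hχ hl hlq hy u hu her he heq hg0 hζ hB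
    (Qt := Qt) (fun C hC => by rw [hQt]; exact hv C hC)
  let ι : χ.loc →+* χ.treg := Subring.inclusion χ.loc_le_treg
  let B' := B.map χ.loc.subtype
  obtain ⟨RL, hRL⟩ := (Polynomial.mem_lifts _).mp
    ((lifts_iff_coeff_lifts _).mpr fun j => ⟨⟨_, hco j⟩, rfl⟩ :
      ((Qt * B.map ι ^ N) %ₘ (X ^ l - Polynomial.C (ι u))).map χ.treg.subtype ∈
        lifts χ.loc.subtype)
  -- the common value is the quotient of the two values at `g0`
  refine ⟨RL.eval₂ χ.lres g0 / (B.eval₂ χ.lres g0) ^ N, fun C hC ρ hρ => ?_, fun P hP h1 => ?_⟩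
  · let Dv := ((Qt * B.map ι ^ N) /ₘ (X ^ l - Polynomial.C (ι u))).map χ.treg.subtype
    have hsm : Ev hq hqM A C (H C) y l fun r => GvGE hq hqM A C
        (((1 * (r / e)) ^ l - (u : FN (M * q * q) Qb)) * Dv.eval (1 * (r / e))) 1 :=
      ev_gvGE_sub_mul hq hqM h he heq (hge C hC) (one_pow l) (fun r δ hr => by
        rw [one_mul]; exact (hγr C hC r hr.2.1.choose hr.2.1.choose_spec).choose) Dv 1
    obtain ⟨δ₀, hδ₀⟩ := hρ.and hq hqM hsm
    obtain ⟨r, hr⟩ := exists_root_approx hq hqM h hl hlq (hy C hC) δ₀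
    obtain ⟨⟨hQm, hQres⟩, hsm'⟩ := hδ₀ r _ le_rfl hr
    rw [one_mul] at hsm'
    obtain ⟨hm, hres⟩ := hγr C hC r hr.2.1.choose hr.2.1.choose_spec
    obtain ⟨hBm, hBres⟩ := BChar.resC_eval hq hqM h hχ hC B hm hres
    obtain ⟨hRm, hRres⟩ := BChar.resC_eval hq hqM h hχ hC RL hm hres
    obtain ⟨hRm', hRres'⟩ := res_congr hq hqM h (f := Q.eval (r / e) * B'.eval (r / e) ^ N)
      (g := (RL.map χ.loc.subtype).eval (r / e))
      (by
        rw [hRL, eval_map_modByMonic_X_pow, Polynomial.map_mul, Polynomial.map_pow, hQt,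
          Polynomial.map_map, eval_mul, eval_pow]
        exact (sub_sub_cancel_left (Q.eval (r / e) * B'.eval (r / e) ^ N) _).symm ▸
          hsm'.neg hq hqM h) one_pos
      (mul_mem hQm (pow_mem hBm N))
    have hkey : ρ * B.eval₂ (BChar.redLoc hq hqM h hχ hC) (γ C hC) ^ N =
        RL.eval₂ (BChar.redLoc hq hqM h hχ hC) (γ C hC) := Subtype.ext (by
      rw [MulMemClass.coe_mul, SubmonoidClass.coe_pow, ← hBres, ← hQres, ← hRres, hRres',
        ← map_pow, ← map_mul]
      rfl)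
    have hf := fun f => (BChar.redLoc_spec hq hqM h hχ hC f).1
    have hg := fun f => (BChar.redLoc_spec hq hqM h hχ hC f).2
    obtain ⟨hBr, hBv⟩ := evalAt_eval₂_hom s hf hg (hγs C hC) B
    obtain ⟨hRr, hRv⟩ := evalAt_eval₂_hom s hf hg (hγs C hC) RL
    rw [hγv C hC] at hBv hRv
    obtain ⟨hρr, hρv⟩ := ordGE_evalAt_of_mul_eq s (b := B.eval₂ _ (γ C hC) ^ N)
      ((hBr.pow N).mono (by simp)) (by rw [evalAt_pow hBr, hBv]; exact pow_ne_zero N hB0) hRr hkey
    exact ⟨hρr, by rw [hρv, hRv, evalAt_pow hBr, hBv]⟩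
  · rw [div_eq_zero_iff]
    left
    have hR0 : ((Qt * B.map ι ^ N) %ₘ (X ^ l - Polynomial.C (ι u))).map (χ.evT hP) = 0 := by
      rw [map_modByMonic _ (monic_X_pow_sub_C _ hl.ne_zero), Polynomial.map_mul,
        χ.map_evT_eq_zero hP (fun j => by rw [hQt]; exact h1 j), zero_mul, zero_modByMonic]
    rw [← eval_map, χ.map_lres_eq_zero hP hRL hR0, eval_zero]

end Fermat.CAR

end
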