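import Fermat.Agent.CAR.Good
import Mathlib.Algebra.Polynomial.Identities
import Mathlib.FieldTheory.KummerPolynomial

/-!
# Approximate roots on a branch

`IsApprox C Hc y l r δ` says that the invariant function `r` reduces to `Hc` on the branch `C` and
that `r ^ l - y` has order at least `δ` there.  Such functions exist for every `δ`, and a
polynomial not divisible by `X ^ l - y` has eventually a constant order at them.
-/

set_option autoImplicit false
set_option linter.unusedSectionVars false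

noncomputable section

open Polynomial

namespace Fermat.CAR

attribute [local instance 10000] algFN smulFN algFX smulFX

open Fermat.FF Fermat.MC Fermat.RED.Model Fermat.BAD.X0 Fermat.EC.Val

local notation "Qb" => AlgebraicClosure ℚ

section Algebra

variable {K : Type*} [Field K]

/-- The coefficients of a polynomial from its values at the multiples of a point by roots of
unity. -/
theorem dft {ζ : K} {l : ℕ} (hζ : IsPrimitiveRoot ζ l) {R : K[X]} (hR : R.natDegree < l) {j : ℕ}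
    (hj : j < l) (x : K) :
    ∑ i ∈ Finset.range l, ζ ^ (i * (l - j)) * R.eval (ζ ^ i * x) = l * (R.coeff j * x ^ j) := by
  classical
  simp only [eval_eq_sum_range' hR, Finset.mul_sum]
  rw [Finset.sum_comm, Finset.sum_eq_single_of_mem j (Finset.mem_range.mpr hj)]
  · rw [Finset.sum_congr rfl (g := fun _ => R.coeff j * x ^ j) fun i _ => ?_,
      Finset.sum_const, Finset.card_range, nsmul_eq_mul]
    rw [mul_pow, ← pow_mul, show ζ ^ (i * (l - j)) * (R.coeff j * (ζ ^ (i * j) * x ^ j)) =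
      ζ ^ (i * (l - j) + i * j) * (R.coeff j * x ^ j) by rw [pow_add]; ring,
      ← Nat.mul_add, Nat.sub_add_cancel hj.le, mul_comm i l, pow_mul, hζ.pow_eq_one, one_pow,
      one_mul]
  · intro k hk hkj
    have hne : ζ ^ (l - j + k) ≠ 1 := by
      intro h1
      have h2 := hζ.dvd_of_pow_eq_one _ h1
      have hk' := Finset.mem_range.mp hk
      obtain ⟨c, hc⟩ := h2
      rcases c with _ | _ | c
      · omega
      · omega
      · rw [show l * (c + 1 + 1) = l * c + l + l by ring] at hc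
        omega
    have h0 : ∑ i ∈ Finset.range l, (ζ ^ (l - j + k)) ^ i = 0 := by
      have := geom_sum_mul (ζ ^ (l - j + k)) l
      rw [← pow_mul, mul_comm _ l, pow_mul, hζ.pow_eq_one, one_pow, sub_self, mul_eq_zero] at this
      exact this.resolve_right (sub_ne_zero.mpr hne)
    rw [← mul_zero (R.coeff k * x ^ k), ← h0, Finset.mul_sum]
    refine Finset.sum_congr rfl fun i _ => ?_
    rw [mul_pow, ← pow_mul, ← pow_mul, add_mul, pow_add, mul_comm (l - j) i, mul_comm k i]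
    ring

/-- One step of Newton's method inside a subring. -/
theorem exists_newton (O : Subring K) {r t y : K} {l : ℕ} (hr : r ∈ O) (ht : t ∈ O)
    (e : (l : K) * r ^ (l - 1) * t = r ^ l - y) : ∃ k ∈ O, (r - t) ^ l - y = k * t ^ 2 := by
  obtain ⟨k, hk⟩ := powAddExpansion (⟨r, hr⟩ : O) (⟨-t, neg_mem ht⟩ : O) l
  refine ⟨k, k.2, ?_⟩
  have h1 := congrArg (Subtype.val : O → K) hk
  simp only [Subring.coe_add, Subring.coe_mul, SubmonoidClass.coe_pow] at h1
  rw [show (((l : ℕ) : O) : K) = (l : K) from map_natCast O.subtype l, ← sub_eq_add_neg] at h1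
  linear_combination h1 - e

end Algebra

variable {M q : ℕ} [NeZero M] [NeZero q] (hq : q.Prime) (hqM : ¬ q ∣ M)

/-- The order on the branch `C` is at least `δ`. -/
def GvGE (A : ValuationSubring (AlgebraicClosure ℚ)) (C : Br) (f : FN (M * q * q) Qb) (δ : ℚ) :
    Prop :=
  f = 0 ∨ δ ≤ gv M q hq hqM A C f

variable {A : ValuationSubring (AlgebraicClosure ℚ)} [Fact q.Prime]
variable [CharP (IsLocalRing.ResidueField A) q] [IsAlgClosed (IsLocalRing.ResidueField A)]

local notation "kA" => IsLocalRing.ResidueField A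

section GvGE

variable {C : Br}

/-- Zero satisfies every bound. -/
theorem gvGE_zero (δ : ℚ) : GvGE hq hqM A C (0 : FN (M * q * q) Qb) δ := Or.inl rfl

/-- Bounds may be weakened. -/
theorem GvGE.mono {f : FN (M * q * q) Qb} {δ δ' : ℚ} (hf : GvGE hq hqM A C f δ) (hle : δ' ≤ δ) :
    GvGE hq hqM A C f δ' :=
  hf.imp_right hle.trans

/-- For nonzero functions the bound is one on `gv`. -/
theorem GvGE.le {f : FN (M * q * q) Qb} {δ : ℚ} (hf : GvGE hq hqM A C f δ) (hne : f ≠ 0) :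
    δ ≤ gv M q hq hqM A C f :=
  hf.resolve_left hne

variable (h : IsPlace A q)
include h

/-- The bound `0` means regular on the branch. -/
theorem gvGE_zero_iff {f : FN (M * q * q) Qb} :
    GvGE hq hqM A C f 0 ↔ f ∈ OC M q hq hqM A C := by
  rcases eq_or_ne f 0 with rfl | hf
  · exact iff_of_true (gvGE_zero hq hqM 0) (zero_mem _)
  · rw [mem_OC, brC_mem_iff M q hq hqM h C hf]
    exact ⟨fun h0 => h0.resolve_left hf, Or.inr⟩

/-- Bounds add on products. -/
theorem GvGE.mul {f g : FN (M * q * q) Qb} {δ ε : ℚ} (hf : GvGE hq hqM A C f δ)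
    (hg : GvGE hq hqM A C g ε) : GvGE hq hqM A C (f * g) (δ + ε) := by
  rcases eq_or_ne f 0 with rfl | hf0
  · rw [zero_mul]; exact gvGE_zero hq hqM _
  rcases eq_or_ne g 0 with rfl | hg0
  · rw [mul_zero]; exact gvGE_zero hq hqM _
  refine Or.inr ?_
  rw [gv_mul M q hq hqM h C hf0 hg0]
  exact add_le_add (hf.resolve_left hf0) (hg.resolve_left hg0)

/-- Bounds pass to negatives. -/
theorem GvGE.neg {f : FN (M * q * q) Qb} {δ : ℚ} (hf : GvGE hq hqM A C f δ) :
    GvGE hq hqM A C (-f) δ := by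
  have h1 : GvGE hq hqM A C (-1 : FN (M * q * q) Qb) 0 :=
    (gvGE_zero_iff hq hqM h).mpr (neg_mem (one_mem _))
  simpa using hf.mul hq hqM h h1

/-- The bound on the order on a branch is stable under sums. -/
theorem GvGE.add {f g : FN (M * q * q) Qb} {δ : ℚ} (hf : GvGE hq hqM A C f δ)
    (hg : GvGE hq hqM A C g δ) : GvGE hq hqM A C (f + g) δ := by
  rcases eq_or_ne f 0 with rfl | hf0
  · rwa [zero_add]
  rcases eq_or_ne g 0 with rfl | hg0
  · rwa [add_zero]
  wlog hle : gv M q hq hqM A C f ≤ gv M q hq hqM A C g generalizing f g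
  · rw [add_comm]; exact this hg hf hg0 hf0 (le_of_not_ge hle)
  rcases eq_or_ne (f + g) 0 with h0 | h0
  · rw [h0]; exact gvGE_zero hq hqM δ
  have hm : g / f ∈ OC M q hq hqM A C := by
    rw [mem_OC, brC_mem_iff M q hq hqM h C (div_ne_zero hg0 hf0), div_eq_mul_inv,
      gv_mul M q hq hqM h C hg0 (inv_ne_zero hf0), gv_inv M q hq hqM h C hf0]
    linarith
  have h1 : f + g = f * (1 + g / f) := by rw [mul_add, mul_one, mul_div_cancel₀ _ hf0]
  have h2 := hf.mul hq hqM h ((gvGE_zero_iff hq hqM h).mpr (add_mem (one_mem _) hm))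
  rwa [← h1, add_zero] at h2

/-- Bounds pass to differences. -/
theorem GvGE.sub {f g : FN (M * q * q) Qb} {δ : ℚ} (hf : GvGE hq hqM A C f δ)
    (hg : GvGE hq hqM A C g δ) : GvGE hq hqM A C (f - g) δ := by
  rw [sub_eq_add_neg]; exact hf.add hq hqM h (hg.neg hq hqM h)

/-- Bounds scale on powers. -/
theorem GvGE.pow {f : FN (M * q * q) Qb} {δ : ℚ} (hf : GvGE hq hqM A C f δ) (n : ℕ) :
    GvGE hq hqM A C (f ^ n) (n * δ) := by
  induction n with
  | zero => simpa using (gvGE_zero_iff hq hqM h).mpr (one_mem (OC M q hq hqM A C))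
  | succ n ih =>
    rw [pow_succ]
    exact (ih.mul hq hqM h hf).mono hq hqM (le_of_eq (by push_cast; ring))

/-- A bound that is not negative gives regularity. -/
theorem GvGE.mem_OC {f : FN (M * q * q) Qb} {δ : ℚ} (hf : GvGE hq hqM A C f δ) (hδ : 0 ≤ δ) :
    f ∈ OC M q hq hqM A C :=
  (gvGE_zero_iff hq hqM h).mp (hf.mono hq hqM hδ)

/-- A positive bound gives zero reduction. -/
theorem GvGE.res_eq_zero {f : FN (M * q * q) Qb} {δ : ℚ} (hf : GvGE hq hqM A C f δ) (hδ : 0 < δ)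
    (hm : f ∈ OC M q hq hqM A C) : resC M q hq hqM A C ⟨f, hm⟩ = 0 := by
  rcases eq_or_ne f 0 with rfl | h0
  · rw [show (⟨0, hm⟩ : OC M q hq hqM A C) = 0 from rfl, map_zero]
  by_contra hne
  exact (lt_of_lt_of_le hδ (hf.le hq hqM h0)).ne'
    ((prim_iff M q hq hqM h C h0).mp ⟨hm, hne⟩)

/-- Zero reduction gives a positive bound. -/
theorem exists_pos_of_res_eq_zero {f : FN (M * q * q) Qb} (hm : f ∈ OC M q hq hqM A C)
    (h0 : resC M q hq hqM A C ⟨f, hm⟩ = 0) : ∃ ε > 0, GvGE hq hqM A C f ε := by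
  rcases eq_or_ne f 0 with rfl | hf
  · exact ⟨1, one_pos, gvGE_zero hq hqM 1⟩
  refine ⟨gv M q hq hqM A C f, lt_of_le_of_ne ((brC_mem_iff M q hq hqM h C hf).mp hm) ?_,
    Or.inr le_rfl⟩
  exact fun e => ((prim_iff M q hq hqM h C hf).mpr e.symm).2 h0

/-- Nonzero reduction gives order zero. -/
theorem gv_eq_zero_of_res {f : FN (M * q * q) Qb} (hm : f ∈ OC M q hq hqM A C)
    (hne : resC M q hq hqM A C ⟨f, hm⟩ ≠ 0) : f ≠ 0 ∧ gv M q hq hqM A C f = 0 := by
  have hf : f ≠ 0 := fun h0 => hne (by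
    rw [show (⟨f, hm⟩ : OC M q hq hqM A C) = 0 from Subtype.ext h0, map_zero])
  exact ⟨hf, (prim_iff M q hq hqM h C hf).mp ⟨hm, hne⟩⟩

/-- Functions close to each other have the same order. -/
theorem gv_congr {f g : FN (M * q * q) Qb} {δ : ℚ} (hf : f ≠ 0)
    (hd : GvGE hq hqM A C (g - f) δ) (hlt : gv M q hq hqM A C f < δ) :
    g ≠ 0 ∧ gv M q hq hqM A C g = gv M q hq hqM A C f := by
  have hg : g ≠ 0 := by
    rintro rfl
    have h1 := hd.neg hq hqM h
    rw [zero_sub, neg_neg] at h1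
    exact absurd (h1.le hq hqM hf) (not_le.mpr hlt)
  refine ⟨hg, le_antisymm ?_ ?_⟩
  · by_contra hgt
    push Not at hgt
    have h1 : GvGE hq hqM A C f (min (gv M q hq hqM A C g) δ) := by
      have := (show GvGE hq hqM A C g _ from Or.inr le_rfl).mono hq hqM
        (min_le_left (gv M q hq hqM A C g) δ) |>.sub hq hqM h
        (hd.mono hq hqM (min_le_right (gv M q hq hqM A C g) δ))
      rwa [sub_sub_cancel] at this
    exact absurd (h1.le hq hqM hf) (not_le.mpr (lt_min hgt hlt))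
  · have h1 := (show GvGE hq hqM A C f _ from Or.inr le_rfl).add hq hqM h
      (hd.mono hq hqM hlt.le)
    rw [add_sub_cancel] at h1
    exact h1.le hq hqM hg

/-- Functions close on the branch have the same reduction. -/
theorem res_congr {f g : FN (M * q * q) Qb} {δ : ℚ} (hd : GvGE hq hqM A C (g - f) δ) (hδ : 0 < δ)
    (hf : f ∈ OC M q hq hqM A C) :
    ∃ hg : g ∈ OC M q hq hqM A C,
      resC M q hq hqM A C ⟨g, hg⟩ = resC M q hq hqM A C ⟨f, hf⟩ := by
  have hdm := hd.mem_OC hq hqM h hδ.le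
  have hg : g ∈ OC M q hq hqM A C := by simpa using add_mem hdm hf
  refine ⟨hg, ?_⟩
  rw [← sub_eq_zero, ← map_sub]
  exact hd.res_eq_zero hq hqM h hδ hdm

/-- The values of a polynomial at integral functions are bounded below. -/
theorem exists_eval_bound (Q : (FN (M * q * q) Qb)[X]) : ∃ β : ℚ, ∀ r ∈ OC M q hq hqM A C,
    GvGE hq hqM A C (Q.eval r) β := by
  induction Q using Polynomial.induction_on' with
  | add f g hf hg =>
    obtain ⟨a, ha⟩ := hf
    obtain ⟨b, hb⟩ := hg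
    exact ⟨min a b, fun r hr => by
      rw [eval_add]
      exact ((ha r hr).mono hq hqM (min_le_left a b)).add hq hqM h
        ((hb r hr).mono hq hqM (min_le_right a b))⟩
  | monomial n a =>
    refine ⟨gv M q hq hqM A C a, fun r hr => ?_⟩
    rw [eval_monomial]
    have := (show GvGE hq hqM A C a _ from Or.inr le_rfl).mul hq hqM h
      ((gvGE_zero_iff hq hqM h).mpr (pow_mem hr n))
    rwa [add_zero] at this

/-- Polynomials are Lipschitz on integral functions. -/
theorem exists_lipschitz (Q : (FN (M * q * q) Qb)[X]) : ∃ β : ℚ, ∀ r ∈ OC M q hq hqM A C,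
    ∀ r' ∈ OC M q hq hqM A C, ∀ μ, GvGE hq hqM A C (r - r') μ →
      GvGE hq hqM A C (Q.eval r - Q.eval r') (μ + β) := by
  induction Q using Polynomial.induction_on' with
  | add f g hf hg =>
    obtain ⟨a, ha⟩ := hf
    obtain ⟨b, hb⟩ := hg
    refine ⟨min a b, fun r hr r' hr' μ hμ => ?_⟩
    rw [eval_add, eval_add, add_sub_add_comm]
    exact ((ha r hr r' hr' μ hμ).mono hq hqM (add_le_add le_rfl (min_le_left a b))).add hq hqM h
      ((hb r hr r' hr' μ hμ).mono hq hqM (add_le_add le_rfl (min_le_right a b)))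
  | monomial n a =>
    refine ⟨gv M q hq hqM A C a, fun r hr r' hr' μ hμ => ?_⟩
    rw [eval_monomial, eval_monomial, ← mul_sub, ← geom_sum₂_mul, ← mul_assoc, add_comm μ]
    refine (GvGE.mul hq hqM h ?_ hμ)
    have := (show GvGE hq hqM A C a _ from Or.inr le_rfl).mul hq hqM h
      ((gvGE_zero_iff hq hqM h).mpr (sum_mem fun i _ => mul_mem (pow_mem hr i)
        (pow_mem hr' (n - 1 - i)) : (∑ i ∈ Finset.range n, r ^ i * r' ^ (n - 1 - i)) ∈ _))
    rwa [add_zero] at this

end GvGE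

/-- The invariant function `r` reduces to `Hc` on the branch `C` and `r ^ l - y` has order at least
`δ` there. -/
def IsApprox (A : ValuationSubring (AlgebraicClosure ℚ))
    (C : Br) (Hc : FX (IsLocalRing.ResidueField A) M) (y : FN (M * q * q) Qb) (l : ℕ)
    (r : FN (M * q * q) Qb) (δ : ℚ) : Prop :=
  r ∈ ratFld M q A ∧ (∃ hm : r ∈ OC M q hq hqM A C,
    resC M q hq hqM A C ⟨r, hm⟩ = (Hc : LaurentSeries (IsLocalRing.ResidueField A))) ∧
    GvGE hq hqM A C (r ^ l - y) δ

/-- The property holds at all close enough approximations. -/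
def Ev (A : ValuationSubring (AlgebraicClosure ℚ))
    (C : Br) (Hc : FX (IsLocalRing.ResidueField A) M) (y : FN (M * q * q) Qb) (l : ℕ)
    (p : FN (M * q * q) Qb → Prop) : Prop :=
  ∃ δ₀ : ℚ, ∀ r δ, δ₀ ≤ δ → IsApprox hq hqM A C Hc y l r δ → p r

/-- `Hc` is a root of the reduction of the invariant unit `y` on the branch `C`. -/
structure RootOn (A : ValuationSubring (AlgebraicClosure ℚ))
    (C : Br) (Hc : FX (IsLocalRing.ResidueField A) M) (y : FN (M * q * q) Qb) (l : ℕ) : Prop where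
  /-- `y` is invariant under inertia. -/
  mem_ratFld : y ∈ ratFld M q A
  /-- `y` is nonzero. -/
  ne_zero : y ≠ 0
  /-- `y` has order `0` on `C`. -/
  gv_eq : gv M q hq hqM A C y = 0
  /-- `Hc` is an `l`-th root of the reduction of `y` on `C`. -/
  res_eq : ∀ hy : y ∈ OC M q hq hqM A C,
    (Hc : LaurentSeries (IsLocalRing.ResidueField A)) ^ l = resC M q hq hqM A C ⟨y, hy⟩

variable {C : Br} {Hc : FX (IsLocalRing.ResidueField A) M} {y : FN (M * q * q) Qb} {l : ℕ}

/-- `Ev` is monotone. -/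
theorem Ev.mono {p p' : FN (M * q * q) Qb → Prop} (hp : Ev hq hqM A C Hc y l p)
    (hpp : ∀ r, p r → p' r) : Ev hq hqM A C Hc y l p' := by
  obtain ⟨δ₀, hδ⟩ := hp
  exact ⟨δ₀, fun r δ h1 h2 => hpp r (hδ r δ h1 h2)⟩

/-- `Ev` is stable under conjunction. -/
theorem Ev.and {p p' : FN (M * q * q) Qb → Prop} (hp : Ev hq hqM A C Hc y l p)
    (hp' : Ev hq hqM A C Hc y l p') : Ev hq hqM A C Hc y l fun r => p r ∧ p' r := by
  obtain ⟨a, ha⟩ := hp
  obtain ⟨b, hb⟩ := hp'
  exact ⟨max a b, fun r δ h1 h2 =>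
    ⟨ha r δ ((le_max_left a b).trans h1) h2, hb r δ ((le_max_right a b).trans h1) h2⟩⟩

variable [FF.IsFunctionField Qb (FN M Qb)] [FF.IsFunctionField Qb (FN (M * q) Qb)]
  [FF.IsFunctionField Qb (FN (M * q * q) Qb)]
variable [FF.IsFunctionField (IsLocalRing.ResidueField A) (FX (IsLocalRing.ResidueField A) M)]
variable (h : IsPlace A q)
include h

omit [FF.IsFunctionField Qb (FN M Qb)] in
/-- A function with a root on the branch is regular there. -/
theorem RootOn.mem_OC (hy : RootOn hq hqM A C Hc y l) : y ∈ OC M q hq hqM A C := by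
  rw [CAR.mem_OC, brC_mem_iff M q hq hqM h C hy.ne_zero, hy.gv_eq]

/-- The root is nonzero. -/
theorem RootOn.root_ne_zero (hy : RootOn hq hqM A C Hc y l) (hl : l ≠ 0) :
    (Hc : LaurentSeries kA) ≠ 0 := fun h0 => by
  refine ((prim_iff M q hq hqM h C hy.ne_zero).mpr hy.gv_eq).2 ?_
  refine (hy.res_eq (hy.mem_OC hq hqM h)).symm.trans ?_
  rw [h0, zero_pow hl]

/-- Every function of the reduced curve is a reduction. -/
theorem exists_lift_field (C : Br) (z : FX kA M) : ∃ (r : FN (M * q * q) Qb)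
    (hm : r ∈ OC M q hq hqM A C), r ∈ ratFld M q A ∧
      resC M q hq hqM A C ⟨r, hm⟩ = (z : LaurentSeries kA) := by
  -- integral functions lift
  have hint : ∀ w ∈ intClosure kA (xbar M kA true), ∃ (g : FN (M * q * q) Qb)
      (hm : g ∈ OC M q hq hqM A C), g ∈ ratFld M q A ∧
        resC M q hq hqM A C ⟨g, hm⟩ = (w : LaurentSeries kA) := by
    intro w hw
    cases C with
    | low =>
      obtain ⟨g, hg⟩ := exists_redB_eq hq hqM h .low (by decide) hw
      exact ⟨g, mem_OC_Bx hq hqM h .low g, g.2.1, by rw [← coe_redB hq hqM h .low g, hg]⟩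
    | mid =>
      obtain ⟨g, hg⟩ := exists_redB_eq hq hqM h .mid (by decide) hw
      exact ⟨g, mem_OC_Bx hq hqM h .mid g, g.2.1, by rw [← coe_redB hq hqM h .mid g, hg]⟩
    | top =>
      obtain ⟨g, hg⟩ := exists_redB_eq hq hqM h .low (by decide) hw
      refine ⟨alW2 M q hq hqM g, (mem_OC_top_alW2 M q hq hqM A).mpr (mem_OC_Bx hq hqM h .low g),
        alW2_mem_ratFld M q hq hqM g.2.1, ?_⟩
      rw [← hg, coe_redB hq hqM h .low g (mem_OC_Bx hq hqM h .low g), resC_apply, resC_apply]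
      exact congrArg (sR A) (Subtype.ext (brC_top_alW2 M q hq hqM _))
  obtain ⟨s, hs⟩ := SS_nonempty M q hq hqM h.2
  have hs' : OrdGE s (xbar M kA true) 0 := ((mem_SS M q hq hqM h.2).mp hs).1
  -- write `z` as a quotient of integral functions
  obtain ⟨a, ha, c, hc, hc0, he⟩ : ∃ a ∈ intClosure kA (xbar M kA true),
      ∃ c ∈ intClosure kA (xbar M kA true), c ≠ 0 ∧ z * c = a := by
    by_cases hz : OrdGE s z 0
    · obtain ⟨a, ha, c, hc, hev, he⟩ := exists_frac_at (transcendental_xbar (M := M) true) hs' hz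
      exact ⟨a, ha, c, hc, fun h0 => hev (by rw [h0]; exact RED.Model.evalAt_zero s), he⟩
    · have hz0 : z ≠ 0 := fun h0 => hz (h0 ▸ ordGE_zero _ _)
      have hz' : OrdGE s z⁻¹ 0 := by
        refine ordGE_iff.mpr (.inr ?_)
        rw [s.ord_inv]
        have : s.ord z < 0 := not_le.mp fun h0 => hz (ordGE_iff.mpr (.inr h0))
        omega
      obtain ⟨a, ha, c, hc, hev, he⟩ := exists_frac_at (transcendental_xbar (M := M) true) hs' hz'
      have hc0 : c ≠ 0 := fun h0 => hev (by rw [h0]; exact RED.Model.evalAt_zero s)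
      refine ⟨c, hc, a, ha, fun h0 => ?_, ?_⟩
      · rw [h0] at he
        exact mul_ne_zero (inv_ne_zero hz0) hc0 he
      · rw [← he, ← mul_assoc, mul_inv_cancel₀ hz0, one_mul]
  obtain ⟨ga, hga, hgar, hgae⟩ := hint a ha
  obtain ⟨gc, hgc, hgcr, hgce⟩ := hint c hc
  -- the lift of the denominator is a unit on the branch
  have hne : resC M q hq hqM A C ⟨gc, hgc⟩ ≠ 0 := by
    rw [hgce]; exact fun h0 => hc0 (Subtype.ext h0)
  obtain ⟨hgc0, hgv⟩ := gv_eq_zero_of_res hq hqM h hgc hne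
  have hinv : gc⁻¹ ∈ OC M q hq hqM A C := by
    rw [CAR.mem_OC, brC_mem_iff M q hq hqM h C (inv_ne_zero hgc0), gv_inv M q hq hqM h C hgc0,
      hgv, neg_zero]
  refine ⟨ga * gc⁻¹, mul_mem hga hinv, mul_mem hgar (inv_mem hgcr), mul_right_cancel₀ hne ?_⟩
  rw [← map_mul, hgce]
  refine Eq.trans ?_ ((congrArg Subtype.val he).trans rfl).symm
  rw [← hgae]
  refine congrArg (resC M q hq hqM A C) (Subtype.ext ?_)
  change ga * gc⁻¹ * gc = ga
  rw [inv_mul_cancel_right₀ hgc0]

variable (hl : l.Prime) (hlq : l ≠ q)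

include hl hlq

/-- Approximations of every quality. -/
theorem exists_root_approx (hy : RootOn hq hqM A C Hc y l) (δ : ℚ) :
    ∃ r, IsApprox hq hqM A C Hc y l r δ := by
  -- start from a lift of the root
  obtain ⟨r₀, hm₀, hr₀, he₀⟩ := exists_lift_field hq hqM h C Hc
  have hyOC := hy.mem_OC hq hqM h
  have hd0 : r₀ ^ l - y ∈ OC M q hq hqM A C := sub_mem (pow_mem hm₀ l) hyOC
  obtain ⟨ε, hε, hε'⟩ := exists_pos_of_res_eq_zero hq hqM h hd0 (by
    rw [show (⟨r₀ ^ l - y, hd0⟩ : OC M q hq hqM A C) = ⟨r₀, hm₀⟩ ^ l - ⟨y, hyOC⟩ from rfl,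
      map_sub, map_pow, he₀, hy.res_eq hyOC, sub_self])
  suffices hN : ∀ N : ℕ, ∃ r, IsApprox hq hqM A C Hc y l r ((N + 1) * ε) by
    obtain ⟨N, hN'⟩ := exists_nat_ge (δ / ε)
    obtain ⟨r, h1, h2, h3⟩ := hN N
    refine ⟨r, h1, h2, h3.mono hq hqM ?_⟩
    rw [div_le_iff₀ hε] at hN'
    nlinarith
  intro N
  induction N with
  | zero => exact ⟨r₀, hr₀, ⟨hm₀, he₀⟩, hε'.mono hq hqM (by simp)⟩
  | succ N ih =>
    obtain ⟨r, hr, ⟨hm, he⟩, hd⟩ := ih
    -- Newton's step `t = (r ^ l - y) / (l r ^ (l - 1))`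
    set s := (l : FN (M * q * q) Qb) * r ^ (l - 1)
    have hsm : s ∈ OC M q hq hqM A C := mul_mem (natCast_mem _ l) (pow_mem hm _)
    have hsne : resC M q hq hqM A C ⟨s, hsm⟩ ≠ 0 := by
      rw [show (⟨s, hsm⟩ : OC M q hq hqM A C) = (l : OC M q hq hqM A C) * ⟨r, hm⟩ ^ (l - 1) from
        Subtype.ext (by simp [s]), map_mul, map_natCast, map_pow, he]
      refine mul_ne_zero ?_ (pow_ne_zero _ (hy.root_ne_zero hq hqM h hl.ne_zero))
      rw [← map_natCast (algebraMap kA (LaurentSeries kA))]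
      exact (_root_.map_ne_zero _).mpr (CharP.cast_ne_zero_of_ne_of_prime kA hl hlq.symm)
    obtain ⟨hs0, hsgv⟩ := gv_eq_zero_of_res hq hqM h hsm hsne
    set t := (r ^ l - y) / s
    have ht : GvGE hq hqM A C t ((N + 1) * ε) := by
      have := hd.mul hq hqM h (show GvGE hq hqM A C s⁻¹ 0 from Or.inr (by
        rw [gv_inv M q hq hqM h C hs0, hsgv, neg_zero]))
      rwa [add_zero, ← div_eq_mul_inv] at this
    have hpos : 0 < ((N : ℚ) + 1) * ε := by positivity
    have htm := ht.mem_OC hq hqM h hpos.le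
    obtain ⟨k, hk, hke⟩ := exists_newton (OC M q hq hqM A C) hm htm (y := y) (l := l)
      (show s * t = _ from mul_div_cancel₀ _ hs0)
    refine ⟨r - t, sub_mem hr (div_mem (sub_mem (pow_mem hr l) hy.mem_ratFld)
      (mul_mem (natCast_mem _ l) (pow_mem hr _))), ?_, ?_⟩
    · obtain ⟨hg, e⟩ := res_congr hq hqM h (f := r) (g := r - t)
        (by rw [sub_sub_cancel_left]; exact ht.neg hq hqM h) hpos hm
      exact ⟨hg, e.trans he⟩
    · rw [hke]
      refine (((gvGE_zero_iff hq hqM h).mpr hk).mul hq hqM h (ht.pow hq hqM h 2)).mono hq hqM ?_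
      push_cast
      nlinarith

/-- Two approximations are close. -/
theorem approx_close (hy : RootOn hq hqM A C Hc y l) {r r' : FN (M * q * q) Qb} {μ : ℚ}
    (hr : IsApprox hq hqM A C Hc y l r μ) (hr' : IsApprox hq hqM A C Hc y l r' μ) :
    GvGE hq hqM A C (r - r') μ := by
  obtain ⟨-, ⟨hm, he⟩, hd⟩ := hr
  obtain ⟨-, ⟨hm', he'⟩, hd'⟩ := hr'
  set S := ∑ i ∈ Finset.range l, r ^ i * r' ^ (l - 1 - i)
  have hSm : S ∈ OC M q hq hqM A C :=
    sum_mem fun i _ => mul_mem (pow_mem hm i) (pow_mem hm' _)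
  have hS : resC M q hq hqM A C ⟨S, hSm⟩ ≠ 0 := by
    rw [show (⟨S, hSm⟩ : OC M q hq hqM A C) =
      ∑ i ∈ Finset.range l, ⟨r, hm⟩ ^ i * ⟨r', hm'⟩ ^ (l - 1 - i) from
      Subtype.ext (by simp [S]), map_sum, Finset.sum_congr rfl
      (g := fun _ => (Hc : LaurentSeries kA) ^ (l - 1)) fun i hi => by
        rw [map_mul, map_pow, map_pow, he, he', ← pow_add,
          Nat.add_sub_cancel' (Nat.le_sub_one_of_lt (Finset.mem_range.mp hi))],
      Finset.sum_const, Finset.card_range, nsmul_eq_mul]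
    refine mul_ne_zero ?_ (pow_ne_zero _ (hy.root_ne_zero hq hqM h hl.ne_zero))
    rw [← map_natCast (algebraMap kA (LaurentSeries kA))]
    exact (_root_.map_ne_zero _).mpr (CharP.cast_ne_zero_of_ne_of_prime kA hl hlq.symm)
  obtain ⟨hS0, hSgv⟩ := gv_eq_zero_of_res hq hqM h hSm hS
  have h1 : GvGE hq hqM A C (S * (r - r')) μ := by
    rw [geom_sum₂_mul, show r ^ l - r' ^ l = (r ^ l - y) - (r' ^ l - y) by ring]
    exact hd.sub hq hqM h hd'
  rcases eq_or_ne (r - r') 0 with h0 | h0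
  · rw [h0]; exact gvGE_zero hq hqM μ
  refine Or.inr ?_
  have h2 := h1.le hq hqM (mul_ne_zero hS0 h0)
  rwa [gv_mul M q hq hqM h C hS0 h0, hSgv, zero_add] at h2

/-- A property holding eventually holds of some invariant approximation. -/
theorem Ev.exists (hy : RootOn hq hqM A C Hc y l) {p : FN (M * q * q) Qb → Prop}
    (hp : Ev hq hqM A C Hc y l p) : ∃ r, r ∈ ratFld M q A ∧ p r := by
  obtain ⟨δ₀, hδ⟩ := hp
  obtain ⟨r, hr⟩ := exists_root_approx hq hqM h hl hlq hy δ₀
  exact ⟨r, hr.1, hδ r δ₀ le_rfl hr⟩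

/-- **The order of a polynomial at the root.** -/
theorem exists_ev_gv (hy : RootOn hq hqM A C Hc y l) (hroot : ∀ Y, Y ^ l ≠ y)
    {P : (FN (M * q * q) Qb)[X]} (hP : ¬ (X ^ l - Polynomial.C y) ∣ P) :
    ∃ v : ℚ, Ev hq hqM A C Hc y l fun r => P.eval r ≠ 0 ∧ gv M q hq hqM A C (P.eval r) = v := by
  obtain ⟨V, U, hUV⟩ :=
    (X_pow_sub_C_irreducible_of_prime hl hroot).coprime_iff_not_dvd.mpr hP
  obtain ⟨βU, hU⟩ := exists_eval_bound hq hqM (A := A) (C := C) h U
  obtain ⟨βV, hV⟩ := exists_eval_bound hq hqM (A := A) (C := C) h V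
  obtain ⟨L, hL⟩ := exists_lipschitz hq hqM (A := A) (C := C) h P
  set δ₀ := max (1 - βV) (1 - βU - L)
  obtain ⟨rs, hrs⟩ := exists_root_approx hq hqM h hl hlq hy δ₀
  have key : ∀ r, IsApprox hq hqM A C Hc y l r δ₀ →
      P.eval r ≠ 0 ∧ gv M q hq hqM A C (P.eval r) ≤ -βU := by
    rintro r ⟨-, ⟨hm, -⟩, hd⟩
    have e := congrArg (Polynomial.eval r) hUV
    simp only [eval_add, eval_mul, eval_sub, eval_pow, eval_X, eval_C, eval_one] at e
    have hsmall : GvGE hq hqM A C (V.eval r * (r ^ l - y)) 1 :=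
      ((hV r hm).mul hq hqM h hd).mono hq hqM (by linarith [le_max_left (1 - βV) (1 - βU - L)])
    have h1 : (1 : FN (M * q * q) Qb) ≠ 0 := one_ne_zero
    have hg1 : gv M q hq hqM A C (1 : FN (M * q * q) Qb) = 0 := by
      rw [← map_one (algebraMap Qb (FN (M * q * q) Qb)),
        gv_algebraMap M q hq hqM h C one_ne_zero, ord_one h]
    obtain ⟨hne, hgv⟩ := gv_congr hq hqM h h1 (g := U.eval r * P.eval r)
      (by rw [show U.eval r * P.eval r - 1 = -(V.eval r * (r ^ l - y)) by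
            rw [← e]; ring]
          exact hsmall.neg hq hqM h) (by rw [hg1]; exact one_pos)
    obtain ⟨hU0, hP0⟩ := mul_ne_zero_iff.mp hne
    rw [gv_mul M q hq hqM h C hU0 hP0, hg1] at hgv
    exact ⟨hP0, by linarith [(hU r hm).le hq hqM hU0]⟩
  refine ⟨gv M q hq hqM A C (P.eval rs), δ₀, fun r δ hδ hr => ?_⟩
  have hr' : IsApprox hq hqM A C Hc y l r δ₀ := ⟨hr.1, hr.2.1, hr.2.2.mono hq hqM hδ⟩
  obtain ⟨hs0, hsb⟩ := key rs hrs
  exact gv_congr hq hqM h hs0 (hL r hr.2.1.choose rs hrs.2.1.choose δ₀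
    (approx_close hq hqM h hl hlq hy hr' hrs))
    (by linarith [le_max_right (1 - βV) (1 - βU - L)])

/-- The reduction at the root. -/
theorem exists_ev_res (hy : RootOn hq hqM A C Hc y l) {P : (FN (M * q * q) Qb)[X]}
    (hPr : ∀ j, P.coeff j ∈ ratFld M q A)
    (hP : Ev hq hqM A C Hc y l fun r => GvGE hq hqM A C (P.eval r) 0) :
    ∃ ρ : FX kA M, Ev hq hqM A C Hc y l fun r => ∃ hm : P.eval r ∈ OC M q hq hqM A C,
      resC M q hq hqM A C ⟨P.eval r, hm⟩ = (ρ : LaurentSeries kA) := by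
  obtain ⟨δ₁, hδ₁⟩ := hP
  obtain ⟨L, hL⟩ := exists_lipschitz hq hqM (A := A) (C := C) h P
  set δ₀ := max δ₁ (1 - L)
  obtain ⟨rs, hrs⟩ := exists_root_approx hq hqM h hl hlq hy δ₀
  have hm : P.eval rs ∈ OC M q hq hqM A C :=
    (gvGE_zero_iff hq hqM h).mp (hδ₁ rs δ₀ (le_max_left _ _) hrs)
  have hrat : P.eval rs ∈ ratFld M q A := by
    rw [eval_eq_sum_range]
    exact sum_mem fun i _ => mul_mem (hPr i) (pow_mem hrs.1 i)
  refine ⟨⟨_, resC_mem hq hqM h C _ hrat hm⟩, δ₀, fun r δ hδ hr => ?_⟩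
  have hr' : IsApprox hq hqM A C Hc y l r δ₀ := ⟨hr.1, hr.2.1, hr.2.2.mono hq hqM hδ⟩
  exact res_congr hq hqM h (hL r hr.2.1.choose rs hrs.2.1.choose δ₀
    (approx_close hq hqM h hl hlq hy hr' hrs))
    (by linarith [le_max_right δ₁ (1 - L)]) hm

end Fermat.CAR

end
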