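import Fermat.Agent.BAD.X0.Count
import Fermat.Agent.JAC.X0.ThetaJ

/-!
# The operator `q d/dq` on Laurent series

Its relation with the twists by roots of unity, and the identity
`θ(j) ^ 6 = Δ j ^ 4 (j - 1728) ^ 3` with its consequence in characteristic `q`.
-/

set_option autoImplicit false

noncomputable section

open ModularCurve
open UpperHalfPlane hiding I
open ModularForm (E₄ E₆)

namespace Fermat.CAR

open Fermat.MC Fermat.JAC.X0 Fermat.RED Fermat.BAD.X0

local notation "Qb" => AlgebraicClosure ℚ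

section Basic

variable {R S : Type*} [CommRing R] [CommRing S]

/-- The operator `q d/dq`. -/
def thetaS (f : LaurentSeries R) : LaurentSeries R where
  coeff n := (n : R) * f.coeff n
  isPWO_support' := f.isPWO_support.mono fun n hn => by
    simp only [Function.mem_support] at hn ⊢
    exact fun h => hn (by rw [h, mul_zero])

/-- The coefficients of `thetaS`. -/
@[simp] theorem thetaS_coeff (f : LaurentSeries R) (n : ℤ) :
    (thetaS f).coeff n = (n : R) * f.coeff n := rfl

/-- `thetaS` is additive. -/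
theorem thetaS_add (f g : LaurentSeries R) : thetaS (f + g) = thetaS f + thetaS g := by
  ext n; simp [mul_add]

/-- `q d/dq` is a derivation. -/
theorem thetaS_mul (f g : LaurentSeries R) :
    thetaS (f * g) = f * thetaS g + g * thetaS f := by
  ext n
  rw [mul_comm g (thetaS f), thetaS_coeff, HahnSeries.coeff_add, HahnSeries.coeff_mul,
    HahnSeries.coeff_mul_right' (s := g.support) g.isPWO_support (fun m hm => by
      simp only [HahnSeries.mem_support, thetaS_coeff] at hm ⊢
      exact fun h => hm (by rw [h, mul_zero])),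
    HahnSeries.coeff_mul_left' (s := f.support) f.isPWO_support (fun m hm => by
      simp only [HahnSeries.mem_support, thetaS_coeff] at hm ⊢
      exact fun h => hm (by rw [h, mul_zero])),
    Finset.mul_sum, ← Finset.sum_add_distrib]
  refine Finset.sum_congr rfl fun ij hij => ?_
  rw [Finset.mem_antidiagonal] at hij
  rw [thetaS_coeff, thetaS_coeff, ← hij.2.2]
  push_cast
  ring

/-- `thetaS` kills constants. -/
theorem thetaS_single_zero (c : R) : thetaS (HahnSeries.single (0 : ℤ) c) = 0 := by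
  ext n
  rcases eq_or_ne n 0 with rfl | hn
  · simp
  · simp [HahnSeries.coeff_single_of_ne hn]

/-- `thetaS` kills `1`. -/
theorem thetaS_one : thetaS (1 : LaurentSeries R) = 0 := thetaS_single_zero 1

/-- `thetaS` commutes with maps of coefficients. -/
theorem coeffMap_thetaS (f : R →+* S) (x : LaurentSeries R) :
    coeffMap f (thetaS x) = thetaS (coeffMap f x) := by
  ext n; simp

/-- Over `ℂ` it agrees with `JAC.thetaSeries`. -/
theorem thetaS_eq_thetaSeries (f : LaurentSeries ℂ) : thetaS f = JAC.thetaSeries f := rfl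

/-- `q d/dq` as a derivation. -/
def thetaDer (K : Type*) [Field K] : Derivation K (LaurentSeries K) (LaurentSeries K) where
  toFun := thetaS
  map_add' := thetaS_add
  map_smul' c f := by
    ext n
    simp only [RingHom.id_apply, thetaS_coeff, HahnSeries.coeff_smul, smul_eq_mul]
    rw [Algebra.smul_def, RED.coeff_algebraMap_mul]
    ring
  map_one_eq_zero' := thetaS_one
  leibniz' f g := thetaS_mul f g

/-- `thetaDer` is `thetaS`. -/
@[simp] theorem thetaDer_apply {K : Type*} [Field K] (f : LaurentSeries K) :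
    thetaDer K f = thetaS f := rfl

end Basic

section Twist

variable {q : ℕ} [Fact q.Prime] {A : ValuationSubring (AlgebraicClosure ℚ)}
  [CharP (IsLocalRing.ResidueField A) q]

local notation "kA" => IsLocalRing.ResidueField A

/-- The twist by a `q`-th root of unity moves a series by `ζ - 1` times a series reducing to
`q d/dq`. -/
theorem exists_twist_sub {ζ : Qbˣ} (hζ : IsPrimitiveRoot (ζ : Qb) q) (y : LaurentSeries A) (i : ℕ) :
    ∃ y' : LaurentSeries A,
      twist (ζ ^ i) (coeffMap A.subtype y) - coeffMap A.subtype y =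
        algebraMap Qb (LaurentSeries Qb) ((ζ : Qb) - 1) * coeffMap A.subtype y' ∧
      coeffMap (IsLocalRing.residue A) y' =
        (i : kA) • thetaS (coeffMap (IsLocalRing.residue A) y) := by
  have hq : q.Prime := Fact.out
  -- `ζ` is integral and reduces to one
  have hmem : (ζ : Qb) ∈ A := by
    have h1 : A.valuation (ζ : Qb) ^ q = 1 := by rw [← map_pow, hζ.pow_eq_one, map_one]
    exact (A.valuation_le_one_iff _).mp
      (le_of_eq ((pow_eq_one_iff_of_nonneg zero_le hq.ne_zero).mp h1))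
  set z : A := ⟨(ζ : Qb), hmem⟩ with hz
  have hres : IsLocalRing.residue A z = 1 := by
    refine sub_eq_zero.mp (pow_eq_zero_iff (n := q) hq.ne_zero |>.mp ?_)
    rw [sub_pow_char, ← map_pow, show z ^ q = 1 from Subtype.ext hζ.pow_eq_one, map_one, one_pow,
      sub_self]
  -- the twist multiplies the `n`-th coefficient by `ζ ^ r n`, with `r n ≡ i n`
  let r : ℤ → ℕ := fun n => (((i : ℤ) * n) % (q : ℤ)).toNat
  have hr : ∀ n, ((r n : ℕ) : ℤ) = ((i : ℤ) * n) % (q : ℤ) := fun n =>
    Int.toNat_of_nonneg (Int.emod_nonneg _ (Nat.cast_ne_zero.mpr hq.ne_zero))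
  have hpow : ∀ n, (((ζ ^ i) ^ n : Qbˣ) : Qb) = (ζ : Qb) ^ r n := fun n => by
    have hu : (ζ ^ (q : ℤ) : Qbˣ) = 1 := Units.ext (by
      rw [zpow_natCast, Units.val_pow_eq_pow_val, hζ.pow_eq_one, Units.val_one])
    rw [← zpow_natCast ζ i, ← zpow_mul, ← Int.emod_add_mul_ediv ((i : ℤ) * n) q, zpow_add,
      zpow_mul, hu, one_zpow, mul_one, ← hr, zpow_natCast, Units.val_pow_eq_pow_val]
  refine ⟨HahnSeries.ofSuppBddBelow (fun n => y.coeff n * ∑ l ∈ Finset.range (r n), z ^ l)
    ⟨y.order, fun n hn => le_of_not_gt fun hlt => hn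
      (show y.coeff n * _ = 0 by rw [HahnSeries.coeff_eq_zero_of_lt_order hlt, zero_mul])⟩, ?_, ?_⟩
  -- the quotient by `ζ - 1` is a geometric sum, and reduces to `i n`
  · ext n
    rw [HahnSeries.coeff_sub, twist_coeff, RED.coeff_algebraMap_mul, coeffMap_coeff, coeffMap_coeff,
      hpow]
    change (ζ : Qb) ^ r n * _ - _ = ((ζ : Qb) - 1) * A.subtype (_ * _)
    rw [map_mul, map_sum]
    simp only [map_pow]
    rw [show A.subtype z = (ζ : Qb) from rfl]
    linear_combination (-(A.subtype (y.coeff n))) * geom_sum_mul (ζ : Qb) (r n)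
  · ext n
    rw [coeffMap_coeff, HahnSeries.coeff_smul, thetaS_coeff, coeffMap_coeff, smul_eq_mul]
    change IsLocalRing.residue A (_ * _) = _
    rw [map_mul, map_sum]
    simp only [map_pow, hres, one_pow, Finset.sum_const, Finset.card_range, nsmul_eq_mul, mul_one]
    have : ((r n : ℕ) : kA) = (i : kA) * (n : kA) := by
      rw [← Int.cast_natCast (r n), hr]
      refine ((CharP.intCast_eq_intCast kA q).mpr (Int.emod_emod_of_dvd _ dvd_rfl)).trans ?_
      push_cast
      ring
    rw [this]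
    ring

end Twist

section Jq

/-- The identity `θ(j) ^ 6 = Δ j ^ 4 (j - 1728) ^ 3` over `ℂ`. -/
theorem theta_jq_pow_complex :
    thetaS (jqModC ℂ) ^ 6 = deltaSeries ℂ * jqModC ℂ ^ 4 * (jqModC ℂ - 1728) ^ 3 := by
  obtain ⟨c, hc, hθ⟩ := exists_theta_jq
  rw [Fermat.BAD.X0.coeffEmb_jq, ← thetaS_eq_thetaSeries] at hθ
  have hΔ : qS ModularForm.discriminant = deltaSeries ℂ := qS_discriminant
  have hΔ0 : deltaSeries ℂ ≠ 0 := hΔ ▸ qS_discriminant_ne_zero
  have hjL : qL ⟨jA, jA_mem_perAlg⟩ = jqModC ℂ := by rw [qL_jA, Fermat.BAD.X0.coeffEmb_jq]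
  let dP : perAlg := ⟨_, bddPer_discriminant.mem_perAlg⟩
  have hD : qL dP = deltaSeries ℂ := by rw [qL_eq_qS bddPer_discriminant, hΔ]
  -- `j Δ` and `(j - 1728) Δ` in terms of `E₄` and `E₆`
  have h4 : jqModC ℂ * deltaSeries ℂ = qS (⇑E₄) ^ 3 := by
    rw [← hjL, ← hD, ← map_mul, ← qS_pow bddPer_E₄, ← qL_eq_qS (bddPer_E₄.pow 3)]
    exact congrArg qL (Subtype.ext jA_mul_discriminant)
  have h6 : (jqModC ℂ - 1728) * deltaSeries ℂ = qS (⇑E₆) ^ 2 := by
    rw [← hjL, ← hD, ← map_ofNat qL 1728, ← map_sub, ← map_mul, ← qS_pow bddPer_E₆,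
      ← qL_eq_qS (bddPer_E₆.pow 2)]
    refine congrArg qL (Subtype.ext (funext fun z => ?_))
    change (jA z - 1728) * ModularForm.discriminant z = E₆ z ^ 2
    rw [jA_sub_eq, div_mul_cancel₀ _ (ModularForm.discriminant_ne_zero z)]
  rw [qS_mul (bddPer_E₄.pow 2) (bddPer_E₆.pow 1), qS_pow bddPer_E₄, qS_pow bddPer_E₆, pow_one,
    hΔ] at hθ
  set C := algebraMap ℂ (LaurentSeries ℂ) c
  -- the identity up to a sixth power of a constant
  have key : thetaS (jqModC ℂ) ^ 6 =
      C ^ 6 * (deltaSeries ℂ * jqModC ℂ ^ 4 * (jqModC ℂ - 1728) ^ 3) := by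
    refine mul_right_cancel₀ (pow_ne_zero 6 hΔ0) ?_
    rw [← mul_pow, hθ,
      show (C * (qS (⇑E₄) ^ 2 * qS (⇑E₆))) ^ 6 = C ^ 6 * ((qS (⇑E₄) ^ 3) ^ 4 * (qS (⇑E₆) ^ 2) ^ 3)
        by ring, ← h4, ← h6]
    ring
  have hj1 : (jqModC ℂ).coeff (-1) = 1 := coeff_jqModC_neg_one ℂ
  have hlow : ∀ n < (-1 : ℤ), (jqModC ℂ).coeff n = 0 := fun n hn => by
    rw [jqModC, HahnSeries.coeff_single_mul, ofPowerSeries_coeff_of_neg _ (by omega), mul_zero]
  -- leading coefficients
  have l1 : (thetaS (jqModC ℂ)).leadingCoeff = -1 := by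
    rw [(order_lead_of_coeff (a := -1) (by simp [hj1]) fun n hn => by simp [hlow n hn]).2]
    simp [hj1]
  have l2 : (jqModC ℂ).leadingCoeff = 1 := by
    rw [(order_lead_of_coeff (a := -1) (by simp [hj1]) hlow).2, hj1]
  have l3 : (jqModC ℂ - 1728).leadingCoeff = 1 := by
    have e : ∀ n : ℤ, n < 0 → (1728 : LaurentSeries ℂ).coeff n = 0 := fun n hn => by
      rw [← map_ofNat (algebraMap ℂ (LaurentSeries ℂ)) 1728, algebraMap_laurentSeries_eq_single,
        HahnSeries.coeff_single_of_ne hn.ne]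
    rw [(order_lead_of_coeff (a := -1)
      (by rw [HahnSeries.coeff_sub, hj1, e _ (by norm_num)]; simp)
      fun n hn => by rw [HahnSeries.coeff_sub, hlow n hn, e n (by omega), sub_zero]).2,
      HahnSeries.coeff_sub, hj1, e _ (by norm_num), sub_zero]
  have l4 : (deltaSeries ℂ).leadingCoeff = 1 := by
    rw [HahnSeries.leadingCoeff_eq, deltaSeries_order_lead.2.1, deltaSeries_order_lead.2.2]
  -- comparing them gives the constant
  have h := congrArg HahnSeries.leadingCoeff key
  simp only [pow_succ, pow_zero, one_mul, HahnSeries.leadingCoeff_mul, l1, l2, l3, l4] at h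
  have hCl : C.leadingCoeff = c := by
    rw [show C = HahnSeries.single 0 c from algebraMap_laurentSeries_eq_single ℂ c,
      HahnSeries.leadingCoeff_of_single]
  rw [hCl] at h
  rw [key, show C ^ 6 = 1 by
    rw [← map_pow, show c ^ 6 = 1 by linear_combination -h, map_one], one_mul]

/-- `θ(j) ^ 6 = Δ j ^ 4 (j - 1728) ^ 3` over any ring. -/
theorem thetaS_jq_pow (R : Type*) [CommRing R] :
    thetaS (jqModC R) ^ 6 = deltaSeries R * jqModC R ^ 4 * (jqModC R - 1728) ^ 3 := by
  have hZ : thetaS (jqModC ℤ) ^ 6 =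
      deltaSeries ℤ * jqModC ℤ ^ 4 * (jqModC ℤ - 1728) ^ 3 := by
    apply coeffMap_injective (Int.castRingHom ℂ) Int.cast_injective
    simpa only [map_mul, map_pow, map_sub, map_ofNat, coeffMap_thetaS, coeffMap_jqModC,
      coeffMap_deltaSeries] using theta_jq_pow_complex
  simpa only [map_mul, map_pow, map_sub, map_ofNat, coeffMap_thetaS, coeffMap_jqModC,
    coeffMap_deltaSeries] using congrArg (coeffMap (Int.castRingHom R)) hZ

variable (k : Type*) [Field k] (q : ℕ) [Fact q.Prime] [CharP k q]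

/-- In characteristic `q` the reduction of `Δ (z) / Δ (q z)` is `Δ ^ (1 - q)`. -/
theorem pow_mul_hSer : deltaSeries k ^ (q - 1) * hSer k q = 1 := by
  rw [hSer, ← coeffMap_deltaSeriesInv k (frobenius k q), ← laurent_pow_char q, ← mul_assoc,
    ← pow_succ, Nat.sub_add_cancel (Fact.out : q.Prime).one_le, ← mul_pow, deltaSeries_mul_inv,
    one_pow]

/-- The identity between a power of `q dj/dq`, `hSer` and a polynomial in `j`. -/
theorem thetaS_jq_pow_hSer :
    thetaS (jqModC k) ^ (6 * (q - 1)) * hSer k q =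
      (jqModC k ^ 4 * (jqModC k - 1728) ^ 3) ^ (q - 1) := by
  rw [pow_mul, thetaS_jq_pow, mul_assoc (deltaSeries k), mul_pow, mul_right_comm, pow_mul_hSer,
    one_mul]

/-- When `q ∣ 240` the series `hSer` is `j ^ (q - 1)`. -/
theorem hSer_eq_jq_pow (h : q ∣ 240) : hSer k q = jqModC k ^ (q - 1) := by
  have h240 : ((240 : ℤ) : k) = 0 := (CharP.intCast_eq_zero_iff k q _).mpr (by exact_mod_cast h)
  have hE : PowerSeries.map (Int.castRingHom k) eisenstein4 = 1 := by
    ext n
    rw [PowerSeries.coeff_map, eisenstein4, PowerSeries.coeff_mk, PowerSeries.coeff_one]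
    rcases eq_or_ne n 0 with rfl | hn
    · simp
    · have h240' : (240 : k) = 0 := by exact_mod_cast h240
      rw [if_neg hn, if_neg hn, map_mul, eq_intCast, eq_intCast]
      push_cast
      rw [h240', zero_mul]
  have hj : jqModC k = deltaSeriesInv k := by
    rw [jqModC, deltaSeriesInv, jNum, map_mul, map_pow, hE, one_pow, one_mul]
  refine mul_left_cancel₀ (pow_ne_zero (q - 1) (fun h0 => one_ne_zero (α := LaurentSeries k)
    (by rw [← deltaSeries_mul_inv k, h0, zero_mul]))) ((pow_mul_hSer k q).trans ?_)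
  rw [hj, ← mul_pow, deltaSeries_mul_inv, one_pow]

end Jq

end Fermat.CAR

end
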