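import Fermat.Agent.CAR.Descent
import Fermat.Agent.CAR.Norm
import Fermat.Agent.BAD.X0.Torsion
import Fermat.Agent.GR.ES.JZeroGalois

/-!
# The geometric input at levels with elliptic points

Pull back to a multiple of the level away from `q` without elliptic points; the two norms commute
with the change of level, and pushing back multiplies by the degree.
-/

set_option autoImplicit false

attribute [local instance 10000] SubalgebraClass.toAlgebra HahnSeries.powerSeriesAlgebra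

noncomputable section

open ModularCurve AlgebraicCurve

namespace Fermat.CAR

open Fermat.MC Fermat.JAC Fermat.BAD.X0

local notation "Qb" => AlgebraicClosure ℚ

/-- A fixed bound on the classes fixed by inertia and killed by both pushforwards. -/
theorem exists_bound_of_core (hcore : CoreHyp) (M q : ℕ) [NeZero M] [NeZero q] (hq : q.Prime)
    (hqM : ¬ q ∣ M) :
    ∃ d : ℕ, d ≠ 0 ∧ ∀ A : ValuationSubring Qb, A.LiesOverPrime q →
      ∀ n : ℕ, IsPrimePow n → n.Coprime q → ∀ x : JZero (M * q * q),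
        (∀ σ ∈ A.inertiaSubgroupIn ℚ, σ • x = x) → n • x = 0 →
        pushPic (heckeAlphaBar Qb (M * q) q) x = 0 →
        pushPic (heckeBetaBar Qb (M * q) q) x = 0 → d • x = 0 := by
  have : Fact q.Prime := ⟨hq⟩
  set M' := auxLevel q * M with hM'
  have hqM' : ¬ q ∣ M' := not_dvd_auxLevel_mul hq hqM
  have h : M * q ∣ M' * q := Nat.mul_dvd_mul_right (dvd_mul_left M _) q
  have h2 : M * q * q ∣ M' * q * q := Nat.mul_dvd_mul_right h q
  have haux : 4 ∣ M' ∨ 9 ∣ M' :=
    (auxLevel_spec q).imp (fun h => h.mul_right M) fun h => h.mul_right M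
  obtain ⟨d, hd, hall⟩ := hcore M' q hq hqM' haux
  have := Fermat.GR.isFunctionField_modularFunctionFieldBar (M * q)
  have := Fermat.GR.isFunctionField_modularFunctionFieldBar (M' * q)
  have := Fermat.GR.isFunctionField_modularFunctionFieldBar (M * q * q)
  have := Fermat.GR.isFunctionField_modularFunctionFieldBar (M' * q * q)
  refine ⟨d * finrankAlong Qb (inclN h2), Nat.mul_ne_zero hd (finrankAlong_ne_zero _),
    fun A hA n hn hnq x hx hnx ha hb => ?_⟩
  obtain ⟨D, y, hy, hD, hfix, hdiv⟩ := exists_fixed_pres (M * q * q) hx hnx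
  have hnorm : ∀ {c : Qb} {g : FN (M * q) Qb}, c ≠ 0 → g ≠ 0 → ∀ {z : FN (M * q) Qb},
      z = algebraMap Qb _ c * g ^ n → ∃ (c' : Qb) (g' : FN (M' * q) Qb), c' ≠ 0 ∧ g' ≠ 0 ∧
        inclN h z = algebraMap Qb _ c' * g' ^ n := by
    intro c g hc hg z hz
    exact ⟨c, inclN h g, hc, (map_ne_zero_iff _ (inclN h).injective).mpr hg,
      by rw [hz, map_mul, map_pow, AlgHom.commutes]⟩
  obtain ⟨c₁, g₁, hc₁, hg₁, e₁⟩ :=
    exists_norm_eq_of_pushPic (heckeAlphaBar Qb (M * q) q) hD hy hdiv ha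
  obtain ⟨c₂, g₂, hc₂, hg₂, e₂⟩ :=
    exists_norm_eq_of_pushPic (heckeBetaBar Qb (M * q) q) hD hy hdiv hb
  obtain ⟨c₁', g₁', k₁, k₁', e₁'⟩ := hnorm hc₁ hg₁ e₁
  obtain ⟨c₂', g₂', k₂, k₂', e₂'⟩ := hnorm hc₂ hg₂ e₂
  have hkill := hall A hA n hn hnq (pullDiv (inclN h2) D) (inclN h2 y)
    ((map_ne_zero_iff _ (inclN h2).injective).mpr hy) (by rw [coe_inclN]; exact hfix)
    (by rw [← pullDiv_divOf, hdiv, map_nsmul])
    ⟨c₁', g₁', k₁, k₁', by rw [normAlpha_inclN q hq hqM hqM' h h2, e₁']⟩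
    ⟨c₂', g₂', k₂, k₂', by rw [normBeta_inclN q hq hqM hqM' h h2, e₂']⟩
    (pullPic (inclN h2) x) (isCls_pullDiv (inclN h2) hD)
  rw [mul_smul, ← pushPic_pullPic, ← map_nsmul, hkill, map_zero]

end Fermat.CAR

end
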